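/-
TEAM CFT, sub-project P1: LOCAL class field theory (finite level), abstract normed presentation.

A "local field" is a normed field `L` with `IsLoc L` (ultrametric, complete, discrete value group,
finite residue field).  A "finite Galois extension of local fields" is a finite group `G` acting
faithfully and isometrically on `L` (`LocAct G L`); the base field is `FixedPoints.subfield G L`.
Subgroups of `G` are free of charge (`Rep.res H.subtype (unitsRep G L) = unitsRep H L` is `rfl`);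
quotients act on fixed fields through `quotAct`.

This file only contains definitions and statements-as-Props (`Stmt_*`).  Each package proves
`theorem xxx (h : Stmt_a) ... : Stmt_b` in its own file `Fermat/Agent/CFT/Local/<Name>.lean`.
Put `attribute [local instance] Units.mulDistribMulActionRight` and
`attribute [local instance] quotAct` at the top of your file.
-/
import Fermat.Agent.CFT.P0.Interface2

set_option autoImplicit false

noncomputable section

namespace Fermat.Agent.CFT.Local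

open CategoryTheory CategoryTheory.Limits groupCohomology

attribute [local instance] Units.mulDistribMulActionRight

/-! ### Definitions -/

/-- the `G`-module `Lˣ` -/
abbrev unitsRep (G L : Type) [Group G] [Field L] [MulSemiringAction G L] : Rep.{0} ℤ G :=
  Rep.ofMulDistribMulAction G Lˣ

/-- `ϖ` is a uniformizer of the normed field `L`. -/
def IsUnif {L : Type} [NormedField L] (ϖ : L) : Prop :=
  ϖ ≠ 0 ∧ ‖ϖ‖ < 1 ∧ ∀ x : L, x ≠ 0 → ∃ k : ℤ, ‖x‖ = ‖ϖ‖ ^ k

/-- normed presentation of a nonarchimedean local field -/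
structure IsLoc (L : Type) [NormedField L] : Prop where
  ultra : IsUltrametricDist L
  complete : CompleteSpace L
  unif : ∃ ϖ : L, IsUnif ϖ
  resFinite : ∃ R : Finset L, ∀ x : L, ‖x‖ ≤ 1 → ∃ r ∈ R, ‖x - r‖ < 1

/-- cardinality of the residue field -/
def resCard (L : Type) [NormedField L] : ℕ :=
  Nat.card (Quot (fun x y : {x : L // ‖x‖ ≤ 1} => ‖(x : L) - (y : L)‖ < 1))

/-- a finite group acting faithfully and isometrically on a local field -/
structure LocAct (G L : Type) [Group G] [Finite G] [NormedField L] [MulSemiringAction G L] :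
    Prop where
  loc : IsLoc L
  faithful : FaithfulSMul G L
  isom : ∀ (g : G) (x : L), ‖g • x‖ = ‖x‖

section Alg

variable (G L : Type) [Group G] [Field L] [MulSemiringAction G L]

/-- the norm `x ↦ ∏ g, g x` on units -/
def normHom [Finite G] : Lˣ →* Lˣ where
  toFun x := ∏ᶠ g : G, g • x
  map_one' := by simp
  map_mul' x y := by
    simp only [smul_mul']
    exact finprod_mul_distrib (Set.toFinite _) (Set.toFinite _)

/-- the `G`-invariant units -/
def fixedU : Subgroup Lˣ where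
  carrier := {x | ∀ g : G, g • x = x}
  one_mem' g := smul_one g
  mul_mem' {x y} hx hy g := by rw [smul_mul', hx g, hy g]
  inv_mem' {x} hx g := by rw [smul_inv', hx g]

theorem smul_mem_fixed (N : Subgroup G) [N.Normal] (g : G) (x : FixedPoints.subfield N L) :
    g • (x : L) ∈ FixedPoints.subfield N L := by
  intro n
  have h1 : (⟨g⁻¹ * n * g, by
      have := ‹N.Normal›.conj_mem n.1 n.2 g⁻¹
      simpa using this⟩ : N) • (x : L) = x := x.2 _
  have h2 : (n : G) • g • (x : L) = g • ((g⁻¹ * n * g) • (x : L)) := by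
    simp [smul_smul, mul_assoc]
  show (n : G) • g • (x : L) = g • (x : L)
  rw [h2]
  exact congrArg (g • ·) h1

/-- the action of `G ⧸ N` on the fixed field of `N`. -/
@[reducible] def quotAct (N : Subgroup G) [N.Normal] :
    MulSemiringAction (G ⧸ N) (FixedPoints.subfield N L) where
  smul q x := Quotient.liftOn' q
    (fun g => (⟨g • (x : L), smul_mem_fixed G L N g x⟩ : FixedPoints.subfield N L))
    (by
      intro a b hab
      have hab' : a⁻¹ * b ∈ N := QuotientGroup.leftRel_apply.1 hab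
      apply Subtype.ext
      show a • (x : L) = b • (x : L)
      have h1 : (⟨a⁻¹ * b, hab'⟩ : N) • (x : L) = x := x.2 _
      have h2 : b • (x : L) = a • ((a⁻¹ * b) • (x : L)) := by simp [smul_smul]
      rw [h2]
      exact (congrArg (a • ·) h1).symm)
  one_smul x := Subtype.ext (one_smul G (x : L))
  mul_smul a b x := by
    induction a using QuotientGroup.induction_on
    induction b using QuotientGroup.induction_on
    exact Subtype.ext (mul_smul _ _ (x : L))
  smul_zero a := by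
    induction a using QuotientGroup.induction_on
    exact Subtype.ext (smul_zero _)
  smul_add a x y := by
    induction a using QuotientGroup.induction_on
    exact Subtype.ext (smul_add _ (x : L) (y : L))
  smul_one a := by
    induction a using QuotientGroup.induction_on
    exact Subtype.ext (smul_one _)
  smul_mul a x y := by
    induction a using QuotientGroup.induction_on
    exact Subtype.ext (smul_mul' _ (x : L) (y : L))

attribute [local instance] quotAct

theorem quotAct_mk_smul (N : Subgroup G) [N.Normal] (g : G) (x : FixedPoints.subfield N L) :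
    (((g : G ⧸ N) • x : FixedPoints.subfield N L) : L) = g • (x : L) := rfl

theorem res_unitsRep (H : Subgroup G) : Rep.res H.subtype (unitsRep G L) = unitsRep H L := rfl

/-- the inflation to `G` of the standard 2-cochain of the cyclic quotient `G ⧸ N = ⟨φ N⟩` attached
to `a`. -/
def infCyc [Finite G] (N : Subgroup G) [N.Normal] (φ : G) (a : Lˣ) : G × G → unitsRep G L :=
  fun x => P0.cycCochain (φ : G ⧸ N) (Additive.ofMul a) ((x.1 : G ⧸ N), (x.2 : G ⧸ N))

end Alg

attribute [local instance] quotAct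

/-- `ϖ ∈ L^H` is a uniformizer of the fixed field `L^H`. -/
def IsUnifFix {G L : Type} [Group G] [NormedField L] [MulSemiringAction G L] (H : Subgroup G)
    (ϖ : L) : Prop :=
  ϖ ≠ 0 ∧ ‖ϖ‖ < 1 ∧ (∀ h ∈ H, h • ϖ = ϖ) ∧
    ∀ x : L, x ≠ 0 → (∀ h ∈ H, h • x = x) → ∃ k : ℤ, ‖x‖ = ‖ϖ‖ ^ k

/-- `(G', L')` extends `(G, L)`: `L ⊆ L'` isometrically, `G' ↠ G` compatibly, and `L` is the fixed
field of the kernel. -/
structure LocExt (G L G' L' : Type) [Group G] [NormedField L] [MulSemiringAction G L]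
    [Group G'] [NormedField L'] [MulSemiringAction G' L'] where
  f : G' →* G
  j : L →+* L'
  surj : Function.Surjective f
  equivariant : ∀ (g : G') (x : L), j (f g • x) = g • j x
  isom : ∀ x : L, ‖j x‖ = ‖x‖
  range : ∀ y : L', (∀ g ∈ f.ker, g • y = y) → ∃ x : L, j x = y

theorem LocAct.subgroup {G L : Type} [Group G] [Finite G] [NormedField L] [MulSemiringAction G L]
    (h : LocAct G L) (H : Subgroup G) : LocAct H L where
  loc := h.loc
  faithful := ⟨fun hab => Subtype.ext (h.faithful.eq_of_smul_eq_smul hab)⟩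
  isom g x := h.isom g x

/-! ### A. generalities on local fields -/

/-- P1-A1 : local fields are proper metric spaces (closed balls are compact). -/
def Stmt_proper : Prop :=
  ∀ (L : Type) [NormedField L], IsLoc L → ProperSpace L

/-- P1-A2 : systems of representatives of the residue field. -/
def Stmt_reps : Prop :=
  ∀ (L : Type) [NormedField L], IsLoc L →
    (∃ R : Finset L, R.card = resCard L ∧ (0 : L) ∈ R ∧ (∀ r ∈ R, ‖r‖ ≤ 1) ∧
      (∀ r ∈ R, ∀ s ∈ R, ‖r - s‖ < 1 → r = s) ∧ ∀ x : L, ‖x‖ ≤ 1 → ∃ r ∈ R, ‖x - r‖ < 1) ∧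
    (∀ T : Finset L, (∀ r ∈ T, ‖r‖ ≤ 1) → (∀ r ∈ T, ∀ s ∈ T, ‖r - s‖ < 1 → r = s) →
      T.card ≤ resCard L) ∧
    (∀ x : L, ‖x‖ ≤ 1 → ‖x ^ resCard L - x‖ < 1) ∧
    ‖(resCard L : L)‖ < 1 ∧ 1 < resCard L

/-- P1-A3 : the fixed field of a local field is a local field. -/
def Stmt_fixedLoc : Prop :=
  ∀ (G L : Type) [Group G] [Finite G] [NormedField L] [MulSemiringAction G L], LocAct G L →
    IsLoc (FixedPoints.subfield G L)

/-- P1-A4 : quotients act on fixed fields. -/
def Stmt_layerAct : Prop :=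
  ∀ (G L : Type) [Group G] [Finite G] [NormedField L] [MulSemiringAction G L], LocAct G L →
    ∀ (N : Subgroup G) [N.Normal], LocAct (G ⧸ N) (FixedPoints.subfield N L)

/-- P1-A5 : `(Lˣ)^N = (L^N)ˣ` as `G ⧸ N`-modules (pure algebra, `G` arbitrary). -/
def Stmt_layerIso : Prop :=
  ∀ (G L : Type) [Group G] [Field L] [MulSemiringAction G L] (N : Subgroup G) [N.Normal],
    ∃ e : (unitsRep G L).quotientToInvariants N ≅ unitsRep (G ⧸ N) (FixedPoints.subfield N L),
      ∀ a : (unitsRep G L).quotientToInvariants N,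
        (((Additive.toMul (e.hom.hom a : Additive (FixedPoints.subfield N L)ˣ) :
          (FixedPoints.subfield N L)ˣ) : FixedPoints.subfield N L) : L) =
        ((Additive.toMul (a.1 : Additive Lˣ) : Lˣ) : L)

/-- P1-A6 : finite extensions of local fields (with the spectral norm) are local fields. -/
def Stmt_extLoc : Prop :=
  ∀ (E L : Type) [NontriviallyNormedField E] [IsUltrametricDist E] [CompleteSpace E] [Field L]
    [Algebra E L] [FiniteDimensional E L], IsLoc E → @IsLoc L (spectralNorm.normedField E L)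

/-! ### B. Hilbert 90 and generalised inflation-restriction (pure algebra) -/

/-- P1-B1 : Hilbert 90 for a finite group acting faithfully on a field. -/
def Stmt_h90 : Prop :=
  ∀ (G L : Type) [Group G] [Finite G] [Field L] [MulSemiringAction G L] [FaithfulSMul G L],
    IsZero (groupCohomology (unitsRep G L) 1) ∧
    ∀ σ : G, (∀ g : G, g ∈ Subgroup.zpowers σ) → ∀ x : Lˣ, normHom G L x = 1 →
      ∃ y : Lˣ, σ • y / y = x

/-- P1-B2 : inflation-restriction for a surjection `f : G' → G` and an embedding `A → A'` onto the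
`ker f`-invariants. -/
def Stmt_infResGen : Prop :=
  ∀ (G G' : Type) [Group G] [Group G'] (f : G' →* G) (A : Rep.{0} ℤ G) (A' : Rep.{0} ℤ G')
    (φ : Rep.res f A ⟶ A'), Function.Surjective f → Function.Injective φ.hom →
    (∀ a' : A', (∀ n ∈ f.ker, A'.ρ n a' = a') → ∃ a : A, φ.hom a = a') →
    ∀ n : ℕ, (∀ i : ℕ, 0 < i → i < n + 1 → IsZero (groupCohomology (Rep.res f.ker.subtype A') i)) →
    Function.Injective (groupCohomology.map f φ (n + 1)).hom ∧
    ∀ x : groupCohomology A' (n + 1), (P0.resMap A' f.ker (n + 1)).hom x = 0 →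
      ∃ y, (groupCohomology.map f φ (n + 1)).hom y = x

/-- P1-B3 : the inflated cyclic class: cocycle, additivity, vanishing iff norm from `L^N`. -/
def Stmt_infCyc : Prop :=
  ∀ (G L : Type) [Group G] [Finite G] [Field L] [MulSemiringAction G L] [FaithfulSMul G L]
    (N : Subgroup G) [N.Normal] (φ : G), (∀ x : G ⧸ N, x ∈ Subgroup.zpowers (φ : G ⧸ N)) →
    ∀ hc : ∀ a ∈ fixedU G L, infCyc G L N φ a ∈ cocycles₂ (unitsRep G L),
    (∀ (a : Lˣ) (ha : a ∈ fixedU G L) (m : ℤ),
      m • (H2π (unitsRep G L)).hom ⟨_, hc a ha⟩ =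
        (H2π (unitsRep G L)).hom ⟨_, hc (a ^ m) ((fixedU G L).zpow_mem ha m)⟩) ∧
    (∀ (a : Lˣ) (ha : a ∈ fixedU G L), (H2π (unitsRep G L)).hom ⟨_, hc a ha⟩ = 0 ↔
      ∃ b : Lˣ, (∀ n ∈ N, n • b = b) ∧ a = ∏ i ∈ Finset.range (Nat.card (G ⧸ N)), φ ^ i • b)

/-- P1-B3' : the inflated cyclic cochain is a cocycle. -/
def Stmt_infCycCocycle : Prop :=
  ∀ (G L : Type) [Group G] [Finite G] [Field L] [MulSemiringAction G L]
    (N : Subgroup G) [N.Normal] (φ : G), (∀ x : G ⧸ N, x ∈ Subgroup.zpowers (φ : G ⧸ N)) →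
    ∀ a ∈ fixedU G L, infCyc G L N φ a ∈ cocycles₂ (unitsRep G L)

/-- P1-B4 : restriction of the inflated cyclic class to a subgroup `H` meeting `N` trivially. -/
def Stmt_resInfCyc : Prop :=
  ∀ (G L : Type) [Group G] [Finite G] [Field L] [MulSemiringAction G L]
    (N : Subgroup G) [N.Normal] (φ : G), (∀ x : G ⧸ N, x ∈ Subgroup.zpowers (φ : G ⧸ N)) →
    ∀ (H : Subgroup G) (ψ : H), H ⊓ N = ⊥ → (∀ x : H, x ∈ Subgroup.zpowers ψ) →
    ((ψ : G) : G ⧸ N) = (φ : G ⧸ N) ^ (Nat.card (G ⧸ N) / Nat.card H) →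
    ∀ (a : Lˣ) (h1 : infCyc G L N φ a ∈ cocycles₂ (unitsRep G L))
      (h2 : P0.cycCochain (A := unitsRep H L) ψ (Additive.ofMul a) ∈ cocycles₂ (unitsRep H L)),
      (P0.resMap (unitsRep G L) H 2).hom ((H2π (unitsRep G L)).hom ⟨_, h1⟩) =
        (H2π (unitsRep H L)).hom ⟨_, h2⟩

/-! ### C. the normal basis lattice, the residue cardinality formula, cohomology of units -/

/-- P1-C1 : a normal basis with bounded coordinates. -/
def Stmt_lattice : Prop :=
  ∀ (G L : Type) [Group G] [Finite G] [NormedField L] [MulSemiringAction G L], LocAct G L →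
    ∃ (θ : L) (c : ℝ), 0 < c ∧ ‖θ‖ ≤ 1 ∧
      (∀ a : G → L, (∀ g h : G, h • a g = a g) → ∑ᶠ g : G, a g * g • θ = 0 → ∀ g, a g = 0) ∧
      (∀ x : L, ∃ a : G → L, (∀ g h : G, h • a g = a g) ∧ (∀ g, c * ‖a g‖ ≤ ‖x‖) ∧
        x = ∑ᶠ g : G, a g * g • θ)

/-- P1-C2 : `|k_L| ^ e = |k_E| ^ [L:E]`. -/
def Stmt_card : Prop :=
  ∀ (G L : Type) [Group G] [Finite G] [NormedField L] [MulSemiringAction G L], LocAct G L →
    ∀ (ϖE ϖL : L) (e : ℕ), IsUnifFix (⊤ : Subgroup G) ϖE → IsUnif ϖL → ‖ϖE‖ = ‖ϖL‖ ^ e →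
      resCard L ^ e = resCard (FixedPoints.subfield G L) ^ Nat.card G

/-- P1-C3 : successive approximation. -/
def Stmt_approx : Prop :=
  ∀ (X : Type) [CommGroup X] (F : ℕ → Subgroup X) (D N : X →* X),
    (∀ j, F (j + 1) ≤ F j) →
    (∀ x, (∀ j, x ∈ F j) → x = 1) →
    (∀ w : ℕ → X, (∀ j, w j ∈ F j) → ∃ W ∈ F 0, ∀ k, W / ∏ j ∈ Finset.range k, w j ∈ F k) →
    (∀ j x, x ∈ F j → N x ∈ F j) →
    (∀ x, D (N x) = 1) →
    (∀ j x, x ∈ F j → D x ∈ F (j + 1) → ∃ y ∈ F j, x / N y ∈ F (j + 1)) →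
    ∀ x ∈ F 0, D x = 1 → ∃ y ∈ F 0, N y = x

/-- P1-C4 : an open `G`-stable subgroup of the units with trivial Tate cohomology (`G` cyclic). -/
def Stmt_vgroup : Prop :=
  ∀ (G L : Type) [Group G] [Finite G] [NormedField L] [MulSemiringAction G L], LocAct G L →
    ∀ σ : G, (∀ g : G, g ∈ Subgroup.zpowers σ) →
    ∃ V : Subgroup Lˣ, (∀ v ∈ V, ‖(v : L)‖ = 1) ∧
      (∃ c : ℝ, 0 < c ∧ ∀ x : Lˣ, ‖(x : L) - 1‖ ≤ c → x ∈ V) ∧
      (∀ g : G, ∀ v ∈ V, g • v ∈ V) ∧
      (∀ v ∈ V, v ∈ fixedU G L → ∃ w ∈ V, normHom G L w = v) ∧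
      (∀ v ∈ V, normHom G L v = 1 → ∃ w ∈ V, σ • w / w = v)

/-- P1-C5 : the local norm index `[Eˣ : N Lˣ] = [L : E]` for cyclic extensions. -/
def Stmt_normIndex : Prop :=
  ∀ (G L : Type) [Group G] [Finite G] [NormedField L] [MulSemiringAction G L], LocAct G L →
    IsCyclic G → (normHom G L).range.relIndex (fixedU G L) = Nat.card G

/-- P1-C6 : norm groups of cyclic extensions are open. -/
def Stmt_normOpen : Prop :=
  ∀ (G L : Type) [Group G] [Finite G] [NormedField L] [MulSemiringAction G L], LocAct G L →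
    IsCyclic G → ∃ c : ℝ, 0 < c ∧ ∀ x ∈ fixedU G L, ‖(x : L) - 1‖ ≤ c → x ∈ (normHom G L).range

/-- P1-C7 : cohomological form of the norm index. -/
def Stmt_cycH2card : Prop :=
  ∀ (G L : Type) [Group G] [Finite G] [NormedField L] [MulSemiringAction G L], LocAct G L →
    IsCyclic G → Nat.card (groupCohomology (unitsRep G L) 2) = Nat.card G

/-- P1-C8 : the hypothesis of the ugly lemma. -/
def Stmt_primeLayers : Prop :=
  ∀ (G L : Type) [Group G] [Finite G] [NormedField L] [MulSemiringAction G L], LocAct G L →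
    P0.PrimeLayers (unitsRep G L)

/-- P1-C9 : `|H²(G, Lˣ)|` divides `|G|`. -/
def Stmt_upper : Prop :=
  ∀ (G L : Type) [Group G] [Finite G] [NormedField L] [MulSemiringAction G L], LocAct G L →
    Finite (groupCohomology (unitsRep G L) 2) ∧
      Nat.card (groupCohomology (unitsRep G L) 2) ∣ Nat.card G

/-! ### D. unramified extensions -/

/-- P1-D1 : norms in unramified cyclic extensions. -/
def Stmt_unramNorm : Prop :=
  ∀ (G L : Type) [Group G] [Finite G] [NormedField L] [MulSemiringAction G L], LocAct G L →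
    IsCyclic G → (∃ ϖ : L, IsUnif ϖ ∧ ∀ g : G, g • ϖ = ϖ) →
    ∀ a ∈ fixedU G L, (a ∈ (normHom G L).range ↔ ∃ b : Lˣ, ‖(a : L)‖ = ‖(b : L)‖ ^ Nat.card G)

/-- P1-D2 : units in unramified cyclic extensions have trivial Tate cohomology. -/
def Stmt_unramUnits : Prop :=
  ∀ (G L : Type) [Group G] [Finite G] [NormedField L] [MulSemiringAction G L], LocAct G L →
    IsCyclic G → (∃ ϖ : L, IsUnif ϖ ∧ ∀ g : G, g • ϖ = ϖ) →
    (∀ u ∈ fixedU G L, ‖(u : L)‖ = 1 → ∃ w : Lˣ, ‖(w : L)‖ = 1 ∧ normHom G L w = u) ∧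
    (∀ σ : G, (∀ g : G, g ∈ Subgroup.zpowers σ) → ∀ u : Lˣ, ‖(u : L)‖ = 1 → normHom G L u = 1 →
      ∃ w : Lˣ, ‖(w : L)‖ = 1 ∧ σ • w / w = u)

/-- P1-D3 : Galois conjugates of a root of unity of order `q ^ r - 1` are `q`-power powers. -/
def Stmt_frobPow : Prop :=
  ∀ (G L : Type) [Group G] [Finite G] [NormedField L] [MulSemiringAction G L], LocAct G L →
    ∀ (r : ℕ) (ζ : L), 0 < r →
      IsPrimitiveRoot ζ (resCard (FixedPoints.subfield G L) ^ r - 1) →
      ∀ g : G, ∃ i < r, g • ζ = ζ ^ (resCard (FixedPoints.subfield G L) ^ i)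

/-- P1-D4 : `E(ζ_{q^r-1})/E` is cyclic of degree `r`, generated by a Frobenius, and unramified. -/
def Stmt_unram : Prop :=
  ∀ (G L : Type) [Group G] [Finite G] [NormedField L] [MulSemiringAction G L], LocAct G L →
    ∀ (r : ℕ) (ζ : L), 0 < r →
      IsPrimitiveRoot ζ (resCard (FixedPoints.subfield G L) ^ r - 1) →
      ∀ (N : Subgroup G) [N.Normal], (∀ g : G, g ∈ N ↔ g • ζ = ζ) →
        Nat.card (G ⧸ N) = r ∧
        (∃ φ : G, φ • ζ = ζ ^ resCard (FixedPoints.subfield G L) ∧
          ∀ x : G ⧸ N, x ∈ Subgroup.zpowers (φ : G ⧸ N)) ∧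
        (∀ ϖ : L, IsUnifFix (⊤ : Subgroup G) ϖ → IsUnifFix N ϖ)

/-- P1-D5 : adjoining roots of unity (abstract existence of the extension). -/
def Stmt_cycloExt : Prop :=
  ∀ (G L : Type) [Group G] [Finite G] [NormedField L] [MulSemiringAction G L], LocAct G L →
    ∀ t : ℕ, (t : L) ≠ 0 →
    ∃ (G' L' : Type) (_ : Group G') (_ : Finite G') (_ : NormedField L')
      (_ : MulSemiringAction G' L') (X : LocExt G L G' L') (ζ : L'),
      LocAct G' L' ∧ IsPrimitiveRoot ζ t ∧ ∀ g ∈ X.f.ker, g • ζ = ζ → g = 1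

/-! ### E. the main theorems -/

/-- P1-E1 : `H²(G, Lˣ)` contains an element of order `|G|`. -/
def Stmt_fund : Prop :=
  ∀ (G L : Type) [Group G] [Finite G] [NormedField L] [MulSemiringAction G L], LocAct G L →
    ∃ γ : groupCohomology (unitsRep G L) 2, ∀ m : ℤ, m • γ = 0 → (Nat.card G : ℤ) ∣ m

/-- P1-E2 : `Lˣ` is a class module. -/
def Stmt_classModule : Prop :=
  ∀ (G L : Type) [Group G] [Finite G] [NormedField L] [MulSemiringAction G L], LocAct G L →
    P0.IsClassModule (unitsRep G L)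

/-- P1-E3 : `H³(G, Lˣ) = 0`. -/
def Stmt_H3 : Prop :=
  ∀ (G L : Type) [Group G] [Finite G] [NormedField L] [MulSemiringAction G L], LocAct G L →
    IsZero (groupCohomology (unitsRep G L) 3)

/-! ### F. `p`-th powers -/

/-- P1-F1 : `[Eˣ : Eˣᵖ] = p |μ_p(E)| q^{v(p)}` and `[U : Uᵖ] = |μ_p(E)| q^{v(p)}`. -/
def Stmt_powIndex : Prop :=
  ∀ (E : Type) [NormedField E], IsLoc E → ∀ (p : ℕ), p.Prime → ∀ (ϖ : E) (k : ℕ), IsUnif ϖ →
    ‖(p : E)‖ = ‖ϖ‖ ^ k →
    (powMonoidHom p : Eˣ →* Eˣ).range.index =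
      p * Nat.card (powMonoidHom p : Eˣ →* Eˣ).ker * resCard E ^ k ∧
    ∃ c : ℝ, 0 < c ∧ ∀ x : Eˣ, ‖(x : E) - 1‖ ≤ c → x ∈ (powMonoidHom p : Eˣ →* Eˣ).range

/-! ### G. the concrete local fields -/

/-- P1-G1 : finite extensions of `ℚ_q` inside `PadicAlgCl q` are local fields. -/
def Stmt_padicLoc : Prop :=
  ∀ (q : ℕ) [Fact q.Prime] (K : IntermediateField ℚ_[q] (PadicAlgCl q)),
    FiniteDimensional ℚ_[q] K → IsLoc K

end Fermat.Agent.CFT.Local

end
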