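/-
TEAM CFT, sub-project P1 (LOCAL), second interface file: the PROFINITE level.

A `LocTower 𝒢 Ω 𝒰` is a group `𝒢` acting on an algebraically closed normed field `Ω`, with a level
system `𝒰` (Top/LC.lean) such that every layer `(𝒢 ⧸ U, Ω^U)` is a `LocAct` (finite Galois extension
of local fields).  Output: the cohomology `Hlc 𝒰 N i` (i = 1,2,3) of `N = μ_p`, and the concrete
numbers (LN1)-(LN3) for open subgroups of `Gal(PadicAlgCl q / ℚ_q)`.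

Only definitions and statements-as-Props.
-/
import Fermat.Agent.CFT.Local.Interface
import Fermat.Agent.CFT.Top.SCa
import Fermat.Agent.CFT.Top.CpxStmts
import Fermat.Agent.CFT.Top.QDatum

set_option autoImplicit false

noncomputable section

namespace Fermat.Agent.CFT.Local

open CategoryTheory CategoryTheory.Limits groupCohomology Fermat.Agent.CFT.Top Module ExtCitation

attribute [local instance] Units.mulDistribMulActionRight
attribute [local instance] quotAct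

/-! ### comparison of `Hlc` with the finite levels (generic) -/

section Level

variable {k G : Type} [CommRing k] [Group G]

/-- the projection `G/V → G/U` for `V ≤ U`. -/
abbrev levProj (U V : Subgroup G) [U.Normal] [V.Normal] (h : V ≤ U) : G ⧸ V →* G ⧸ U :=
  QuotientGroup.map V U (MonoidHom.id G) (by simpa using h)

/-- the inclusion `M^U → M^V`, a morphism over `G/V → G/U`. -/
def levIncl (M : Rep.{0} k G) (U V : Subgroup G) [U.Normal] [V.Normal] (h : V ≤ U) :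
    Rep.res (levProj U V h) (M.quotientToInvariants U) ⟶ M.quotientToInvariants V :=
  Rep.ofHom ⟨{ toFun := fun x => ⟨x.1, fun v => x.2 ⟨v.1, h v.2⟩⟩
               map_add' := fun _ _ => rfl
               map_smul' := fun _ _ => rfl }, fun g => by
    induction g using QuotientGroup.induction_on
    rfl⟩

/-- inflation `Hⁿ(G/U, M^U) → Hⁿ(G/V, M^V)` for `V ≤ U`. -/
abbrev levInf (M : Rep.{0} k G) (U V : Subgroup G) [U.Normal] [V.Normal] (h : V ≤ U) (n : ℕ) :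
    groupCohomology (M.quotientToInvariants U) n ⟶ groupCohomology (M.quotientToInvariants V) n :=
  groupCohomology.map (levProj U V h) (levIncl M U V h) n

end Level

/-- P1-H1 : `Hlc 𝒰 M n = colim_U Hⁿ(G/U, M^U)` (Mathlib's `groupCohomology` at finite level). -/
def Stmt_lcLevel : Prop :=
  ∀ (k G : Type) [CommRing k] [Group G] (𝒰 : LevelSys G) (M : Rep.{0} k G) (n : ℕ),
    ∃ lam : ∀ (U : Subgroup G) [U.Normal],
        groupCohomology (M.quotientToInvariants U) n →ₗ[k] Hlc 𝒰 M n,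
      (∀ x : Hlc 𝒰 M n, ∃ (U : Subgroup G) (_ : U.Normal) (_ : U ∈ 𝒰.S)
        (y : groupCohomology (M.quotientToInvariants U) n), lam U y = x) ∧
      (∀ (U V : Subgroup G) [U.Normal] [V.Normal] (h : V ≤ U), U ∈ 𝒰.S → V ∈ 𝒰.S →
        ∀ y, lam V ((levInf M U V h n).hom y) = lam U y) ∧
      (∀ (U : Subgroup G) [U.Normal], U ∈ 𝒰.S → ∀ y, lam U y = 0 →
        ∃ (V : Subgroup G) (_ : V.Normal) (h : V ≤ U), V ∈ 𝒰.S ∧ (levInf M U V h n).hom y = 0)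

/-- P1-H2 : `Hlc` only depends on the underlying additive group with `G`-action
(change of the base ring, isomorphic modules). -/
def Stmt_lcAddEquiv : Prop :=
  ∀ (k k' G : Type) [CommRing k] [CommRing k'] [Group G] (𝒰 : LevelSys G) (M : Rep.{0} k G)
    (M' : Rep.{0} k' G) (e : M ≃+ M'), (∀ (g : G) (m : M), e (M.ρ g m) = M'.ρ g (e m)) →
    ∀ n : ℕ, Nonempty (Hlc 𝒰 M n ≃+ Hlc 𝒰 M' n)

/-- P1-H3 : `Hlc 𝒰 M 0 = M^G`, compatibly with coefficient maps. -/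
def Stmt_lcH0 : Prop :=
  ∀ (k G : Type) [CommRing k] [Group G] (𝒰 : LevelSys G),
    ∃ ev : ∀ M : Rep.{0} k G, Hlc 𝒰 M 0 →ₗ[k] M,
      (∀ M, Function.Injective (ev M)) ∧
      (∀ (M : Rep.{0} k G) (m : M), (∃ x, ev M x = m) ↔ ∀ g : G, M.ρ g m = m) ∧
      (∀ (M N : Rep.{0} k G) (ψ : M ⟶ N) (x : Hlc 𝒰 M 0),
        ev N ((lcCoeff 𝒰 ψ).mapH 0 x) = ψ.hom (ev M x))

/-! ### towers of local fields -/

/-- a tower of local fields -/
structure LocTower (𝒢 Ω : Type) [Group 𝒢] [NormedField Ω] [MulSemiringAction 𝒢 Ω]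
    (𝒰 : LevelSys 𝒢) : Prop where
  disc : ∀ x : Ω, ∃ U ∈ 𝒰.S, ∀ u ∈ U, u • x = x
  layer : ∀ (U : Subgroup 𝒢) [U.Normal] [Finite (𝒢 ⧸ U)], U ∈ 𝒰.S →
    LocAct (𝒢 ⧸ U) (FixedPoints.subfield U Ω)
  closed : IsAlgClosed Ω

/-- P1-H4 : the base field of a tower is local; residue cardinality of the base of each layer. -/
def Stmt_towerBase : Prop :=
  ∀ (𝒢 Ω : Type) [Group 𝒢] [NormedField Ω] [MulSemiringAction 𝒢 Ω] (𝒰 : LevelSys 𝒢),
    LocTower 𝒢 Ω 𝒰 → IsLoc (FixedPoints.subfield 𝒢 Ω) ∧ (∀ (g : 𝒢) (x : Ω), ‖g • x‖ = ‖x‖) ∧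
      ∀ (U : Subgroup 𝒢) [U.Normal], U ∈ 𝒰.S →
        resCard (FixedPoints.subfield (𝒢 ⧸ U) (FixedPoints.subfield U Ω)) =
          resCard (FixedPoints.subfield 𝒢 Ω)

/-- P1-H5 : cohomology of the layers. -/
def Stmt_towerLayer : Prop :=
  ∀ (𝒢 Ω : Type) [Group 𝒢] [NormedField Ω] [MulSemiringAction 𝒢 Ω] (𝒰 : LevelSys 𝒢),
    LocTower 𝒢 Ω 𝒰 → ∀ (U : Subgroup 𝒢) [U.Normal], U ∈ 𝒰.S →
      IsZero (groupCohomology ((unitsRep 𝒢 Ω).quotientToInvariants U) 1) ∧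
      Nat.card (groupCohomology ((unitsRep 𝒢 Ω).quotientToInvariants U) 2) = U.index ∧
      (∃ γ : groupCohomology ((unitsRep 𝒢 Ω).quotientToInvariants U) 2, ∀ x, ∃ m : ℤ, x = m • γ) ∧
      IsZero (groupCohomology ((unitsRep 𝒢 Ω).quotientToInvariants U) 3)

/-- P1-H6 : inflation between the layers is injective on `H²`. -/
def Stmt_towerInfInj : Prop :=
  ∀ (𝒢 Ω : Type) [Group 𝒢] [NormedField Ω] [MulSemiringAction 𝒢 Ω] (𝒰 : LevelSys 𝒢),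
    LocTower 𝒢 Ω 𝒰 → ∀ (U V : Subgroup 𝒢) [U.Normal] [V.Normal] (h : V ≤ U), U ∈ 𝒰.S → V ∈ 𝒰.S →
      Function.Injective (levInf (unitsRep 𝒢 Ω) U V h 2).hom

/-- P1-H7 : there are levels of index divisible by any given integer (unramified extensions). -/
def Stmt_towerIndex : Prop :=
  ∀ (𝒢 Ω : Type) [Group 𝒢] [NormedField Ω] [MulSemiringAction 𝒢 Ω] (𝒰 : LevelSys 𝒢),
    LocTower 𝒢 Ω 𝒰 → ∀ (m : ℕ), 0 < m → ∀ U ∈ 𝒰.S, ∃ V ∈ 𝒰.S, V ≤ U ∧ m ∣ V.index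

/-- P1-H8 : `H¹(Ωˣ) = 0`, `H³(Ωˣ) = 0`, `Br[p]` has `p` elements, `Br` is divisible. -/
def Stmt_towerBr : Prop :=
  ∀ (𝒢 Ω : Type) [Group 𝒢] [NormedField Ω] [MulSemiringAction 𝒢 Ω] (𝒰 : LevelSys 𝒢),
    LocTower 𝒢 Ω 𝒰 →
      Subsingleton (Hlc 𝒰 (unitsRep 𝒢 Ω) 1) ∧ Subsingleton (Hlc 𝒰 (unitsRep 𝒢 Ω) 3) ∧
      ∀ p : ℕ, p.Prime →
        Nat.card {x : Hlc 𝒰 (unitsRep 𝒢 Ω) 2 // p • x = 0} = p ∧
        ∀ x : Hlc 𝒰 (unitsRep 𝒢 Ω) 2, ∃ y, p • y = x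

/-- P1-H9 : Kummer theory: the cohomology of `N ≅ μ_p(Ω)`. -/
def Stmt_towerKummer : Prop :=
  ∀ (𝒢 Ω : Type) [Group 𝒢] [NormedField Ω] [MulSemiringAction 𝒢 Ω] (𝒰 : LevelSys 𝒢),
    LocTower 𝒢 Ω 𝒰 → ∀ (p : ℕ) [Fact p.Prime], (p : Ω) ≠ 0 →
    ∀ (N : Rep.{0} (ZMod p) 𝒢) (e : N →+ Additive Ωˣ), Function.Injective e →
      (∀ (g : 𝒢) (n : N), e (N.ρ g n) = Additive.ofMul (g • (e n).toMul)) →
      (∀ z : Ωˣ, z ^ p = 1 → ∃ n : N, e n = Additive.ofMul z) →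
      Nat.card (Hlc 𝒰 N 1) = ((fixedU 𝒢 Ω).map (powMonoidHom p)).relIndex (fixedU 𝒢 Ω) ∧
      Nat.card (Hlc 𝒰 N 2) = p ∧ Subsingleton (Hlc 𝒰 N 3)

/-- P1-H10 : the number of elements of `H¹(μ_p)`. -/
def Stmt_towerH1card : Prop :=
  ∀ (𝒢 Ω : Type) [Group 𝒢] [NormedField Ω] [MulSemiringAction 𝒢 Ω] (𝒰 : LevelSys 𝒢),
    LocTower 𝒢 Ω 𝒰 → ∀ (p : ℕ), p.Prime → ∀ (ϖ : Ω) (j : ℕ), IsUnifFix (⊤ : Subgroup 𝒢) ϖ →
      ‖(p : Ω)‖ = ‖ϖ‖ ^ j →
      ((fixedU 𝒢 Ω).map (powMonoidHom p)).relIndex (fixedU 𝒢 Ω) =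
        p * Nat.card {z : Ωˣ // z ^ p = 1 ∧ z ∈ fixedU 𝒢 Ω} *
          resCard (FixedPoints.subfield 𝒢 Ω) ^ j

/-- P1-H11 : `|k_E| ^ v_E(ϖ₀) = |k_{E₀}| ^ [E : E₀]` for an open subgroup `H` of `𝒢`
(`E = Ω^H`, `E₀ = Ω^𝒢`, not necessarily Galois). -/
def Stmt_towerCard : Prop :=
  ∀ (𝒢 Ω : Type) [Group 𝒢] [NormedField Ω] [MulSemiringAction 𝒢 Ω] (𝒰 : LevelSys 𝒢),
    LocTower 𝒢 Ω 𝒰 → ∀ H : Subgroup 𝒢, 𝒰.IsOpen H → ∀ (ϖ₀ ϖ : Ω) (j : ℕ),
      IsUnifFix (⊤ : Subgroup 𝒢) ϖ₀ → IsUnifFix H ϖ → ‖ϖ₀‖ = ‖ϖ‖ ^ j →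
      resCard (FixedPoints.subfield H Ω) ^ j = resCard (FixedPoints.subfield 𝒢 Ω) ^ H.index

/-- P1-H12 : open subgroups of a tower are towers. -/
def Stmt_towerSub : Prop :=
  ∀ (𝒢 Ω : Type) [Group 𝒢] [NormedField Ω] [MulSemiringAction 𝒢 Ω] (𝒰 : LevelSys 𝒢),
    LocTower 𝒢 Ω 𝒰 → ∀ H : Subgroup 𝒢, 𝒰.IsOpen H → LocTower H Ω (𝒰.comap H.subtype)

/-! ### the concrete tower -/

/-- the absolute Galois group of `ℚ_q` -/
abbrev Gq (q : ℕ) [Fact q.Prime] : Type := PadicAlgCl q ≃ₐ[ℚ_[q]] PadicAlgCl q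

/-- its level system (same as in `Top.qDatum`) -/
abbrev levq (q : ℕ) [Fact q.Prime] : LevelSys (Gq q) := levAll.comap (localGaloisToGlobal q)

/-- P1-K1 : `Gal(PadicAlgCl q / ℚ_q)` is a tower. -/
def Stmt_padicTower : Prop :=
  ∀ (q : ℕ) [Fact q.Prime], LocTower (Gq q) (PadicAlgCl q) (levq q)

/-- P1-K2 : (LN1), (LN2) (and `H³ = 0`): open subgroups `H` fixing `μ_p`, trivial coefficients. -/
def Stmt_LN : Prop :=
  ∀ (q p : ℕ) [Fact q.Prime] [Fact p.Prime] (H : Subgroup (Gq q)), (levq q).IsOpen H →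
    (∀ h ∈ H, ∀ z : PadicAlgCl q, z ^ p = 1 → h z = z) →
    Module.Finite (ZMod p) (Hlc ((levq q).comap H.subtype) (Rep.trivial (ZMod p) H (ZMod p)) 1) ∧
    finrank (ZMod p) (Hlc ((levq q).comap H.subtype) (Rep.trivial (ZMod p) H (ZMod p)) 1) =
      2 + (if q = p then H.index else 0) ∧
    Module.Finite (ZMod p) (Hlc ((levq q).comap H.subtype) (Rep.trivial (ZMod p) H (ZMod p)) 2) ∧
    finrank (ZMod p) (Hlc ((levq q).comap H.subtype) (Rep.trivial (ZMod p) H (ZMod p)) 2) = 1 ∧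
    Subsingleton (Hlc ((levq q).comap H.subtype) (Rep.trivial (ZMod p) H (ZMod p)) 3)

/-- P1-K3 : (LN3): `H²(G_{ℚ_q}, μ_p)` is one dimensional (`μ_p` = restriction of `Top.muRep` of the
global cyclotomic character), more generally for every open subgroup. -/
def Stmt_LN3 : Prop :=
  ∀ (q p : ℕ) [Fact q.Prime] [Fact p.Prime] (H : Subgroup (Gq q)), (levq q).IsOpen H →
    Module.Finite (ZMod p) (Hlc ((levq q).comap H.subtype)
      (Rep.res ((localGaloisToGlobal q).comp H.subtype) (muRep (ZMod p) (cycloChar p))) 2) ∧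
    finrank (ZMod p) (Hlc ((levq q).comap H.subtype)
      (Rep.res ((localGaloisToGlobal q).comp H.subtype) (muRep (ZMod p) (cycloChar p))) 2) = 1

end Fermat.Agent.CFT.Local

end
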