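/-
TEAM CFT, P1-G1 (helper97): finite extensions of `ℚ_q` inside `PadicAlgCl q` are local fields.
-/
import Fermat.Agent.CFT.Local.Interface

set_option autoImplicit false

noncomputable section

namespace Fermat.Agent.CFT.Local

attribute [local instance] Units.mulDistribMulActionRight
attribute [local instance] quotAct

open Metric

/-- in an ultrametric normed group, `‖y - x‖ < ‖x‖` implies `‖y‖ = ‖x‖`. -/
theorem padicLoc_norm_eq {L : Type} [NormedField L] [IsUltrametricDist L] {x y : L}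
    (h : ‖y - x‖ < ‖x‖) : ‖y‖ = ‖x‖ := by
  apply le_antisymm
  · have h1 : ‖y - x + x‖ ≤ max ‖y - x‖ ‖x‖ := IsUltrametricDist.norm_add_le_max _ _
    rw [sub_add_cancel] at h1
    exact h1.trans (max_le h.le le_rfl)
  · have h1 : ‖(x - y) + y‖ ≤ max ‖x - y‖ ‖y‖ := IsUltrametricDist.norm_add_le_max _ _
    rw [sub_add_cancel, norm_sub_rev] at h1
    rcases le_max_iff.1 h1 with h2 | h2
    · exact absurd h2 (not_le.2 h)
    · exact h2

/-- a proper ultrametric normed field with an element `0 < ‖a‖ < 1` has a uniformizer. -/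
theorem padicLoc_exists_unif (L : Type) [NormedField L] [IsUltrametricDist L] [ProperSpace L]
    (a : L) (ha0 : a ≠ 0) (ha1 : ‖a‖ < 1) : ∃ ϖ : L, IsUnif ϖ := by
  classical
  have hapos : 0 < ‖a‖ := norm_pos_iff.2 ha0
  -- the annulus
  set A : Set L := {x | ‖a‖ ≤ ‖x‖ ∧ ‖x‖ ≤ 1} with hA
  have hAc : IsCompact A := by
    apply Metric.isCompact_of_isClosed_isBounded
    · exact (isClosed_le continuous_const continuous_norm).inter
        (isClosed_le continuous_norm continuous_const)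
    · refine (Metric.isBounded_closedBall (x := (0 : L)) (r := 1)).subset fun x hx => ?_
      simpa using hx.2
  obtain ⟨t, htA, hcov⟩ := hAc.elim_nhds_subcover (fun x => ball x ‖x‖)
    (fun x hx => ball_mem_nhds x (hapos.trans_le hx.1))
  have hval : ∀ y ∈ A, ∃ x ∈ t, ‖y‖ = ‖x‖ := by
    intro y hy
    have := hcov hy
    simp only [Set.mem_iUnion, mem_ball, dist_eq_norm] at this
    obtain ⟨x, hx, hyx⟩ := this
    exact ⟨x, hx, padicLoc_norm_eq hyx⟩
  set V : Finset L := t.filter (fun x => ‖x‖ < 1) with hV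
  have haA : a ∈ A := ⟨le_rfl, ha1.le⟩
  obtain ⟨a', ha't, haa'⟩ := hval a haA
  have hVne : V.Nonempty := ⟨a', Finset.mem_filter.2 ⟨ha't, haa' ▸ ha1⟩⟩
  obtain ⟨ϖ, hϖV, hϖmax⟩ := V.exists_max_image (fun x => ‖x‖) hVne
  have hϖt : ϖ ∈ t := (Finset.mem_filter.1 hϖV).1
  have hϖ1 : ‖ϖ‖ < 1 := (Finset.mem_filter.1 hϖV).2
  have hϖA : ϖ ∈ A := htA ϖ hϖt
  have hϖpos : 0 < ‖ϖ‖ := hapos.trans_le hϖA.1
  have hϖ0 : ϖ ≠ 0 := norm_pos_iff.1 hϖpos
  have hmax : ∀ y : L, ‖y‖ < 1 → ‖y‖ ≤ ‖ϖ‖ := by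
    intro y hy
    by_cases hya : ‖a‖ ≤ ‖y‖
    · obtain ⟨x, hx, hyx⟩ := hval y ⟨hya, hy.le⟩
      rw [hyx]
      exact hϖmax x (Finset.mem_filter.2 ⟨hx, hyx ▸ hy⟩)
    · exact (not_le.1 hya).le.trans hϖA.1
  refine ⟨ϖ, hϖ0, hϖ1, fun x hx => ?_⟩
  have hxpos : 0 < ‖x‖ := norm_pos_iff.2 hx
  have hy1 : 1 < ‖ϖ‖⁻¹ := (one_lt_inv₀ hϖpos).2 hϖ1
  obtain ⟨n, hn1, hn2⟩ := exists_mem_Ico_zpow hxpos hy1
  refine ⟨-n, ?_⟩
  rw [zpow_neg, ← inv_zpow]
  refine le_antisymm ?_ hn1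
  by_contra hcon
  rw [not_le] at hcon
  -- `z = ϖ⁻¹ ^ n / x` has norm in `(‖ϖ‖, 1)`
  have hz1 : ‖(ϖ⁻¹) ^ n / x‖ < 1 := by
    rw [norm_div, norm_zpow, norm_inv, div_lt_one hxpos]
    exact hcon
  have hz2 := hmax _ hz1
  rw [norm_div, norm_zpow, norm_inv, div_le_iff₀ hxpos] at hz2
  have h3 : ‖ϖ‖⁻¹ ^ (n + 1) ≤ ‖x‖ := by
    rw [zpow_add_one₀ (inv_ne_zero hϖpos.ne'), ← div_eq_mul_inv, div_le_iff₀ hϖpos, mul_comm]
    exact hz2
  exact absurd hn2 (not_lt.2 h3)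

/-- a proper ultrametric normed field with an element `0 < ‖a‖ < 1` is a local field. -/
theorem padicLoc_of_proper (L : Type) [NormedField L] [IsUltrametricDist L] [ProperSpace L]
    (a : L) (ha0 : a ≠ 0) (ha1 : ‖a‖ < 1) : IsLoc L where
  ultra := inferInstance
  complete := inferInstance
  unif := padicLoc_exists_unif L a ha0 ha1
  resFinite := by
    classical
    obtain ⟨t, -, htfin, hcov⟩ := (isCompact_closedBall (0 : L) 1).finite_cover_balls one_pos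
    refine ⟨htfin.toFinset, fun x hx => ?_⟩
    have : x ∈ ⋃ y ∈ t, ball y 1 := hcov (by simpa using hx)
    simp only [Set.mem_iUnion, mem_ball, dist_eq_norm] at this
    obtain ⟨r, hr, h⟩ := this
    exact ⟨r, by simpa using hr, h⟩

/-- P1-G1 -/
theorem padicLoc : Stmt_padicLoc := by
  intro q _ K hK
  have : ProperSpace K := FiniteDimensional.proper ℚ_[q] K
  have hq : (q : ℚ_[q]) ≠ 0 := by
    exact_mod_cast (Fact.out : q.Prime).ne_zero
  refine padicLoc_of_proper K (algebraMap ℚ_[q] K (q : ℚ_[q])) ?_ ?_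
  · rw [Ne, map_eq_zero]
    exact hq
  · rw [norm_algebraMap']
    rw [Padic.norm_p]
    exact inv_lt_one_of_one_lt₀ (by exact_mod_cast (Fact.out : q.Prime).one_lt)

/-- automorphisms of `PadicAlgCl q` over `ℚ_q` are isometries. -/
theorem padicLoc_isom (q : ℕ) [Fact q.Prime] (σ : PadicAlgCl q ≃ₐ[ℚ_[q]] PadicAlgCl q)
    (x : PadicAlgCl q) : ‖σ x‖ = ‖x‖ := by
  rw [← PadicAlgCl.spectralNorm_eq, ← PadicAlgCl.spectralNorm_eq]
  exact (spectralNorm_eq_of_equiv σ x).symm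

end Fermat.Agent.CFT.Local

end
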