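/-
TEAM CFT, P1-K1 (helper97): `Gal(PadicAlgCl q / ℚ_q)` is a tower of local fields.
-/
import Fermat.Agent.CFT.Local.Tower
import Fermat.Agent.CFT.Local.PadicLoc
import Fermat.Agent.CFT.Krasner

set_option autoImplicit false

noncomputable section

namespace Fermat.Agent.CFT.Local

open Fermat.Agent.CFT.Top Fermat.Agent.CFT ExtCitation
open scoped IntermediateField

attribute [local instance] Units.mulDistribMulActionRight
attribute [local instance] quotAct

/-- `IsLoc` transfers along norm preserving ring isomorphisms. -/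
theorem padicTower_isLoc_of_equiv {L1 L2 : Type} [NormedField L1] [NormedField L2]
    (e : L1 ≃+* L2) (he : ∀ x, ‖e x‖ = ‖x‖) (h : IsLoc L1) : IsLoc L2 where
  ultra := by
    have := h.ultra
    refine IsUltrametricDist.isUltrametricDist_of_forall_norm_add_le_max_norm fun x y => ?_
    obtain ⟨x', rfl⟩ := e.surjective x
    obtain ⟨y', rfl⟩ := e.surjective y
    rw [← map_add, he, he, he]
    exact IsUltrametricDist.norm_add_le_max x' y'
  complete := by
    have hiso : Isometry e := AddMonoidHomClass.isometry_of_norm e he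
    exact (completeSpace_congr (e := e.toEquiv) hiso.isUniformEmbedding).1 h.complete
  unif := by
    obtain ⟨ϖ, h0, h1, h2⟩ := h.unif
    refine ⟨e ϖ, by simpa using h0, by rw [he]; exact h1, fun x hx => ?_⟩
    obtain ⟨x', rfl⟩ := e.surjective x
    obtain ⟨k, hk⟩ := h2 x' (by simpa using hx)
    exact ⟨k, by rw [he, he, hk]⟩
  resFinite := by
    classical
    obtain ⟨R, hR⟩ := h.resFinite
    refine ⟨R.image e, fun x hx => ?_⟩
    obtain ⟨x', rfl⟩ := e.surjective x
    obtain ⟨r, hr, hxr⟩ := hR x' (by rwa [he] at hx)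
    exact ⟨e r, Finset.mem_image_of_mem e hr, by rw [← map_sub, he]; exact hxr⟩

variable (q : ℕ) [Fact q.Prime]

/-- every level contains the fixing subgroup of a local level field. -/
theorem padicTower_exists_le {U : Subgroup (Gq q)} (hU : U ∈ (levq q).S) :
    ∃ F : IntermediateField ℚ (AlgebraicClosure ℚ), FiniteDimensional ℚ F ∧
      (localLevel q F).fixingSubgroup ≤ U := by
  obtain ⟨U0, ⟨-, F, hF, hFU⟩, rfl⟩ := hU
  refine ⟨F, hF, fun τ hτ => ?_⟩
  rw [Subgroup.mem_comap]
  exact hFU ((localGaloisToGlobal_mem_fixingSubgroup_iff q F τ).2 hτ)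

theorem padicTower_finiteDimensional {U : Subgroup (Gq q)} (hU : U ∈ (levq q).S) :
    FiniteDimensional ℚ_[q] (IntermediateField.fixedField U) := by
  obtain ⟨F, hF, hle⟩ := padicTower_exists_le q hU
  have hle' : IntermediateField.fixedField U ≤ localLevel q F := by
    rw [← InfiniteGalois.fixedField_fixingSubgroup (localLevel q F)]
    intro x hx
    rw [IntermediateField.mem_fixedField_iff] at hx ⊢
    exact fun f hf => hx f (hle hf)
  exact Module.Finite.of_injective (IntermediateField.inclusion hle').toLinearMap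
    (IntermediateField.inclusion_injective hle')

theorem padicTower_fixing_fixed {U : Subgroup (Gq q)} (hU : U ∈ (levq q).S) :
    (IntermediateField.fixedField U).fixingSubgroup = U := by
  obtain ⟨F, hF, hle⟩ := padicTower_exists_le q hU
  have hopen : IsOpen (U : Set (Gq q)) :=
    Subgroup.isOpen_mono hle (IntermediateField.fixingSubgroup_isOpen _)
  have hclosed : IsClosed (U : Set (Gq q)) := Subgroup.isClosed_of_isOpen U hopen
  exact InfiniteGalois.fixingSubgroup_fixedField (⟨U, hclosed⟩ : ClosedSubgroup (Gq q))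

/-- the two incarnations of the fixed field -/
def padicTower_equiv (U : Subgroup (Gq q)) :
    IntermediateField.fixedField U ≃+* FixedPoints.subfield U (PadicAlgCl q) where
  toFun x := ⟨x.1, fun u => (IntermediateField.mem_fixedField_iff _ _).1 x.2 u.1 u.2⟩
  invFun x := ⟨x.1, (IntermediateField.mem_fixedField_iff _ _).2 fun f hf => x.2 ⟨f, hf⟩⟩
  left_inv _ := rfl
  right_inv _ := rfl
  map_mul' _ _ := rfl
  map_add' _ _ := rfl

theorem padicTower_disc (x : PadicAlgCl q) : ∃ U ∈ (levq q).S, ∀ u ∈ U, u • x = x := by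
  have hfd : FiniteDimensional ℚ_[q] ℚ_[q]⟮x⟯ :=
    IntermediateField.adjoin.finiteDimensional (Algebra.IsIntegral.isIntegral x)
  obtain ⟨F, hF, hGal, hle⟩ := exists_le_localLevel q ℚ_[q]⟮x⟯
  have hnormal : F.fixingSubgroup.Normal := by
    refine ⟨fun σ hσ τ => ?_⟩
    rw [IntermediateField.mem_fixingSubgroup_iff] at hσ ⊢
    intro y hy
    have h1 : τ⁻¹ y ∈ F := lk_stable_of_isGalois F τ⁻¹ y hy
    show τ (σ (τ⁻¹ y)) = y
    rw [hσ _ h1]
    exact AlgEquiv.apply_symm_apply τ y
  refine ⟨F.fixingSubgroup.comap (localGaloisToGlobal q),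
    ⟨F.fixingSubgroup, ⟨hnormal, F, hF, le_rfl⟩, rfl⟩, fun u hu => ?_⟩
  rw [Subgroup.mem_comap, localGaloisToGlobal_mem_fixingSubgroup_iff,
    IntermediateField.mem_fixingSubgroup_iff] at hu
  exact hu x (hle (IntermediateField.mem_adjoin_simple_self _ x))

/-- P1-K1 -/
theorem padicTower (h : Stmt_padicLoc) : Stmt_padicTower := by
  intro q _
  refine ⟨padicTower_disc q, ?_, inferInstance⟩
  intro U _ _ hU
  refine ⟨?_, ⟨?_⟩, ?_⟩
  · exact padicTower_isLoc_of_equiv (padicTower_equiv q U) (fun _ => rfl)
      (h q _ (padicTower_finiteDimensional q hU))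
  · intro g1 g2 hg
    induction g1 using QuotientGroup.induction_on with
    | H τ1 =>
    induction g2 using QuotientGroup.induction_on with
    | H τ2 =>
    rw [QuotientGroup.eq, ← padicTower_fixing_fixed q hU, IntermediateField.mem_fixingSubgroup_iff]
    intro x hx
    have h1 := congrArg Subtype.val (hg (padicTower_equiv q U ⟨x, hx⟩))
    have h2 : τ1 x = τ2 x := h1
    show τ1⁻¹ (τ2 x) = x
    rw [← h2]
    exact AlgEquiv.symm_apply_apply τ1 x
  · intro g x
    induction g using QuotientGroup.induction_on with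
    | H τ => exact padicLoc_isom q τ x.1

end Fermat.Agent.CFT.Local

end
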