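import Fermat.Agent.CFT.Local.TowerAll
import Fermat.Agent.CFT.Local.PadicTower
import Fermat.Agent.CFT.Top.ToolShapiroPerm

/-!
# [LOC] : final deliverables

* `final_LN`, `final_LN12`, `final_LN3`, `final_LN3full` : unconditional.
* `final_qLN` : the local inputs `InLN`, `InLN3` of `Top/Inputs2.lean` for `qDatum`, from Shapiro
  for `Hlc` (`Top.Stmt_shapiroLc`, LC-toolkit).
-/

namespace Fermat.Agent.CFT.Local

theorem all_padicTower : Stmt_padicTower := padicTower padicLoc

theorem final_LN : Stmt_LN := all_LN all_padicTower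

theorem final_LN12 : Stmt_LN12 := all_LN12 all_padicTower

theorem final_LN3 : Stmt_LN3 := all_LN3 all_padicTower

theorem final_LN3full : Stmt_LN3full := all_LN3full all_padicTower

theorem shapiroLc_of_tool (h : Top.Stmt_shapiroLc) : Stmt_shapiroLc :=
  fun p _ G _ 𝒰 H hH i => Top.tool_shapiroPerm h (ZMod p) G 𝒰 H hH i

theorem final_qLN (h : Top.Stmt_shapiroLc) : Stmt_qLN :=
  all_qLN all_padicTower (shapiroLc_of_tool h)

end Fermat.Agent.CFT.Local
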