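/-
TEAM CFT, sub-project P1 (local CFT), package P1-C3 : successive approximation.
-/
import Fermat.Agent.CFT.Local.Interface

set_option autoImplicit false

namespace Fermat.Agent.CFT.Local

theorem approx : Stmt_approx := by
  intro X _ F D N _hmono hsep hconv hN hDN hstep x hx0 hDx
  classical
  -- one step
  have step : ∀ (j : ℕ) (s : {x : X // x ∈ F j ∧ D x = 1}),
      ∃ y ∈ F j, (s : X) / N y ∈ F (j + 1) := fun j s =>
    hstep j s s.2.1 (by rw [s.2.2]; exact one_mem _)
  choose Y hY1 hY2 using step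
  -- the sequence `x_j`
  let s : (j : ℕ) → {x : X // x ∈ F j ∧ D x = 1} := fun j =>
    Nat.rec (motive := fun j => {x : X // x ∈ F j ∧ D x = 1}) ⟨x, hx0, hDx⟩
      (fun j sj => ⟨(sj : X) / N (Y j sj), hY2 j sj, by rw [map_div, sj.2.2, hDN, div_one]⟩) j
  have hs0 : (s 0).1 = x := rfl
  have hs1 : ∀ j, (s (j + 1)).1 = (s j).1 / N (Y j (s j)) := fun j => rfl
  let w : ℕ → X := fun j => Y j (s j)
  have hw : ∀ j, w j ∈ F j := fun j => hY1 j (s j)
  have hprod : ∀ k, (s k).1 = x / N (∏ j ∈ Finset.range k, w j) := by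
    intro k
    induction k with
    | zero => simp [hs0]
    | succ k ih =>
      rw [hs1, ih, Finset.prod_range_succ, map_mul, div_div]
  obtain ⟨W, hW0, hW⟩ := hconv w hw
  refine ⟨W, hW0, ?_⟩
  have key : N W / x = 1 := by
    apply hsep
    intro k
    have h1 : N W / x = N (W / ∏ j ∈ Finset.range k, w j) / (s k).1 := by
      rw [hprod k, map_div]
      simp [div_eq_mul_inv, mul_comm, mul_left_comm]
    rw [h1]
    exact div_mem (hN k _ (hW k)) (s k).2.1
  exact div_eq_one.mp key

end Fermat.Agent.CFT.Local
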