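/-
TEAM CFT, sub-project P1 (local CFT).  Package P1-C2 : `|k_L| ^ e = |k_E| ^ [L:E]`.
-/
import Fermat.Agent.CFT.Local.Interface

set_option autoImplicit false

noncomputable section

namespace Fermat.Agent.CFT.Local

attribute [local instance] Units.mulDistribMulActionRight
attribute [local instance] quotAct

section Balls

variable {K : Type} [NormedField K] [IsUltrametricDist K]

/-- `{x | ‖x‖ ≤ ‖t‖}` -/
def cardCb (t : K) : AddSubgroup K where
  carrier := {x | ‖x‖ ≤ ‖t‖}
  zero_mem' := by simp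
  add_mem' {x y} hx hy := (IsUltrametricDist.norm_add_le_max x y).trans (max_le hx hy)
  neg_mem' {x} hx := by simpa using hx

/-- `{x | ‖x‖ < 1}` -/
def cardOb : AddSubgroup K where
  carrier := {x | ‖x‖ < 1}
  zero_mem' := by simp
  add_mem' {x y} hx hy := lt_of_le_of_lt (IsUltrametricDist.norm_add_le_max x y) (max_lt hx hy)
  neg_mem' {x} hx := by simpa using hx

lemma card_mem_cb {t x : K} : x ∈ cardCb t ↔ ‖x‖ ≤ ‖t‖ := Iff.rfl

lemma card_mem_ob {x : K} : x ∈ (cardOb : AddSubgroup K) ↔ ‖x‖ < 1 := Iff.rfl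

lemma card_cb_le {s t : K} (h : ‖s‖ ≤ ‖t‖) : cardCb s ≤ cardCb t := fun _ hx => le_trans hx h

lemma card_cb_congr {s t : K} (h : ‖s‖ = ‖t‖) : cardCb s = cardCb t :=
  le_antisymm (card_cb_le h.le) (card_cb_le h.ge)

lemma card_map_cb (t s : K) (ht : t ≠ 0) :
    (cardCb s).map (AddMonoidHom.mulLeft t) = cardCb (t * s) := by
  have ht' : 0 < ‖t‖ := norm_pos_iff.2 ht
  ext x
  simp only [AddSubgroup.mem_map, card_mem_cb, AddMonoidHom.coe_mulLeft, norm_mul]
  constructor
  · rintro ⟨y, hy, rfl⟩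
    rw [norm_mul]
    exact mul_le_mul_of_nonneg_left hy (norm_nonneg _)
  · intro hx
    refine ⟨t⁻¹ * x, ?_, by field_simp⟩
    rw [norm_mul, norm_inv, inv_mul_le_iff₀ ht']
    exact hx

lemma card_ob_eq {ϖ : K} (h : IsUnif ϖ) : (cardOb : AddSubgroup K) = cardCb ϖ := by
  obtain ⟨h0, h1, h2⟩ := h
  have hpos : 0 < ‖ϖ‖ := norm_pos_iff.2 h0
  ext x
  rw [card_mem_ob, card_mem_cb]
  constructor
  · intro hx
    by_cases hx0 : x = 0
    · rw [hx0, norm_zero]; exact hpos.le
    obtain ⟨k, hk⟩ := h2 x hx0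
    rw [hk] at hx ⊢
    have hk1 : 1 ≤ k := by
      by_contra hcon
      have hk0 : k ≤ 0 := by omega
      have : (1 : ℝ) ≤ ‖ϖ‖ ^ k := by
        obtain ⟨m, rfl⟩ : ∃ m : ℕ, k = -(m : ℤ) := ⟨(-k).toNat, by omega⟩
        rw [zpow_neg, zpow_natCast]
        exact (one_le_inv₀ (pow_pos hpos m)).2 (pow_le_one₀ hpos.le h1.le)
      linarith
    obtain ⟨m, rfl⟩ : ∃ m : ℕ, k = (m : ℤ) + 1 := ⟨(k - 1).toNat, by omega⟩
    rw [zpow_add₀ hpos.ne', zpow_natCast, zpow_one]
    exact mul_le_of_le_one_left hpos.le (pow_le_one₀ hpos.le h1.le)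
  · intro hx
    exact lt_of_le_of_lt hx h1

lemma card_resCard_eq : resCard K = (cardOb : AddSubgroup K).relIndex (cardCb 1) := by
  unfold resCard AddSubgroup.relIndex AddSubgroup.index
  refine Nat.card_congr ?_
  refine Quot.congr (Equiv.subtypeEquivRight (fun x => by rw [card_mem_cb, norm_one])) ?_
  intro a b
  rw [QuotientAddGroup.leftRel_apply, AddSubgroup.mem_addSubgroupOf, card_mem_ob]
  simp only [Equiv.subtypeEquivRight_apply_coe, AddSubgroup.coe_add, AddSubgroup.coe_neg]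
  rw [← norm_neg]
  congr! 2
  ring

lemma card_relIndex_pow {ϖ : K} (h : IsUnif ϖ) (j : ℕ) :
    (cardCb (ϖ ^ j)).relIndex (cardCb 1) = resCard K ^ j := by
  have h0 : ϖ ≠ 0 := h.1
  induction j with
  | zero => rw [pow_zero, pow_zero, AddSubgroup.relIndex_self]
  | succ j ih =>
    have hle1 : cardCb (ϖ ^ (j + 1)) ≤ cardCb (ϖ ^ j) := by
      apply card_cb_le
      rw [pow_succ, norm_mul]
      exact mul_le_of_le_one_right (norm_nonneg _) h.2.1.le
    have hle2 : cardCb (ϖ ^ j) ≤ cardCb 1 := by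
      apply card_cb_le
      rw [norm_pow, norm_one]
      exact pow_le_one₀ (norm_nonneg _) h.2.1.le
    rw [← AddSubgroup.relIndex_mul_relIndex _ _ _ hle1 hle2, ih, pow_succ (resCard K), mul_comm]
    congr 1
    have e1 : cardCb (ϖ ^ (j + 1)) = (cardCb ϖ).map (AddMonoidHom.mulLeft (ϖ ^ j)) := by
      rw [card_map_cb _ _ (pow_ne_zero j h0), pow_succ]
    have e2 : cardCb (ϖ ^ j) = (cardCb (1 : K)).map (AddMonoidHom.mulLeft (ϖ ^ j)) := by
      rw [card_map_cb _ _ (pow_ne_zero j h0), mul_one]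
    rw [e1, e2, AddSubgroup.relIndex_map_map_of_injective _ _
      (mul_right_injective₀ (pow_ne_zero j h0)), ← card_ob_eq h, card_resCard_eq]

lemma card_resCard_ne_zero (h : IsLoc K) : resCard K ≠ 0 := by
  obtain ⟨R, hR⟩ := h.resFinite
  unfold resCard
  rw [Nat.card_ne_zero]
  refine ⟨⟨Quot.mk _ ⟨0, by simp⟩⟩, ?_⟩
  let f : {r : K // r ∈ R ∧ ‖r‖ ≤ 1} →
      Quot (fun x y : {x : K // ‖x‖ ≤ 1} => ‖(x : K) - (y : K)‖ < 1) :=
    fun r => Quot.mk _ ⟨r.1, r.2.2⟩
  have : Finite {r : K // r ∈ R ∧ ‖r‖ ≤ 1} :=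
    Finite.of_injective (fun r => (⟨r.1, r.2.1⟩ : {r : K // r ∈ R}))
      (fun a b hab => Subtype.ext (congrArg (fun z : {r : K // r ∈ R} => z.1) hab))
  refine Finite.of_surjective f ?_
  rintro ⟨⟨x, hx⟩⟩
  obtain ⟨r, hr, hxr⟩ := hR x hx
  have hr1 : ‖r‖ ≤ 1 := by
    have : r = x + -(x - r) := by ring
    rw [this]
    exact (IsUltrametricDist.norm_add_le_max _ _).trans (max_le hx (by rw [norm_neg]; exact hxr.le))
  refine ⟨⟨r, hr, hr1⟩, ?_⟩
  refine Quot.sound ?_
  show ‖r - x‖ < 1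
  rw [norm_sub_rev]
  exact hxr

end Balls

section Main

/-- the coordinates map `(a_g) ↦ ∑ a_g g θ`. -/
def cardΨ {G L : Type} [Group G] [Fintype G] [NormedField L] [MulSemiringAction G L] (θ : L)
    (OE : AddSubgroup (FixedPoints.subfield G L)) : (G → OE) →+ L where
  toFun a := ∑ g, ((a g : FixedPoints.subfield G L) : L) * g • θ
  map_zero' := by simp
  map_add' a b := by simp [add_mul, Finset.sum_add_distrib]

lemma cardΨ_apply {G L : Type} [Group G] [Fintype G] [NormedField L] [MulSemiringAction G L]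
    (θ : L) (OE : AddSubgroup (FixedPoints.subfield G L)) (a : G → OE) :
    cardΨ θ OE a = ∑ g, ((a g : FixedPoints.subfield G L) : L) * g • θ := rfl

theorem card (h1 : Stmt_lattice) (_h2 : Stmt_reps) (h3 : Stmt_fixedLoc) : Stmt_card := by
  intro G L _ _ _ _ hact ϖE ϖL e hE hL he
  have := hact.loc.ultra
  have hlocE := h3 G L hact
  have := hlocE.ultra
  cases nonempty_fintype G
  obtain ⟨θ, c, hc, hθ, hinj, hsurj⟩ := h1 G L hact
  simp only [finsum_eq_sum_of_fintype] at hinj hsurj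
  obtain ⟨hE0, hE1, hEfix, hEval⟩ := hE
  -- the uniformizer of `E`
  let ϖ' : FixedPoints.subfield G L := ⟨ϖE, fun g => hEfix g (Subgroup.mem_top g)⟩
  have hϖ'0 : ϖ' ≠ 0 := fun h => hE0 (congrArg Subtype.val h)
  have hϖ' : IsUnif ϖ' :=
    ⟨hϖ'0, hE1, fun x hx => hEval x (fun h => hx (Subtype.ext h)) (fun h _ => x.2 h)⟩
  let OE : AddSubgroup (FixedPoints.subfield G L) := cardCb 1
  let Ψ : (G → OE) →+ L := cardΨ θ OE
  have hΨinj : Function.Injective Ψ := by
    rw [injective_iff_map_eq_zero]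
    intro a ha
    have := hinj (fun g => ((a g : FixedPoints.subfield G L) : L)) (fun g h => (a g).1.2 h) ha
    funext g
    exact Subtype.ext (Subtype.ext (this g))
  let M : AddSubgroup L := (⊤ : AddSubgroup (G → OE)).map Ψ
  let A : AddSubgroup L := cardCb 1
  let t : L →+ L := AddMonoidHom.mulLeft ϖE
  have htinj : Function.Injective t := mul_right_injective₀ hE0
  have hM1 : M ≤ A := by
    rintro x ⟨a, -, rfl⟩
    rw [card_mem_cb, norm_one]
    refine IsUltrametricDist.norm_sum_le_of_forall_le_of_nonneg zero_le_one ?_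
    intro g _
    rw [norm_mul, hact.isom]
    have hag : ‖((a g : FixedPoints.subfield G L) : L)‖ ≤ 1 := by
      have := (a g).2
      rw [card_mem_cb, norm_one] at this
      exact this
    exact mul_le_one₀ hag (norm_nonneg _) hθ
  have hM2 : ∃ k : ℕ, cardCb (ϖL ^ k) ≤ M := by
    obtain ⟨k, hk⟩ := exists_pow_lt_of_lt_one hc hL.2.1
    refine ⟨k, ?_⟩
    intro x hx
    rw [card_mem_cb, norm_pow] at hx
    obtain ⟨a, hafix, hab, hax⟩ := hsurj x
    have ha1 : ∀ g, ‖a g‖ ≤ 1 := by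
      intro g
      have h5 : c * ‖a g‖ ≤ c * 1 := by
        rw [mul_one]
        exact (hab g).trans (hx.trans hk.le)
      exact le_of_mul_le_mul_left h5 hc
    refine ⟨fun g => ⟨⟨a g, fun h => hafix g h⟩, ?_⟩, AddSubgroup.mem_top _, hax.symm⟩
    rw [card_mem_cb, norm_one]
    exact ha1 g
  have hM3 : M.relIndex A ≠ 0 := by
    obtain ⟨k, hk⟩ := hM2
    have h5 := AddSubgroup.relIndex_mul_relIndex _ _ _ hk hM1
    have h6 : (cardCb (ϖL ^ k)).relIndex A ≠ 0 := by
      rw [card_relIndex_pow hL]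
      exact pow_ne_zero _ (card_resCard_ne_zero hact.loc)
    intro h7
    rw [h7, mul_zero] at h5
    exact h6 h5.symm
  have hM4 : M.map t
      = (AddSubgroup.pi Set.univ (fun _ : G => (cardCb ϖ').addSubgroupOf OE)).map Ψ := by
    ext x
    constructor
    · rintro ⟨_, ⟨a, -, rfl⟩, rfl⟩
      refine ⟨fun g => ⟨ϖ' * (a g : FixedPoints.subfield G L), ?_⟩, ?_, ?_⟩
      · have := (a g).2
        rw [card_mem_cb, norm_one] at this ⊢
        rw [norm_mul]
        exact mul_le_one₀ hE1.le (norm_nonneg _) this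
      · intro g _
        have := (a g).2
        rw [card_mem_cb, norm_one] at this
        show ‖ϖ' * (a g : FixedPoints.subfield G L)‖ ≤ ‖ϖ'‖
        rw [norm_mul]
        exact mul_le_of_le_one_right (norm_nonneg _) this
      · show ∑ g, (ϖE * ((a g : FixedPoints.subfield G L) : L)) * g • θ
          = ϖE * ∑ g, ((a g : FixedPoints.subfield G L) : L) * g • θ
        rw [Finset.mul_sum]
        exact Finset.sum_congr rfl fun g _ => mul_assoc _ _ _
    · rintro ⟨b, hb, rfl⟩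
      refine ⟨Ψ (fun g => ⟨ϖ'⁻¹ * (b g : FixedPoints.subfield G L), ?_⟩),
        ⟨_, AddSubgroup.mem_top _, rfl⟩, ?_⟩
      · have : ‖(b g : FixedPoints.subfield G L)‖ ≤ ‖ϖ'‖ := hb g (Set.mem_univ g)
        rw [card_mem_cb, norm_one, norm_mul, norm_inv,
          inv_mul_le_iff₀ (norm_pos_iff.2 hϖ'0), mul_one]
        exact this
      · show ϖE * ∑ g, (ϖE⁻¹ * ((b g : FixedPoints.subfield G L) : L)) * g • θ
          = ∑ g, ((b g : FixedPoints.subfield G L) : L) * g • θ
        rw [Finset.mul_sum]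
        refine Finset.sum_congr rfl fun g _ => ?_
        field_simp
  have hM5 : (M.map t).relIndex M = resCard (FixedPoints.subfield G L) ^ Nat.card G := by
    rw [hM4, AddSubgroup.relIndex_map_map_of_injective _ _ hΨinj, AddSubgroup.relIndex_top_right,
      AddSubgroup.index_pi, Finset.prod_const, Finset.card_univ, Nat.card_eq_fintype_card,
      card_resCard_eq, card_ob_eq hϖ']
    rfl
  have hM6 : M.map t ≤ M := by
    rw [hM4]
    exact AddSubgroup.map_mono le_top
  have hA1 : A.map t = cardCb (ϖL ^ e) := by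
    rw [card_map_cb _ _ hE0, mul_one]
    exact card_cb_congr (by rw [he, norm_pow])
  have hA2 : A.map t ≤ A := by
    rw [card_map_cb _ _ hE0, mul_one]
    exact card_cb_le (by rw [norm_one]; exact hE1.le)
  have e1 := AddSubgroup.relIndex_mul_relIndex _ _ _ hM6 hM1
  have e2 := AddSubgroup.relIndex_mul_relIndex _ _ _ (AddSubgroup.map_mono (f := t) hM1) hA2
  rw [AddSubgroup.relIndex_map_map_of_injective _ _ htinj, hA1, card_relIndex_pow hL] at e2
  rw [hM5, ← e2, mul_comm] at e1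
  exact (Nat.eq_of_mul_eq_mul_left (Nat.pos_of_ne_zero hM3) e1).symm

end Main

end Fermat.Agent.CFT.Local

end

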