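/-
TEAM CFT, sub-project P1 (local CFT), package P1-E2/E3: `Lˣ` is a class module, `H³ = 0`.
-/
import Fermat.Agent.CFT.Local.Interface

set_option autoImplicit false

noncomputable section

namespace Fermat.Agent.CFT.Local

open CategoryTheory CategoryTheory.Limits groupCohomology

attribute [local instance] Units.mulDistribMulActionRight
attribute [local instance] quotAct

theorem classModule_aux {X : Type*} [AddCommGroup X] [Finite X] (n : ℕ)
    (hcard : Nat.card X ∣ n) (γ : X) (hγ : ∀ m : ℤ, m • γ = 0 → (n : ℤ) ∣ m) :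
    Nat.card X = n ∧ ∀ x : X, ∃ m : ℤ, x = m • γ := by
  have h1 : addOrderOf γ ∣ Nat.card X := addOrderOf_dvd_natCard γ
  have h2 : n ∣ addOrderOf γ := by
    have := hγ (addOrderOf γ : ℤ) (by rw [natCast_zsmul]; exact addOrderOf_nsmul_eq_zero γ)
    exact_mod_cast this
  have h3 : addOrderOf γ = Nat.card X := Nat.dvd_antisymm h1 (hcard.trans h2)
  have h4 : Nat.card X = n := Nat.dvd_antisymm hcard (h2.trans h1)
  refine ⟨h4, fun x => ?_⟩
  have h5 : AddSubgroup.zmultiples γ = ⊤ := by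
    apply AddSubgroup.eq_top_of_card_eq
    rw [Nat.card_zmultiples, h3]
  have h6 : x ∈ AddSubgroup.zmultiples γ := h5 ▸ AddSubgroup.mem_top x
  obtain ⟨m, hm⟩ := AddSubgroup.mem_zmultiples_iff.1 h6
  exact ⟨m, hm.symm⟩

/-- P1-E2 -/
theorem classModule (h1 : Stmt_h90) (h2 : Stmt_upper) (h3 : Stmt_fund) : Stmt_classModule := by
  intro G L _ _ _ _ hL H
  have hH : LocAct H L := hL.subgroup H
  have := hH.faithful
  obtain ⟨hfin, hdvd⟩ := h2 H L hH
  obtain ⟨γ, hγ⟩ := h3 H L hH
  refine ⟨(h1 H L).1, ?_⟩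
  have := classModule_aux (X := groupCohomology (unitsRep H L) 2) (Nat.card H) hdvd γ
    (fun m hm => hγ m hm)
  exact ⟨this.1, γ, this.2⟩

/-- P1-E3 -/
theorem H3 (h : Stmt_classModule) (h' : P0.Stmt_tate) : Stmt_H3 := by
  intro G L _ _ _ _ hL
  exact (h' G (unitsRep G L) (h G L hL)).1

end Fermat.Agent.CFT.Local

end
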