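import Fermat.Agent.CFT.Local.Interface

/-!
# CFT, P1-C7 : `|H²(G, Lˣ)| = |G|` for cyclic `G`
-/

set_option autoImplicit false

noncomputable section

namespace Fermat.Agent.CFT.Local

open CategoryTheory CategoryTheory.Limits groupCohomology

attribute [local instance] Units.mulDistribMulActionRight
attribute [local instance] quotAct

theorem CycH2card_relIndex {A X : Type*} [AddCommGroup A] [CommGroup X] (e : A ≃+ Additive X)
    (R Kr : AddSubgroup A) (H K : Subgroup X) (hR : ∀ a, a ∈ R ↔ (e a).toMul ∈ H)
    (hK : ∀ a, a ∈ Kr ↔ (e a).toMul ∈ K) : R.relIndex Kr = H.relIndex K := by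
  have h1 : R = (Subgroup.toAddSubgroup H).comap e.toAddMonoidHom := by
    ext a
    exact hR a
  have h2 : Kr.map e.toAddMonoidHom = Subgroup.toAddSubgroup K := by
    ext b
    constructor
    · rintro ⟨a, ha, rfl⟩
      exact (hK a).mp ha
    · intro hb
      refine ⟨e.symm b, (hK _).mpr ?_, ?_⟩
      · rw [AddEquiv.apply_symm_apply]
        exact hb
      · exact e.apply_symm_apply b
  rw [h1, AddSubgroup.relIndex_comap, h2, Subgroup.relIndex_toAddSubgroup]

section

variable (G L : Type) [Group G] [Finite G] [Field L] [MulSemiringAction G L]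

theorem CycH2card_rho_apply (x : G) (a : unitsRep G L) :
    Rep.toAdditive ((unitsRep G L).ρ x a) = Additive.ofMul (x • (Rep.toAdditive a).toMul) := rfl

theorem CycH2card_sum_apply (a : unitsRep G L) :
    Rep.toAdditive ((∑ᶠ x : G, ((unitsRep G L).ρ x).toAddMonoidHom) a) =
      Additive.ofMul (normHom G L (Rep.toAdditive a).toMul) := by
  classical
  cases nonempty_fintype G
  rw [finsum_eq_sum_of_fintype, AddMonoidHom.finsetSum_apply, map_sum]
  show _ = Additive.ofMul (∏ᶠ g : G, g • (Rep.toAdditive a).toMul)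
  rw [finprod_eq_prod_of_fintype, ofMul_prod]
  rfl

theorem CycH2card_range (a : unitsRep G L) :
    a ∈ (∑ᶠ x : G, ((unitsRep G L).ρ x).toAddMonoidHom).range ↔
      (Rep.toAdditive a).toMul ∈ (normHom G L).range := by
  constructor
  · rintro ⟨b, rfl⟩
    rw [CycH2card_sum_apply]
    exact ⟨_, rfl⟩
  · rintro ⟨b, hb⟩
    refine ⟨Rep.toAdditive.symm (Additive.ofMul b), ?_⟩
    apply Rep.toAdditive.injective
    rw [CycH2card_sum_apply, AddEquiv.apply_symm_apply]
    exact congrArg Additive.ofMul hb

theorem CycH2card_ker (g : G) (hg : ∀ x : G, x ∈ Subgroup.zpowers g) (a : unitsRep G L) :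
    a ∈ (((unitsRep G L).ρ g).toAddMonoidHom - AddMonoidHom.id (unitsRep G L)).ker ↔
      (Rep.toAdditive a).toMul ∈ fixedU G L := by
  rw [AddMonoidHom.mem_ker, AddMonoidHom.sub_apply, sub_eq_zero]
  constructor
  · intro h
    have h' : g • (Rep.toAdditive a).toMul = (Rep.toAdditive a).toMul :=
      congrArg (fun b => (Rep.toAdditive b).toMul) h
    intro x
    have hx : x ∈ MulAction.stabilizer G (Rep.toAdditive a).toMul := by
      have : Subgroup.zpowers g ≤ MulAction.stabilizer G (Rep.toAdditive a).toMul := by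
        rw [Subgroup.zpowers_le]
        exact h'
      exact this (hg x)
    exact hx
  · intro h
    apply Rep.toAdditive.injective
    exact congrArg Additive.ofMul (h g)

end

theorem cycH2card (h1 : Stmt_normIndex) (h2 : P0.Stmt_herbrandBridge) : Stmt_cycH2card := by
  intro G L _ _ _ _ hact hcyc
  obtain ⟨g, hg⟩ := hcyc.exists_generator
  have e := (h2 G g hg (unitsRep G L)).1
  rw [e, ← h1 G L hact hcyc]
  exact CycH2card_relIndex Rep.toAdditive _ _ _ _ (CycH2card_range G L) (CycH2card_ker G L g hg)

end Fermat.Agent.CFT.Local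

end

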