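/-
TEAM CFT, sub-project P1, package D5: adjoining roots of unity to a local field with group action.
-/
import Fermat.Agent.CFT.Local.Interface

set_option autoImplicit false

noncomputable section

namespace Fermat.Agent.CFT.Local

open CategoryTheory CategoryTheory.Limits groupCohomology Polynomial

attribute [local instance] Units.mulDistribMulActionRight
attribute [local instance] quotAct

section Alg
variable (E L : Type) [Field E] [Field L] [Algebra E L] [FiniteDimensional E L] [IsGalois E L]
  (t : ℕ) [NeZero (t : L)]

omit [IsGalois E L] in
theorem CycloExt_finite : FiniteDimensional E (CyclotomicField t L) := by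
  have : NeZero t := ⟨fun h => NeZero.ne (t : L) (by rw [h]; simp)⟩
  have : FiniteDimensional L (CyclotomicField t L) :=
    IsCyclotomicExtension.finiteDimensional {t} L (CyclotomicField t L)
  exact FiniteDimensional.trans E L (CyclotomicField t L)

theorem CycloExt_isGalois : IsGalois E (CyclotomicField t L) := by
  have : NeZero t := ⟨fun h => NeZero.ne (t : L) (by rw [h]; simp)⟩
  obtain ⟨P, hPsep, hPsplit⟩ := IsGalois.is_separable_splitting_field E L
  have h1 : IsSplittingField L (CyclotomicField t L) (map (algebraMap E L) (cyclotomic t E)) := by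
    rw [map_cyclotomic]
    exact IsCyclotomicExtension.splitting_field_cyclotomic t L (CyclotomicField t L)
  have h2 : IsSplittingField E (CyclotomicField t L) (P * cyclotomic t E) :=
    IsSplittingField.mul (K := L) (CyclotomicField t L) P (cyclotomic t E) hPsep.ne_zero
      (cyclotomic_ne_zero t E)
  have hn : Normal E (CyclotomicField t L) := Normal.of_isSplittingField (P * cyclotomic t E)
  have hg : IsGalois L (CyclotomicField t L) :=
    IsCyclotomicExtension.isGalois {t} L (CyclotomicField t L)
  have hs : Algebra.IsSeparable E (CyclotomicField t L) :=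
    Algebra.IsSeparable.trans E L (CyclotomicField t L)
  exact ⟨⟩

omit [FiniteDimensional E L] [NeZero (t : L)] in
theorem CycloExt_restrict_apply (g : Gal(CyclotomicField t L/E)) (x : L) :
    algebraMap L (CyclotomicField t L) (AlgEquiv.restrictNormalHom L g x) =
      g (algebraMap L (CyclotomicField t L) x) :=
  AlgEquiv.restrictNormal_commutes g L x

omit [FiniteDimensional E L] [NeZero (t : L)] in
theorem CycloExt_mem_ker_iff (g : Gal(CyclotomicField t L/E)) :
    g ∈ (AlgEquiv.restrictNormalHom (F := E) (K₁ := CyclotomicField t L) L).ker ↔
      ∀ x : L, g (algebraMap L (CyclotomicField t L) x) = algebraMap L (CyclotomicField t L) x := by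
  rw [MonoidHom.mem_ker]
  constructor
  · intro h x
    rw [← CycloExt_restrict_apply, h]
    rfl
  · intro h
    ext x
    apply (algebraMap L (CyclotomicField t L)).injective
    rw [CycloExt_restrict_apply, h]
    rfl

omit [FiniteDimensional E L] in
theorem CycloExt_range (y : CyclotomicField t L)
    (hy : ∀ g ∈ (AlgEquiv.restrictNormalHom (F := E) (K₁ := CyclotomicField t L) L).ker, g y = y) :
    ∃ x : L, algebraMap L (CyclotomicField t L) x = y := by
  have : NeZero t := ⟨fun h => NeZero.ne (t : L) (by rw [h]; simp)⟩
  have hg : IsGalois L (CyclotomicField t L) :=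
    IsCyclotomicExtension.isGalois {t} L (CyclotomicField t L)
  have : FiniteDimensional L (CyclotomicField t L) :=
    IsCyclotomicExtension.finiteDimensional {t} L (CyclotomicField t L)
  have h1 : y ∈ (⊥ : IntermediateField L (CyclotomicField t L)) := by
    rw [IsGalois.mem_bot_iff_fixed]
    intro τ
    have := hy (τ.restrictScalars E) ((CycloExt_mem_ker_iff E L t _).2 fun x => τ.commutes x)
    exact this
  exact IntermediateField.mem_bot.1 h1

omit [FiniteDimensional E L] in
theorem CycloExt_eq_one (ζ : CyclotomicField t L) (hζ : IsPrimitiveRoot ζ t)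
    (g : Gal(CyclotomicField t L/E))
    (hg : g ∈ (AlgEquiv.restrictNormalHom (F := E) (K₁ := CyclotomicField t L) L).ker)
    (hgζ : g ζ = ζ) : g = 1 := by
  have : NeZero t := ⟨fun h => NeZero.ne (t : L) (by rw [h]; simp)⟩
  have htop := IsCyclotomicExtension.adjoin_primitive_root_eq_top (A := L) hζ
  let g' : CyclotomicField t L →ₐ[L] CyclotomicField t L :=
    { (g : CyclotomicField t L →+* CyclotomicField t L) with
      commutes' := (CycloExt_mem_ker_iff E L t g).1 hg }
  have h1 : g' = AlgHom.id L _ := by
    apply AlgHom.ext_of_adjoin_eq_top htop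
    intro x hx
    rw [Set.mem_singleton_iff.1 hx]
    exact hgζ
  ext x
  exact DFunLike.congr_fun h1 x


end Alg

theorem cycloExt (h1 : Stmt_extLoc) (h2 : Stmt_fixedLoc) : Stmt_cycloExt := by
  intro G L _ _ _ _ hact t ht
  have hfaith : FaithfulSMul G L := hact.faithful
  have hE : IsLoc (FixedPoints.subfield G L) := h2 G L hact
  let iE : NontriviallyNormedField (FixedPoints.subfield G L) :=
    { (inferInstance : NormedField (FixedPoints.subfield G L)) with
      non_trivial := by
        obtain ⟨ϖ, h0, hlt, -⟩ := hE.unif
        refine ⟨ϖ⁻¹, ?_⟩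
        rw [norm_inv]
        exact (one_lt_inv₀ (norm_pos_iff.2 h0)).2 hlt }
  have : IsUltrametricDist (FixedPoints.subfield G L) := hE.ultra
  have : CompleteSpace (FixedPoints.subfield G L) := hE.complete
  have : NeZero (t : L) := ⟨ht⟩
  have : NeZero t := ⟨fun h => ht (by rw [h]; simp)⟩
  have hfin := CycloExt_finite (FixedPoints.subfield G L) L t
  have hgal := CycloExt_isGalois (FixedPoints.subfield G L) L t
  let nL' : NormedField (CyclotomicField t L) :=
    spectralNorm.normedField (FixedPoints.subfield G L) (CyclotomicField t L)
  have hL : ∀ x : L, ‖x‖ = spectralNorm (FixedPoints.subfield G L) L x := fun x =>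
    spectralNorm_unique_field_norm_ext (f := NormedField.toAbsoluteValue L) (fun _ => rfl) x
  let e := FixedPoints.toAlgAutMulEquiv G L
  have he : ∀ (g : G) (x : L), e g x = g • x := fun _ _ => rfl
  let r := AlgEquiv.restrictNormalHom (F := FixedPoints.subfield G L) (K₁ := CyclotomicField t L) L
  have hker : ∀ g, g ∈ (e.symm.toMonoidHom.comp r).ker ↔ g ∈ r.ker := by
    intro g
    simp only [MonoidHom.mem_ker, MonoidHom.comp_apply]
    exact e.symm.map_eq_one_iff
  let X : LocExt G L Gal(CyclotomicField t L/FixedPoints.subfield G L) (CyclotomicField t L) :=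
    { f := e.symm.toMonoidHom.comp r
      j := algebraMap L (CyclotomicField t L)
      surj := e.symm.surjective.comp (AlgEquiv.restrictNormalHom_surjective _)
      equivariant := by
        intro g x
        have h3 : (e.symm.toMonoidHom.comp r) g • x = r g x := by
          rw [← he]
          simp
        rw [h3]
        exact CycloExt_restrict_apply _ L t g x
      isom := by
        intro x
        rw [hL x]
        exact (spectralNorm.eq_of_tower x).symm
      range := by
        intro y hy
        exact CycloExt_range _ L t y fun g hg => hy g ((hker g).2 hg) }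
  refine ⟨Gal(CyclotomicField t L/FixedPoints.subfield G L), CyclotomicField t L, inferInstance,
    inferInstance, nL', inferInstance, X, IsCyclotomicExtension.zeta t L (CyclotomicField t L),
    ?_, IsCyclotomicExtension.zeta_spec t L (CyclotomicField t L), ?_⟩
  · exact
    { loc := h1 (FixedPoints.subfield G L) (CyclotomicField t L) hE
      faithful := inferInstance
      isom := fun g x => (spectralNorm_eq_of_equiv g x).symm }
  · intro g hg hgζ
    exact CycloExt_eq_one _ L t _ (IsCyclotomicExtension.zeta_spec t L (CyclotomicField t L)) g
      ((hker g).1 hg) hgζ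

end Fermat.Agent.CFT.Local

end
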