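/-
TEAM CFT, P1-A6 : finite extensions of local fields, with the spectral norm, are local fields.
-/
import Fermat.Agent.CFT.Local.Interface

set_option autoImplicit false

noncomputable section

namespace Fermat.Agent.CFT.Local

attribute [local instance] Units.mulDistribMulActionRight
attribute [local instance] quotAct

/-- Abstract discreteness lemma: if the `n`-th powers of all norms lie in `c ^ ℤ`, the value group
is generated by the norm of a uniformizer. -/
theorem extLoc_exists_unif_of_pow {L : Type} [NormedField L] (c : ℝ) (hc0 : 0 < c) (hc1 : c < 1)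
    (n : ℕ) (hn : 0 < n) (hall : ∀ x : L, x ≠ 0 → ∃ j : ℤ, ‖x‖ ^ n = c ^ j)
    (hex : ∃ k : ℕ, 0 < k ∧ ∃ x : L, x ≠ 0 ∧ ‖x‖ ^ n = c ^ k) : ∃ ϖ : L, IsUnif ϖ := by
  classical
  obtain ⟨hm0, ϖ, hϖ0, hϖ⟩ := Nat.find_spec hex
  set m := Nat.find hex with hm
  have hinj : ∀ a b : ℝ, 0 ≤ a → 0 ≤ b → a ^ n = b ^ n → a = b := fun a b ha hb h =>
    (pow_left_inj₀ ha hb hn.ne').1 h
  have hlt : ‖ϖ‖ < 1 := by
    by_contra hge
    rw [not_lt] at hge
    have h1 : 1 ≤ ‖ϖ‖ ^ n := one_le_pow₀ hge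
    rw [hϖ] at h1
    exact absurd h1 (not_le.2 (pow_lt_one₀ hc0.le hc1 hm0.ne'))
  refine ⟨ϖ, hϖ0, hlt, fun x hx => ?_⟩
  obtain ⟨j, hj⟩ := hall x hx
  -- division with remainder
  set q : ℤ := j / m with hq
  set r : ℤ := j % m with hr
  have hm0' : (0 : ℤ) < m := by exact_mod_cast hm0
  have hr0 : 0 ≤ r := Int.emod_nonneg _ hm0'.ne'
  have hrm : r < m := Int.emod_lt_of_pos _ hm0'
  have hjqr : j = m * q + r := (Int.mul_ediv_add_emod j m).symm
  have hy : ‖x / ϖ ^ q‖ ^ n = c ^ r := by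
    rw [norm_div, norm_zpow, div_pow, hj, ← zpow_natCast (‖ϖ‖ ^ q) n, ← zpow_mul, mul_comm q,
      zpow_mul, zpow_natCast, hϖ, ← zpow_natCast c m, ← zpow_mul, ← zpow_sub₀ hc0.ne', hjqr]
    congr 1
    ring
  have hr_eq : r = 0 := by
    by_contra hne
    have hrpos : 0 < r := lt_of_le_of_ne hr0 (Ne.symm hne)
    have hmem : 0 < r.toNat ∧ ∃ y : L, y ≠ 0 ∧ ‖y‖ ^ n = c ^ r.toNat := by
      refine ⟨by omega, x / ϖ ^ q, div_ne_zero hx (zpow_ne_zero _ hϖ0), ?_⟩
      rw [hy, ← zpow_natCast c r.toNat, Int.toNat_of_nonneg hr0]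
    have := Nat.find_min' hex hmem
    omega
  refine ⟨q, hinj _ _ (norm_nonneg _) (zpow_nonneg (norm_nonneg _) _) ?_⟩
  have e1 : (‖ϖ‖ ^ q) ^ n = (‖ϖ‖ ^ n) ^ q := by
    rw [← zpow_natCast (‖ϖ‖ ^ q) n, ← zpow_mul, mul_comm q, zpow_mul, zpow_natCast]
  rw [e1, hϖ, hj, hjqr, hr_eq, add_zero, zpow_mul, zpow_natCast]

section

variable (E L : Type) [NontriviallyNormedField E] [IsUltrametricDist E] [CompleteSpace E] [Field L]
  [Algebra E L] [FiniteDimensional E L]

/-- the spectral norm extends the norm of `E` -/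
theorem extLoc_norm_algebraMap (x : E) :
    @norm L (spectralNorm.normedField E L).toNorm (algebraMap E L x) = ‖x‖ :=
  spectralNorm_extends x

/-- `E`-automorphisms of `L` are isometries for the spectral norm -/
theorem extLoc_norm_algEquiv (σ : L ≃ₐ[E] L) (x : L) :
    @norm L (spectralNorm.normedField E L).toNorm (σ x) =
      @norm L (spectralNorm.normedField E L).toNorm x :=
  (spectralNorm_eq_of_equiv σ x).symm

theorem extLoc_ultra : @IsUltrametricDist L (spectralNorm.normedField E L).toDist := by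
  let := spectralNorm.normedField E L
  exact IsUltrametricDist.isUltrametricDist_of_isNonarchimedean_norm
    (isNonarchimedean_spectralNorm (K := E) (L := L))

theorem extLoc_complete :
    @CompleteSpace L (spectralNorm.normedField E L).toUniformSpace :=
  spectralNorm.completeSpace E L

theorem extLoc_proper [ProperSpace E] :
    @ProperSpace L (spectralNorm.normedField E L).toPseudoMetricSpace := by
  let := spectralNorm.normedField E L
  let := spectralNorm.normedSpace E L
  exact FiniteDimensional.proper E L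

theorem extLoc_resFinite [ProperSpace E] :
    let := spectralNorm.normedField E L
    ∃ R : Finset L, ∀ x : L, ‖x‖ ≤ 1 → ∃ r ∈ R, ‖x - r‖ < 1 := by
  let := spectralNorm.normedField E L
  have := extLoc_proper E L
  obtain ⟨t, -, htf, hcov⟩ :=
    (isCompact_closedBall (0 : L) 1).finite_cover_balls (e := 1) one_pos
  refine ⟨htf.toFinset, fun x hx => ?_⟩
  have hx' : x ∈ Metric.closedBall (0 : L) 1 := by simpa using hx
  obtain ⟨r, hr, hxr⟩ := Set.mem_iUnion₂.1 (hcov hx')
  exact ⟨r, htf.mem_toFinset.2 hr, by simpa [dist_eq_norm] using hxr⟩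

/-- `‖x‖ ^ [L:E]` is the norm of an element of `E`. -/
theorem extLoc_norm_pow_finrank (x : L) (hx : x ≠ 0) :
    ∃ a : E, a ≠ 0 ∧
      (@norm L (spectralNorm.normedField E L).toNorm x) ^ Module.finrank E L = ‖a‖ := by
  have hint : IsIntegral E x := Algebra.IsIntegral.isIntegral x
  obtain ⟨d, hd⟩ := minpoly.degree_dvd (K := E) (L := L) hint
  have hpos : 0 < (minpoly E x).natDegree := minpoly.natDegree_pos hint
  have h0 : (minpoly E x).coeff 0 ≠ 0 := minpoly.coeff_zero_ne_zero hint hx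
  refine ⟨(minpoly E x).coeff 0 ^ d, pow_ne_zero _ h0, ?_⟩
  have h1 : (@norm L (spectralNorm.normedField E L).toNorm x) =
      ‖(minpoly E x).coeff 0‖ ^ (1 / (minpoly E x).natDegree : ℝ) :=
    spectralNorm.spectralNorm_eq_norm_coeff_zero_rpow E L x
  rw [hd, pow_mul, h1, norm_pow, ← Real.rpow_natCast (_ ^ (1 / ((minpoly E x).natDegree : ℝ))),
    ← Real.rpow_mul (norm_nonneg _), one_div,
    inv_mul_cancel₀ (Nat.cast_ne_zero.2 hpos.ne'), Real.rpow_one]

theorem extLoc_unif (hE : ∃ π : E, IsUnif π) :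
    letI := spectralNorm.normedField E L
    ∃ ϖ : L, IsUnif ϖ := by
  let := spectralNorm.normedField E L
  obtain ⟨π, hπ0, hπ1, hπ⟩ := hE
  have hn : 0 < Module.finrank E L := Module.finrank_pos
  refine extLoc_exists_unif_of_pow ‖π‖ (norm_pos_iff.2 hπ0) hπ1 (Module.finrank E L) hn ?_ ?_
  · intro x hx
    obtain ⟨a, ha, h⟩ := extLoc_norm_pow_finrank E L x hx
    obtain ⟨k, hk⟩ := hπ a ha
    exact ⟨k, h.trans hk⟩
  · refine ⟨Module.finrank E L, hn, algebraMap E L π, ?_, ?_⟩
    · simpa using hπ0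
    · rw [extLoc_norm_algebraMap E L π]

end

theorem extLoc (h : Stmt_proper) : Stmt_extLoc := by
  intro E L _ _ _ _ _ _ hE
  have : ProperSpace E := h E hE
  exact @IsLoc.mk L (spectralNorm.normedField E L) (extLoc_ultra E L) (extLoc_complete E L)
    (extLoc_unif E L hE.unif) (extLoc_resFinite E L)

end Fermat.Agent.CFT.Local
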