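/-
TEAM CFT, P1-A3 (helper50): fixed fields of local fields are local fields.
-/
import Fermat.Agent.CFT.Local.Interface

set_option autoImplicit false

noncomputable section

namespace Fermat.Agent.CFT.Local

attribute [local instance] Units.mulDistribMulActionRight
attribute [local instance] quotAct

section

variable {G L : Type} [Group G] [NormedField L] [MulSemiringAction G L]

theorem fixedLoc_mem_subfield {H : Subgroup G} {x : L} :
    x ∈ FixedPoints.subfield H L ↔ ∀ h ∈ H, h • x = x :=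
  ⟨fun hx h hh => hx ⟨h, hh⟩, fun hx h => hx h.1 h.2⟩

theorem fixedLoc_norm_coe (S : Subfield L) (x : S) : ‖x‖ = ‖(x : L)‖ := rfl

theorem isUnifFix_bot_iff {ϖ : L} : IsUnifFix (⊥ : Subgroup G) ϖ ↔ IsUnif ϖ := by
  constructor
  · rintro ⟨h0, h1, -, h3⟩
    refine ⟨h0, h1, fun x hx => h3 x hx ?_⟩
    intro h hh
    rw [Subgroup.mem_bot.1 hh, one_smul]
  · rintro ⟨h0, h1, h3⟩
    refine ⟨h0, h1, ?_, fun x hx _ => h3 x hx⟩
    intro h hh
    rw [Subgroup.mem_bot.1 hh, one_smul]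

theorem isUnifFix_iff_isUnif {H : Subgroup G} {ϖ : L} :
    IsUnifFix H ϖ ↔ ∃ h : ϖ ∈ FixedPoints.subfield H L,
      IsUnif (⟨ϖ, h⟩ : FixedPoints.subfield H L) := by
  constructor
  · rintro ⟨h0, h1, h2, h3⟩
    refine ⟨fixedLoc_mem_subfield.2 h2, fun h => h0 (congrArg Subtype.val h), h1, ?_⟩
    intro x hx
    exact h3 x (fun h => hx (Subtype.ext h)) (fixedLoc_mem_subfield.1 x.2)
  · rintro ⟨h, h0, h1, h3⟩
    refine ⟨fun h' => h0 (Subtype.ext h'), h1, fixedLoc_mem_subfield.1 h, ?_⟩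
    intro x hx hfix
    exact h3 ⟨x, fixedLoc_mem_subfield.2 hfix⟩ (fun h' => hx (congrArg Subtype.val h'))

theorem isUnifFix_top_iff_isUnif {ϖ : L} :
    IsUnifFix (⊤ : Subgroup G) ϖ ↔ ∃ h : ϖ ∈ FixedPoints.subfield G L,
      IsUnif (⟨ϖ, h⟩ : FixedPoints.subfield G L) := by
  constructor
  · rintro ⟨h0, h1, h2, h3⟩
    refine ⟨fun g => h2 g (Subgroup.mem_top g), fun h => h0 (congrArg Subtype.val h), h1, ?_⟩
    intro x hx
    exact h3 x (fun h => hx (Subtype.ext h)) (fun g _ => x.2 g)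
  · rintro ⟨h, h0, h1, h3⟩
    refine ⟨fun h' => h0 (Subtype.ext h'), h1, fun g _ => h g, ?_⟩
    intro x hx hfix
    exact h3 ⟨x, fun g => hfix g (Subgroup.mem_top g)⟩ (fun h' => hx (congrArg Subtype.val h'))

/-- the value group of the fixed field of `H`, in terms of a uniformizer of `L`. -/
def fixedLoc_valGroup (H : Subgroup G) (ϖ : L) : AddSubgroup ℤ where
  carrier := {k | ∃ x : L, x ≠ 0 ∧ (∀ h ∈ H, h • x = x) ∧ ‖x‖ = ‖ϖ‖ ^ k}
  zero_mem' := ⟨1, one_ne_zero, fun h _ => smul_one h, by simp⟩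
  add_mem' := by
    rintro a b ⟨x, hx0, hx1, hx2⟩ ⟨y, hy0, hy1, hy2⟩
    by_cases hϖ : ϖ = 0
    · subst hϖ
      refine ⟨x * y, mul_ne_zero hx0 hy0, fun h hh => by rw [smul_mul', hx1 h hh, hy1 h hh], ?_⟩
      have ha : a = 0 := by
        by_contra ha
        rw [norm_zero, zero_zpow a ha] at hx2
        exact hx0 (norm_eq_zero.1 hx2)
      have hb : b = 0 := by
        by_contra hb
        rw [norm_zero, zero_zpow b hb] at hy2
        exact hy0 (norm_eq_zero.1 hy2)
      rw [norm_mul, hx2, hy2, ha, hb]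
      simp
    · refine ⟨x * y, mul_ne_zero hx0 hy0, fun h hh => by rw [smul_mul', hx1 h hh, hy1 h hh], ?_⟩
      rw [norm_mul, hx2, hy2, zpow_add₀ (norm_ne_zero_iff.2 hϖ)]
  neg_mem' := by
    rintro a ⟨x, hx0, hx1, hx2⟩
    refine ⟨x⁻¹, inv_ne_zero hx0, fun h hh => by rw [smul_inv'', hx1 h hh], ?_⟩
    rw [norm_inv, hx2, zpow_neg]

end

section

variable {G L : Type} [Group G] [Finite G] [NormedField L] [MulSemiringAction G L]

theorem fixedLoc_exists_unifFix (h : LocAct G L) (H : Subgroup G) : ∃ ϖ : L, IsUnifFix H ϖ := by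
  classical
  have : Fintype G := Fintype.ofFinite G
  obtain ⟨ϖ, hϖ0, hϖ1, hϖ⟩ := h.loc.unif
  have hn0 : ‖ϖ‖ ≠ 0 := norm_ne_zero_iff.2 hϖ0
  have hnpos : 0 < ‖ϖ‖ := norm_pos_iff.2 hϖ0
  obtain ⟨a, ha⟩ := Int.subgroup_cyclic (fixedLoc_valGroup H ϖ)
  -- the norm of `ϖ` gives a nonzero element
  have hcard : ((Fintype.card G : ℕ) : ℤ) ∈ fixedLoc_valGroup H ϖ := by
    refine ⟨∏ g : G, g • ϖ, ?_, ?_, ?_⟩
    · rw [Finset.prod_ne_zero_iff]
      intro g _
      exact (smul_ne_zero_iff_ne g).2 hϖ0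
    · intro g' _
      rw [Finset.smul_prod']
      simp only [smul_smul]
      exact Fintype.prod_equiv (Equiv.mulLeft g') _ _ (fun g => rfl)
    · rw [norm_prod]
      simp only [h.isom]
      simp
  have ha0 : a ≠ 0 := by
    rintro rfl
    rw [ha, AddSubgroup.mem_closure_singleton] at hcard
    obtain ⟨n, hn⟩ := hcard
    simp only [smul_zero] at hn
    have : Fintype.card G = 0 := by exact_mod_cast hn.symm
    exact Fintype.card_ne_zero this
  have hamem : a ∈ fixedLoc_valGroup H ϖ := by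
    rw [ha]; exact AddSubgroup.mem_closure_singleton_self a
  have habs : |a| ∈ fixedLoc_valGroup H ϖ := by
    rcases abs_choice a with h' | h' <;> rw [h']
    · exact hamem
    · exact neg_mem hamem
  obtain ⟨π, hπ0, hπ1, hπ2⟩ := habs
  have hapos : 0 < |a| := abs_pos.2 ha0
  refine ⟨π, hπ0, ?_, hπ1, ?_⟩
  · rw [hπ2]
    exact zpow_lt_one₀ hnpos hϖ1 hapos
  · intro x hx0 hx1
    obtain ⟨k, hk⟩ := hϖ x hx0
    have hkmem : k ∈ fixedLoc_valGroup H ϖ := ⟨x, hx0, hx1, hk⟩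
    rw [ha, AddSubgroup.mem_closure_singleton] at hkmem
    obtain ⟨n, hn⟩ := hkmem
    have hdvd : |a| ∣ k := (abs_dvd a k).2 ⟨n, by rw [← hn]; simp [mul_comm]⟩
    obtain ⟨c, hc⟩ := hdvd
    exact ⟨c, by rw [hk, hπ2, hc, zpow_mul]⟩

theorem fixedLoc_isometry (h : LocAct G L) (g : G) : Isometry (fun x : L => g • x) := by
  refine Isometry.of_dist_eq fun x y => ?_
  rw [dist_eq_norm, dist_eq_norm, ← smul_sub, h.isom]

theorem fixedLoc_isClosed (h : LocAct G L) :
    IsClosed ((FixedPoints.subfield G L : Subfield L) : Set L) := by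
  have : ((FixedPoints.subfield G L : Subfield L) : Set L) = ⋂ g : G, {x : L | g • x = x} := by
    ext x
    simp only [Set.mem_iInter, Set.mem_ofPred_eq]
    exact Iff.rfl
  rw [this]
  exact isClosed_iInter fun g => isClosed_eq (fixedLoc_isometry h g).continuous continuous_id

/-- P1-A3 : the fixed field of a local field is a local field. -/
theorem fixedLoc : Stmt_fixedLoc := by
  intro G L _ _ _ _ h
  classical
  have hu := h.loc.ultra
  have hc := h.loc.complete
  refine ⟨⟨fun x y z => hu.dist_triangle_max (x : L) y z⟩, ?_, ?_, ?_⟩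
  · exact (fixedLoc_isClosed h).completeSpace_coe
  · obtain ⟨ϖ, hϖ⟩ := fixedLoc_exists_unifFix h ⊤
    obtain ⟨hm, hU⟩ := isUnifFix_top_iff_isUnif.1 hϖ
    exact ⟨_, hU⟩
  · obtain ⟨R, hR⟩ := h.loc.resFinite
    let f : L → FixedPoints.subfield G L := fun r =>
      if hr : ∃ x : FixedPoints.subfield G L, ‖(x : L) - r‖ < 1 then hr.choose else 0
    refine ⟨R.image f, fun x hx => ?_⟩
    obtain ⟨r, hrR, hr⟩ := hR (x : L) hx
    refine ⟨f r, Finset.mem_image_of_mem f hrR, ?_⟩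
    have hex : ∃ x : FixedPoints.subfield G L, ‖(x : L) - r‖ < 1 := ⟨x, hr⟩
    have hfr : ‖((f r : FixedPoints.subfield G L) : L) - r‖ < 1 := by
      simp only [f, dif_pos hex]
      exact hex.choose_spec
    change ‖(x : L) - (f r : L)‖ < 1
    have e := hu.dist_triangle_max (x : L) r (f r : L)
    rw [dist_eq_norm, dist_eq_norm, dist_eq_norm, norm_sub_rev r] at e
    exact lt_of_le_of_lt e (max_lt hr hfr)

end

end Fermat.Agent.CFT.Local

end
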