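/-
TEAM CFT, sub-project P1 (local CFT), package P1-A2: the residue field of a normed local field,
systems of representatives, `x ^ q ≡ x`.
-/
import Fermat.Agent.CFT.Local.Interface

set_option autoImplicit false

noncomputable section

namespace Fermat.Agent.CFT.Local

attribute [local instance] Units.mulDistribMulActionRight
attribute [local instance] quotAct

section ResField

variable (L : Type) [NormedField L] [IsUltrametricDist L]

/-- the closed unit ball, as a subring -/
def repsO : Subring L where
  carrier := {x | ‖x‖ ≤ 1}
  mul_mem' := by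
    intro a b ha hb
    simp only [Set.mem_ofPred_eq, norm_mul] at *
    exact mul_le_one₀ ha (norm_nonneg _) hb
  one_mem' := by simp
  add_mem' := fun ha hb => (IsUltrametricDist.norm_add_le_max _ _).trans (max_le ha hb)
  zero_mem' := by simp
  neg_mem' := by simp

variable {L} in
theorem mem_repsO {x : L} : x ∈ repsO L ↔ ‖x‖ ≤ 1 := Iff.rfl

/-- the open unit ball, as an ideal of the closed unit ball -/
def repsM : Ideal (repsO L) where
  carrier := {x | ‖(x : L)‖ < 1}
  add_mem' := fun ha hb => (IsUltrametricDist.norm_add_le_max _ _).trans_lt (max_lt ha hb)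
  zero_mem' := by simp
  smul_mem' := by
    intro c x hx
    simp only [Set.mem_ofPred_eq, smul_eq_mul, Subring.coe_mul, norm_mul] at *
    exact mul_lt_one_of_nonneg_of_lt_one_right c.2 (norm_nonneg _) hx

variable {L} in
theorem mem_repsM {x : repsO L} : x ∈ repsM L ↔ ‖(x : L)‖ < 1 := Iff.rfl

instance repsM_isMaximal : (repsM L).IsMaximal := by
  rw [Ideal.isMaximal_iff]
  refine ⟨fun h => ?_, ?_⟩
  · have : ‖((1 : repsO L) : L)‖ < 1 := h
    simp at this
  · intro J x _ hx hxJ
    have hx1 : ‖(x : L)‖ = 1 := le_antisymm x.2 (not_lt.1 hx)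
    have hx0 : (x : L) ≠ 0 := by
      intro h0
      rw [h0, norm_zero] at hx1
      exact zero_ne_one hx1
    have hinv : (x : L)⁻¹ ∈ repsO L := by
      rw [mem_repsO, norm_inv, hx1, inv_one]
    have : (1 : repsO L) = ⟨(x : L)⁻¹, hinv⟩ * x := by
      apply Subtype.ext
      simp [hx0]
    rw [this]
    exact J.mul_mem_left _ hxJ

/-- the residue field of a normed ultrametric field -/
def ResField : Type := repsO L ⧸ repsM L

instance ResField.instField : Field (ResField L) :=
  Ideal.Quotient.field (repsM L)

/-- the reduction map -/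
def red : repsO L →+* ResField L := Ideal.Quotient.mk (repsM L)

variable {L}

theorem red_surjective : Function.Surjective (red L) := Ideal.Quotient.mk_surjective

theorem red_eq_red_iff {x y : repsO L} : red L x = red L y ↔ ‖(x : L) - (y : L)‖ < 1 :=
  (Ideal.Quotient.eq : Ideal.Quotient.mk (repsM L) x = Ideal.Quotient.mk (repsM L) y ↔
    x - y ∈ repsM L)

theorem red_eq_zero_iff {x : repsO L} : red L x = 0 ↔ ‖(x : L)‖ < 1 :=
  (Ideal.Quotient.eq_zero_iff_mem : Ideal.Quotient.mk (repsM L) x = 0 ↔ x ∈ repsM L)

/-- comparison of the residue field with the quotient defining `resCard`. -/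
def quotToResField :
    Quot (fun x y : {x : L // ‖x‖ ≤ 1} => ‖(x : L) - (y : L)‖ < 1) → ResField L :=
  Quot.lift (fun x => red L ⟨x.1, x.2⟩) (fun _ _ hab => red_eq_red_iff.2 hab)

theorem quotToResField_bijective : Function.Bijective (quotToResField (L := L)) := by
  constructor
  · intro a b
    induction a using Quot.ind with | _ a => ?_
    induction b using Quot.ind with | _ b => ?_
    intro hab
    exact Quot.sound (red_eq_red_iff.1 hab)
  · intro a
    obtain ⟨x, rfl⟩ := red_surjective a
    exact ⟨Quot.mk _ ⟨x.1, x.2⟩, rfl⟩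

theorem card_resField : Nat.card (ResField L) = resCard L :=
  (Nat.card_eq_of_bijective _ quotToResField_bijective).symm

theorem finite_resField (h : IsLoc L) : Finite (ResField L) := by
  obtain ⟨R, hR⟩ := h.resFinite
  let f : {r : L // r ∈ R ∧ ‖r‖ ≤ 1} → ResField L := fun r => red L ⟨r.1, r.2.2⟩
  have : Finite {r : L // r ∈ R ∧ ‖r‖ ≤ 1} :=
    Set.Finite.subset R.finite_toSet (fun r hr => hr.1)
  refine Finite.of_surjective f ?_
  intro a
  obtain ⟨x, rfl⟩ := red_surjective a
  obtain ⟨r, hr, hxr⟩ := hR x x.2
  have hr1 : ‖r‖ ≤ 1 := by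
    have : r = x + -(x - r) := by ring
    rw [this]
    exact (IsUltrametricDist.norm_add_le_max _ _).trans (max_le x.2 (by rw [norm_neg]; exact hxr.le))
  refine ⟨⟨r, hr, hr1⟩, ?_⟩
  rw [red_eq_red_iff, norm_sub_rev]
  exact hxr

/-- a section of the reduction map sending `0` to `0`. -/
def redSection (a : ResField L) : repsO L :=
  open Classical in if a = 0 then 0 else Function.surjInv red_surjective a

theorem red_redSection (a : ResField L) : red L (redSection a) = a := by
  unfold redSection
  split_ifs with h
  · rw [map_zero, h]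
  · exact Function.surjInv_eq red_surjective a

theorem redSection_zero : redSection (0 : ResField L) = 0 := by
  unfold redSection
  simp

theorem resField_pow_resCard (h : IsLoc L) (a : ResField L) : a ^ resCard L = a := by
  have := finite_resField h
  have := Fintype.ofFinite (ResField L)
  rw [← card_resField, Nat.card_eq_fintype_card]
  exact FiniteField.pow_card _

theorem norm_pow_resCard_sub_lt (h : IsLoc L) (x : L) (hx : ‖x‖ ≤ 1) :
    ‖x ^ resCard L - x‖ < 1 := by
  have h1 : red L ⟨x, hx⟩ ^ resCard L = red L ⟨x, hx⟩ := resField_pow_resCard h _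
  rw [← map_pow, red_eq_red_iff] at h1
  simpa using h1

theorem norm_resCard_lt (h : IsLoc L) : ‖(resCard L : L)‖ < 1 := by
  have := finite_resField h
  have := Fintype.ofFinite (ResField L)
  have h1 : red L (resCard L : repsO L) = 0 := by
    rw [map_natCast, ← card_resField, Nat.card_eq_fintype_card]
    exact Nat.cast_card_eq_zero _
  rw [red_eq_zero_iff] at h1
  simpa using h1

theorem one_lt_resCard (h : IsLoc L) : 1 < resCard L := by
  have := finite_resField h
  rw [← card_resField]
  exact Finite.one_lt_card

end ResField

/-- P1-A2 -/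
theorem reps : Stmt_reps := by
  intro L _ h
  have := h.ultra
  have hfin := finite_resField h
  have := Fintype.ofFinite (ResField L)
  classical
  refine ⟨?_, ?_, norm_pow_resCard_sub_lt h, norm_resCard_lt h, one_lt_resCard h⟩
  · have hinj : Function.Injective (fun a : ResField L => ((redSection a : repsO L) : L)) := by
      intro a b hab
      have : redSection a = redSection b := Subtype.ext hab
      rw [← red_redSection a, ← red_redSection b, this]
    refine ⟨Finset.univ.image (fun a : ResField L => ((redSection a : repsO L) : L)), ?_, ?_, ?_,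
      ?_, ?_⟩
    · rw [Finset.card_image_of_injective _ hinj, Finset.card_univ, ← card_resField,
        Nat.card_eq_fintype_card]
    · rw [Finset.mem_image]
      exact ⟨0, Finset.mem_univ _, by rw [redSection_zero]; rfl⟩
    · intro r hr
      obtain ⟨a, -, rfl⟩ := Finset.mem_image.1 hr
      exact (redSection a).2
    · intro r hr s hs hrs
      obtain ⟨a, -, rfl⟩ := Finset.mem_image.1 hr
      obtain ⟨b, -, rfl⟩ := Finset.mem_image.1 hs
      have := red_eq_red_iff.2 hrs
      rw [red_redSection, red_redSection] at this
      rw [this]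
    · intro x hx
      refine ⟨_, Finset.mem_image.2 ⟨red L ⟨x, hx⟩, Finset.mem_univ _, rfl⟩, ?_⟩
      have := red_redSection (red L ⟨x, hx⟩)
      rw [red_eq_red_iff, norm_sub_rev] at this
      exact this
  · intro T hT1 hT2
    rw [← card_resField, Nat.card_eq_fintype_card, ← Fintype.card_coe]
    refine Fintype.card_le_of_injective (fun r : T => red L ⟨r.1, hT1 r.1 r.2⟩) ?_
    intro r s hrs
    exact Subtype.ext (hT2 r.1 r.2 s.1 s.2 (red_eq_red_iff.1 hrs))

end Fermat.Agent.CFT.Local

end
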