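/-
TEAM CFT, sub-project P1 (local CFT), package P1-D3 (helper3): Galois conjugates of a root of unity
of order `q ^ r - 1` are `q`-power powers.

Proof: `g` induces a `k_E`-algebra endomorphism of the finite field `k_L`, hence a power of the
Frobenius `x ↦ x ^ q`; roots of unity of order prime to the residue characteristic are pairwise
incongruent.
-/
import Fermat.Agent.CFT.Local.Reps

set_option autoImplicit false

noncomputable section

namespace Fermat.Agent.CFT.Local

attribute [local instance] Units.mulDistribMulActionRight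
attribute [local instance] quotAct

section ResHom

variable {E L : Type} [NormedField E] [IsUltrametricDist E] [NormedField L] [IsUltrametricDist L]

/-- an isometric ring hom induces a ring hom of unit balls -/
def frobPowBallHom (f : E →+* L) (hf : ∀ x, ‖f x‖ = ‖x‖) : repsO E →+* repsO L where
  toFun x := ⟨f x, by rw [mem_repsO, hf]; exact x.2⟩
  map_one' := Subtype.ext (map_one f)
  map_mul' x y := Subtype.ext (map_mul f (x : E) (y : E))
  map_zero' := Subtype.ext (map_zero f)
  map_add' x y := Subtype.ext (map_add f (x : E) (y : E))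

theorem frobPowBallHom_coe (f : E →+* L) (hf : ∀ x, ‖f x‖ = ‖x‖) (x : repsO E) :
    ((frobPowBallHom f hf x : repsO L) : L) = f x := rfl

/-- an isometric ring hom induces a ring hom of residue fields -/
def frobPowResHom (f : E →+* L) (hf : ∀ x, ‖f x‖ = ‖x‖) : ResField E →+* ResField L :=
  Ideal.Quotient.lift (repsM E) ((red L).comp (frobPowBallHom f hf)) (by
    intro a ha
    rw [RingHom.comp_apply, red_eq_zero_iff, frobPowBallHom_coe, hf]
    exact ha)

theorem frobPowResHom_red (f : E →+* L) (hf : ∀ x, ‖f x‖ = ‖x‖) (x : repsO E) :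
    frobPowResHom f hf (red E x) = red L (frobPowBallHom f hf x) := rfl

end ResHom

section Roots

variable {L : Type} [NormedField L] [IsUltrametricDist L]

omit [IsUltrametricDist L] in
theorem frobPow_norm_eq_one_of_pow {x : L} {t : ℕ} (ht : t ≠ 0) (hx : x ^ t = 1) : ‖x‖ = 1 := by
  have h : ‖x‖ ^ t = 1 := by rw [← norm_pow, hx, norm_one]
  exact (pow_eq_one_iff_of_nonneg (norm_nonneg x) ht).1 h

theorem frobPow_norm_one_sub_pow {t : ℕ} (ht : ‖(t : L)‖ = 1) {ζ : L} (hζ : IsPrimitiveRoot ζ t)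
    {k : ℕ} (hk0 : 0 < k) (hk : k < t) : ‖1 - ζ ^ k‖ = 1 := by
  obtain ⟨n, rfl⟩ : ∃ n, t = n + 1 := ⟨t - 1, by omega⟩
  have hζ1 : ‖ζ‖ = 1 := frobPow_norm_eq_one_of_pow (Nat.succ_ne_zero n) hζ.pow_eq_one
  have hle : ∀ j : ℕ, ‖1 - ζ ^ j‖ ≤ 1 := by
    intro j
    rw [sub_eq_add_neg]
    refine (IsUltrametricDist.norm_add_le_max _ _).trans (max_le (by simp) ?_)
    rw [norm_neg, norm_pow, hζ1, one_pow]
  have hprod := hζ.prod_one_sub_pow_eq_order
  have hnorm : ∏ j ∈ Finset.range n, ‖1 - ζ ^ (j + 1)‖ = 1 := by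
    rw [← norm_prod, hprod, ← ht]
    push_cast
    rfl
  have hmem : k - 1 ∈ Finset.range n := Finset.mem_range.2 (by omega)
  rw [← Finset.mul_prod_erase _ _ hmem, show k - 1 + 1 = k by omega] at hnorm
  refine le_antisymm (hle k) ?_
  calc (1 : ℝ) = ‖1 - ζ ^ k‖ * ∏ j ∈ (Finset.range n).erase (k - 1), ‖1 - ζ ^ (j + 1)‖ := hnorm.symm
    _ ≤ ‖1 - ζ ^ k‖ * 1 := by
        refine mul_le_mul_of_nonneg_left ?_ (norm_nonneg _)
        exact Finset.prod_le_one (fun _ _ => norm_nonneg _) (fun j _ => hle (j + 1))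
    _ = ‖1 - ζ ^ k‖ := mul_one _

/-- roots of unity of order `t`, `‖t‖ = 1`, are pairwise incongruent. -/
theorem frobPow_eq_of_norm_sub_lt {t : ℕ} (ht : ‖(t : L)‖ = 1) {ζ : L} (hζ : IsPrimitiveRoot ζ t)
    {u w : L} (hu : u ^ t = 1) (hw : w ^ t = 1) (h : ‖u - w‖ < 1) : u = w := by
  have ht0 : t ≠ 0 := by
    rintro rfl
    simp at ht
  have hu1 : ‖u‖ = 1 := frobPow_norm_eq_one_of_pow ht0 hu
  have hu0 : u ≠ 0 := by
    rintro rfl
    simp at hu1
  have hx : (w * u⁻¹) ^ t = 1 := by rw [mul_pow, inv_pow, hu, hw, inv_one, mul_one]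
  have : NeZero t := ⟨ht0⟩
  obtain ⟨k, hk, hkx⟩ := hζ.eq_pow_of_pow_eq_one hx
  have hfac : u - w = u * (1 - ζ ^ k) := by
    rw [hkx]
    field_simp
  rcases Nat.eq_zero_or_pos k with rfl | hk0
  · rw [pow_zero] at hkx
    have : w = u := by
      have h2 := congrArg (· * u) hkx
      simp only [one_mul, mul_assoc, inv_mul_cancel₀ hu0, mul_one] at h2
      exact h2.symm
    exact this.symm
  · rw [hfac, norm_mul, hu1, one_mul, frobPow_norm_one_sub_pow ht hζ hk0 hk] at h
    exact absurd h (lt_irrefl _)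

end Roots

section Main

variable {G L : Type} [Group G] [Finite G] [NormedField L] [MulSemiringAction G L]

/-- every `g` acts on the residue field of `L` as a power of the `q`-Frobenius. -/
theorem frobPow_exists_pow (hL : LocAct G L) (hE : IsLoc (FixedPoints.subfield G L)) (g : G)
    (x : L) (hx : ‖x‖ ≤ 1) :
    ∃ n : ℕ, ‖g • x - x ^ (resCard (FixedPoints.subfield G L) ^ n)‖ < 1 := by
  have := hL.loc.ultra
  have := hE.ultra
  have hfinL := finite_resField hL.loc
  have hfinE := finite_resField hE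
  let _ : Fintype (ResField (FixedPoints.subfield G L)) := Fintype.ofFinite _
  have hsub : ∀ y : FixedPoints.subfield G L, ‖(FixedPoints.subfield G L).subtype y‖ = ‖y‖ :=
    fun _ => rfl
  have hiso : ∀ y : L, ‖MulSemiringAction.toRingHom G L g y‖ = ‖y‖ := fun y => hL.isom g y
  let ι : ResField (FixedPoints.subfield G L) →+* ResField L :=
    frobPowResHom (FixedPoints.subfield G L).subtype hsub
  let _ : Algebra (ResField (FixedPoints.subfield G L)) (ResField L) := ι.toAlgebra
  let γ : ResField L →+* ResField L :=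
    frobPowResHom (MulSemiringAction.toRingHom G L g) hiso
  let γ' : ResField L →ₐ[ResField (FixedPoints.subfield G L)] ResField L :=
    { γ with
      commutes' := by
        intro c
        obtain ⟨c, rfl⟩ := red_surjective c
        show frobPowResHom (MulSemiringAction.toRingHom G L g) hiso
          (frobPowResHom (FixedPoints.subfield G L).subtype hsub (red _ c)) =
          frobPowResHom (FixedPoints.subfield G L).subtype hsub (red _ c)
        rw [frobPowResHom_red, frobPowResHom_red]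
        congr 1
        apply Subtype.ext
        exact c.1.2 g }
  obtain ⟨n, hn⟩ := (FiniteField.bijective_frobeniusAlgHom_pow
    (ResField (FixedPoints.subfield G L)) (ResField L)).2 γ'
  refine ⟨n.1, ?_⟩
  have h1 := DFunLike.congr_fun hn (red L ⟨x, hx⟩)
  simp only [AlgHom.coe_pow, FiniteField.coe_frobeniusAlgHom, pow_iterate] at h1
  rw [← Nat.card_eq_fintype_card, card_resField, ← map_pow] at h1
  have h2 : γ' (red L ⟨x, hx⟩) = red L ⟨g • x, by rw [mem_repsO, hL.isom]; exact hx⟩ := rfl
  rw [h2, red_eq_red_iff] at h1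
  rw [norm_sub_rev]
  exact h1

end Main

/-- P1-D3 -/
theorem frobPow (_h1 : Stmt_reps) (h2 : Stmt_fixedLoc) : Stmt_frobPow := by
  intro G L _ _ _ _ hL r ζ hr hζ g
  have := hL.loc.ultra
  have hE := h2 G L hL
  have := hE.ultra
  set q := resCard (FixedPoints.subfield G L) with hq
  have hq1 : 1 < q := one_lt_resCard hE
  have hqn : ‖(q : L)‖ < 1 := by
    have h := norm_resCard_lt hE
    have h' : ((resCard (FixedPoints.subfield G L) : FixedPoints.subfield G L) : L) = (q : L) := by
      push_cast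
      rfl
    rw [← h']
    exact h
  have hqr : 1 ≤ q ^ r := Nat.one_le_pow _ _ (by omega)
  set t := q ^ r - 1 with ht
  have htn : ‖(t : L)‖ = 1 := by
    have h1 : (t : L) = (q : L) ^ r + (-1) := by
      rw [ht, Nat.cast_sub hqr]
      push_cast
      ring
    have h2 : ‖(q : L) ^ r‖ < 1 := by
      rw [norm_pow]
      exact pow_lt_one₀ (norm_nonneg _) hqn hr.ne'
    have h3 : ‖(-1 : L)‖ = 1 := by simp
    rw [h1, IsUltrametricDist.norm_add_eq_max_of_norm_ne_norm (by rw [h3]; exact h2.ne), h3]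
    exact max_eq_right h2.le
  have ht0 : t ≠ 0 := by
    rintro h
    rw [h] at htn
    simp at htn
  have hζ1 : ‖ζ‖ = 1 := frobPow_norm_eq_one_of_pow ht0 hζ.pow_eq_one
  obtain ⟨n, hn⟩ := frobPow_exists_pow hL hE g ζ hζ1.le
  have hg : (g • ζ) ^ t = 1 := by rw [← smul_pow', hζ.pow_eq_one, smul_one]
  have hp : (ζ ^ (q ^ n)) ^ t = 1 := by rw [← pow_mul, mul_comm, pow_mul, hζ.pow_eq_one, one_pow]
  have heq : g • ζ = ζ ^ (q ^ n) := frobPow_eq_of_norm_sub_lt htn hζ hg hp hn
  -- reduce the exponent modulo `r`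
  have hζq : ζ ^ (q ^ r) = ζ := by
    have : q ^ r = t + 1 := by omega
    rw [this, pow_succ, hζ.pow_eq_one, one_mul]
  have hiter : ∀ m : ℕ, ζ ^ ((q ^ r) ^ m) = ζ := by
    intro m
    induction m with
    | zero => simp
    | succ m ih => rw [pow_succ, pow_mul, ih, hζq]
  refine ⟨n % r, Nat.mod_lt _ hr, ?_⟩
  rw [heq]
  conv_lhs => rw [← Nat.div_add_mod n r, pow_add, pow_mul, pow_mul, hiter]

end Fermat.Agent.CFT.Local

end
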