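import Fermat.Agent.CFT.Local.Interface

/-!
# CFT / Local, package P1-E1 : `H²(G, Lˣ)` contains an element of order `|G|` (helper70)
-/

set_option autoImplicit false

noncomputable section

namespace Fermat.Agent.CFT.Local

open CategoryTheory CategoryTheory.Limits groupCohomology

attribute [local instance] Units.mulDistribMulActionRight
attribute [local instance] quotAct

/-! ### transport of `resCard` -/

theorem Fund_resCard_eq {E₁ E₂ : Type} [NormedField E₁] [NormedField E₂] (i : E₁ →+* E₂)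
    (hi : ∀ x, ‖i x‖ = ‖x‖) (hs : Function.Surjective i) : resCard E₁ = resCard E₂ := by
  unfold resCard
  let e0 : E₁ ≃ E₂ := Equiv.ofBijective i ⟨i.injective, hs⟩
  let e : {x : E₁ // ‖x‖ ≤ 1} ≃ {x : E₂ // ‖x‖ ≤ 1} :=
    Equiv.subtypeEquiv e0 (fun x => by
      show ‖x‖ ≤ 1 ↔ ‖i x‖ ≤ 1
      rw [hi])
  refine Nat.card_congr (Quot.congr e ?_)
  intro a b
  show ‖(a : E₁) - b‖ < 1 ↔ ‖i a - i b‖ < 1
  rw [← map_sub, hi]

section Ext

variable {G L G' L' : Type} [Group G] [NormedField L] [MulSemiringAction G L]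
  [Group G'] [NormedField L'] [MulSemiringAction G' L'] (X : LocExt G L G' L')

theorem Fund_smul_j_of_fixed {x : L} (hx : ∀ g : G, g • x = x) (g : G') : g • X.j x = X.j x := by
  rw [← X.equivariant, hx]

theorem Fund_smul_j_of_ker (x : L) {g : G'} (hg : g ∈ X.f.ker) : g • X.j x = X.j x := by
  rw [← X.equivariant, MonoidHom.mem_ker.mp hg, one_smul]

theorem Fund_exists_of_fixed {y : L'} (hy : ∀ g : G', g • y = y) :
    ∃ x : L, (∀ g : G, g • x = x) ∧ X.j x = y := by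
  obtain ⟨x, rfl⟩ := X.range y (fun g _ => hy g)
  refine ⟨x, fun g => ?_, rfl⟩
  obtain ⟨g', rfl⟩ := X.surj g
  apply X.j.injective
  rw [X.equivariant, hy]

/-- `L^G → L'^G'` -/
def Fund_jE : FixedPoints.subfield G L →+* FixedPoints.subfield G' L' :=
  (X.j.comp (FixedPoints.subfield G L).subtype).codRestrict (FixedPoints.subfield G' L')
    (fun x g => Fund_smul_j_of_fixed X x.2 g)

/-- `L → L'^(ker f)` -/
def Fund_jL : L →+* FixedPoints.subfield X.f.ker L' :=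
  X.j.codRestrict (FixedPoints.subfield X.f.ker L') (fun x g => Fund_smul_j_of_ker X x g.2)

include X in
theorem Fund_resCard_E :
    resCard (FixedPoints.subfield G' L') = resCard (FixedPoints.subfield G L) := by
  refine (Fund_resCard_eq (Fund_jE X) (fun x => X.isom x) ?_).symm
  intro y
  obtain ⟨x, hx, hxy⟩ := Fund_exists_of_fixed X y.2
  exact ⟨⟨x, hx⟩, Subtype.ext hxy⟩

theorem Fund_resCard_L : resCard (FixedPoints.subfield X.f.ker L') = resCard L := by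
  refine (Fund_resCard_eq (Fund_jL X) (fun x => X.isom x) ?_).symm
  intro y
  obtain ⟨x, hx⟩ := X.range y (fun g hg => y.2 ⟨g, hg⟩)
  exact ⟨x, Subtype.ext hx⟩

end Ext

/-! ### the order of the inflated cyclic class -/

theorem Fund_val_smul {G L : Type} [Group G] [Field L] [MulSemiringAction G L] (g : G) (b : Lˣ) :
    ((g • b : Lˣ) : L) = g • (b : L) := rfl

theorem Fund_norm_smul_unit {G L : Type} [Group G] [Finite G] [NormedField L]
    [MulSemiringAction G L] (hLA : LocAct G L) (g : G) (b : Lˣ) :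
    ‖((g • b : Lˣ) : L)‖ = ‖(b : L)‖ := by
  rw [Fund_val_smul, hLA.isom]

theorem Fund_order (hc : Stmt_infCycCocycle) (hI : Stmt_infCyc)
    {G L : Type} [Group G] [Finite G] [NormedField L] [MulSemiringAction G L] (hLA : LocAct G L)
    (N : Subgroup G) [N.Normal] (φ : G) (hφ : ∀ x : G ⧸ N, x ∈ Subgroup.zpowers (φ : G ⧸ N))
    (a : Lˣ) (ha : a ∈ fixedU G L) (hu : IsUnifFix N (a : L)) (m : ℤ)
    (hm : m • (H2π (unitsRep G L)).hom ⟨_, hc G L N φ hφ a ha⟩ = 0) :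
    (Nat.card (G ⧸ N) : ℤ) ∣ m := by
  have := hLA.faithful
  obtain ⟨h1, h2⟩ := hI G L N φ hφ (hc G L N φ hφ)
  rw [h1 a ha m] at hm
  obtain ⟨b, hbN, hb⟩ := (h2 (a ^ m) ((fixedU G L).zpow_mem ha m)).mp hm
  obtain ⟨k, hk⟩ := hu.2.2.2 (b : L) b.ne_zero (fun h hh => by
    have := congrArg Units.val (hbN h hh)
    rwa [Fund_val_smul] at this)
  have hnorm : ‖(a : L)‖ ^ m = ‖(b : L)‖ ^ Nat.card (G ⧸ N) := by
    have h3 := congrArg (fun x : Lˣ => ‖(x : L)‖) hb
    simp only [Units.val_zpow_eq_zpow_val, norm_zpow, Units.coe_prod, norm_prod,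
      Fund_norm_smul_unit hLA, Finset.prod_const, Finset.card_range] at h3
    exact h3
  rw [hk, ← zpow_natCast, ← zpow_mul] at hnorm
  have h0 : 0 < ‖(a : L)‖ := norm_pos_iff.mpr a.ne_zero
  have hinj := zpow_right_injective₀ h0 (ne_of_lt hu.2.1) hnorm
  exact ⟨k, by rw [hinj]; ring⟩

/-! ### vanishing of the restriction -/

theorem Fund_ofMul_normHom {H L : Type} [Group H] [Finite H] [Field L] [MulSemiringAction H L]
    (b : Lˣ) : (Additive.ofMul (normHom H L b) : unitsRep H L) =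
      ∑ᶠ y : H, (unitsRep H L).ρ y (Additive.ofMul b) := by
  classical
  have := Fintype.ofFinite H
  rw [finsum_eq_sum_of_fintype]
  show Additive.ofMul (∏ᶠ g : H, g • b) = _
  rw [finprod_eq_prod_of_fintype, ofMul_prod]
  rfl

theorem Fund_res_zero (hN : Stmt_unramNorm) (hRes : Stmt_resInfCyc) (hcyc : P0.Stmt_cycH2)
    {G L : Type} [Group G] [Finite G] [NormedField L] [MulSemiringAction G L] (hLA : LocAct G L)
    (N : Subgroup G) [N.Normal] (φ : G) (hφ : ∀ x : G ⧸ N, x ∈ Subgroup.zpowers (φ : G ⧸ N))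
    (H : Subgroup G) (ψ : H) (hHN : H ⊓ N = ⊥) (hψ : ∀ x : H, x ∈ Subgroup.zpowers ψ)
    (hrel : ((ψ : G) : G ⧸ N) = (φ : G ⧸ N) ^ (Nat.card (G ⧸ N) / Nat.card H))
    (a : Lˣ) (ha : a ∈ fixedU G L) (h1 : infCyc G L N φ a ∈ cocycles₂ (unitsRep G L))
    (ϖ : L) (hϖ : IsUnif ϖ) (hϖH : ∀ h : H, h • ϖ = ϖ) (hnorm : ‖(a : L)‖ = ‖ϖ‖ ^ Nat.card H) :
    (P0.resMap (unitsRep G L) H 2).hom ((H2π (unitsRep G L)).hom ⟨_, h1⟩) = 0 := by
  obtain ⟨c1, -, c3⟩ := hcyc H ψ hψ (unitsRep H L)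
  have hinv : ∀ y : H, (unitsRep H L).ρ y (Additive.ofMul a) = Additive.ofMul a := by
    intro y
    exact congrArg Additive.ofMul (ha (y : G))
  have h2 := c1 (Additive.ofMul a) hinv
  rw [hRes G L N φ hφ H ψ hHN hψ hrel a h1 h2]
  have hcycH : IsCyclic H := ⟨ψ, hψ⟩
  have haH : a ∈ fixedU H L := fun y => ha (y : G)
  obtain ⟨b, hb⟩ := (hN H L (hLA.subgroup H) hcycH ⟨ϖ, hϖ, hϖH⟩ a haH).mpr
    ⟨Units.mk0 ϖ hϖ.1, hnorm⟩
  exact (c3 _ h2 hinv).mpr ⟨Additive.ofMul b, by rw [← Fund_ofMul_normHom, hb]⟩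

/-! ### descent along the inflation map -/

section Inf

variable {G L G' L' : Type} [Group G] [NormedField L] [MulSemiringAction G L]
  [Group G'] [NormedField L'] [MulSemiringAction G' L'] (X : LocExt G L G' L')

/-- `Lˣ → L'ˣ` as a morphism of `G'`-modules -/
def Fund_phi : Rep.res X.f (unitsRep G L) ⟶ unitsRep G' L' :=
  Rep.ofHom ⟨(MonoidHom.toAdditive (Units.map (X.j : L →* L'))).toIntLinearMap, fun g => by
    ext a
    exact X.equivariant g _⟩

theorem Fund_phi_apply (a : Lˣ) :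
    (Fund_phi X).hom (Additive.ofMul a : Additive Lˣ) =
      (Additive.ofMul (Units.map (X.j : L →* L') a) : Additive L'ˣ) := rfl

theorem Fund_descend (hIR : Stmt_infResGen) (h90 : Stmt_h90) [Finite G'] (hLA' : LocAct G' L')
    (u : groupCohomology (unitsRep G' L') 2)
    (hres : (P0.resMap (unitsRep G' L') X.f.ker 2).hom u = 0) (n : ℤ)
    (hord : ∀ m : ℤ, m • u = 0 → n ∣ m) :
    ∃ γ : groupCohomology (unitsRep G L) 2, ∀ m : ℤ, m • γ = 0 → n ∣ m := by
  have hfaith : FaithfulSMul X.f.ker L' := (hLA'.subgroup X.f.ker).faithful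
  have hinj : Function.Injective (Fund_phi X).hom := by
    intro a b hab
    have h1 : Units.map (X.j : L →* L') (Additive.toMul a)
        = Units.map (X.j : L →* L') (Additive.toMul b) := hab
    have h2 := congrArg Units.val h1
    apply Additive.toMul.injective
    apply Units.ext
    exact X.j.injective h2
  have hfix : ∀ a' : unitsRep G' L', (∀ n ∈ X.f.ker, (unitsRep G' L').ρ n a' = a') →
      ∃ a : unitsRep G L, (Fund_phi X).hom a = a' := by
    intro a' ha'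
    obtain ⟨x, hx⟩ := X.range ((Additive.toMul a' : L'ˣ) : L') (fun g hg => by
      have := congrArg (fun z : Additive L'ˣ => ((Additive.toMul z : L'ˣ) : L')) (ha' g hg)
      exact this)
    have hx0 : x ≠ 0 := by
      rintro rfl
      rw [map_zero] at hx
      exact (Additive.toMul a' : L'ˣ).ne_zero hx.symm
    refine ⟨Additive.ofMul (Units.mk0 x hx0), ?_⟩
    apply Additive.toMul.injective
    apply Units.ext
    exact hx
  have hvan : ∀ i : ℕ, 0 < i → i < 1 + 1 →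
      IsZero (groupCohomology (Rep.res X.f.ker.subtype (unitsRep G' L')) i) := by
    intro i hi0 hi2
    obtain rfl : i = 1 := by omega
    exact (h90 X.f.ker L').1
  obtain ⟨-, hex⟩ := hIR G G' X.f (unitsRep G L) (unitsRep G' L') (Fund_phi X) X.surj hinj hfix 1
    hvan
  obtain ⟨γ, hγ⟩ := hex u hres
  refine ⟨γ, fun m hm => hord m ?_⟩
  rw [← hγ, ← map_zsmul, hm, map_zero]

end Inf

/-! ### roots of unity -/

theorem Fund_stab_normal {G L : Type} [Group G] [Field L] [MulSemiringAction G L] {ζ : L} {t : ℕ}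
    (ht : 0 < t) (hζ : IsPrimitiveRoot ζ t) : (MulAction.stabilizer G ζ).Normal := by
  have : NeZero t := ⟨ht.ne'⟩
  constructor
  intro n hn g
  rw [MulAction.mem_stabilizer_iff] at hn ⊢
  have h1 : (g⁻¹ • ζ) ^ t = 1 := by rw [← smul_pow', hζ.pow_eq_one, smul_one]
  obtain ⟨i, -, hi⟩ := hζ.eq_pow_of_pow_eq_one h1
  rw [mul_smul, mul_smul, ← hi, smul_pow', hn, hi, smul_inv_smul]

theorem Fund_pow_smul {G L : Type} [Group G] [Field L] [MulSemiringAction G L] (φ : G) (ζ : L)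
    (q : ℕ) (h : φ • ζ = ζ ^ q) (i : ℕ) : φ ^ i • ζ = ζ ^ (q ^ i) := by
  induction i with
  | zero => simp
  | succ i ih => rw [pow_succ', mul_smul, ih, smul_pow', h, ← pow_mul, pow_succ']

theorem Fund_exists_nat_exp {L : Type} [NormedField L] {ϖ a : L} (hϖ : IsUnif ϖ) (ha0 : a ≠ 0)
    (ha1 : ‖a‖ < 1) : ∃ e : ℕ, 0 < e ∧ ‖a‖ = ‖ϖ‖ ^ e := by
  obtain ⟨k, hk⟩ := hϖ.2.2 a ha0
  have h0 : 0 < ‖ϖ‖ := norm_pos_iff.mpr hϖ.1
  have hkpos : 0 < k := by
    by_contra hcon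
    push Not at hcon
    have h1 : 1 ≤ ‖ϖ‖ ^ k := by
      obtain ⟨j, rfl⟩ : ∃ j : ℕ, k = -(j : ℤ) := ⟨(-k).toNat, by omega⟩
      rw [zpow_neg, zpow_natCast]
      exact (one_le_inv₀ (pow_pos h0 j)).mpr (pow_le_one₀ h0.le hϖ.2.1.le)
    rw [← hk] at h1
    exact absurd ha1 (not_lt.mpr h1)
  refine ⟨k.toNat, by omega, ?_⟩
  rw [hk, ← zpow_natCast, Int.toNat_of_nonneg hkpos.le]

/-! ### the core argument -/

theorem Fund_core (hU : Stmt_unram) (hC : Stmt_card) (hN : Stmt_unramNorm) (hR : Stmt_reps)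
    (hF : Stmt_fixedLoc) (h90 : Stmt_h90) (hIR : Stmt_infResGen) (hc : Stmt_infCycCocycle)
    (hI : Stmt_infCyc) (hRes : Stmt_resInfCyc) (hcyc : P0.Stmt_cycH2)
    {G L G' L' : Type} [Group G] [Finite G] [NormedField L] [MulSemiringAction G L]
    [Group G'] [Finite G'] [NormedField L'] [MulSemiringAction G' L']
    (hLA : LocAct G L) (hLA' : LocAct G' L') (X : LocExt G L G' L') (ζ : L')
    (hζ : IsPrimitiveRoot ζ (resCard (FixedPoints.subfield G L) ^ Nat.card G - 1))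
    (hker : ∀ g ∈ X.f.ker, g • ζ = ζ → g = 1) :
    ∃ γ : groupCohomology (unitsRep G L) 2, ∀ m : ℤ, m • γ = 0 → (Nat.card G : ℤ) ∣ m := by
  set n := Nat.card G with hn
  have hn0 : 0 < n := Nat.card_pos
  set q := resCard (FixedPoints.subfield G L) with hq
  set Q := resCard L with hQ
  have hEloc : IsLoc (FixedPoints.subfield G L) := hF G L hLA
  have hq1 : 1 < q := (hR _ hEloc).2.2.2.2
  have ht0 : 0 < q ^ n - 1 := by
    have : 1 < q ^ n := Nat.one_lt_pow hn0.ne' hq1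
    omega
  -- uniformizers
  obtain ⟨ϖE, hϖE⟩ := hEloc.unif
  obtain ⟨ϖL, hϖL⟩ := hLA.loc.unif
  have hϖE0 : (ϖE : L) ≠ 0 := fun h => hϖE.1 (Subtype.ext h)
  have hϖE1 : ‖(ϖE : L)‖ < 1 := hϖE.2.1
  have hfixE : IsUnifFix (⊤ : Subgroup G) (ϖE : L) := by
    refine ⟨hϖE0, hϖE1, fun h _ => ϖE.2 h, fun x hx hfix => ?_⟩
    obtain ⟨k, hk⟩ := hϖE.2.2 ⟨x, fun g => hfix g (Subgroup.mem_top g)⟩
      (fun h => hx (congrArg Subtype.val h))
    exact ⟨k, hk⟩
  obtain ⟨e, he0, he⟩ := Fund_exists_nat_exp hϖL hϖE0 hϖE1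
  have hcard : Q ^ e = q ^ n := hC G L hLA ϖE ϖL e hfixE hϖL he
  -- the stabiliser of `ζ`
  have hN2 : (MulAction.stabilizer G' ζ).Normal := Fund_stab_normal ht0 hζ
  have hζ' : IsPrimitiveRoot ζ (resCard (FixedPoints.subfield G' L') ^ n - 1) := by
    rw [Fund_resCard_E X]
    exact hζ
  obtain ⟨hcardN2, ⟨φ, hφζ, hφgen⟩, hunifN2⟩ :=
    hU G' L' hLA' n ζ hn0 hζ' (MulAction.stabilizer G' ζ) (fun g => MulAction.mem_stabilizer_iff)
  rw [Fund_resCard_E X] at hφζ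
  -- the kernel of `f`
  have hζ'' : IsPrimitiveRoot ζ (resCard (FixedPoints.subfield X.f.ker L') ^ e - 1) := by
    rw [Fund_resCard_L X, hcard]
    exact hζ
  obtain ⟨hcardN1, ⟨ψ, hψζ, hψgen⟩, hunifbot⟩ :=
    hU X.f.ker L' (hLA'.subgroup X.f.ker) e ζ he0 hζ'' (⊥ : Subgroup X.f.ker) (fun g => by
      constructor
      · intro hg
        rw [Subgroup.mem_bot.mp hg, one_smul]
      · intro hg
        exact Subgroup.mem_bot.mpr (Subtype.ext (hker g.1 g.2 hg)))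
  rw [Fund_resCard_L X] at hψζ
  have hcardN1' : Nat.card X.f.ker = e := by
    rw [← Subgroup.index_bot]
    exact hcardN1
  have hψ : ∀ x : X.f.ker, x ∈ Subgroup.zpowers ψ := by
    intro x
    obtain ⟨k, hk⟩ := Subgroup.mem_zpowers_iff.mp (hψgen (x : X.f.ker ⧸ (⊥ : Subgroup X.f.ker)))
    have h1 : ((ψ ^ k : X.f.ker) : X.f.ker ⧸ (⊥ : Subgroup X.f.ker)) = x := hk
    have h2 := Subgroup.mem_bot.mp (QuotientGroup.eq.mp h1)
    exact Subgroup.mem_zpowers_iff.mpr ⟨k, by rw [inv_mul_eq_one] at h2; exact h2⟩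
  -- uniformizer of `L'`
  have hjL0 : X.j ϖL ≠ 0 := (map_ne_zero X.j).mpr hϖL.1
  have hunifL' : IsUnif (X.j ϖL) := by
    have h1 : IsUnifFix (⊤ : Subgroup X.f.ker) (X.j ϖL) := by
      refine ⟨hjL0, by rw [X.isom]; exact hϖL.2.1, fun h _ => Fund_smul_j_of_ker X ϖL h.2,
        fun x hx hfix => ?_⟩
      obtain ⟨x₀, rfl⟩ := X.range x (fun g hg => hfix ⟨g, hg⟩ (Subgroup.mem_top _))
      obtain ⟨k, hk⟩ := hϖL.2.2 x₀ (fun h => hx (by rw [h, map_zero]))
      exact ⟨k, by rw [X.isom, X.isom, hk]⟩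
    have h2 := hunifbot _ h1
    exact ⟨h2.1, h2.2.1, fun x hx => h2.2.2.2 x hx (fun h hh => by
      rw [Subgroup.mem_bot.mp hh, one_smul])⟩
  -- the element `a = j ϖE`
  have hjE0 : X.j (ϖE : L) ≠ 0 := (map_ne_zero X.j).mpr hϖE0
  have ha : Units.mk0 (X.j (ϖE : L)) hjE0 ∈ fixedU G' L' := fun g =>
    Units.ext (Fund_smul_j_of_fixed X ϖE.2 g)
  have hunifa : IsUnifFix (MulAction.stabilizer G' ζ) (X.j (ϖE : L)) := by
    apply hunifN2
    refine ⟨hjE0, by rw [X.isom]; exact hϖE1, fun h _ => Fund_smul_j_of_fixed X ϖE.2 h,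
      fun x hx hfix => ?_⟩
    obtain ⟨x₀, hx₀, rfl⟩ := Fund_exists_of_fixed X (fun g => hfix g (Subgroup.mem_top g))
    obtain ⟨k, hk⟩ := hfixE.2.2.2 x₀ (fun h => hx (by rw [h, map_zero])) (fun g _ => hx₀ g)
    exact ⟨k, by rw [X.isom, X.isom, hk]⟩
  -- group theory
  have hHN : X.f.ker ⊓ MulAction.stabilizer G' ζ = ⊥ := by
    rw [eq_bot_iff]
    rintro g ⟨hg1, hg2⟩
    exact Subgroup.mem_bot.mpr (hker g hg1 (MulAction.mem_stabilizer_iff.mp hg2))
  have hedvd : e ∣ n := by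
    rw [← hcardN1', ← hcardN2]
    refine Subgroup.card_dvd_of_injective
      ((QuotientGroup.mk' (MulAction.stabilizer G' ζ)).comp X.f.ker.subtype) ?_
    rw [injective_iff_map_eq_one]
    intro g hg
    have h1 : (g : G') ∈ MulAction.stabilizer G' ζ := (QuotientGroup.eq_one_iff _).mp hg
    exact Subtype.ext (hker g.1 g.2 (MulAction.mem_stabilizer_iff.mp h1))
  have hQq : Q = q ^ (n / e) := by
    apply Nat.pow_left_injective (n := e) he0.ne'
    show Q ^ e = (q ^ (n / e)) ^ e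
    rw [hcard, ← pow_mul, Nat.div_mul_cancel hedvd]
  have hrel : ((ψ : G') : G' ⧸ MulAction.stabilizer G' ζ) =
      (φ : G' ⧸ MulAction.stabilizer G' ζ) ^
        (Nat.card (G' ⧸ MulAction.stabilizer G' ζ) / Nat.card X.f.ker) := by
    rw [hcardN2, hcardN1', ← QuotientGroup.mk_pow, QuotientGroup.eq, MulAction.mem_stabilizer_iff,
      mul_smul, Fund_pow_smul φ ζ q hφζ, ← hQq, inv_smul_eq_iff]
    exact hψζ.symm
  have hnorm : ‖((Units.mk0 (X.j (ϖE : L)) hjE0 : L'ˣ) : L')‖ = ‖X.j ϖL‖ ^ Nat.card X.f.ker := by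
    rw [hcardN1', Units.val_mk0, X.isom, X.isom, he]
  -- conclusion
  refine Fund_descend X hIR h90 hLA'
    ((H2π (unitsRep G' L')).hom ⟨_, hc G' L' (MulAction.stabilizer G' ζ) φ hφgen _ ha⟩) ?_ n ?_
  · exact Fund_res_zero hN hRes hcyc hLA' (MulAction.stabilizer G' ζ) φ hφgen X.f.ker ψ hHN hψ hrel
      _ ha _ (X.j ϖL) hunifL' (fun h => Fund_smul_j_of_ker X ϖL h.2) hnorm
  · intro m hm
    rw [← hcardN2]
    exact Fund_order hc hI hLA' (MulAction.stabilizer G' ζ) φ hφgen _ ha hunifa m hm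

theorem fund (hExt : Stmt_cycloExt) (hU : Stmt_unram) (hC : Stmt_card) (hN : Stmt_unramNorm)
    (hR : Stmt_reps) (hF : Stmt_fixedLoc) (h90 : Stmt_h90) (hIR : Stmt_infResGen)
    (hc : Stmt_infCycCocycle) (hI : Stmt_infCyc) (hRes : Stmt_resInfCyc) (hcyc : P0.Stmt_cycH2) :
    Stmt_fund := by
  intro G L _ _ _ _ hLA
  have hEloc : IsLoc (FixedPoints.subfield G L) := hF G L hLA
  obtain ⟨-, -, -, hqn, hq1⟩ := hR _ hEloc
  have hn0 : 0 < Nat.card G := Nat.card_pos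
  have ht : ((resCard (FixedPoints.subfield G L) ^ Nat.card G - 1 : ℕ) : L) ≠ 0 := by
    intro h0
    have h1 : 1 ≤ resCard (FixedPoints.subfield G L) ^ Nat.card G :=
      Nat.one_le_pow _ _ (by omega)
    rw [Nat.cast_sub h1, Nat.cast_pow, Nat.cast_one, sub_eq_zero] at h0
    have h2 : ‖(resCard (FixedPoints.subfield G L) : L)‖ < 1 := by
      have h3 : ((resCard (FixedPoints.subfield G L) : FixedPoints.subfield G L) : L)
          = (resCard (FixedPoints.subfield G L) : L) := by simp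
      rw [← h3]
      exact hqn
    have h4 := congrArg norm h0
    rw [norm_pow, norm_one] at h4
    exact absurd h4 (ne_of_lt (pow_lt_one₀ (norm_nonneg _) h2 hn0.ne'))
  obtain ⟨G', L', _, _, _, _, X, ζ, hLA', hζ, hker⟩ := hExt G L hLA _ ht
  exact Fund_core hU hC hN hR hF h90 hIR hc hI hRes hcyc hLA hLA' X ζ hζ hker

end Fermat.Agent.CFT.Local

end
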