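/-
TEAM CFT, sub-project P1, package B1: Hilbert 90 for a finite group acting faithfully on a field.
-/
import Fermat.Agent.CFT.Local.Interface

set_option autoImplicit false

noncomputable section

namespace Fermat.Agent.CFT.Local

open CategoryTheory CategoryTheory.Limits groupCohomology

attribute [local instance] Units.mulDistribMulActionRight
attribute [local instance] quotAct

section

variable {G L : Type} [Group G] [Field L] [MulSemiringAction G L] [FaithfulSMul G L]

/-- Dedekind: the automorphisms `x ↦ g • x` are linearly independent over `L`. -/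
theorem H90_linearIndependent :
    LinearIndependent L (fun g : G => (fun x : L => g • x)) := by
  have h := LinearIndependent.comp (linearIndependent_monoidHom L L)
    (fun g : G => ((MulSemiringAction.toRingHom G L g : L →+* L) : L →* L))
    (fun a b hab => by
      apply toRingHom_injective G L
      ext x
      exact DFunLike.congr_fun hab x)
  exact h

omit [FaithfulSMul G L] in
theorem H90_smul_val (g : G) (u : Lˣ) : ((g • u : Lˣ) : L) = g • (u : L) := rfl

/-- Noether's form of Hilbert 90. -/
theorem H90_isMulCoboundary₁ [Finite G] (f : G → Lˣ) (hf : IsMulCocycle₁ f) :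
    IsMulCoboundary₁ f := by
  classical
  have := Fintype.ofFinite G
  obtain ⟨z, hz⟩ : ∃ z : L, ∑ h : G, (f h : L) * h • z ≠ 0 := by
    by_contra hcon
    push Not at hcon
    have h0 := (Fintype.linearIndependent_iff.1 (H90_linearIndependent (G := G) (L := L)))
      (fun h => (f h : L)) (by
        funext z
        simpa [Finset.sum_apply] using hcon z) 1
    exact (f 1).ne_zero h0
  refine ⟨(Units.mk0 _ hz)⁻¹, fun g => ?_⟩
  have key : (f g : L) * g • (∑ h : G, (f h : L) * h • z) = ∑ h : G, (f h : L) * h • z := by
    rw [Finset.smul_sum, Finset.mul_sum]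
    have h1 : ∀ h : G, (f g : L) * g • ((f h : L) * h • z) =
        (fun i : G => (f i : L) * i • z) (g * h) := by
      intro h
      simp only []
      rw [hf g h, smul_mul', Units.val_mul, H90_smul_val, mul_smul]
      ring
    rw [Finset.sum_congr rfl (fun h _ => h1 h)]
    exact Fintype.sum_bijective (fun i => g * i) (Group.mulLeft_bijective g) _ _ (fun i => rfl)
  rw [smul_inv', div_inv_eq_mul, inv_mul_eq_iff_eq_mul]
  apply Units.ext
  rw [Units.val_mul, H90_smul_val, Units.val_mk0, mul_comm]
  exact key.symm

theorem H90_isZero [Finite G] : IsZero (groupCohomology (unitsRep G L) 1) := by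
  have : Subsingleton (H1 (unitsRep G L)) := by
    refine ⟨fun a b => ?_⟩
    have h0 : ∀ a : H1 (unitsRep G L), a = 0 := fun a =>
      H1_induction_on a fun x => (H1π_eq_zero_iff _).2 <| by
        refine (coboundariesOfIsMulCoboundary₁ ?_).2
        rcases H90_isMulCoboundary₁ x.1 (isMulCocycle₁_of_mem_cocycles₁ _ x.2) with ⟨β, hβ⟩
        use β
    rw [h0 a, h0 b]
  exact ModuleCat.isZero_of_subsingleton _

omit [Field L] [MulSemiringAction G L] [FaithfulSMul G L] in
/-- products over a finite cyclic group -/
theorem H90_finprod_eq [Finite G] {M : Type} [CommMonoid M] (σ : G)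
    (hσ : ∀ g : G, g ∈ Subgroup.zpowers σ) (F : G → M) :
    ∏ᶠ g : G, F g = ∏ j ∈ Finset.range (Nat.card G), F (σ ^ j) := by
  classical
  have := Fintype.ofFinite G
  have hord : orderOf σ = Nat.card G := orderOf_eq_card_of_forall_mem_zpowers hσ
  rw [finprod_eq_prod_of_fintype]
  symm
  refine Finset.prod_bij (fun j _ => σ ^ j) (fun _ _ => Finset.mem_univ _) ?_ ?_ (fun _ _ => rfl)
  · intro a ha b hb hab
    rw [Finset.mem_range, ← hord] at ha hb
    exact pow_injOn_Iio_orderOf ha hb hab
  · intro g _
    have hg : g ∈ Submonoid.powers σ := (mem_powers_iff_mem_zpowers).2 (hσ g)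
    rw [mem_powers_iff_mem_range_orderOf] at hg
    obtain ⟨k, hk, rfl⟩ := Finset.mem_image.1 hg
    exact ⟨k, by rwa [← hord], rfl⟩

/-- the classical form of Hilbert 90 -/
theorem H90_cyclic [Finite G] (σ : G) (hσ : ∀ g : G, g ∈ Subgroup.zpowers σ) (x : Lˣ)
    (hx : normHom G L x = 1) : ∃ y : Lˣ, σ • y / y = x := by
  classical
  set n := Nat.card G with hn
  have hord : orderOf σ = n := orderOf_eq_card_of_forall_mem_zpowers hσ
  have hnpos : 0 < n := Nat.card_pos
  set P : ℕ → Lˣ := fun i => ∏ j ∈ Finset.range i, σ ^ j • x with hP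
  have hP0 : P 0 = 1 := by simp [hP]
  have hPn : P n = 1 := by
    rw [← hx]
    exact (H90_finprod_eq σ hσ (fun g => g • x)).symm
  have hPs : ∀ i, P (i + 1) = x * σ • P i := by
    intro i
    simp only [hP]
    rw [Finset.prod_range_succ', pow_zero, one_smul, mul_comm, Finset.smul_prod']
    congr 1
    refine Finset.prod_congr rfl fun j _ => ?_
    rw [smul_smul, pow_succ']
  -- independence
  have hind : LinearIndependent L (fun i : Fin n => (fun z : L => σ ^ (i : ℕ) • z)) := by
    refine LinearIndependent.comp (H90_linearIndependent (G := G) (L := L))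
      (fun i : Fin n => σ ^ (i : ℕ)) ?_
    intro a b hab
    apply Fin.ext
    exact pow_injOn_Iio_orderOf (by rw [hord]; exact a.2) (by rw [hord]; exact b.2) hab
  obtain ⟨z, hz⟩ : ∃ z : L, ∑ i ∈ Finset.range n, (P i : L) * σ ^ i • z ≠ 0 := by
    by_contra hcon
    push Not at hcon
    have h0 := (Fintype.linearIndependent_iff.1 hind) (fun i => (P i : L)) (by
        funext z
        have := hcon z
        rw [← Fin.sum_univ_eq_sum_range (fun i => (P i : L) * σ ^ i • z) n] at this
        simpa [Finset.sum_apply] using this) ⟨0, hnpos⟩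
    simp only [hP0] at h0
    exact one_ne_zero h0
  set b : L := ∑ i ∈ Finset.range n, (P i : L) * σ ^ i • z with hb
  have key : (x : L) * σ • b = b := by
    have h1 : (x : L) * σ • b = ∑ i ∈ Finset.range n, (P (i + 1) : L) * σ ^ (i + 1) • z := by
      rw [hb, Finset.smul_sum, Finset.mul_sum]
      refine Finset.sum_congr rfl fun i _ => ?_
      rw [hPs i, smul_mul', Units.val_mul, H90_smul_val, smul_smul, pow_succ']
      ring
    have h2 := Finset.sum_range_succ (fun i => (P i : L) * σ ^ i • z) n
    have h3 := Finset.sum_range_succ' (fun i => (P i : L) * σ ^ i • z) n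
    have h4 : σ ^ n = 1 := by rw [← hord]; exact pow_orderOf_eq_one σ
    rw [h1]
    rw [h2] at h3
    simp only [hPn, hP0, h4, pow_zero] at h3
    exact (add_right_cancel h3).symm
  refine ⟨(Units.mk0 b hz)⁻¹, ?_⟩
  rw [smul_inv', div_inv_eq_mul, inv_mul_eq_iff_eq_mul]
  apply Units.ext
  rw [Units.val_mul, H90_smul_val, Units.val_mk0, mul_comm]
  exact key.symm

end

/-- P1-B1 -/
theorem h90 : Stmt_h90 := by
  intro G L _ _ _ _ _
  exact ⟨H90_isZero, fun σ hσ x hx => H90_cyclic σ hσ x hx⟩

end Fermat.Agent.CFT.Local

end
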