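/-
TEAM CFT, sub-project P1, package P1-B3: the inflated cyclic class.
-/
import Fermat.Agent.CFT.Local.Interface
import Fermat.Agent.CFT.P0.CycH2

set_option autoImplicit false

noncomputable section

namespace Fermat.Agent.CFT.Local

open CategoryTheory CategoryTheory.Limits groupCohomology

attribute [local instance] Units.mulDistribMulActionRight
attribute [local instance] quotAct

theorem InfCyc_cyc_apply {Q : Type} [Group Q] [Finite Q] (g : Q) {A B : Type} [AddCommGroup A]
    [AddCommGroup B] (f : A → B) (hf : f 0 = 0) (a : A) (x : Q × Q) :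
    f (P0.cycCochain g a x) = P0.cycCochain g (f a) x := by
  unfold P0.cycCochain
  split_ifs
  · rfl
  · exact hf

section

variable (G L : Type) [Group G] [Field L] [MulSemiringAction G L]
  (N : Subgroup G) [N.Normal]

theorem InfCyc_rho_apply (g : G) (a : Lˣ) :
    (unitsRep G L).ρ g (Additive.ofMul a) = Additive.ofMul (g • a) := rfl

/-- an `N`-invariant unit as an element of `(Lˣ)^N`. -/
def InfCyc_lift (a : Lˣ) (ha : ∀ n ∈ N, n • a = a) : (unitsRep G L).quotientToInvariants N :=
  ⟨Additive.ofMul a, fun n => congrArg Additive.ofMul (ha n.1 n.2)⟩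

theorem InfCyc_lift_val (a : Lˣ) (ha : ∀ n ∈ N, n • a = a) :
    (InfCyc_lift G L N a ha).1 = Additive.ofMul a := rfl

theorem InfCyc_rho_mk (g : G) (b : (unitsRep G L).quotientToInvariants N) :
    (((unitsRep G L).quotientToInvariants N).ρ (g : G ⧸ N) b).1 = (unitsRep G L).ρ g b.1 := rfl

theorem InfCyc_lift_invariant (a : Lˣ) (ha : a ∈ fixedU G L) (x : G ⧸ N) :
    ((unitsRep G L).quotientToInvariants N).ρ x (InfCyc_lift G L N a fun n _ => ha n) =
      InfCyc_lift G L N a fun n _ => ha n := by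
  induction x using QuotientGroup.induction_on with
  | H g =>
    apply Subtype.ext
    rw [InfCyc_rho_mk]
    exact congrArg Additive.ofMul (ha g)

/-- the unit underlying an element of `(Lˣ)^N`. -/
def InfCyc_unit (b : (unitsRep G L).quotientToInvariants N) : Lˣ := @Additive.toMul Lˣ b.1

theorem InfCyc_sum_val (φ : G) (b : (unitsRep G L).quotientToInvariants N) (n : ℕ) :
    ((∑ j ∈ Finset.range n, ((unitsRep G L).quotientToInvariants N).ρ ((φ : G ⧸ N) ^ j) b).1 :
      Additive Lˣ) =
      Additive.ofMul (∏ j ∈ Finset.range n, φ ^ j • InfCyc_unit G L N b) := by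
  induction n with
  | zero => rfl
  | succ n ih =>
    rw [Finset.sum_range_succ, Finset.prod_range_succ, ofMul_mul, ← ih, ← QuotientGroup.mk_pow]
    rfl

variable [Finite G]

theorem InfCyc_eq (φ : G) (a : Lˣ) (ha : ∀ n ∈ N, n • a = a) (x : G × G) :
    infCyc G L N φ a x =
      (P0.cycCochain (φ : G ⧸ N) (InfCyc_lift G L N a ha) ((x.1 : G ⧸ N), (x.2 : G ⧸ N))).1 := by
  exact (InfCyc_cyc_apply (φ : G ⧸ N)
    (fun z : ((unitsRep G L).quotientToInvariants N) => (z.1 : Additive Lˣ)) rfl
    (InfCyc_lift G L N a ha) _).symm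

end

theorem infCycCocycle (h : P0.Stmt_cycH2) : Stmt_infCycCocycle := by
  intro G L _ _ _ _ N _ φ hφ a ha
  have h1 := (h (G ⧸ N) (φ : G ⧸ N) hφ ((unitsRep G L).quotientToInvariants N)).1
    (InfCyc_lift G L N a fun n _ => ha n) (InfCyc_lift_invariant G L N a ha)
  have h2 := (mapCocycles₂ (QuotientGroup.mk' N)
    (Rep.ofHom <| (unitsRep G L).ρ.quotientToInvariants_lift N) ⟨_, h1⟩).2
  convert h2 using 1
  funext x
  exact InfCyc_eq G L N φ a (fun n _ => ha n) x

theorem InfCyc_inf (G L : Type) [Group G] [Finite G] [Field L] [MulSemiringAction G L]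
    (N : Subgroup G) [N.Normal] (φ : G) (a : Lˣ) (ha : ∀ n ∈ N, n • a = a)
    (h1 : P0.cycCochain (φ : G ⧸ N) (InfCyc_lift G L N a ha) ∈
      cocycles₂ ((unitsRep G L).quotientToInvariants N))
    (h2 : infCyc G L N φ a ∈ cocycles₂ (unitsRep G L)) :
    (P0.infMap (unitsRep G L) N 2).hom ((H2π _).hom ⟨_, h1⟩) = (H2π (unitsRep G L)).hom ⟨_, h2⟩ := by
  apply P0.CycH2.map_H2π_eq
  convert (coboundaries₂ (unitsRep G L)).zero_mem using 1
  funext x
  rw [Pi.sub_apply, Pi.zero_apply, InfCyc_eq G L N φ a ha x]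
  exact sub_self _

theorem stmt_infCyc (h1 : P0.Stmt_cycH2) (h2 : P0.Stmt_infRes.{0}) (h3 : Stmt_h90) : Stmt_infCyc := by
  intro G L _ _ _ _ _ N _ φ hφ hc
  refine ⟨?_, ?_⟩
  · intro a ha m
    rw [← map_zsmul]
    congr 1
    apply Subtype.ext
    funext x
    show m • infCyc G L N φ a x = infCyc G L N φ (a ^ m) x
    exact InfCyc_cyc_apply (φ : G ⧸ N) (fun z : Additive Lˣ => m • z) (smul_zero m)
      (Additive.ofMul a) _
  · intro a ha
    have haN : ∀ n ∈ N, n • a = a := fun n _ => ha n
    have hcyc := h1 (G ⧸ N) (φ : G ⧸ N) hφ ((unitsRep G L).quotientToInvariants N)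
    have hinv := InfCyc_lift_invariant G L N a ha
    have hco := hcyc.1 (InfCyc_lift G L N a haN) hinv
    have hinf := InfCyc_inf G L N φ a haN hco (hc a ha)
    have : FaithfulSMul N L :=
      ⟨fun hab => Subtype.ext (FaithfulSMul.eq_of_smul_eq_smul (M := G) (α := L) hab)⟩
    have hinj := (h2 ℤ G (unitsRep G L) N 1 (by
      intro i hi0 hi2
      have hi : i = 1 := by omega
      subst hi
      exact (h3 N L).1)).1
    have hiff : (H2π (unitsRep G L)).hom ⟨_, hc a ha⟩ = 0 ↔
        (H2π ((unitsRep G L).quotientToInvariants N)).hom ⟨_, hco⟩ = 0 := by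
      rw [← hinf]
      constructor
      · intro h0
        apply hinj
        rw [h0, map_zero]
      · intro h0
        rw [h0, map_zero]
    rw [hiff, hcyc.2.2 _ hco hinv]
    constructor
    · rintro ⟨b, hb⟩
      refine ⟨InfCyc_unit G L N b, fun n hn => congrArg (@Additive.toMul Lˣ) (b.2 ⟨n, hn⟩), ?_⟩
      rw [P0.CycH2.finsum_eq_sum_range hφ] at hb
      have hb' := congrArg (fun z => (z.1 : Additive Lˣ)) hb
      simp only at hb'
      rw [InfCyc_sum_val] at hb'
      exact Additive.ofMul.injective hb'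
    · rintro ⟨b, hbN, hb⟩
      refine ⟨InfCyc_lift G L N b hbN, ?_⟩
      rw [P0.CycH2.finsum_eq_sum_range hφ]
      apply Subtype.ext
      rw [InfCyc_sum_val]
      exact congrArg Additive.ofMul hb

end Fermat.Agent.CFT.Local

end
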