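import Fermat.Agent.CFT.Local.Interface

/-! # CFT / Local, P1-B2: generalised inflation-restriction (helper29) -/

set_option autoImplicit false

noncomputable section

namespace Fermat.Agent.CFT.Local

open CategoryTheory CategoryTheory.Limits groupCohomology

attribute [local instance] Units.mulDistribMulActionRight
attribute [local instance] quotAct

section

variable {k G G' : Type} [CommRing k] [Group G] [Group G'] (f : G' →* G) (A : Rep.{0} k G)
  (A' : Rep.{0} k G') (φ : Rep.res f A ⟶ A')

theorem InfResGen_mem_invariants (a : A) :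
    φ.hom a ∈ Representation.invariants (A'.ρ.comp f.ker.subtype) := by
  intro n
  have h := Rep.hom_comm_apply φ (n : G') a
  have h1 : (Rep.res f A).ρ (n : G') a = a := by
    show A.ρ (f n) a = a
    rw [MonoidHom.mem_ker.1 n.2, map_one]
    rfl
  rw [h1] at h
  exact h.symm

/-- `φ` corestricted to the invariants of the kernel -/
def InfResGen_cod : A.V →ₗ[k] Representation.invariants (A'.ρ.comp f.ker.subtype) :=
  φ.hom.toLinearMap.codRestrict _ (InfResGen_mem_invariants f A A' φ)

/-- `A ≃ A'^N` -/
def InfResGen_equiv (hinj : Function.Injective φ.hom)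
    (hsurj : ∀ a' : A', (∀ n ∈ f.ker, A'.ρ n a' = a') → ∃ a : A, φ.hom a = a') :
    A.V ≃ₗ[k] Representation.invariants (A'.ρ.comp f.ker.subtype) :=
  LinearEquiv.ofBijective (InfResGen_cod f A A' φ) ⟨fun a b hab => hinj (congrArg Subtype.val hab),
    fun ⟨a', ha'⟩ => by
      obtain ⟨a, ha⟩ := hsurj a' (fun n hn => ha' ⟨n, hn⟩)
      exact ⟨a, Subtype.ext ha⟩⟩

theorem InfResGen_main (h : P0.Stmt_infRes.{0}) (hf : Function.Surjective f)
    (hinj : Function.Injective φ.hom)
    (hsurj : ∀ a' : A', (∀ n ∈ f.ker, A'.ρ n a' = a') → ∃ a : A, φ.hom a = a') (n : ℕ)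
    (hvan : ∀ i : ℕ, 0 < i → i < n + 1 →
      IsZero (groupCohomology (Rep.res f.ker.subtype A') i)) :
    Function.Injective (groupCohomology.map f φ (n + 1)).hom ∧
    ∀ x : groupCohomology A' (n + 1), (P0.resMap A' f.ker (n + 1)).hom x = 0 →
      ∃ y, (groupCohomology.map f φ (n + 1)).hom y = x := by
  obtain ⟨h1, h2⟩ := h k G' A' f.ker n hvan
  let e : G' ⧸ f.ker ≃* G := QuotientGroup.quotientKerEquivOfSurjective f hf
  let e' := (InfResGen_equiv f A A' φ hinj hsurj).symm
  have he : ∀ g : G' ⧸ f.ker, (e' : _ →ₗ[k] _) ∘ₗ (A'.quotientToInvariants f.ker).ρ g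
      = A.ρ (e g) ∘ₗ (e' : _ →ₗ[k] _) := by
    intro g
    induction g using QuotientGroup.induction_on with
    | H g₀ =>
      ext x
      obtain ⟨a, rfl⟩ := (InfResGen_equiv f A A' φ hinj hsurj).surjective x
      show e' _ = A.ρ _ (e' _)
      rw [LinearEquiv.symm_apply_apply, LinearEquiv.symm_apply_eq]
      apply Subtype.ext
      exact (Rep.hom_comm_apply φ g₀ a).symm
  let I := groupCohomology.mapIso (A := A) (B := A'.quotientToInvariants f.ker) e e' he (n + 1)
  have hfac : groupCohomology.map f φ (n + 1) = I.inv ≫ P0.infMap A' f.ker (n + 1) := by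
    rw [groupCohomology.mapIso_inv, ← groupCohomology.map_comp]
    exact groupCohomology.map_congr (by ext g; rfl) (by ext a; rfl) _
  have hinv : Function.Injective I.inv.hom := by
    intro a b hab
    have := congrArg I.hom.hom hab
    simpa using this
  constructor
  · rw [hfac]
    intro a b hab
    apply hinv
    apply h1
    simpa using hab
  · intro x hx
    obtain ⟨y, hy⟩ := h2 x hx
    refine ⟨I.hom.hom y, ?_⟩
    rw [hfac]
    simpa using hy

end

theorem infResGen (h : P0.Stmt_infRes.{0}) : Stmt_infResGen := by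
  intro G G' _ _ f A A' φ hf hinj hsurj n hvan
  exact InfResGen_main f A A' φ h hf hinj hsurj n hvan

end Fermat.Agent.CFT.Local

end

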