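import Fermat.Agent.CFT.Local.Interface

/-!
TEAM CFT, P1-C1: a normal basis with bounded coordinates.
-/

set_option autoImplicit false

noncomputable section

namespace Fermat.Agent.CFT.Local

attribute [local instance] Units.mulDistribMulActionRight
attribute [local instance] quotAct

section

variable {G L : Type} [Group G] [Finite G] [NormedField L] [MulSemiringAction G L]

/-- every automorphism of `L` over the fixed field is an isometry -/
theorem Lattice_norm_aut (hA : LocAct G L) (σ : L ≃ₐ[FixedPoints.subfield G L] L) (y : L) :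
    ‖σ y‖ = ‖y‖ := by
  have := hA.faithful
  obtain ⟨g, rfl⟩ := (FixedPoints.toAlgAutMulEquiv G L).surjective σ
  exact hA.isom g y

/-- a nonzero element of the fixed field of small norm -/
theorem Lattice_exists_small (hA : LocAct G L) (B : ℝ) :
    ∃ t : FixedPoints.subfield G L, t ≠ 0 ∧ ‖(t : L)‖ * B ≤ 1 := by
  classical
  have := hA.faithful
  obtain ⟨ϖ, hϖ0, hϖ1, -⟩ := hA.loc.unif
  set t0 : FixedPoints.subfield G L := Algebra.norm (FixedPoints.subfield G L) ϖ with ht0
  have h0 : t0 ≠ 0 := Algebra.norm_ne_zero_iff.2 hϖ0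
  have h1 : ‖(t0 : L)‖ < 1 := by
    have h2 : (t0 : L) = ∏ σ : L ≃ₐ[FixedPoints.subfield G L] L, σ ϖ :=
      Algebra.norm_eq_prod_automorphisms (FixedPoints.subfield G L) ϖ
    rw [h2, norm_prod]
    simp only [Lattice_norm_aut hA]
    rw [Finset.prod_const]
    exact pow_lt_one₀ (norm_nonneg _) hϖ1 (Finset.card_ne_zero.2 ⟨1, Finset.mem_univ _⟩)
  have hB : (0 : ℝ) < 1 / (|B| + 1) := by positivity
  obtain ⟨n, hn⟩ := exists_pow_lt_of_lt_one hB h1
  refine ⟨t0 ^ n, pow_ne_zero _ h0, ?_⟩
  have h3 : ‖((t0 ^ n : FixedPoints.subfield G L) : L)‖ = ‖(t0 : L)‖ ^ n := by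
    push_cast
    rw [norm_pow]
  rw [h3]
  have h4 : ‖(t0 : L)‖ ^ n * B ≤ ‖(t0 : L)‖ ^ n * (|B| + 1) := by
    apply mul_le_mul_of_nonneg_left _ (by positivity)
    linarith [le_abs_self B]
  refine h4.trans ?_
  rw [lt_div_iff₀ (by positivity)] at hn
  exact hn.le

end

theorem lattice (_h : Stmt_fixedLoc) : Stmt_lattice := by
  intro G L _ _ _ _ hA
  classical
  have := hA.faithful
  have := hA.loc.ultra
  have : Fintype G := Fintype.ofFinite G
  let E := FixedPoints.subfield G L
  let e : G ≃* (L ≃ₐ[E] L) := FixedPoints.toAlgAutMulEquiv G L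
  have he : ∀ (g : G) (x : L), e g x = g • x := fun g x => rfl
  let b0 : Module.Basis (L ≃ₐ[E] L) E L := IsGalois.normalBasis E L
  obtain ⟨t, ht0, ht⟩ := Lattice_exists_small hA ‖b0 1‖
  let b : Module.Basis G E L :=
    (b0.reindex e.symm.toEquiv).unitsSMul (fun _ => Units.mk0 t ht0)
  have hb : ∀ g : G, b g = g • ((t : L) * b0 1) := by
    intro g
    have h1 : b g = t • b0 (e g) := by
      simp only [b, Module.Basis.unitsSMul_apply, Module.Basis.reindex_apply]
      rfl
    have h2 : g • (t : L) = t := t.2 g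
    rw [h1, IsGalois.normalBasis_apply, he, smul_mul', h2]
    rfl
  let d : Module.Basis G E L := b.traceDual
  have hrepr : ∀ (x : L) (g : G), ((b.repr x g : E) : L) = ∑ σ : L ≃ₐ[E] L, σ (x * d g) := by
    intro x g
    have h1 : b.repr x g = Algebra.trace E L (x * d g) := by
      have := Module.Basis.traceDual_repr_apply d x g
      rw [Module.Basis.traceDual_traceDual] at this
      rw [this, Algebra.traceForm_apply]
    rw [h1]
    exact trace_eq_sum_automorphisms (K := E) (x * d g)
  have hbound : ∀ (x : L) (g : G), ‖((b.repr x g : E) : L)‖ ≤ ‖x‖ * ‖d g‖ := by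
    intro x g
    rw [hrepr]
    refine IsUltrametricDist.norm_sum_le_of_forall_le_of_nonneg (by positivity) ?_
    intro σ _
    rw [Lattice_norm_aut hA, norm_mul]
  set M : ℝ := ∑ g : G, ‖d g‖ + 1 with hM
  have hMpos : 0 < M := by positivity
  have hdM : ∀ g : G, ‖d g‖ ≤ M := by
    intro g
    have := Finset.single_le_sum (f := fun g : G => ‖d g‖) (fun i _ => norm_nonneg _)
      (Finset.mem_univ g)
    linarith
  refine ⟨(t : L) * b0 1, 1 / M, by positivity, ?_, ?_, ?_⟩
  · rw [norm_mul]; exact ht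
  · intro a ha hsum
    rw [finsum_eq_sum_of_fintype] at hsum
    let a' : G → E := fun g => ⟨a g, fun h => ha g h⟩
    have h1 : ∑ g : G, a' g • b g = 0 := by
      rw [← hsum]
      refine Finset.sum_congr rfl fun g _ => ?_
      rw [hb]
      rfl
    have h2 := Fintype.linearIndependent_iff.1 b.linearIndependent a' h1
    intro g
    exact congrArg Subtype.val (h2 g)
  · intro x
    refine ⟨fun g => ((b.repr x g : E) : L), fun g h => (b.repr x g).2 h, fun g => ?_, ?_⟩
    · have h1 := hbound x g
      have h2 : ‖x‖ * ‖d g‖ ≤ ‖x‖ * M := mul_le_mul_of_nonneg_left (hdM g) (norm_nonneg _)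
      rw [one_div, inv_mul_le_iff₀ hMpos, mul_comm M]
      exact h1.trans h2
    · rw [finsum_eq_sum_of_fintype]
      conv_lhs => rw [← b.sum_repr x]
      refine Finset.sum_congr rfl fun g _ => ?_
      rw [hb]
      rfl

end Fermat.Agent.CFT.Local

end

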