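/-
TEAM CFT, sub-project P1, package P1-A4: quotients act on fixed fields.
-/
import Fermat.Agent.CFT.Local.Interface

set_option autoImplicit false

noncomputable section

namespace Fermat.Agent.CFT.Local

attribute [local instance] Units.mulDistribMulActionRight
attribute [local instance] quotAct

/-- Galois correspondence: an element fixing `L^N` pointwise lies in `N`. -/
theorem layerAct_mem_of_fixes (G L : Type) [Group G] [Finite G] [Field L] [MulSemiringAction G L]
    [FaithfulSMul G L] (N : Subgroup G) (g : G)
    (hg : ∀ x : L, (∀ n ∈ N, n • x = x) → g • x = x) : g ∈ N := by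
  have h := IsGaloisGroup.fixingSubgroup_fixedPoints G (FixedPoints.subfield G L) L N
  rw [← h, mem_fixingSubgroup_iff]
  intro x hx
  apply hg
  intro n hn
  exact hx ⟨n, hn⟩

/-- the fixed field of `G ⧸ N` in `L^N` is `L^G`. -/
theorem layerAct_fixed (G L : Type) [Group G] [Field L] [MulSemiringAction G L]
    (N : Subgroup G) [N.Normal] (x : FixedPoints.subfield N L) :
    (∀ q : G ⧸ N, q • x = x) ↔ ∀ g : G, g • (x : L) = x := by
  constructor
  · intro h g
    exact congrArg (fun y : FixedPoints.subfield N L => (y : L)) (h (g : G ⧸ N))
  · intro h q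
    induction q using QuotientGroup.induction_on with
    | H g => exact Subtype.ext (h g)

/-- a norm preserving additive bijection preserves `resCard`. -/
theorem layerAct_resCard_congr {E F : Type} [NormedField E] [NormedField F] (e : E ≃+ F)
    (he : ∀ x, ‖e x‖ = ‖x‖) : resCard E = resCard F := by
  have he' : ∀ y, ‖e.symm y‖ = ‖y‖ := fun y => by rw [← he, AddEquiv.apply_symm_apply]
  unfold resCard
  apply Nat.card_congr
  refine
    { toFun := Quot.map (fun x => ⟨e x.1, by rw [he]; exact x.2⟩) ?_
      invFun := Quot.map (fun y => ⟨e.symm y.1, by rw [he']; exact y.2⟩) ?_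
      left_inv := ?_
      right_inv := ?_ }
  · intro x y hxy
    show ‖e x.1 - e y.1‖ < 1
    rw [← map_sub, he]
    exact hxy
  · intro x y hxy
    show ‖e.symm x.1 - e.symm y.1‖ < 1
    rw [← map_sub, he']
    exact hxy
  · intro x
    induction x using Quot.ind with
    | mk x =>
      show Quot.mk _ _ = Quot.mk _ _
      congr 1
      exact Subtype.ext (e.symm_apply_apply _)
  · intro x
    induction x using Quot.ind with
    | mk x =>
      show Quot.mk _ _ = Quot.mk _ _
      congr 1
      exact Subtype.ext (e.apply_symm_apply _)

/-- the additive, norm preserving identification `(L^N)^(G/N) = L^G`. -/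
def layerActEquiv (G L : Type) [Group G] [NormedField L] [MulSemiringAction G L]
    (N : Subgroup G) [N.Normal] :
    FixedPoints.subfield (G ⧸ N) (FixedPoints.subfield N L) ≃+ FixedPoints.subfield G L where
  toFun x := ⟨((x : FixedPoints.subfield N L) : L), fun g =>
    (layerAct_fixed G L N (x : FixedPoints.subfield N L)).1 (fun q => x.2 q) g⟩
  invFun x := ⟨⟨(x : L), fun n => x.2 (n : G)⟩, fun q =>
    (layerAct_fixed G L N ⟨(x : L), fun n => x.2 (n : G)⟩).2 (fun g => x.2 g) q⟩
  left_inv _ := rfl
  right_inv _ := rfl
  map_add' _ _ := rfl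

theorem layerAct_resCard (G L : Type) [Group G] [NormedField L] [MulSemiringAction G L]
    (N : Subgroup G) [N.Normal] :
    resCard (FixedPoints.subfield (G ⧸ N) (FixedPoints.subfield N L)) =
      resCard (FixedPoints.subfield G L) :=
  layerAct_resCard_congr (layerActEquiv G L N) (fun _ => rfl)

/-- P1-A4 : quotients act on fixed fields. -/
theorem layerAct (h : Stmt_fixedLoc) : Stmt_layerAct := by
  intro G L _ _ _ _ hL N _
  refine ⟨h N L (hL.subgroup N), ⟨?_⟩, ?_⟩
  · intro a b hab
    induction a using QuotientGroup.induction_on with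
    | H a =>
    induction b using QuotientGroup.induction_on with
    | H b =>
    rw [QuotientGroup.eq]
    have := hL.faithful
    apply layerAct_mem_of_fixes G L N
    intro x hx
    have h1 := congrArg (fun y : FixedPoints.subfield N L => (y : L))
      (hab ⟨x, fun n => hx n.1 n.2⟩)
    have h2 : a • x = b • x := h1
    rw [mul_smul, ← h2, inv_smul_smul]
  · intro q x
    induction q using QuotientGroup.induction_on with
    | H g => exact hL.isom g (x : L)

end Fermat.Agent.CFT.Local

end
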