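/-
TEAM CFT, P1-C5 / P1-C6 : the local norm index for cyclic extensions; norm groups are open.
-/
import Fermat.Agent.CFT.Local.Interface

set_option autoImplicit false

noncomputable section

namespace Fermat.Agent.CFT.Local

open CategoryTheory CategoryTheory.Limits groupCohomology

attribute [local instance] Units.mulDistribMulActionRight
attribute [local instance] quotAct

namespace NormIndex

section Abstract

variable {B C : Type} [CommGroup B] [CommGroup C]

/-- `[ker D : im N]`, multiplicative version -/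
def mq0 (D N : B →* B) : ℕ := N.range.relIndex D.ker

/-- `[ker N : im D]`, multiplicative version -/
def mq1 (D N : B →* B) : ℕ := D.range.relIndex N.ker

theorem hq0_toAdditive (D N : B →* B) :
    P0.hq0 (MonoidHom.toAdditive D) (MonoidHom.toAdditive N) = mq0 D N := rfl

theorem hq1_toAdditive (D N : B →* B) :
    P0.hq1 (MonoidHom.toAdditive D) (MonoidHom.toAdditive N) = mq1 D N := rfl

/-- restriction of an endomorphism to a stable subgroup -/
def res (D : B →* B) (Y : Subgroup B) (h : ∀ y ∈ Y, D y ∈ Y) : Y →* Y :=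
  (D.comp Y.subtype).codRestrict Y (fun y => h y y.2)

@[simp] theorem res_coe (D : B →* B) (Y : Subgroup B) (h : ∀ y ∈ Y, D y ∈ Y) (y : Y) :
    ((res D Y h y : Y) : B) = D y := rfl

theorem herbrand_ker (h4 : P0.Stmt_herbrandMul) (D N : B →* B) (DC NC : C →* C) (q : B →* C)
    (hq : Function.Surjective q) (hD : ∀ b, q (D b) = DC (q b)) (hN : ∀ b, q (N b) = NC (q b))
    (hDN : ∀ b, D (N b) = 1) (hND : ∀ b, N (D b) = 1)
    (hDY : ∀ y ∈ q.ker, D y ∈ q.ker) (hNY : ∀ y ∈ q.ker, N y ∈ q.ker)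
    (hne : mq0 (res D q.ker hDY) (res N q.ker hNY) ≠ 0 ∧ mq1 (res D q.ker hDY) (res N q.ker hNY) ≠ 0
      ∧ mq0 DC NC ≠ 0 ∧ mq1 DC NC ≠ 0) :
    (mq0 D N ≠ 0 ∧ mq1 D N ≠ 0) ∧
      mq0 D N * mq1 (res D q.ker hDY) (res N q.ker hNY) * mq1 DC NC
        = mq1 D N * mq0 (res D q.ker hDY) (res N q.ker hNY) * mq0 DC NC := by
  have key := h4 (Additive q.ker) (Additive B) (Additive C)
    (MonoidHom.toAdditive (res D q.ker hDY)) (MonoidHom.toAdditive (res N q.ker hNY))
    (MonoidHom.toAdditive D) (MonoidHom.toAdditive N)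
    (MonoidHom.toAdditive DC) (MonoidHom.toAdditive NC)
    (MonoidHom.toAdditive q.ker.subtype) (MonoidHom.toAdditive q)
    (AddMonoidHom.ext fun a => congrArg Additive.ofMul (Subtype.ext (hDN (a.toMul : B))))
    (AddMonoidHom.ext fun a => congrArg Additive.ofMul (Subtype.ext (hND (a.toMul : B))))
    (AddMonoidHom.ext fun a => congrArg Additive.ofMul (hDN a.toMul))
    (AddMonoidHom.ext fun a => congrArg Additive.ofMul (hND a.toMul))
    (AddMonoidHom.ext fun a => by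
      obtain ⟨b, hb⟩ := hq a.toMul
      refine congrArg Additive.ofMul ?_
      show DC (NC a.toMul) = 1
      rw [← hb, ← hN, ← hD, hDN, map_one])
    (AddMonoidHom.ext fun a => by
      obtain ⟨b, hb⟩ := hq a.toMul
      refine congrArg Additive.ofMul ?_
      show NC (DC a.toMul) = 1
      rw [← hb, ← hD, ← hN, hND, map_one])
    (fun a b hab => by
      have h1 : ((a.toMul : q.ker) : B) = ((b.toMul : q.ker) : B) := congrArg Additive.toMul hab
      exact congrArg Additive.ofMul (Subtype.ext h1))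
    (fun c => by
      obtain ⟨b, hb⟩ := hq c.toMul
      exact ⟨Additive.ofMul b, congrArg Additive.ofMul hb⟩)
    (by
      ext x
      constructor
      · rintro ⟨a, rfl⟩
        exact congrArg Additive.ofMul (a.toMul : q.ker).2
      · intro hx
        have hx' : x.toMul ∈ q.ker := congrArg Additive.toMul hx
        exact ⟨Additive.ofMul ⟨x.toMul, hx'⟩, rfl⟩)
    (fun a => rfl) (fun a => rfl)
    (fun b => congrArg Additive.ofMul (hD b.toMul)) (fun b => congrArg Additive.ofMul (hN b.toMul))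
    (Or.inl hne)
  exact ⟨⟨key.1.2.2.1, key.1.2.2.2.1⟩, key.2⟩

theorem herbrand_fin (h5 : P0.Stmt_herbrandFinite) (D N : B →* B) (Y : Subgroup B) [Finite Y]
    (hDY : ∀ y ∈ Y, D y ∈ Y) (hNY : ∀ y ∈ Y, N y ∈ Y)
    (hDN : ∀ b, D (N b) = 1) (hND : ∀ b, N (D b) = 1) :
    mq0 (res D Y hDY) (res N Y hNY) = mq1 (res D Y hDY) (res N Y hNY) ∧
      mq0 (res D Y hDY) (res N Y hNY) ≠ 0 :=
  h5 (Additive Y) (MonoidHom.toAdditive (res D Y hDY)) (MonoidHom.toAdditive (res N Y hNY))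
    (AddMonoidHom.ext fun a => congrArg Additive.ofMul (Subtype.ext (hDN (a.toMul : B))))
    (AddMonoidHom.ext fun a => congrArg Additive.ofMul (Subtype.ext (hND (a.toMul : B))))

end Abstract

section ZZ

theorem mq0_int (n : ℕ) :
    mq0 (1 : Multiplicative ℤ →* Multiplicative ℤ) (powMonoidHom n) = n := by
  unfold mq0
  have h1 : (1 : Multiplicative ℤ →* Multiplicative ℤ).ker = ⊤ := by
    ext x; simp
  have h2 : (powMonoidHom n : Multiplicative ℤ →* Multiplicative ℤ).range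
      = AddSubgroup.toSubgroup (AddSubgroup.zmultiples (n : ℤ)) := by
    ext x
    constructor
    · rintro ⟨y, rfl⟩
      show Multiplicative.toAdd (y ^ n) ∈ AddSubgroup.zmultiples (n : ℤ)
      rw [toAdd_pow, AddSubgroup.mem_zmultiples_iff]
      exact ⟨Multiplicative.toAdd y, by simp [mul_comm]⟩
    · intro hx
      have hx' : Multiplicative.toAdd x ∈ AddSubgroup.zmultiples (n : ℤ) := hx
      obtain ⟨k, hk⟩ := AddSubgroup.mem_zmultiples_iff.mp hx'
      refine ⟨Multiplicative.ofAdd k, ?_⟩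
      show (Multiplicative.ofAdd k) ^ n = x
      rw [← ofAdd_nsmul, ← ofAdd_toAdd x, ← hk]
      simp [mul_comm]
  rw [h1, Subgroup.relIndex_top_right, h2, AddSubgroup.index_toSubgroup, Int.index_zmultiples]
  simp

theorem mq1_int (n : ℕ) (hn : 0 < n) :
    mq1 (1 : Multiplicative ℤ →* Multiplicative ℤ) (powMonoidHom n) = 1 := by
  unfold mq1
  rw [Subgroup.relIndex_eq_one]
  intro x hx
  have h1 : x ^ n = 1 := hx
  have h2 : n • Multiplicative.toAdd x = 0 := by
    rw [← toAdd_pow, h1]; rfl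
  have h3 : Multiplicative.toAdd x = 0 := by
    rcases smul_eq_zero.mp h2 with h | h
    · omega
    · exact h
  exact ⟨1, by
    show (1 : Multiplicative ℤ) = x
    rw [← ofAdd_toAdd x, h3]; rfl⟩

end ZZ

section AbstractQ

variable {X : Type} [CommGroup X] (D N : X →* X) (V : Subgroup X)
  (hVD : ∀ v ∈ V, D v ∈ V) (hVN : ∀ v ∈ V, N v ∈ V)

/-- the map induced by `D` on `X / V` -/
def DQ : X ⧸ V →* X ⧸ V := QuotientGroup.map V V D hVD

theorem DQ_mk (y : X) : DQ D V hVD (QuotientGroup.mk y) = QuotientGroup.mk (D y) := rfl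

theorem DQ_DQ (hDN : ∀ b, D (N b) = 1) (z : X ⧸ V) : DQ D V hVD (DQ N V hVN z) = 1 := by
  induction z using QuotientGroup.induction_on with
  | H y => rw [DQ_mk, DQ_mk, hDN]; rfl

theorem stage2 (h4 : P0.Stmt_herbrandMul) (h5 : P0.Stmt_herbrandFinite)
    (hDN : ∀ b, D (N b) = 1) (hND : ∀ b, N (D b) = 1)
    (val : X →* Multiplicative ℤ) (hvs : Function.Surjective val) (hVval : ∀ v ∈ V, val v = 1)
    (n : ℕ) (hn : 0 < n) (hvD : ∀ x, val (D x) = 1) (hvN : ∀ x, val (N x) = val x ^ n)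
    (hfin : Finite (QuotientGroup.lift V val hVval).ker) :
    mq0 (DQ D V hVD) (DQ N V hVN) ≠ 0 ∧ mq1 (DQ D V hVD) (DQ N V hVN) ≠ 0 ∧
      mq0 (DQ D V hVD) (DQ N V hVN) = mq1 (DQ D V hVD) (DQ N V hVN) * n := by
  have hq2D : ∀ z, (QuotientGroup.lift V val hVval) (DQ D V hVD z)
      = (1 : Multiplicative ℤ →* Multiplicative ℤ) ((QuotientGroup.lift V val hVval) z) := by
    intro z
    induction z using QuotientGroup.induction_on with
    | H y => exact hvD y
  have hq2N : ∀ z, (QuotientGroup.lift V val hVval) (DQ N V hVN z)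
      = (powMonoidHom n : Multiplicative ℤ →* _) ((QuotientGroup.lift V val hVval) z) := by
    intro z
    induction z using QuotientGroup.induction_on with
    | H y => exact hvN y
  have hq2s : Function.Surjective (QuotientGroup.lift V val hVval) := by
    intro k
    obtain ⟨x, hx⟩ := hvs k
    exact ⟨QuotientGroup.mk x, hx⟩
  have hDY2 : ∀ y ∈ (QuotientGroup.lift V val hVval).ker,
      DQ D V hVD y ∈ (QuotientGroup.lift V val hVval).ker := by
    intro y _
    rw [MonoidHom.mem_ker, hq2D]; rfl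
  have hNY2 : ∀ y ∈ (QuotientGroup.lift V val hVval).ker,
      DQ N V hVN y ∈ (QuotientGroup.lift V val hVval).ker := by
    intro y hy
    rw [MonoidHom.mem_ker] at hy
    rw [MonoidHom.mem_ker, hq2N, hy, map_one]
  have hF := herbrand_fin h5 (DQ D V hVD) (DQ N V hVN) _ hDY2 hNY2
    (DQ_DQ D N V hVD hVN hDN) (DQ_DQ N D V hVN hVD hND)
  have hZ0 := mq0_int n
  have hZ1 := mq1_int n hn
  have step2 := herbrand_ker h4 (DQ D V hVD) (DQ N V hVN) 1
    (powMonoidHom n) _ hq2s hq2D hq2N (DQ_DQ D N V hVD hVN hDN) (DQ_DQ N D V hVN hVD hND)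
    hDY2 hNY2 ⟨hF.2, hF.1 ▸ hF.2, by rw [hZ0]; omega, by rw [hZ1]; omega⟩
  rw [hZ0, hZ1, ← hF.1] at step2
  refine ⟨step2.1.1, step2.1.2, ?_⟩
  have e2 := step2.2
  refine Nat.eq_of_mul_eq_mul_left (Nat.pos_of_ne_zero hF.2) ?_
  rw [mul_one] at e2
  calc _ = _ := mul_comm _ _
    _ = _ := e2
    _ = _ := by ring

theorem stage1 (h4 : P0.Stmt_herbrandMul)
    (hDN : ∀ b, D (N b) = 1) (hND : ∀ b, N (D b) = 1)
    (hV0 : ∀ v ∈ V, D v = 1 → ∃ w ∈ V, N w = v)
    (hV1 : ∀ v ∈ V, N v = 1 → ∃ w ∈ V, D w = v)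
    (hQ0 : mq0 (DQ D V hVD) (DQ N V hVN) ≠ 0) (hQ1 : mq1 (DQ D V hVD) (DQ N V hVN) ≠ 0) :
    mq0 D N * mq1 (DQ D V hVD) (DQ N V hVN) = mq1 D N * mq0 (DQ D V hVD) (DQ N V hVN) := by
  have hker1 : ∀ y, y ∈ (QuotientGroup.mk' V).ker ↔ y ∈ V := by
    intro y
    rw [QuotientGroup.ker_mk']
  have hDY1 : ∀ y ∈ (QuotientGroup.mk' V).ker, D y ∈ (QuotientGroup.mk' V).ker :=
    fun y hy => (hker1 _).mpr (hVD y ((hker1 y).mp hy))
  have hNY1 : ∀ y ∈ (QuotientGroup.mk' V).ker, N y ∈ (QuotientGroup.mk' V).ker :=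
    fun y hy => (hker1 _).mpr (hVN y ((hker1 y).mp hy))
  have hA0 : mq0 (res D (QuotientGroup.mk' V).ker hDY1) (res N (QuotientGroup.mk' V).ker hNY1)
      = 1 := by
    unfold mq0
    rw [Subgroup.relIndex_eq_one]
    intro y hy
    have hy1 : D (y : X) = 1 := congrArg Subtype.val hy
    obtain ⟨w, hwV, hw⟩ := hV0 y ((hker1 _).mp y.2) hy1
    exact ⟨⟨w, (hker1 _).mpr hwV⟩, Subtype.ext hw⟩
  have hA1 : mq1 (res D (QuotientGroup.mk' V).ker hDY1) (res N (QuotientGroup.mk' V).ker hNY1)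
      = 1 := by
    unfold mq1
    rw [Subgroup.relIndex_eq_one]
    intro y hy
    have hy1 : N (y : X) = 1 := congrArg Subtype.val hy
    obtain ⟨w, hwV, hw⟩ := hV1 y ((hker1 _).mp y.2) hy1
    exact ⟨⟨w, (hker1 _).mpr hwV⟩, Subtype.ext hw⟩
  have step1 := herbrand_ker h4 D N (DQ D V hVD) (DQ N V hVN) (QuotientGroup.mk' V)
    (QuotientGroup.mk'_surjective V) (fun b => rfl) (fun b => rfl) hDN hND hDY1 hNY1
    ⟨by rw [hA0]; omega, by rw [hA1]; omega, hQ0, hQ1⟩
  rw [hA0, hA1, mul_one, mul_one] at step1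
  exact step1.2

include hVD hVN in
theorem abstract_index (h4 : P0.Stmt_herbrandMul) (h5 : P0.Stmt_herbrandFinite)
    (hDN : ∀ b, D (N b) = 1) (hND : ∀ b, N (D b) = 1)
    (hV0 : ∀ v ∈ V, D v = 1 → ∃ w ∈ V, N w = v)
    (hV1 : ∀ v ∈ V, N v = 1 → ∃ w ∈ V, D w = v)
    (val : X →* Multiplicative ℤ) (hvs : Function.Surjective val) (hVval : ∀ v ∈ V, val v = 1)
    (n : ℕ) (hn : 0 < n) (hvD : ∀ x, val (D x) = 1) (hvN : ∀ x, val (N x) = val x ^ n)
    (hfin : Finite (QuotientGroup.lift V val hVval).ker)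
    (h90 : ∀ x, N x = 1 → ∃ y, D y = x) : mq0 D N = n := by
  obtain ⟨hQ0, hQ1, e3⟩ := stage2 D N V hVD hVN h4 h5 hDN hND val hvs hVval n hn hvD hvN hfin
  have e1 := stage1 D N V hVD hVN h4 hDN hND hV0 hV1 hQ0 hQ1
  have hB1 : mq1 D N = 1 := by
    unfold mq1
    rw [Subgroup.relIndex_eq_one]
    intro x hx
    exact h90 x hx
  rw [hB1, one_mul, e3] at e1
  refine Nat.eq_of_mul_eq_mul_left (Nat.pos_of_ne_zero hQ1) ?_
  rw [mul_comm, e1]

end AbstractQ

section Alg

variable {G L : Type} [Group G] [Finite G] [Field L] [MulSemiringAction G L]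

theorem normHom_apply (x : Lˣ) : normHom G L x = ∏ᶠ g : G, g • x := rfl

theorem normHom_eq_prod [Fintype G] (x : Lˣ) : normHom G L x = ∏ g : G, g • x := by
  rw [normHom_apply, finprod_eq_prod_of_fintype]

theorem smul_normHom (g : G) (x : Lˣ) : g • normHom G L x = normHom G L x := by
  have := Fintype.ofFinite G
  rw [normHom_eq_prod, Finset.smul_prod']
  simp only [smul_smul]
  exact Equiv.prod_comp (Equiv.mulLeft g) (fun h => h • x)

theorem normHom_smul (g : G) (x : Lˣ) : normHom G L (g • x) = normHom G L x := by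
  have := Fintype.ofFinite G
  rw [normHom_eq_prod, normHom_eq_prod]
  simp only [smul_smul]
  exact Equiv.prod_comp (Equiv.mulRight g) (fun h => h • x)

/-- `x ↦ σ x / x` -/
def dHom (σ : G) : Lˣ →* Lˣ where
  toFun x := σ • x / x
  map_one' := by simp
  map_mul' x y := by rw [smul_mul']; exact mul_div_mul_comm _ _ _ _

omit [Finite G] in
theorem dHom_apply (σ : G) (x : Lˣ) : dHom σ x = σ • x / x := rfl

theorem dHom_normHom (σ : G) (x : Lˣ) : dHom σ (normHom G L x) = 1 := by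
  rw [dHom_apply, smul_normHom, div_self']

theorem normHom_dHom (σ : G) (x : Lˣ) : normHom G L (dHom σ x) = 1 := by
  rw [dHom_apply, map_div, normHom_smul, div_self']

omit [Finite G] in
theorem ker_dHom (σ : G) (hσ : ∀ g : G, g ∈ Subgroup.zpowers σ) :
    (dHom σ : Lˣ →* Lˣ).ker = fixedU G L := by
  ext x
  rw [MonoidHom.mem_ker, dHom_apply, div_eq_one]
  constructor
  · intro h g
    have h1 : σ ∈ MulAction.stabilizer G x := h
    exact (Subgroup.zpowers_le.mpr h1) (hσ g)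
  · intro h
    exact h σ

theorem normHom_mem (V : Subgroup Lˣ) (hV : ∀ g : G, ∀ v ∈ V, g • v ∈ V) (v : Lˣ) (hv : v ∈ V) :
    normHom G L v ∈ V := by
  have := Fintype.ofFinite G
  rw [normHom_eq_prod]
  exact Subgroup.prod_mem _ fun g _ => hV g v hv

omit [Finite G] in
theorem dHom_mem (σ : G) (V : Subgroup Lˣ) (hV : ∀ g : G, ∀ v ∈ V, g • v ∈ V) (v : Lˣ)
    (hv : v ∈ V) : dHom σ v ∈ V := by
  rw [dHom_apply]
  exact V.div_mem (hV σ v hv) hv

end Alg

section Val

variable {L : Type} [NormedField L] {ϖ : L} (hϖ : IsUnif ϖ)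

/-- the normalised valuation -/
def valFun (x : Lˣ) : ℤ := (hϖ.2.2 x x.ne_zero).choose

theorem valFun_spec (x : Lˣ) : ‖(x : L)‖ = ‖ϖ‖ ^ valFun hϖ x := (hϖ.2.2 x x.ne_zero).choose_spec

theorem valFun_unique (x : Lˣ) (k : ℤ) (h : ‖(x : L)‖ = ‖ϖ‖ ^ k) : valFun hϖ x = k := by
  have h0 : 0 < ‖ϖ‖ := norm_pos_iff.mpr hϖ.1
  have h1 : ‖ϖ‖ ≠ 1 := ne_of_lt hϖ.2.1
  exact zpow_right_injective₀ h0 h1 ((valFun_spec hϖ x).symm.trans h)

/-- the normalised valuation as a homomorphism -/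
def val : Lˣ →* Multiplicative ℤ where
  toFun x := Multiplicative.ofAdd (valFun hϖ x)
  map_one' := by
    show Multiplicative.ofAdd (valFun hϖ 1) = Multiplicative.ofAdd 0
    rw [valFun_unique hϖ 1 0 (by simp)]
  map_mul' x y := by
    show Multiplicative.ofAdd (valFun hϖ (x * y))
      = Multiplicative.ofAdd (valFun hϖ x + valFun hϖ y)
    rw [valFun_unique hϖ (x * y) _ (by
      rw [Units.val_mul, norm_mul, valFun_spec hϖ x, valFun_spec hϖ y,
        zpow_add₀ (norm_ne_zero_iff.mpr hϖ.1)])]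

theorem val_apply (x : Lˣ) : val hϖ x = Multiplicative.ofAdd (valFun hϖ x) := rfl

theorem val_eq_of_norm_eq {x y : Lˣ} (h : ‖(x : L)‖ = ‖(y : L)‖) : val hϖ x = val hϖ y := by
  rw [val_apply, val_apply, valFun_unique hϖ x (valFun hϖ y) (h.trans (valFun_spec hϖ y))]

theorem val_eq_one_iff (x : Lˣ) : val hϖ x = 1 ↔ ‖(x : L)‖ = 1 := by
  constructor
  · intro h
    have h1 : valFun hϖ x = 0 := congrArg Multiplicative.toAdd h
    rw [valFun_spec hϖ x, h1, zpow_zero]
  · intro h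
    rw [val_apply, valFun_unique hϖ x 0 (by simpa using h)]
    rfl

theorem val_surjective : Function.Surjective (val hϖ) := by
  intro k
  refine ⟨(Units.mk0 ϖ hϖ.1) ^ (Multiplicative.toAdd k), ?_⟩
  rw [val_apply, valFun_unique hϖ _ (Multiplicative.toAdd k) (by simp)]
  rfl

end Val


section Main

variable {G L : Type} [Group G] [Finite G] [NormedField L] [MulSemiringAction G L]

theorem val_smul {ϖ : L} (hϖ : IsUnif ϖ) (hLA : LocAct G L) (g : G) (x : Lˣ) :
    val hϖ (g • x) = val hϖ x :=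
  val_eq_of_norm_eq hϖ (by rw [Units.coe_smul, hLA.isom])

theorem val_dHom {ϖ : L} (hϖ : IsUnif ϖ) (hLA : LocAct G L) (σ : G) (x : Lˣ) :
    val hϖ (dHom σ x) = 1 := by
  rw [dHom_apply, map_div, val_smul hϖ hLA, div_self']

theorem val_normHom {ϖ : L} (hϖ : IsUnif ϖ) (hLA : LocAct G L) (x : Lˣ) :
    val hϖ (normHom G L x) = val hϖ x ^ Nat.card G := by
  have := Fintype.ofFinite G
  rw [normHom_eq_prod, map_prod]
  simp only [val_smul hϖ hLA]
  rw [Finset.prod_const, Finset.card_univ, Nat.card_eq_fintype_card]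

/-- `U / V` is finite. -/
theorem finite_ker [ProperSpace L] {ϖ : L} (hϖ : IsUnif ϖ) (V : Subgroup Lˣ)
    (hV1 : ∀ v ∈ V, val hϖ v = 1) (c : ℝ) (hc : 0 < c)
    (hVc : ∀ x : Lˣ, ‖(x : L) - 1‖ ≤ c → x ∈ V) :
    Finite (QuotientGroup.lift V (val hϖ) hV1).ker := by
  classical
  obtain ⟨t, hts, htfin, htcov⟩ := (isCompact_sphere (0 : L) 1).finite_cover_balls hc
  let f : L → Lˣ ⧸ V := fun x => if h : x ≠ 0 then QuotientGroup.mk (Units.mk0 x h) else 1
  have hsub : ((QuotientGroup.lift V (val hϖ) hV1).ker : Set (Lˣ ⧸ V)) ⊆ f '' t := by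
    intro z hz
    induction z using QuotientGroup.induction_on with
    | H y =>
      have hy : val hϖ y = 1 := hz
      have hy1 : ‖(y : L)‖ = 1 := (val_eq_one_iff hϖ y).mp hy
      have hys : (y : L) ∈ Metric.sphere (0 : L) 1 := by simpa using hy1
      obtain ⟨x, hxt, hxy⟩ := Set.mem_iUnion₂.mp (htcov hys)
      have hx1 : ‖x‖ = 1 := by simpa using hts hxt
      have hx0 : x ≠ 0 := by
        intro h
        rw [h, norm_zero] at hx1
        exact zero_ne_one hx1
      refine ⟨x, hxt, ?_⟩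
      show (if h : x ≠ 0 then QuotientGroup.mk (Units.mk0 x h) else 1) = (QuotientGroup.mk y : Lˣ ⧸ V)
      rw [dif_pos hx0, QuotientGroup.eq]
      apply hVc
      have h1 : (((Units.mk0 x hx0)⁻¹ * y : Lˣ) : L) - 1 = x⁻¹ * ((y : L) - x) := by
        rw [Units.val_mul, Units.val_inv_eq_inv_val, Units.val_mk0, mul_sub, inv_mul_cancel₀ hx0]
      rw [h1, norm_mul, norm_inv, hx1, inv_one, one_mul]
      rw [Metric.mem_ball, dist_eq_norm] at hxy
      exact hxy.le
  exact (htfin.image f).subset hsub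

end Main

end NormIndex


open NormIndex in
/-- P1-C5 : the local norm index for cyclic extensions. -/
theorem normIndex (h1 : Stmt_vgroup) (h2 : Stmt_h90) (h3 : Stmt_proper)
    (h4 : P0.Stmt_herbrandMul) (h5 : P0.Stmt_herbrandFinite) : Stmt_normIndex := by
  intro G L _ _ _ _ hLA hcyc
  obtain ⟨σ, hσ⟩ := hcyc.exists_generator
  obtain ⟨V, hV1, ⟨c, hc0, hVc⟩, hVG, hVN, hVD⟩ := h1 G L hLA σ hσ
  obtain ⟨ϖ, hϖ⟩ := hLA.loc.unif
  have := hLA.faithful
  have := h3 L hLA.loc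
  obtain ⟨-, h90⟩ := h2 G L
  have hVval : ∀ v ∈ V, val hϖ v = 1 := fun v hv => (val_eq_one_iff hϖ v).mpr (hV1 v hv)
  have a1 : ∀ v ∈ V, dHom σ v ∈ V := (fun v hv => dHom_mem σ V hVG v hv)
  have a2 : ∀ v ∈ V, normHom G L v ∈ V := (fun v hv => normHom_mem V hVG v hv)
  have a3 : ∀ v ∈ V, dHom σ v = 1 → ∃ w ∈ V, normHom G L w = v := (fun v hv hDv => hVN v hv (by rw [← ker_dHom σ hσ]; exact hDv))
  have a4 : ∀ v ∈ V, normHom G L v = 1 → ∃ w ∈ V, dHom σ w = v := (fun v hv hNv => hVD v hv hNv)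
  have a5 := finite_ker hϖ V hVval c hc0 hVc
  have a6 : ∀ x, normHom G L x = 1 → ∃ y, dHom σ y = x := (fun x hx => h90 σ hσ x hx)
  have a7 := val_dHom hϖ hLA σ
  have a8 := val_normHom hϖ hLA
  have e4 : mq0 (dHom σ) (normHom G L) = Nat.card G := by

    exact abstract_index (X := Lˣ) (dHom σ) (normHom G L) V a1 a2 h4 h5 (dHom_normHom σ) (normHom_dHom σ)
      a3 a4
      (val hϖ) (val_surjective hϖ) hVval (Nat.card G) Nat.card_pos
      a7 a8 a5 a6
  have e5 : mq0 (dHom σ) (normHom G L) = (normHom G L).range.relIndex (fixedU G L) := by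
    unfold mq0
    rw [ker_dHom σ hσ]
  rw [← e5, e4]

/-- P1-C6 : norm groups of cyclic extensions are open. -/
theorem normOpen (h1 : Stmt_vgroup) : Stmt_normOpen := by
  intro G L _ _ _ _ hLA hcyc
  obtain ⟨σ, hσ⟩ := hcyc.exists_generator
  obtain ⟨V, -, ⟨c, hc0, hVc⟩, -, hVN, -⟩ := h1 G L hLA σ hσ
  refine ⟨c, hc0, fun x hx hxc => ?_⟩
  obtain ⟨w, -, hw⟩ := hVN x (hVc x hxc) hx
  exact ⟨w, hw⟩

end Fermat.Agent.CFT.Local

end
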