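/-
TEAM CFT, P1-F1 : index of `p`-th powers in a local field (`Stmt_powIndex`).
-/
import Fermat.Agent.CFT.Local.Interface

set_option autoImplicit false

noncomputable section

namespace Fermat.Agent.CFT.Local

namespace PowIndex

/-! ### group theory -/

theorem relIndex_eq_card_of {G : Type*} [Group G] (H K : Subgroup G) {T : Type*} (φ : T → G)
    (hφ : ∀ t, φ t ∈ K) (hinj : ∀ t t', (φ t)⁻¹ * φ t' ∈ H → t = t')
    (hsurj : ∀ x ∈ K, ∃ t, (φ t)⁻¹ * x ∈ H) : H.relIndex K = Nat.card T := by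
  unfold Subgroup.relIndex Subgroup.index
  symm
  refine Nat.card_congr (Equiv.ofBijective
    (fun t => ((⟨φ t, hφ t⟩ : K) : K ⧸ H.subgroupOf K)) ⟨?_, ?_⟩)
  · intro t t' h
    apply hinj
    have := QuotientGroup.eq.1 h
    simpa [Subgroup.mem_subgroupOf] using this
  · intro x
    induction x using QuotientGroup.induction_on with
    | H x =>
      obtain ⟨t, ht⟩ := hsurj x.1 x.2
      refine ⟨t, ?_⟩
      apply QuotientGroup.eq.2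
      simpa [Subgroup.mem_subgroupOf] using ht

theorem relIndex_ne_zero_of {G : Type*} [Group G] (H K : Subgroup G) {T : Type*} [Finite T]
    (φ : T → G) (hφ : ∀ t, φ t ∈ K)
    (hsurj : ∀ x ∈ K, ∃ t, (φ t)⁻¹ * x ∈ H) : H.relIndex K ≠ 0 := by
  unfold Subgroup.relIndex Subgroup.index
  have : Function.Surjective (fun t => ((⟨φ t, hφ t⟩ : K) : K ⧸ H.subgroupOf K)) := by
    intro x
    induction x using QuotientGroup.induction_on with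
    | H x =>
      obtain ⟨t, ht⟩ := hsurj x.1 x.2
      refine ⟨t, ?_⟩
      apply QuotientGroup.eq.2
      simpa [Subgroup.mem_subgroupOf] using ht
  have hfin : Finite (K ⧸ H.subgroupOf K) := Finite.of_surjective _ this
  exact Nat.card_pos.ne'

/-- index of the image of an endomorphism which is injective on a subgroup of finite index -/
theorem index_range_eq {A : Type*} [CommGroup A] (P : A →* A) (B : Subgroup A)
    (hB : B.index ≠ 0) (hPB : B.map P ≤ B) (hinj : B ⊓ P.ker = ⊥) :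
    P.range.index = (B.map P).relIndex B * Nat.card P.ker := by
  have h1 : (B.map P).index = (B ⊔ P.ker).index * P.range.index := Subgroup.index_map B P
  have h2 : (B.map P).relIndex B * B.index = (B.map P).index := Subgroup.relIndex_mul_index hPB
  have h3 : B.relIndex (B ⊔ P.ker) * (B ⊔ P.ker).index = B.index :=
    Subgroup.relIndex_mul_index le_sup_left
  have h4 : B.relIndex (B ⊔ P.ker) = Nat.card P.ker := by
    rw [sup_comm, Subgroup.relIndex_sup_right, ← Subgroup.inf_relIndex_right, hinj,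
      Subgroup.relIndex_bot_left]
  have h5 : (B ⊔ P.ker).index ≠ 0 := by
    intro h
    rw [h, mul_zero] at h3
    exact hB h3.symm
  have h6 : (B ⊔ P.ker).index * P.range.index =
      (B ⊔ P.ker).index * ((B.map P).relIndex B * Nat.card P.ker) := by
    rw [← h1, ← h2, ← h3, h4]
    ring
  exact Nat.eq_of_mul_eq_mul_left (Nat.pos_of_ne_zero h5) h6


/-! ### estimates -/

section Norm

variable {E : Type} [NormedField E] [IsUltrametricDist E]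

theorem norm_eq_one_of_sub {x : E} (h : ‖x - 1‖ < 1) : ‖x‖ = 1 := by
  have h1 : ‖x - 1‖ ≠ ‖(1 : E)‖ := by rw [norm_one]; exact h.ne
  have h2 := IsUltrametricDist.norm_add_eq_max_of_norm_ne_norm h1
  rw [sub_add_cancel, norm_one, max_eq_right h.le] at h2
  exact h2

theorem one_add_pow_eq (z : E) (hz : ‖z‖ ≤ 1) (n : ℕ) :
    ∃ w : E, ‖w‖ ≤ ‖z‖ ∧ (1 + z) ^ n = 1 + n * z + z * w := by
  induction n with
  | zero => exact ⟨0, by simp, by simp⟩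
  | succ n ih =>
    obtain ⟨w, hw, h⟩ := ih
    refine ⟨w + (n * z + z * w), ?_, ?_⟩
    · refine (IsUltrametricDist.norm_add_le_max _ _).trans (max_le hw ?_)
      refine (IsUltrametricDist.norm_add_le_max _ _).trans (max_le ?_ ?_)
      · rw [norm_mul]
        exact mul_le_of_le_one_left (norm_nonneg _) (IsUltrametricDist.norm_natCast_le_one E n)
      · rw [norm_mul]
        exact mul_le_of_le_one_right (norm_nonneg _) (hw.trans hz)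
    · rw [pow_succ, h]
      push_cast
      ring

theorem norm_pow_sub_one (p : ℕ) {x : E} (hx : ‖x - 1‖ < ‖(p : E)‖) :
    ‖x ^ p - 1‖ = ‖(p : E)‖ * ‖x - 1‖ := by
  have hp1 : ‖(p : E)‖ ≤ 1 := IsUltrametricDist.norm_natCast_le_one E p
  obtain ⟨w, hw, h⟩ := one_add_pow_eq (x - 1) (hx.le.trans hp1) p
  rw [add_sub_cancel] at h
  rcases eq_or_ne (x - 1) 0 with h0 | h0
  · have : x = 1 := sub_eq_zero.1 h0
    simp [this]
  have hpos : 0 < ‖x - 1‖ := norm_pos_iff.2 h0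
  have h1 : x ^ p - 1 = p * (x - 1) + (x - 1) * w := by rw [h]; ring
  have h2 : ‖(x - 1) * w‖ < ‖(p : E) * (x - 1)‖ := by
    rw [norm_mul, norm_mul, mul_comm]
    exact mul_lt_mul_of_pos_right (hw.trans_lt hx) hpos
  rw [h1, IsUltrametricDist.norm_add_eq_max_of_norm_ne_norm h2.ne', max_eq_left h2.le, norm_mul]

theorem exists_pow_eq [ProperSpace E] (p : ℕ) (r : ℝ) (hr0 : 0 ≤ r) (hr : r < ‖(p : E)‖) (a : E)
    (ha : ‖a - 1‖ ≤ ‖(p : E)‖ * r) : ∃ x : E, ‖x - 1‖ ≤ r ∧ x ^ p = a := by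
  have hp1 : ‖(p : E)‖ ≤ 1 := IsUltrametricDist.norm_natCast_le_one E p
  have hp0 : 0 < ‖(p : E)‖ := hr0.trans_lt hr
  have hpne : (p : E) ≠ 0 := norm_pos_iff.1 hp0
  have hK : IsCompact (Metric.closedBall (1 : E) r) := isCompact_closedBall _ _
  have hne : (Metric.closedBall (1 : E) r).Nonempty := ⟨1, by simp [hr0]⟩
  have hcont : ContinuousOn (fun x : E => ‖x ^ p - a‖) (Metric.closedBall (1 : E) r) := by
    fun_prop
  obtain ⟨x₀, hx₀, hmin⟩ := hK.exists_isMinOn hne hcont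
  have hx₀' : ‖x₀ - 1‖ ≤ r := by simpa [dist_eq_norm] using hx₀
  refine ⟨x₀, hx₀', ?_⟩
  by_contra hcon
  have hc : 0 < ‖x₀ ^ p - a‖ := norm_pos_iff.2 (sub_ne_zero.2 hcon)
  set c := ‖x₀ ^ p - a‖ with hcdef
  have hc1 : c ≤ ‖(p : E)‖ * r := by
    have : ‖x₀ ^ p - a‖ ≤ ‖(1 : E) ^ p - a‖ :=
      hmin (show (1 : E) ∈ Metric.closedBall (1 : E) r by simp [hr0])
    rw [one_pow, norm_sub_rev 1 a] at this
    exact this.trans ha
  have hn₀ : ‖x₀‖ = 1 := norm_eq_one_of_sub (hx₀'.trans_lt (hr.trans_le hp1))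
  have hx₀ne : x₀ ≠ 0 := by
    intro h; rw [h, norm_zero] at hn₀; exact zero_ne_one hn₀
  set z := (a / x₀ ^ p - 1) / p with hz
  have hnz : ‖z‖ = c / ‖(p : E)‖ := by
    have : a / x₀ ^ p - 1 = (a - x₀ ^ p) / x₀ ^ p := by field_simp
    rw [hz, norm_div, this, norm_div, norm_pow, hn₀, one_pow, div_one, norm_sub_rev]
  have hzr : ‖z‖ ≤ r := by
    rw [hnz, div_le_iff₀ hp0, mul_comm]; exact hc1
  obtain ⟨w, hw, h⟩ := one_add_pow_eq z (hzr.trans (hr.le.trans hp1)) p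
  have hx₁ : x₀ * (1 + z) ∈ Metric.closedBall (1 : E) r := by
    rw [Metric.mem_closedBall, dist_eq_norm]
    have : x₀ * (1 + z) - 1 = x₀ * z + (x₀ - 1) := by ring
    rw [this]
    refine (IsUltrametricDist.norm_add_le_max _ _).trans (max_le ?_ hx₀')
    rw [norm_mul, hn₀, one_mul]; exact hzr
  have h3 : c ≤ ‖(x₀ * (1 + z)) ^ p - a‖ := hmin hx₁
  have h4 : (x₀ * (1 + z)) ^ p - a = x₀ ^ p * (z * w) := by
    rw [mul_pow, h]
    have : (p : E) * z = a / x₀ ^ p - 1 := by rw [hz]; field_simp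
    rw [this]
    field_simp
    ring
  rw [h4, norm_mul, norm_pow, hn₀, one_pow, one_mul, norm_mul] at h3
  have h5 : ‖z‖ * ‖w‖ ≤ ‖z‖ * ‖z‖ := mul_le_mul_of_nonneg_left hw (norm_nonneg _)
  have h6 : ‖z‖ * ‖z‖ < c := by
    have hzpos : 0 < ‖z‖ := by rw [hnz]; positivity
    calc ‖z‖ * ‖z‖ ≤ ‖z‖ * r := mul_le_mul_of_nonneg_left hzr hzpos.le
      _ < ‖z‖ * ‖(p : E)‖ := mul_lt_mul_of_pos_left hr hzpos
      _ = c := by rw [hnz]; field_simp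
  exact lt_irrefl _ (h3.trans_lt (h5.trans_lt h6))

end Norm


/-! ### the filtration -/

section Sub

variable {E : Type} [NormedField E] [IsUltrametricDist E]

/-- higher unit groups (`U ϖ 0` is the full unit group) -/
def U (ϖ : Eˣ) (j : ℕ) : Subgroup Eˣ where
  carrier := {x | ‖(x : E)‖ = 1 ∧ ‖(x : E) - 1‖ ≤ ‖(ϖ : E)‖ ^ j}
  one_mem' := by simp
  mul_mem' := by
    rintro x y ⟨hx, hx'⟩ ⟨hy, hy'⟩
    refine ⟨by simp [hx, hy], ?_⟩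
    have : ((x * y : Eˣ) : E) - 1 = x * (y - 1) + (x - 1) := by push_cast; ring
    rw [this]
    refine (IsUltrametricDist.norm_add_le_max _ _).trans (max_le ?_ hx')
    rw [norm_mul, hx, one_mul]; exact hy'
  inv_mem' := by
    rintro x ⟨hx, hx'⟩
    refine ⟨by simp [hx], ?_⟩
    have h1 : ((x⁻¹ : Eˣ) : E) * x = 1 := by simp
    have : ((x⁻¹ : Eˣ) : E) - 1 = - (((x⁻¹ : Eˣ) : E) * (x - 1)) := by
      linear_combination h1
    rw [this, norm_neg, norm_mul]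
    simpa [hx] using hx'

theorem mem_U {ϖ x : Eˣ} {j : ℕ} :
    x ∈ U ϖ j ↔ ‖(x : E)‖ = 1 ∧ ‖(x : E) - 1‖ ≤ ‖(ϖ : E)‖ ^ j := Iff.rfl

/-- `⟨ϖ^d⟩ · U_j` -/
def Bs (ϖ : Eˣ) (d j : ℕ) : Subgroup Eˣ := Subgroup.zpowers (ϖ ^ d) ⊔ U ϖ j

theorem mem_Bs {ϖ x : Eˣ} {d j : ℕ} :
    x ∈ Bs ϖ d j ↔ ∃ n : ℤ, ∃ u ∈ U ϖ j, (ϖ ^ d) ^ n * u = x := by
  unfold Bs
  rw [Subgroup.mem_sup]
  constructor
  · rintro ⟨y, hy, u, hu, rfl⟩
    obtain ⟨n, rfl⟩ := Subgroup.mem_zpowers_iff.1 hy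
    exact ⟨n, u, hu, rfl⟩
  · rintro ⟨n, u, hu, rfl⟩
    exact ⟨_, Subgroup.zpow_mem_zpowers _ n, u, hu, rfl⟩

theorem U_le_Bs (ϖ : Eˣ) (d j : ℕ) : U ϖ j ≤ Bs ϖ d j := le_sup_right

theorem U_anti {ϖ : Eˣ} (h1 : ‖(ϖ : E)‖ < 1) {i j : ℕ} (hij : i ≤ j) : U ϖ j ≤ U ϖ i := by
  rintro x ⟨hx, hx'⟩
  exact ⟨hx, hx'.trans (pow_le_pow_of_le_one (norm_nonneg _) h1.le hij)⟩

theorem Bs_anti {ϖ : Eˣ} (h1 : ‖(ϖ : E)‖ < 1) (d : ℕ) {i j : ℕ} (hij : i ≤ j) :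
    Bs ϖ d j ≤ Bs ϖ d i := sup_le_sup_left (U_anti h1 hij) _

omit [IsUltrametricDist E] in
theorem norm_pos_unit (ϖ : Eˣ) : 0 < ‖(ϖ : E)‖ := norm_pos_iff.2 ϖ.ne_zero

theorem mem_U_of_mem_Bs {ϖ x : Eˣ} (h1 : ‖(ϖ : E)‖ < 1) {d j : ℕ} (hx : x ∈ Bs ϖ d j)
    (hn : ‖(x : E)‖ = 1) : x ∈ U ϖ j := by
  obtain ⟨n, u, hu, rfl⟩ := mem_Bs.1 hx
  have h2 : ‖(ϖ : E)‖ ^ ((d : ℤ) * n) = 1 := by
    have : ‖(((ϖ ^ d) ^ n * u : Eˣ) : E)‖ = ‖(ϖ : E)‖ ^ ((d : ℤ) * n) := by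
      rw [Units.val_mul, norm_mul, hu.1, mul_one, Units.val_zpow_eq_zpow_val, norm_zpow,
        Units.val_pow_eq_pow_val, norm_pow, zpow_mul, zpow_natCast]
    rw [← this, hn]
  have h3 : (d : ℤ) * n = 0 := (zpow_eq_one_iff_right₀ (norm_nonneg _) h1.ne).1 h2
  have h4 : (ϖ ^ d) ^ n = 1 := by
    rw [← zpow_natCast, ← zpow_mul, h3, zpow_zero]
  rw [h4, one_mul]
  exact hu

theorem inv_mul_mem_U {ϖ x y : Eˣ} {j : ℕ} (hx : ‖(x : E)‖ = 1) (hy : ‖(y : E)‖ = 1) :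
    x⁻¹ * y ∈ U ϖ j ↔ ‖(y : E) - x‖ ≤ ‖(ϖ : E)‖ ^ j := by
  rw [mem_U]
  have h1 : ((x⁻¹ * y : Eˣ) : E) - 1 = ((x⁻¹ : Eˣ) : E) * (y - x) := by
    have h1 : ((x⁻¹ : Eˣ) : E) * x = 1 := by simp
    rw [Units.val_mul]
    linear_combination h1
  have h2 : ‖((x⁻¹ : Eˣ) : E)‖ = 1 := by simp [hx]
  rw [h1, norm_mul, h2, one_mul, Units.val_mul, norm_mul, h2, hy, one_mul]
  simp

omit [IsUltrametricDist E] in
theorem norm_le_of_lt_one {ϖ : Eˣ} (h1 : ‖(ϖ : E)‖ < 1)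
    (hd : ∀ x : E, x ≠ 0 → ∃ k : ℤ, ‖x‖ = ‖(ϖ : E)‖ ^ k) {x : E} (hx : ‖x‖ < 1) :
    ‖x‖ ≤ ‖(ϖ : E)‖ := by
  rcases eq_or_ne x 0 with rfl | h0
  · simp
  obtain ⟨k, hk⟩ := hd x h0
  rw [hk] at hx ⊢
  have hk1 : 1 ≤ k := by
    by_contra hcon
    have hk0 : k ≤ 0 := by omega
    have : 1 ≤ ‖(ϖ : E)‖ ^ k := one_le_zpow_of_nonpos₀ (norm_pos_unit ϖ) h1.le hk0
    exact absurd hx (not_lt.2 this)
  calc ‖(ϖ : E)‖ ^ k ≤ ‖(ϖ : E)‖ ^ (1 : ℤ) :=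
        zpow_le_zpow_right_of_le_one₀ (norm_pos_unit ϖ) h1.le hk1
    _ = ‖(ϖ : E)‖ := zpow_one _

theorem Bs_top {ϖ : Eˣ} (hd : ∀ x : E, x ≠ 0 → ∃ k : ℤ, ‖x‖ = ‖(ϖ : E)‖ ^ k) :
    Bs ϖ 1 0 = ⊤ := by
  rw [eq_top_iff]
  intro x _
  obtain ⟨k, hk⟩ := hd x x.ne_zero
  refine mem_Bs.2 ⟨k, (ϖ ^ k)⁻¹ * x, ?_, by simp⟩
  have hn : ‖(((ϖ ^ k)⁻¹ * x : Eˣ) : E)‖ = 1 := by
    rw [Units.val_mul, norm_mul, hk, Units.val_inv_eq_inv_val, norm_inv,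
      Units.val_zpow_eq_zpow_val, norm_zpow]
    exact inv_mul_cancel₀ (zpow_ne_zero _ (norm_pos_unit ϖ).ne')
  refine ⟨hn, ?_⟩
  rw [pow_zero, sub_eq_add_neg]
  refine (IsUltrametricDist.norm_add_le_max _ (-1)).trans (max_le hn.le ?_)
  simp

end Sub


/-! ### counting -/

section Count

variable {E : Type} [NormedField E] [IsUltrametricDist E]

theorem relIndex_succ {ϖ : Eˣ} (h1 : ‖(ϖ : E)‖ < 1)
    (hd : ∀ x : E, x ≠ 0 → ∃ k : ℤ, ‖x‖ = ‖(ϖ : E)‖ ^ k) (R : Finset E)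
    (hR1 : ∀ r ∈ R, ‖r‖ ≤ 1) (hR2 : ∀ r ∈ R, ∀ s ∈ R, ‖r - s‖ < 1 → r = s)
    (hR3 : ∀ x : E, ‖x‖ ≤ 1 → ∃ r ∈ R, ‖x - r‖ < 1) (d j : ℕ) (hj : 1 ≤ j) :
    (Bs ϖ d (j + 1)).relIndex (Bs ϖ d j) = R.card := by
  have hρ0 : 0 < ‖(ϖ : E)‖ := norm_pos_unit ϖ
  have hρj : ‖(ϖ : E)‖ ^ j < 1 := pow_lt_one₀ (norm_nonneg _) h1 (by omega)
  have hn : ∀ r : E, ‖r‖ ≤ 1 → ‖1 + (ϖ : E) ^ j * r‖ = 1 := by
    intro r hr
    apply norm_eq_one_of_sub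
    rw [add_sub_cancel_left, norm_mul, norm_pow]
    exact (mul_le_of_le_one_right (by positivity) hr).trans_lt hρj
  have hne : ∀ r : E, ‖r‖ ≤ 1 → 1 + (ϖ : E) ^ j * r ≠ 0 := by
    intro r hr h
    have := hn r hr
    rw [h, norm_zero] at this
    exact zero_ne_one this
  have key := relIndex_eq_card_of (Bs ϖ d (j + 1)) (Bs ϖ d j) (T := R)
    (fun r => Units.mk0 (1 + (ϖ : E) ^ j * r.1) (hne r.1 (hR1 r.1 r.2))) ?_ ?_ ?_
  · rw [key, Nat.card_eq_fintype_card, Fintype.card_coe]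
  · intro r
    apply U_le_Bs
    refine ⟨hn _ (hR1 r.1 r.2), ?_⟩
    rw [Units.val_mk0, add_sub_cancel_left, norm_mul, norm_pow]
    exact mul_le_of_le_one_right (by positivity) (hR1 r.1 r.2)
  · intro r s h
    have hr := hn _ (hR1 r.1 r.2)
    have hs := hn _ (hR1 s.1 s.2)
    have h2 := mem_U_of_mem_Bs h1 h (by simp [hr, hs])
    rw [inv_mul_mem_U (by simpa using hr) (by simpa using hs)] at h2
    simp only [Units.val_mk0] at h2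
    have h3 : 1 + (ϖ : E) ^ j * s.1 - (1 + (ϖ : E) ^ j * r.1) = (ϖ : E) ^ j * (s.1 - r.1) := by
      ring
    rw [h3, norm_mul, norm_pow, pow_succ] at h2
    have h4 : ‖s.1 - r.1‖ ≤ ‖(ϖ : E)‖ := le_of_mul_le_mul_left h2 (by positivity)
    exact (Subtype.ext (hR2 s.1 s.2 r.1 r.2 (h4.trans_lt h1))).symm
  · intro x hx
    obtain ⟨n, u, hu, rfl⟩ := mem_Bs.1 hx
    have hy : ‖((u : E) - 1) / (ϖ : E) ^ j‖ ≤ 1 := by
      rw [norm_div, norm_pow, div_le_one (by positivity)]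
      exact hu.2
    obtain ⟨r, hr, hr'⟩ := hR3 _ hy
    refine ⟨⟨r, hr⟩, ?_⟩
    refine mem_Bs.2 ⟨n, (Units.mk0 (1 + (ϖ : E) ^ j * r) (hne r (hR1 r hr)))⁻¹ * u, ?_, ?_⟩
    · rw [inv_mul_mem_U (by simpa using hn r (hR1 r hr)) hu.1]
      have h3 : (u : E) - (Units.mk0 (1 + (ϖ : E) ^ j * r) (hne r (hR1 r hr)) : Eˣ) =
          (ϖ : E) ^ j * (((u : E) - 1) / (ϖ : E) ^ j - r) := by
        rw [Units.val_mk0]
        have : (ϖ : E) ^ j ≠ 0 := pow_ne_zero _ ϖ.ne_zero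
        field_simp
        ring
      rw [h3, norm_mul, norm_pow, pow_succ]
      exact mul_le_mul_of_nonneg_left (norm_le_of_lt_one h1 hd hr') (by positivity)
    · simp only []
      rw [mul_left_comm]

theorem relIndex_add {ϖ : Eˣ} (h1 : ‖(ϖ : E)‖ < 1)
    (hd : ∀ x : E, x ≠ 0 → ∃ k : ℤ, ‖x‖ = ‖(ϖ : E)‖ ^ k) (R : Finset E)
    (hR1 : ∀ r ∈ R, ‖r‖ ≤ 1) (hR2 : ∀ r ∈ R, ∀ s ∈ R, ‖r - s‖ < 1 → r = s)
    (hR3 : ∀ x : E, ‖x‖ ≤ 1 → ∃ r ∈ R, ‖x - r‖ < 1) (d j : ℕ) (hj : 1 ≤ j) (k : ℕ) :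
    (Bs ϖ d (j + k)).relIndex (Bs ϖ d j) = R.card ^ k := by
  induction k with
  | zero => simp
  | succ k ih =>
    rw [← Subgroup.relIndex_mul_relIndex (Bs ϖ d (j + (k + 1))) (Bs ϖ d (j + k)) (Bs ϖ d j)
      (Bs_anti h1 d (by omega)) (Bs_anti h1 d (by omega)), ih, ← add_assoc,
      relIndex_succ h1 hd R hR1 hR2 hR3 d (j + k) (by omega), pow_succ, mul_comm]

theorem relIndex_zero_ne {ϖ : Eˣ} (h1 : ‖(ϖ : E)‖ < 1)
    (hd : ∀ x : E, x ≠ 0 → ∃ k : ℤ, ‖x‖ = ‖(ϖ : E)‖ ^ k) (R : Finset E)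
    (hR3 : ∀ x : E, ‖x‖ ≤ 1 → ∃ r ∈ R, ‖x - r‖ < 1) (d : ℕ) :
    (Bs ϖ d 1).relIndex (Bs ϖ d 0) ≠ 0 := by
  classical
  have hne : ∀ r : E, ‖r‖ = 1 → r ≠ 0 := by
    intro r hr h
    rw [h, norm_zero] at hr
    exact zero_ne_one hr
  have hU0 : ∀ x : Eˣ, ‖(x : E)‖ = 1 → x ∈ U ϖ 0 := by
    intro x hx
    refine ⟨hx, ?_⟩
    rw [pow_zero, sub_eq_add_neg]
    refine (IsUltrametricDist.norm_add_le_max _ (-1)).trans (max_le hx.le ?_)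
    simp
  refine relIndex_ne_zero_of (Bs ϖ d 1) (Bs ϖ d 0) (T := R)
    (fun r => if h : ‖r.1‖ = 1 then Units.mk0 r.1 (hne _ h) else 1) ?_ ?_
  · intro r
    apply U_le_Bs
    by_cases h : ‖r.1‖ = 1
    · simp only [h, dite_true]
      exact hU0 _ (by simpa using h)
    · simp only [h, dite_false]
      exact one_mem _
  · intro x hx
    obtain ⟨n, u, hu, rfl⟩ := mem_Bs.1 hx
    obtain ⟨r, hr, hr'⟩ := hR3 _ hu.1.le
    have hr1 : ‖r‖ = 1 := by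
      have h2 : ‖r - u‖ ≠ ‖(u : E)‖ := by
        rw [norm_sub_rev, hu.1]; exact hr'.ne
      have h3 := IsUltrametricDist.norm_add_eq_max_of_norm_ne_norm h2
      rw [sub_add_cancel, hu.1, norm_sub_rev, max_eq_right hr'.le] at h3
      exact h3
    refine ⟨⟨r, hr⟩, ?_⟩
    simp only [hr1, dite_true]
    refine mem_Bs.2 ⟨n, (Units.mk0 r (hne r hr1))⁻¹ * u, ?_, by rw [mul_left_comm]⟩
    rw [inv_mul_mem_U (by simpa using hr1) hu.1, pow_one, Units.val_mk0]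
    exact norm_le_of_lt_one h1 hd hr'

theorem relIndex_p {ϖ : Eˣ} (h1 : ‖(ϖ : E)‖ < 1) (p i : ℕ) (hp : 0 < p) :
    (Bs ϖ p i).relIndex (Bs ϖ 1 i) = p := by
  have hρ0 : 0 < ‖(ϖ : E)‖ := norm_pos_unit ϖ
  have key := relIndex_eq_card_of (Bs ϖ p i) (Bs ϖ 1 i) (T := Fin p)
    (fun t => ϖ ^ (t : ℕ)) ?_ ?_ ?_
  · rw [key, Nat.card_eq_fintype_card, Fintype.card_fin]
  · intro t
    exact mem_Bs.2 ⟨(t : ℕ), 1, one_mem _, by simp⟩
  · intro t t' h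
    obtain ⟨n, u, hu, hx⟩ := mem_Bs.1 h
    have h2 : ‖(ϖ : E)‖ ^ ((p : ℤ) * n) = ‖(ϖ : E)‖ ^ ((t' : ℤ) - (t : ℤ)) := by
      have e1 : ‖(((ϖ ^ p) ^ n * u : Eˣ) : E)‖ = ‖(ϖ : E)‖ ^ ((p : ℤ) * n) := by
        rw [Units.val_mul, norm_mul, hu.1, mul_one, Units.val_zpow_eq_zpow_val, norm_zpow,
          Units.val_pow_eq_pow_val, norm_pow, zpow_mul, zpow_natCast]
      have e2 : ‖(((ϖ ^ (t : ℕ))⁻¹ * ϖ ^ (t' : ℕ) : Eˣ) : E)‖ =
          ‖(ϖ : E)‖ ^ ((t' : ℤ) - (t : ℤ)) := by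
        rw [Units.val_mul, norm_mul, Units.val_inv_eq_inv_val, norm_inv,
          Units.val_pow_eq_pow_val, Units.val_pow_eq_pow_val, norm_pow, norm_pow,
          zpow_sub₀ hρ0.ne', zpow_natCast, zpow_natCast, div_eq_mul_inv, mul_comm]
      rw [← e1, ← e2, hx]
    have h3 : (p : ℤ) * n = (t' : ℤ) - (t : ℤ) := (zpow_right_inj₀ hρ0 h1.ne).1 h2
    have ht := t.2
    have ht' := t'.2
    have hn0 : n = 0 := by
      by_contra hn
      rcases lt_or_gt_of_ne hn with hn | hn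
      · have : (p : ℤ) * n ≤ (p : ℤ) * (-1) :=
          mul_le_mul_of_nonneg_left (by omega) (by omega)
        omega
      · have : (p : ℤ) * 1 ≤ (p : ℤ) * n :=
          mul_le_mul_of_nonneg_left (by omega) (by omega)
        omega
    rw [hn0, mul_zero] at h3
    apply Fin.ext
    omega
  · intro x hx
    obtain ⟨n, u, hu, rfl⟩ := mem_Bs.1 hx
    have hp' : (p : ℤ) ≠ 0 := by omega
    have hlt : (n % p).toNat < p := by
      have := Int.emod_lt_of_pos n (show (0 : ℤ) < p by omega)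
      have := Int.emod_nonneg n hp'
      omega
    refine ⟨⟨(n % p).toNat, hlt⟩, ?_⟩
    refine mem_Bs.2 ⟨n / p, u, hu, ?_⟩
    have e1 : ((n % p).toNat : ℤ) = n % p := Int.toNat_of_nonneg (Int.emod_nonneg n hp')
    have e2 : ϖ ^ (n % p).toNat = ϖ ^ (n % p) := by
      conv_rhs => rw [← e1]
      rw [zpow_natCast]
    simp only []
    rw [e2, pow_one, ← mul_assoc, ← zpow_neg, ← zpow_add, ← zpow_natCast, ← zpow_mul]
    congr 2
    have := Int.emod_add_mul_ediv n p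
    omega

end Count


/-! ### the `p`-th power map on the filtration -/

section Pow

variable {E : Type} [NormedField E] [IsUltrametricDist E]

omit [IsUltrametricDist E] in
theorem lt_norm_p {ϖ : Eˣ} (h1 : ‖(ϖ : E)‖ < 1) {p k i : ℕ} (hk : ‖(p : E)‖ = ‖(ϖ : E)‖ ^ k)
    (hi : k + 1 ≤ i) : ‖(ϖ : E)‖ ^ i < ‖(p : E)‖ := by
  rw [hk]
  exact pow_lt_pow_right_of_lt_one₀ (norm_pos_unit ϖ) h1 (by omega)

theorem map_U [ProperSpace E] {ϖ : Eˣ} (h1 : ‖(ϖ : E)‖ < 1) {p k i : ℕ}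
    (hk : ‖(p : E)‖ = ‖(ϖ : E)‖ ^ k) (hi : k + 1 ≤ i) :
    (U ϖ i).map (powMonoidHom p : Eˣ →* Eˣ) = U ϖ (i + k) := by
  have hlt := lt_norm_p h1 hk hi
  ext a
  constructor
  · rintro ⟨x, hx, rfl⟩
    refine ⟨by simp [hx.1], ?_⟩
    rw [powMonoidHom_apply, Units.val_pow_eq_pow_val, norm_pow_sub_one p (hx.2.trans_lt hlt), hk,
      pow_add, mul_comm]
    exact mul_le_mul_of_nonneg_right hx.2 (by positivity)
  · rintro ⟨ha, ha'⟩
    obtain ⟨x, hx, hxa⟩ := exists_pow_eq p (‖(ϖ : E)‖ ^ i) (by positivity) hlt (a : E)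
      (by rw [hk, ← pow_add, add_comm]; exact ha')
    have hp1 : ‖(p : E)‖ ≤ 1 := IsUltrametricDist.norm_natCast_le_one E p
    have hn : ‖x‖ = 1 := norm_eq_one_of_sub (hx.trans_lt (hlt.trans_le hp1))
    have hx0 : x ≠ 0 := by
      intro h; rw [h, norm_zero] at hn; exact zero_ne_one hn
    refine ⟨Units.mk0 x hx0, ⟨by simpa using hn, by simpa using hx⟩, ?_⟩
    apply Units.ext
    simpa using hxa

theorem map_Bs [ProperSpace E] {ϖ : Eˣ} (h1 : ‖(ϖ : E)‖ < 1) {p k i : ℕ}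
    (hk : ‖(p : E)‖ = ‖(ϖ : E)‖ ^ k) (hi : k + 1 ≤ i) :
    (Bs ϖ 1 i).map (powMonoidHom p : Eˣ →* Eˣ) = Bs ϖ p (i + k) := by
  unfold Bs
  rw [Subgroup.map_sup, MonoidHom.map_zpowers, map_U h1 hk hi]
  simp

theorem Bs_inf_ker {ϖ : Eˣ} (h1 : ‖(ϖ : E)‖ < 1) {p k i : ℕ} (hp : p ≠ 0)
    (hk : ‖(p : E)‖ = ‖(ϖ : E)‖ ^ k) (hi : k + 1 ≤ i) :
    Bs ϖ 1 i ⊓ (powMonoidHom p : Eˣ →* Eˣ).ker = ⊥ := by
  have hlt := lt_norm_p h1 hk hi
  rw [eq_bot_iff]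
  rintro x ⟨hx, hx'⟩
  have hxp : x ^ p = 1 := by simpa using hx'
  have hxp' : (x : E) ^ p = 1 := by
    rw [← Units.val_pow_eq_pow_val, hxp, Units.val_one]
  have hn : ‖(x : E)‖ = 1 := by
    have : ‖(x : E)‖ ^ p = 1 := by rw [← norm_pow, hxp', norm_one]
    exact (pow_eq_one_iff_of_nonneg (norm_nonneg _) hp).1 this
  have hU := mem_U_of_mem_Bs h1 hx hn
  have h2 := norm_pow_sub_one p (hU.2.trans_lt hlt)
  rw [hxp', sub_self, norm_zero] at h2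
  have hp0 : ‖(p : E)‖ ≠ 0 := by
    rw [hk]; exact pow_ne_zero _ (norm_pos_unit ϖ).ne'
  have h3 : ‖(x : E) - 1‖ = 0 := by
    rcases mul_eq_zero.1 h2.symm with h | h
    · exact absurd h hp0
    · exact h
  rw [Subgroup.mem_bot]
  apply Units.ext
  rw [Units.val_one]
  exact sub_eq_zero.1 (norm_eq_zero.1 h3)

end Pow

end PowIndex

/-- P1-F1 -/
theorem powIndex (h1 : Stmt_proper) (h2 : Stmt_reps) : Stmt_powIndex := by
  intro E _ hE p hp ϖ₀ k hϖ hk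
  have := hE.ultra
  have : ProperSpace E := h1 E hE
  obtain ⟨⟨R, hRc, -, hR1, hR2, hR3⟩, -, -, -, hq⟩ := h2 E hE
  obtain ⟨hϖ0, hϖ1, hd⟩ := hϖ
  set ϖ : Eˣ := Units.mk0 ϖ₀ hϖ0 with hϖdef
  have hval : (ϖ : E) = ϖ₀ := rfl
  rw [← hval] at hϖ1 hd hk
  have hi : k + 1 ≤ k + 1 := le_rfl
  constructor
  · have hidx : (PowIndex.Bs ϖ 1 (k + 1)).index ≠ 0 := by
      rw [← Subgroup.relIndex_top_right, ← PowIndex.Bs_top hd,
        ← Subgroup.relIndex_mul_relIndex _ (PowIndex.Bs ϖ 1 1) _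
          (PowIndex.Bs_anti hϖ1 1 (by omega)) (PowIndex.Bs_anti hϖ1 1 (by omega)),
        add_comm k 1, PowIndex.relIndex_add hϖ1 hd R hR1 hR2 hR3 1 1 le_rfl k, hRc]
      exact mul_ne_zero (pow_ne_zero _ (by omega)) (PowIndex.relIndex_zero_ne hϖ1 hd R hR3 1)
    have hle1 : PowIndex.Bs ϖ p (k + 1) ≤ PowIndex.Bs ϖ 1 (k + 1) := by
      unfold PowIndex.Bs
      refine sup_le_sup_right ?_ _
      rw [Subgroup.zpowers_le, pow_one]
      exact Subgroup.npow_mem_zpowers ϖ p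
    have hle2 : PowIndex.Bs ϖ p (k + 1 + k) ≤ PowIndex.Bs ϖ p (k + 1) :=
      PowIndex.Bs_anti hϖ1 p (by omega)
    have hmap := PowIndex.map_Bs hϖ1 hk hi
    rw [PowIndex.index_range_eq (powMonoidHom p : Eˣ →* Eˣ) (PowIndex.Bs ϖ 1 (k + 1)) hidx
      (by rw [hmap]; exact hle2.trans hle1) (PowIndex.Bs_inf_ker hϖ1 hp.ne_zero hk hi), hmap,
      ← Subgroup.relIndex_mul_relIndex _ _ _ hle2 hle1,
      PowIndex.relIndex_add hϖ1 hd R hR1 hR2 hR3 p (k + 1) (by omega) k,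
      PowIndex.relIndex_p hϖ1 p (k + 1) hp.pos, hRc]
    ring
  · refine ⟨‖(ϖ : E)‖ ^ (k + 1 + k), pow_pos (PowIndex.norm_pos_unit ϖ) _, ?_⟩
    intro x hx
    have hlt1 : ‖(ϖ : E)‖ ^ (k + 1 + k) < 1 := pow_lt_one₀ (norm_nonneg _) hϖ1 (by omega)
    have hxU : x ∈ PowIndex.U ϖ (k + 1 + k) :=
      ⟨PowIndex.norm_eq_one_of_sub (hx.trans_lt hlt1), hx⟩
    rw [← PowIndex.map_U hϖ1 hk hi] at hxU
    obtain ⟨y, -, hy⟩ := hxU
    exact ⟨y, hy⟩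


end Fermat.Agent.CFT.Local

end
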