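/-
TEAM CFT, P1-C8 / P1-C9 : prime layers and the upper bound `|H²(G, Lˣ)| ∣ |G|`.
-/
import Fermat.Agent.CFT.Local.Interface

set_option autoImplicit false

noncomputable section

namespace Fermat.Agent.CFT.Local

open CategoryTheory CategoryTheory.Limits groupCohomology

attribute [local instance] Units.mulDistribMulActionRight
attribute [local instance] quotAct

theorem primeLayers (h1 : Stmt_cycH2card) (h2 : Stmt_h90) (h3 : Stmt_layerAct)
    (h4 : Stmt_layerIso) : Stmt_primeLayers := by
  intro G L _ _ _ _ hL H N _ hprime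
  obtain ⟨e, -⟩ := h4 H L N
  have hact : LocAct (H ⧸ N) (FixedPoints.subfield N L) := h3 H L (hL.subgroup H) N
  have : Fact (Nat.card (H ⧸ N)).Prime := ⟨hprime⟩
  have hcyc : IsCyclic (H ⧸ N) := isCyclic_of_prime_card rfl
  have := hact.faithful
  have i1 := (groupCohomology.functor ℤ (H ⧸ N) 1).mapIso e
  have i2 := (groupCohomology.functor ℤ (H ⧸ N) 2).mapIso e
  have hz : IsZero (groupCohomology (unitsRep (H ⧸ N) (FixedPoints.subfield N L)) 1) :=
    (h2 (H ⧸ N) (FixedPoints.subfield N L)).1
  have hc : Nat.card (groupCohomology (unitsRep (H ⧸ N) (FixedPoints.subfield N L)) 2) =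
      Nat.card (H ⧸ N) := h1 (H ⧸ N) (FixedPoints.subfield N L) hact hcyc
  have hc' : Nat.card (groupCohomology ((unitsRep H L).quotientToInvariants N) 2) =
      Nat.card (H ⧸ N) := by
    rw [← hc]
    exact Nat.card_congr i2.toLinearEquiv.toEquiv
  refine ⟨hz.of_iso i1, ?_, ?_⟩
  · apply Nat.finite_of_card_ne_zero
    have : Nat.card (groupCohomology ((unitsRep H L).quotientToInvariants N) 2) ≠ 0 := by
      rw [hc']
      exact hprime.ne_zero
    exact this
  · exact dvd_of_eq hc'

theorem upper (h : Stmt_primeLayers) (h' : P0.Stmt_ugly) : Stmt_upper := by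
  intro G L _ _ _ _ hL
  exact (h' G (unitsRep G L) (h G L hL)).2

end Fermat.Agent.CFT.Local

end
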