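/-
TEAM CFT, P1-A1 (helper17): local fields are proper metric spaces.
-/
import Fermat.Agent.CFT.Local.Interface

set_option autoImplicit false

noncomputable section

namespace Fermat.Agent.CFT.Local

attribute [local instance] Units.mulDistribMulActionRight
attribute [local instance] quotAct

open Metric

variable {L : Type} [NormedField L]

theorem proper_norm_unif_pos {ϖ : L} (h : IsUnif ϖ) : 0 < ‖ϖ‖ := norm_pos_iff.2 h.1

/-- discreteness of the value group -/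
theorem proper_lt_le {ϖ y : L} (h : IsUnif ϖ) (hy : ‖y‖ < 1) : ‖y‖ ≤ ‖ϖ‖ := by
  have hpos := proper_norm_unif_pos h
  by_cases hy0 : y = 0
  · rw [hy0, norm_zero]; exact hpos.le
  obtain ⟨k, hk⟩ := h.2.2 y hy0
  rw [hk] at hy ⊢
  have hk1 : 1 ≤ k := by
    by_contra hcon
    have hk0 : k ≤ 0 := by omega
    have : (1 : ℝ) ≤ ‖ϖ‖ ^ k := by
      have h1 : ‖ϖ‖ ^ (0 : ℤ) ≤ ‖ϖ‖ ^ k := zpow_le_zpow_right_of_le_one₀ hpos h.2.1.le hk0
      simpa using h1
    linarith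
  have h1 : ‖ϖ‖ ^ k ≤ ‖ϖ‖ ^ (1 : ℤ) := zpow_le_zpow_right_of_le_one₀ hpos h.2.1.le hk1
  simpa using h1

/-- finite `‖ϖ‖ ^ k`-nets of the unit ball -/
theorem proper_net (hL : IsLoc L) {ϖ : L} (h : IsUnif ϖ) (k : ℕ) :
    ∃ T : Finset L, ∀ x : L, ‖x‖ ≤ 1 → ∃ t ∈ T, ‖x - t‖ ≤ ‖ϖ‖ ^ k := by
  classical
  obtain ⟨R, hR⟩ := hL.resFinite
  have hpos := proper_norm_unif_pos h
  induction k with
  | zero => exact ⟨{0}, fun x hx => ⟨0, by simp, by simpa using hx⟩⟩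
  | succ k ih =>
    obtain ⟨T, hT⟩ := ih
    refine ⟨(T ×ˢ R).image fun p => p.1 + ϖ ^ k * p.2, fun x hx => ?_⟩
    obtain ⟨t, ht, hxt⟩ := hT x hx
    have hϖk : ϖ ^ k ≠ 0 := pow_ne_zero _ h.1
    have hy : ‖(x - t) / ϖ ^ k‖ ≤ 1 := by
      rw [norm_div, norm_pow]
      exact div_le_one_of_le₀ hxt (by positivity)
    obtain ⟨r, hr, hyr⟩ := hR _ hy
    refine ⟨t + ϖ ^ k * r, Finset.mem_image.2 ⟨(t, r), Finset.mem_product.2 ⟨ht, hr⟩, rfl⟩, ?_⟩
    have e : x - (t + ϖ ^ k * r) = ϖ ^ k * ((x - t) / ϖ ^ k - r) := by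
      field_simp
      ring
    rw [e, norm_mul, norm_pow, pow_succ]
    exact mul_le_mul_of_nonneg_left (proper_lt_le h hyr) (by positivity)

theorem proper_net' (hL : IsLoc L) {ε : ℝ} (hε : 0 < ε) :
    ∃ T : Finset L, ∀ x : L, ‖x‖ ≤ 1 → ∃ t ∈ T, ‖x - t‖ < ε := by
  obtain ⟨ϖ, h⟩ := hL.unif
  obtain ⟨k, hk⟩ := exists_pow_lt_of_lt_one hε h.2.1
  obtain ⟨T, hT⟩ := proper_net hL h k
  refine ⟨T, fun x hx => ?_⟩
  obtain ⟨t, ht, hxt⟩ := hT x hx
  exact ⟨t, ht, hxt.trans_lt hk⟩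

theorem proper_isCompact_unitBall (hL : IsLoc L) : IsCompact (closedBall (0 : L) 1) := by
  have := hL.complete
  refine TotallyBounded.isCompact_of_isClosed ?_ isClosed_closedBall
  rw [Metric.totallyBounded_iff]
  intro ε hε
  obtain ⟨T, hT⟩ := proper_net' hL hε
  refine ⟨T, T.finite_toSet, fun x hx => ?_⟩
  obtain ⟨t, ht, hxt⟩ := hT x (by simpa using hx)
  simp only [Set.mem_iUnion]
  exact ⟨t, ht, by rwa [mem_ball, dist_eq_norm]⟩

theorem proper : Stmt_proper := by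
  intro L _ hL
  obtain ⟨ϖ, h⟩ := hL.unif
  have hpos := proper_norm_unif_pos h
  refine ⟨fun x r => ?_⟩
  obtain ⟨n, hn⟩ := pow_unbounded_of_one_lt r ((one_lt_inv₀ hpos).2 h.2.1)
  set c : L := (ϖ⁻¹) ^ n with hc
  have hcn : ‖c‖ = (‖ϖ‖⁻¹) ^ n := by rw [hc, norm_pow, norm_inv]
  have hc0 : c ≠ 0 := pow_ne_zero _ (inv_ne_zero h.1)
  have hcpos : 0 < ‖c‖ := norm_pos_iff.2 hc0
  have hcomp : IsCompact ((fun y : L => x + c * y) '' closedBall (0 : L) 1) :=
    (proper_isCompact_unitBall hL).image (by fun_prop)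
  refine hcomp.of_isClosed_subset isClosed_closedBall fun z hz => ?_
  refine ⟨(z - x) / c, ?_, ?_⟩
  · rw [mem_closedBall, dist_zero_right, norm_div]
    rw [mem_closedBall, dist_eq_norm] at hz
    apply div_le_one_of_le₀ _ hcpos.le
    rw [hcn]
    exact hz.trans hn.le
  · simp only
    field_simp
    ring

/-- open subgroups have finite index in groups of units of norm one -/
theorem proper_finite_units (hL : IsLoc L) (V U : Subgroup Lˣ) (hU : ∀ u ∈ U, ‖(u : L)‖ = 1)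
    (c : ℝ) (hc : 0 < c) (hV : ∀ x : Lˣ, ‖(x : L) - 1‖ ≤ c → x ∈ V) : V.relIndex U ≠ 0 := by
  classical
  obtain ⟨T, hT⟩ := proper_net' hL (half_pos hc)
  have hτ : ∀ u : U, ∃ t : T, ‖((u : Lˣ) : L) - t‖ < c / 2 := by
    intro u
    obtain ⟨t, ht, hut⟩ := hT ((u : Lˣ) : L) (hU u u.2).le
    exact ⟨⟨t, ht⟩, hut⟩
  choose τ hτ' using hτ
  have hfin : Finite (U ⧸ V.subgroupOf U) := by
    apply Finite.of_injective (fun q : U ⧸ V.subgroupOf U => τ q.out)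
    intro q q' hqq
    simp only at hqq
    rw [← q.out_eq', ← q'.out_eq']
    rw [QuotientGroup.eq, Subgroup.mem_subgroupOf]
    apply hV
    set u : U := q.out
    set u' : U := q'.out
    have h1 : ‖((u' : Lˣ) : L) - ((u : Lˣ) : L)‖ ≤ c := by
      have e : ((u' : Lˣ) : L) - ((u : Lˣ) : L) =
          (((u' : Lˣ) : L) - τ u') - (((u : Lˣ) : L) - τ u) := by rw [hqq]; ring
      rw [e]
      refine (norm_sub_le _ _).trans ?_
      have := hτ' u
      have := hτ' u'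
      linarith
    have e2 : (((u⁻¹ * u' : U) : Lˣ) : L) - 1 =
        (((u : Lˣ) : L))⁻¹ * (((u' : Lˣ) : L) - ((u : Lˣ) : L)) := by
      have hu0 : ((u : Lˣ) : L) ≠ 0 := (u : Lˣ).ne_zero
      push_cast
      field_simp
    rw [e2, norm_mul, norm_inv, hU u u.2, inv_one, one_mul]
    exact h1
  exact Subgroup.index_ne_zero_of_finite

end Fermat.Agent.CFT.Local

end
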