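/-
TEAM CFT, sub-project P1, package P1-B4: restriction of the inflated cyclic class.
-/
import Fermat.Agent.CFT.Local.Interface
import Fermat.Agent.CFT.P0.CycH2

set_option autoImplicit false

noncomputable section

namespace Fermat.Agent.CFT.Local

open CategoryTheory CategoryTheory.Limits groupCohomology

attribute [local instance] Units.mulDistribMulActionRight
attribute [local instance] quotAct

/-- `dlog g (g ^ i) = i` for `i < orderOf g`. -/
theorem ResInfCyc_dlog_pow {G : Type} [Group G] [Finite G] (g : G) {i : ℕ} (hi : i < orderOf g) :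
    P0.dlog g (g ^ i) = i := by
  rw [P0.CycH2.dlog_pow, Nat.mod_eq_of_lt hi]

/-- `g ^ dlog g x = x` for a generator `g`. -/
theorem ResInfCyc_pow_dlog {G : Type} [Group G] [Finite G] {g : G}
    (hg : ∀ x : G, x ∈ Subgroup.zpowers g) (x : G) : g ^ P0.dlog g x = x :=
  P0.CycH2.pow_dlog hg x

/-- comparison of discrete logarithms along an injective homomorphism of cyclic groups. -/
theorem ResInfCyc_dlog_map {H Q : Type} [Group H] [Finite H] [Group Q] [Finite Q] (f : H →* Q)
    (hf : Function.Injective f) {ψ : H} {φ : Q} (hψ : ∀ x : H, x ∈ Subgroup.zpowers ψ)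
    (hφ : ∀ x : Q, x ∈ Subgroup.zpowers φ) (h : f ψ = φ ^ (Nat.card Q / Nat.card H)) :
    Nat.card Q = Nat.card Q / Nat.card H * Nat.card H ∧
      ∀ x : H, P0.dlog φ (f x) = Nat.card Q / Nat.card H * P0.dlog ψ x := by
  have hdvd : Nat.card H ∣ Nat.card Q := Subgroup.card_dvd_of_injective f hf
  have hcard : Nat.card Q = Nat.card Q / Nat.card H * Nat.card H := (Nat.div_mul_cancel hdvd).symm
  refine ⟨hcard, fun x => ?_⟩
  have hx : f x = φ ^ (Nat.card Q / Nat.card H * P0.dlog ψ x) := by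
    conv_lhs => rw [← P0.CycH2.pow_dlog hψ x, map_pow, h, ← pow_mul]
  rw [hx]
  apply ResInfCyc_dlog_pow
  rw [P0.CycH2.orderOf_gen hφ]
  have hpos : 0 < Nat.card Q / Nat.card H :=
    Nat.div_pos (Nat.le_of_dvd Nat.card_pos hdvd) Nat.card_pos
  calc Nat.card Q / Nat.card H * P0.dlog ψ x < Nat.card Q / Nat.card H * Nat.card H :=
        Nat.mul_lt_mul_of_pos_left (P0.CycH2.dlog_lt hψ x) hpos
    _ = Nat.card Q := hcard.symm

/-- P1-B4 : restriction of the inflated cyclic class to a subgroup `H` meeting `N` trivially. -/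
theorem resInfCyc : Stmt_resInfCyc := by
  intro G L _ _ _ _ N _ φ hφ H ψ hHN hψ hψφ a h1 h2
  let f : H →* G ⧸ N := (QuotientGroup.mk' N).comp H.subtype
  have hf : Function.Injective f := by
    rw [injective_iff_map_eq_one]
    intro x hx
    have hxN : (x : G) ∈ N := (QuotientGroup.eq_one_iff (x : G)).mp hx
    have : (x : G) ∈ H ⊓ N := ⟨x.2, hxN⟩
    rw [hHN, Subgroup.mem_bot] at this
    exact Subtype.ext this
  obtain ⟨hcard, hd⟩ := ResInfCyc_dlog_map f hf hψ hφ hψφ
  have hpos : 0 < Nat.card (G ⧸ N) / Nat.card H := by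
    rcases Nat.eq_zero_or_pos (Nat.card (G ⧸ N) / Nat.card H) with h0 | h0
    · rw [h0, zero_mul] at hcard
      exact absurd hcard Nat.card_pos.ne'
    · exact h0
  refine P0.CycH2.map_H2π_eq (f := H.subtype) (φ := 𝟙 _) _ h1 _ h2 ?_
  have h0 : ∀ {c : H × H → unitsRep H L}, c = 0 → c ∈ coboundaries₂ (unitsRep H L) := by
    rintro c rfl
    exact zero_mem _
  apply h0
  funext ⟨x, y⟩
  refine sub_eq_zero.mpr ?_
  change infCyc G L N φ a ((x : G), (y : G)) =
      P0.cycCochain (A := unitsRep H L) ψ (Additive.ofMul a) (x, y)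
  generalize Nat.card (G ⧸ N) / Nat.card H = m at hcard hd hpos
  have hiff : Nat.card (G ⧸ N) ≤ P0.dlog (φ : G ⧸ N) (((x : G) : G ⧸ N)) +
      P0.dlog (φ : G ⧸ N) (((y : G) : G ⧸ N)) ↔ Nat.card H ≤ P0.dlog ψ x + P0.dlog ψ y := by
    have hx := hd x
    have hy := hd y
    change P0.dlog (φ : G ⧸ N) (((x : G) : G ⧸ N)) = _ at hx
    change P0.dlog (φ : G ⧸ N) (((y : G) : G ⧸ N)) = _ at hy
    rw [hx, hy, ← mul_add]
    conv_lhs => rw [hcard]
    exact Nat.mul_le_mul_left_iff hpos
  unfold infCyc P0.cycCochain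
  simp only [hiff]
  rfl

end Fermat.Agent.CFT.Local

end
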