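/-
TEAM CFT, sub-project P1 (local CFT), package P1-D4: `E(ζ_{q^r-1})/E` is cyclic of degree `r`,
generated by a Frobenius, and unramified.
-/
import Fermat.Agent.CFT.Local.Interface

set_option autoImplicit false

noncomputable section

namespace Fermat.Agent.CFT.Local

open CategoryTheory CategoryTheory.Limits groupCohomology

attribute [local instance] Units.mulDistribMulActionRight
attribute [local instance] quotAct

/-- invariance of `resCard` under isometric bijections -/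
theorem unram_resCard_congr {A B : Type} [NormedField A] [NormedField B] (f : A ≃ B)
    (h1 : ∀ x, ‖f x‖ = ‖x‖) (h2 : ∀ x y, ‖f x - f y‖ = ‖x - y‖) : resCard A = resCard B := by
  unfold resCard
  refine Nat.card_congr (Quot.congr (f.subtypeEquiv fun x => by rw [h1]) ?_)
  intro a b
  change _ ↔ ‖f a - f b‖ < 1
  rw [h2]

/-- a `t`-th root of unity close to `1` is `1` when `t` is a unit. -/
theorem unram_eq_one {L : Type} [NormedField L] [IsUltrametricDist L] {t : ℕ}
    (ht : 1 ≤ ‖(t : L)‖) {η : L} (h1 : η ^ t = 1) (h2 : ‖η - 1‖ < 1) : η = 1 := by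
  by_contra hne
  have hsum : ∑ i ∈ Finset.range t, η ^ i = 0 := by
    have := geom_sum_mul η t
    rw [h1, sub_self] at this
    exact (mul_eq_zero.1 this).resolve_right (sub_ne_zero.2 hne)
  have hη : ‖η‖ ≤ 1 := by
    have : η = (η - 1) + 1 := by ring
    rw [this]
    refine (IsUltrametricDist.norm_add_le_max _ _).trans (max_le h2.le (by simp))
  have hpow : ∀ i : ℕ, ‖η ^ i - 1‖ < 1 := by
    intro i
    induction i with
    | zero => simp
    | succ i ih =>
      have : η ^ (i + 1) - 1 = η * (η ^ i - 1) + (η - 1) := by ring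
      rw [this]
      refine (IsUltrametricDist.norm_add_le_max _ _).trans_lt (max_lt ?_ h2)
      rw [norm_mul]
      calc ‖η‖ * ‖η ^ i - 1‖ ≤ 1 * ‖η ^ i - 1‖ := by gcongr
        _ < 1 := by rwa [one_mul]
  have hs : ∀ n : ℕ, ‖∑ i ∈ Finset.range n, η ^ i - (n : L)‖ < 1 := by
    intro n
    induction n with
    | zero => simp
    | succ n ih =>
      have : ∑ i ∈ Finset.range (n + 1), η ^ i - ((n + 1 : ℕ) : L) =
          (∑ i ∈ Finset.range n, η ^ i - (n : L)) + (η ^ n - 1) := by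
        rw [Finset.sum_range_succ]; push_cast; ring
      rw [this]
      exact (IsUltrametricDist.norm_add_le_max _ _).trans_lt (max_lt ih (hpow n))
  have := hs t
  rw [hsum, zero_sub, norm_neg] at this
  linarith

theorem unram_norm_t {L : Type} [NormedField L] [IsUltrametricDist L] {q r : ℕ}
    (hq : ‖(q : L)‖ < 1) (hr : 0 < r) (hq1 : 1 ≤ q) : 1 ≤ ‖((q ^ r - 1 : ℕ) : L)‖ := by
  rw [Nat.cast_sub (Nat.one_le_pow _ _ hq1)]
  push_cast
  by_contra h
  push Not at h
  have h1 : ‖(q : L) ^ r‖ < 1 := by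
    rw [norm_pow]
    exact pow_lt_one₀ (norm_nonneg _) hq hr.ne'
  have h2 : (1 : L) = (q : L) ^ r + -((q : L) ^ r - 1) := by ring
  have h3 : ‖(1 : L)‖ < 1 := by
    rw [h2]
    exact (IsUltrametricDist.norm_add_le_max _ _).trans_lt (max_lt h1 (by rwa [norm_neg]))
  simp at h3

/-- the `t`-th roots of unity and `0` are separated. -/
theorem unram_card_le (h4 : Stmt_reps) {M : Type} [NormedField M] (hM : IsLoc M) {t : ℕ}
    (ht0 : 0 < t) (ht : 1 ≤ ‖(t : M)‖) {ζ : M} (hζ : IsPrimitiveRoot ζ t) :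
    t + 1 ≤ resCard M := by
  classical
  have := hM.ultra
  have hn : ∀ i : ℕ, ‖ζ ^ i‖ = 1 := fun i => by
    have h1 : ‖ζ‖ ^ t = 1 := by rw [← norm_pow, hζ.pow_eq_one, norm_one]
    rw [norm_pow, (pow_eq_one_iff_of_nonneg (norm_nonneg _) ht0.ne').1 h1, one_pow]
  set T : Finset M := insert 0 ((Finset.range t).image fun i => ζ ^ i) with hT
  have hcard : T.card = t + 1 := by
    rw [hT, Finset.card_insert_of_notMem, Finset.card_image_of_injOn, Finset.card_range]
    · intro i hi j hj hij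
      exact hζ.pow_inj (by simpa using hi) (by simpa using hj) hij
    · simp only [Finset.mem_image, not_exists, not_and]
      intro i _ h
      have := hn i
      rw [h, norm_zero] at this
      exact zero_ne_one this
  rw [← hcard]
  refine (h4 M hM).2.1 T ?_ ?_
  · intro x hx
    rcases Finset.mem_insert.1 hx with rfl | hx
    · simp
    · obtain ⟨i, -, rfl⟩ := Finset.mem_image.1 hx
      exact (hn i).le
  · intro x hx y hy hxy
    rcases Finset.mem_insert.1 hx with rfl | hx <;> rcases Finset.mem_insert.1 hy with rfl | hy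
    · rfl
    · obtain ⟨j, -, rfl⟩ := Finset.mem_image.1 hy
      rw [zero_sub, norm_neg, hn j] at hxy
      exact absurd hxy (lt_irrefl _)
    · obtain ⟨i, -, rfl⟩ := Finset.mem_image.1 hx
      rw [sub_zero, hn i] at hxy
      exact absurd hxy (lt_irrefl _)
    · obtain ⟨i, -, rfl⟩ := Finset.mem_image.1 hx
      obtain ⟨j, -, rfl⟩ := Finset.mem_image.1 hy
      have hj0 : ζ ^ j ≠ 0 := fun h => by
        have := hn j
        rw [h, norm_zero] at this
        exact zero_ne_one this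
      have h1 : (ζ ^ i / ζ ^ j) ^ t = 1 := by
        rw [div_pow, ← pow_mul, ← pow_mul, mul_comm i, mul_comm j, pow_mul, pow_mul,
          hζ.pow_eq_one, one_pow, one_pow, div_one]
      have h2 : ‖ζ ^ i / ζ ^ j - 1‖ < 1 := by
        have : ζ ^ i / ζ ^ j - 1 = (ζ ^ i - ζ ^ j) / ζ ^ j := by field_simp
        rw [this, norm_div, hn j, div_one]
        exact hxy
      have := unram_eq_one ht h1 h2
      rwa [div_eq_one_iff_eq hj0] at this

section Main

variable {G L : Type} [Group G] [Finite G] [NormedField L] [MulSemiringAction G L]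

/-- the fixed field of `G ⧸ N` in `L^N` is `L^G`. -/
def unramFixEquiv (N : Subgroup G) [N.Normal] :
    FixedPoints.subfield (G ⧸ N) (FixedPoints.subfield N L) ≃ FixedPoints.subfield G L where
  toFun x := ⟨((x : FixedPoints.subfield N L) : L), fun g =>
    congrArg Subtype.val (x.2 (g : G ⧸ N))⟩
  invFun y := ⟨⟨(y : L), fun n => y.2 n⟩, fun q => by
    induction q using QuotientGroup.induction_on with
    | H g => exact Subtype.ext (y.2 g)⟩
  left_inv _ := rfl
  right_inv _ := rfl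

omit [Finite G] in
theorem unram_resCard_fix (N : Subgroup G) [N.Normal] :
    resCard (FixedPoints.subfield (G ⧸ N) (FixedPoints.subfield N L)) =
      resCard (FixedPoints.subfield G L) :=
  unram_resCard_congr (unramFixEquiv N) (fun _ => rfl) (fun _ _ => rfl)

/-- `|G ⧸ N| ≤ r`, with the injection `G ⧸ N → Fin r`. -/
theorem unram_exists_inj (h1 : Stmt_frobPow) (hL : LocAct G L) (r : ℕ) (ζ : L) (hr : 0 < r)
    (hζ : IsPrimitiveRoot ζ (resCard (FixedPoints.subfield G L) ^ r - 1))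
    (N : Subgroup G) [N.Normal] (hN : ∀ g : G, g ∈ N ↔ g • ζ = ζ) :
    ∃ f : G ⧸ N → Fin r, Function.Injective f ∧
      ∀ x : G ⧸ N, x.out • ζ = ζ ^ (resCard (FixedPoints.subfield G L) ^ (f x : ℕ)) := by
  choose i hi hi' using h1 G L hL r ζ hr hζ
  refine ⟨fun x => ⟨i x.out, hi x.out⟩, ?_, fun x => hi' x.out⟩
  intro x y hxy
  have h : i x.out = i y.out := congrArg Fin.val hxy
  have h' : x.out • ζ = y.out • ζ := by rw [hi', hi', h]
  have h'' : (x.out)⁻¹ * y.out ∈ N := by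
    rw [hN, mul_smul, ← h', inv_smul_smul]
  rw [← QuotientGroup.out_eq' x, ← QuotientGroup.out_eq' y]
  exact QuotientGroup.eq.2 h''

theorem unram_main (h1 : Stmt_frobPow) (h2 : Stmt_card) (h3 : Stmt_layerAct) (h4 : Stmt_reps)
    (h5 : Stmt_fixedLoc) (hL : LocAct G L) (r : ℕ) (ζ : L) (hr : 0 < r)
    (hζ : IsPrimitiveRoot ζ (resCard (FixedPoints.subfield G L) ^ r - 1))
    (N : Subgroup G) [N.Normal] (hN : ∀ g : G, g ∈ N ↔ g • ζ = ζ) (ϖ : L)
    (hϖ : IsUnifFix (⊤ : Subgroup G) ϖ) : Nat.card (G ⧸ N) = r ∧ IsUnifFix N ϖ := by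
  set q := resCard (FixedPoints.subfield G L) with hq
  have := hL.loc.ultra
  obtain ⟨-, -, -, hqn, hq1⟩ := h4 _ (h5 G L hL)
  rw [← hq] at hqn hq1
  have hqn' : ‖(q : L)‖ < 1 := by
    have : (((q : FixedPoints.subfield G L)) : L) = (q : L) := by norm_cast
    rw [← this]
    exact hqn
  have hA := h3 G L hL N
  have hL1 : IsLoc (FixedPoints.subfield N L) := hA.loc
  -- `c ≤ r`
  obtain ⟨f, hf, -⟩ := unram_exists_inj h1 hL r ζ hr hζ N hN
  have hc : Nat.card (G ⧸ N) ≤ r := by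
    have := Nat.card_le_card_of_injective f hf
    simpa using this
  -- `q ^ r ≤ resCard L1`
  have ht0 : 0 < q ^ r - 1 := by
    have h' : q ^ 1 ≤ q ^ r := Nat.pow_le_pow_right (by omega) hr
    rw [pow_one] at h'
    omega
  have hζ1 : IsPrimitiveRoot (⟨ζ, fun n => (hN n).1 n.2⟩ : FixedPoints.subfield N L) (q ^ r - 1) :=
    IsPrimitiveRoot.coe_submonoidClass_iff.1 hζ
  have ht1 : 1 ≤ ‖((q ^ r - 1 : ℕ) : FixedPoints.subfield N L)‖ := by
    have h := unram_norm_t (L := L) hqn' hr hq1.le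
    have e : ((((q ^ r - 1 : ℕ) : FixedPoints.subfield N L)) : L) = ((q ^ r - 1 : ℕ) : L) := by
      norm_cast
    rw [← e] at h
    exact h
  have hlow : q ^ r ≤ resCard (FixedPoints.subfield N L) := by
    have := unram_card_le h4 hL1 ht0 ht1 hζ1
    omega
  -- uniformizers
  obtain ⟨hϖ0, hϖ1, hϖfix, hϖgen⟩ := hϖ
  obtain ⟨ϖ1, hϖ10, hϖ11, hϖ1gen⟩ := hL1.unif
  set ϖ' : FixedPoints.subfield N L := ⟨ϖ, fun n => hϖfix n (Subgroup.mem_top _)⟩ with hϖ'
  have hϖ'0 : ϖ' ≠ 0 := fun h => hϖ0 (congrArg Subtype.val h)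
  obtain ⟨k, hk⟩ := hϖ1gen ϖ' hϖ'0
  have hnϖ' : ‖ϖ'‖ = ‖ϖ‖ := rfl
  have hϖ1pos : 0 < ‖ϖ1‖ := norm_pos_iff.2 hϖ10
  have hkpos : 0 < k := by
    by_contra hk0
    push Not at hk0
    have : 1 ≤ ‖ϖ1‖ ^ k := by
      obtain ⟨m, rfl⟩ : ∃ m : ℕ, k = -(m : ℤ) := ⟨(-k).toNat, by omega⟩
      rw [zpow_neg, zpow_natCast]
      exact (one_le_inv₀ (pow_pos hϖ1pos _)).2 (pow_le_one₀ hϖ1pos.le hϖ11.le)
    rw [← hk, hnϖ'] at this
    linarith
  obtain ⟨e, rfl⟩ : ∃ e : ℕ, k = (e : ℤ) := ⟨k.toNat, by omega⟩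
  have he : 1 ≤ e := by omega
  rw [zpow_natCast] at hk
  have hU : IsUnifFix (⊤ : Subgroup (G ⧸ N)) ϖ' := by
    refine ⟨hϖ'0, hϖ1, fun x _ => ?_, fun x hx0 hx => ?_⟩
    · induction x using QuotientGroup.induction_on with
      | H g => exact Subtype.ext (hϖfix g (Subgroup.mem_top _))
    · exact hϖgen (x : L) (fun h => hx0 (Subtype.ext h)) fun g _ =>
        congrArg Subtype.val (hx (g : G ⧸ N) (Subgroup.mem_top _))
  have hcard := h2 (G ⧸ N) (FixedPoints.subfield N L) hA ϖ' ϖ1 e hU ⟨hϖ10, hϖ11, hϖ1gen⟩ hk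
  rw [unram_resCard_fix, ← hq] at hcard
  have hle : q ^ (r * e) ≤ q ^ Nat.card (G ⧸ N) := by
    rw [← hcard, pow_mul]
    exact Nat.pow_le_pow_left hlow e
  have hle' : r * e ≤ Nat.card (G ⧸ N) := (Nat.pow_le_pow_iff_right hq1).1 hle
  have he1 : e = 1 := by
    by_contra hne
    have : 2 ≤ e := by omega
    nlinarith
  subst he1
  refine ⟨by omega, hϖ0, hϖ1, fun n hn => hϖfix n (Subgroup.mem_top _), fun x hx0 hx => ?_⟩
  obtain ⟨k, hk'⟩ := hϖ1gen (⟨x, fun n => hx n n.2⟩ : FixedPoints.subfield N L)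
    (fun h => hx0 (congrArg Subtype.val h))
  refine ⟨k, ?_⟩
  rw [pow_one] at hk
  rw [← hnϖ', hk, ← hk']
  rfl

end Main

theorem unram (h1 : Stmt_frobPow) (h2 : Stmt_card) (h3 : Stmt_layerAct) (h4 : Stmt_reps)
    (h5 : Stmt_fixedLoc) : Stmt_unram := by
  intro G L _ _ _ _ hL r ζ hr hζ N _ hN
  set q := resCard (FixedPoints.subfield G L) with hq
  obtain ⟨-, -, -, -, hq1⟩ := h4 _ (h5 G L hL)
  rw [← hq] at hq1
  -- a uniformizer of the base field
  obtain ⟨ϖE, hE0, hE1, hEgen⟩ := (h5 G L hL).unif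
  have hU : IsUnifFix (⊤ : Subgroup G) (ϖE : L) :=
    ⟨fun h => hE0 (Subtype.ext h), hE1, fun g _ => ϖE.2 g, fun x hx0 hx =>
      hEgen ⟨x, fun g => hx g (Subgroup.mem_top _)⟩ fun h => hx0 (congrArg Subtype.val h)⟩
  have hcard := (unram_main h1 h2 h3 h4 h5 hL r ζ hr hζ N hN _ hU).1
  refine ⟨hcard, ?_, fun ϖ hϖ => (unram_main h1 h2 h3 h4 h5 hL r ζ hr hζ N hN ϖ hϖ).2⟩
  obtain ⟨f, hf, hfζ⟩ := unram_exists_inj h1 hL r ζ hr hζ N hN
  rw [← hq] at hfζ
  have hbij : Function.Bijective f :=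
    (Nat.bijective_iff_injective_and_card f).2 ⟨hf, by simpa using hcard⟩
  obtain ⟨x, hx⟩ := hbij.2 ⟨1 % r, Nat.mod_lt _ hr⟩
  have hφ : x.out • ζ = ζ ^ q := by
    have h := hfζ x
    rw [hx] at h
    rw [h]
    rcases Nat.lt_or_ge 1 r with h1r | h1r
    · simp [Nat.mod_eq_of_lt h1r]
    · obtain rfl : r = 1 := by omega
      have hq' : q = (q ^ 1 - 1) + 1 := by rw [pow_one]; omega
      simp only [Nat.mod_self, pow_zero, pow_one]
      conv_rhs => rw [hq', pow_succ, hζ.pow_eq_one, one_mul]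
  refine ⟨x.out, hφ, fun y => ?_⟩
  have hpow : ∀ j : ℕ, x.out ^ j • ζ = ζ ^ (q ^ j) := by
    intro j
    induction j with
    | zero => simp
    | succ j ih => rw [pow_succ', mul_smul, ih, smul_pow', hφ, ← pow_mul, pow_succ']
  have hy := hfζ y
  rw [← hpow] at hy
  have hmem : (x.out ^ (f y : ℕ))⁻¹ * y.out ∈ N := by
    rw [hN, mul_smul, hy, inv_smul_smul]
  have : ((x.out ^ (f y : ℕ) : G) : G ⧸ N) = y := by
    rw [QuotientGroup.eq.2 hmem, QuotientGroup.out_eq']
  rw [← this]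
  exact ⟨(f y : ℕ), by simp⟩

end Fermat.Agent.CFT.Local

end
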