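/-
TEAM CFT, sub-project P1, packages P1-D1/D2: norms and units in unramified cyclic extensions.
-/
import Fermat.Agent.CFT.Local.Interface

set_option autoImplicit false

noncomputable section

namespace Fermat.Agent.CFT.Local

attribute [local instance] Units.mulDistribMulActionRight
attribute [local instance] quotAct

section

variable {G L : Type} [Group G] [Finite G] [NormedField L] [MulSemiringAction G L]

theorem unramNorm_norm_normHom (hL : LocAct G L) (b : Lˣ) :
    ‖((normHom G L b : Lˣ) : L)‖ = ‖(b : L)‖ ^ Nat.card G := by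
  cases nonempty_fintype G
  show ‖((∏ᶠ g : G, g • b : Lˣ) : L)‖ = _
  rw [finprod_eq_prod_of_fintype, Units.coe_prod, norm_prod]
  have : ∀ g ∈ (Finset.univ : Finset G), ‖((g • b : Lˣ) : L)‖ = ‖(b : L)‖ :=
    fun g _ => hL.isom g (b : L)
  rw [Finset.prod_congr rfl this, Finset.prod_const, Finset.card_univ, Nat.card_eq_fintype_card]

theorem unramNorm_normHom_mem_fixedU (b : Lˣ) : normHom G L b ∈ fixedU G L := by
  intro g
  cases nonempty_fintype G
  show g • (∏ᶠ h : G, h • b : Lˣ) = ∏ᶠ h : G, h • b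
  rw [finprod_eq_prod_of_fintype, Finset.smul_prod']
  simp only [smul_smul]
  exact Fintype.prod_equiv (Equiv.mulLeft g) _ _ (fun _ => rfl)

/-- the subgroup of invariant units whose norm is an `n`-th power of a norm -/
def unramNormW (G L : Type) [Group G] [NormedField L] [MulSemiringAction G L] : Subgroup Lˣ where
  carrier := {a | a ∈ fixedU G L ∧ ∃ b : Lˣ, ‖(a : L)‖ = ‖(b : L)‖ ^ Nat.card G}
  one_mem' := ⟨(fixedU G L).one_mem, 1, by simp⟩
  mul_mem' := by
    rintro x y ⟨hx, b, hb⟩ ⟨hy, c, hc⟩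
    refine ⟨(fixedU G L).mul_mem hx hy, b * c, ?_⟩
    simp only [Units.val_mul, norm_mul, hb, hc, mul_pow]
  inv_mem' := by
    rintro x ⟨hx, b, hb⟩
    refine ⟨(fixedU G L).inv_mem hx, b⁻¹, ?_⟩
    simp only [Units.val_inv_eq_inv_val, norm_inv, hb, inv_pow]

end

/-- P1-D1 : norms in unramified cyclic extensions. -/
theorem unramNorm (h : Stmt_normIndex) : Stmt_unramNorm := by
  intro G L _ _ _ _ hL hcyc hϖ a ha
  obtain ⟨ϖ, hu, hfix⟩ := hϖ
  obtain ⟨hϖ0, hϖ1, hval⟩ := hu
  constructor
  · rintro ⟨b, rfl⟩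
    exact ⟨b, unramNorm_norm_normHom hL b⟩
  · intro hb
    have hn : 0 < Nat.card G := Nat.card_pos
    have hidx := h G L hL hcyc
    have h1 : (normHom G L).range ≤ unramNormW G L := by
      rintro _ ⟨b, rfl⟩
      exact ⟨unramNorm_normHom_mem_fixedU b, b, unramNorm_norm_normHom hL b⟩
    have h2 : unramNormW G L ≤ fixedU G L := fun x hx => hx.1
    have h3 := Subgroup.relIndex_mul_relIndex _ _ _ h1 h2
    rw [hidx] at h3
    have h4 : Nat.card G ≤ (unramNormW G L).relIndex (fixedU G L) := by
      have hne : (unramNormW G L).relIndex (fixedU G L) ≠ 0 := by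
        intro h0
        rw [h0, mul_zero] at h3
        omega
      have hfin : Finite (fixedU G L ⧸ (unramNormW G L).subgroupOf (fixedU G L)) :=
        Nat.finite_of_card_ne_zero hne
      let x : fixedU G L := ⟨Units.mk0 ϖ hϖ0, fun g => Units.ext (hfix g)⟩
      have hinj : Function.Injective (fun i : Fin (Nat.card G) =>
          (QuotientGroup.mk (x ^ (i : ℕ)) :
            fixedU G L ⧸ (unramNormW G L).subgroupOf (fixedU G L))) := by
        intro i j hij
        have hij' := QuotientGroup.eq.1 hij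
        rw [Subgroup.mem_subgroupOf] at hij'
        obtain ⟨-, b, hb⟩ := hij'
        obtain ⟨k, hk⟩ := hval (b : L) b.ne_zero
        have e1 : ‖ϖ‖ ^ ((j : ℤ) - (i : ℤ)) = ‖ϖ‖ ^ (k * (Nat.card G : ℤ)) := by
          have hpos : ‖ϖ‖ ≠ 0 := norm_ne_zero_iff.2 hϖ0
          rw [zpow_mul, ← hk, zpow_natCast, ← hb, zpow_sub₀ hpos]
          simp [x, div_eq_inv_mul]
        have e2 : (j : ℤ) - (i : ℤ) = k * (Nat.card G : ℤ) :=
          zpow_right_injective₀ (norm_pos_iff.2 hϖ0) hϖ1.ne e1
        have hi := i.2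
        have hj := j.2
        have hk0 : k = 0 := by
          by_contra hk0
          rcases lt_or_gt_of_ne hk0 with hk1 | hk1
          · have : k * (Nat.card G : ℤ) ≤ -1 * (Nat.card G : ℤ) :=
              mul_le_mul_of_nonneg_right (by omega) (by omega)
            omega
          · have : 1 * (Nat.card G : ℤ) ≤ k * (Nat.card G : ℤ) :=
              mul_le_mul_of_nonneg_right (by omega) (by omega)
            omega
        rw [hk0, zero_mul] at e2
        apply Fin.ext
        omega
      have := Nat.card_le_card_of_injective _ hinj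
      rwa [Nat.card_fin] at this
    have h5 : (normHom G L).range.relIndex (unramNormW G L) = 1 := by
      have h6 : (normHom G L).range.relIndex (unramNormW G L) ≠ 0 := by
        intro h0
        rw [h0, zero_mul] at h3
        omega
      by_contra h7
      have h8 : 2 ≤ (normHom G L).range.relIndex (unramNormW G L) := by omega
      nlinarith
    exact Subgroup.relIndex_eq_one.1 h5 ⟨ha, hb⟩

/-- P1-D2 : units in unramified cyclic extensions have trivial Tate cohomology. -/
theorem unramUnits (h1 : Stmt_unramNorm) (h2 : Stmt_h90) : Stmt_unramUnits := by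
  intro G L _ _ _ _ hL hcyc hϖ
  have hn : 0 < Nat.card G := Nat.card_pos
  constructor
  · intro u hu hu1
    obtain ⟨w, hw⟩ := (h1 G L hL hcyc hϖ u hu).2 ⟨1, by simp [hu1]⟩
    refine ⟨w, ?_, hw⟩
    have := unramNorm_norm_normHom hL w
    rw [hw, hu1] at this
    exact (pow_eq_one_iff_of_nonneg (norm_nonneg _) hn.ne').1 this.symm
  · intro σ hσ u hu1 hNu
    obtain ⟨ϖ, hu, hfix⟩ := hϖ
    obtain ⟨hϖ0, hϖ1, hval⟩ := hu
    have := hL.faithful
    obtain ⟨y, hy⟩ := (h2 G L).2 σ hσ u hNu
    obtain ⟨k, hk⟩ := hval (y : L) y.ne_zero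
    let x : Lˣ := Units.mk0 ϖ hϖ0
    have hx : σ • x = x := Units.ext (hfix σ)
    refine ⟨y / x ^ k, ?_, ?_⟩
    · simp only [Units.val_div_eq_div_val, norm_div, Units.val_zpow_eq_zpow_val, norm_zpow, hk]
      exact div_self (zpow_ne_zero _ (norm_ne_zero_iff.2 hϖ0))
    · rw [smul_div', smul_zpow', hx, ← hy]
      exact div_div_div_cancel_right _ _ _

end Fermat.Agent.CFT.Local

end
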