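/-
TEAM CFT, P1-C4 (helper17): an open `G`-stable subgroup of the units with trivial Tate cohomology.
-/
import Fermat.Agent.CFT.Local.Interface

set_option autoImplicit false
set_option linter.unusedSectionVars false

noncomputable section

namespace Fermat.Agent.CFT.Local

attribute [local instance] Units.mulDistribMulActionRight
attribute [local instance] quotAct

open IsUltrametricDist

/-! ### ultrametric preliminaries -/

section Ultra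

variable {L : Type} [NormedField L] [IsUltrametricDist L]

theorem vgroup_norm_sub_le {x y : L} {r : ℝ} (hx : ‖x‖ ≤ r) (hy : ‖y‖ ≤ r) : ‖x - y‖ ≤ r := by
  rw [sub_eq_add_neg]
  exact (norm_add_le_max x (-y)).trans (max_le hx (by rwa [norm_neg]))

theorem vgroup_norm_add_le {x y : L} {r : ℝ} (hx : ‖x‖ ≤ r) (hy : ‖y‖ ≤ r) : ‖x + y‖ ≤ r :=
  (norm_add_le_max x y).trans (max_le hx hy)

theorem vgroup_norm_eq_one {x : L} (h : ‖x - 1‖ < 1) : ‖x‖ = 1 := by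
  have h1 : ‖(x - 1) + 1‖ = max ‖x - 1‖ ‖(1 : L)‖ :=
    norm_add_eq_max_of_norm_ne_norm (by rw [norm_one]; exact h.ne)
  rw [sub_add_cancel, norm_one, max_eq_right h.le] at h1
  exact h1

/-- `∏ (1 + u i) = 1 + ∑ u i` up to second order terms -/
theorem vgroup_prod_one_add {ι : Type} (s : Finset ι) (u : ι → L) {r : ℝ} (hr0 : 0 ≤ r)
    (hr1 : r ≤ 1) (hu : ∀ i ∈ s, ‖u i‖ ≤ r) :
    ‖∏ i ∈ s, (1 + u i) - 1 - ∑ i ∈ s, u i‖ ≤ r ^ 2 ∧ ‖∏ i ∈ s, (1 + u i) - 1‖ ≤ r := by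
  classical
  have hr2 : r ^ 2 ≤ r := by nlinarith
  induction s using Finset.induction_on with
  | empty => simp [hr0]
  | insert a s ha ih =>
    obtain ⟨h1, h2⟩ := ih fun i hi => hu i (Finset.mem_insert_of_mem hi)
    have hua := hu a (Finset.mem_insert_self a s)
    rw [Finset.prod_insert ha, Finset.sum_insert ha]
    have key : ‖(1 + u a) * ∏ i ∈ s, (1 + u i) - 1 - (u a + ∑ i ∈ s, u i)‖ ≤ r ^ 2 := by
      have e : (1 + u a) * ∏ i ∈ s, (1 + u i) - 1 - (u a + ∑ i ∈ s, u i) =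
          (∏ i ∈ s, (1 + u i) - 1 - ∑ i ∈ s, u i) + u a * (∏ i ∈ s, (1 + u i) - 1) := by ring
      rw [e]
      refine vgroup_norm_add_le h1 ?_
      rw [norm_mul, pow_two]
      exact mul_le_mul hua h2 (norm_nonneg _) hr0
    refine ⟨key, ?_⟩
    have e : (1 + u a) * ∏ i ∈ s, (1 + u i) - 1 =
        ((1 + u a) * ∏ i ∈ s, (1 + u i) - 1 - (u a + ∑ i ∈ s, u i)) + (u a + ∑ i ∈ s, u i) := by
      ring
    rw [e]
    refine vgroup_norm_add_le (key.trans hr2) (vgroup_norm_add_le hua ?_)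
    exact norm_sum_le_of_forall_le_of_nonneg hr0 fun i hi => hu i (Finset.mem_insert_of_mem hi)

end Ultra

/-! ### the lattice -/

/-- the data of the construction -/
structure VData (G L : Type) [Group G] [Fintype G] [NormedField L] [MulSemiringAction G L] where
  θ : L
  ϖ : L
  isom : ∀ (g : G) (x : L), ‖g • x‖ = ‖x‖
  θ_le : ‖θ‖ ≤ 1
  ϖ_ne : ϖ ≠ 0
  ϖ_lt : ‖ϖ‖ < 1
  ϖ_fix : ∀ g : G, g • ϖ = ϖ
  indep : ∀ a : G → L, (∀ g h : G, h • a g = a g) → ∑ g : G, a g * g • θ = 0 → ∀ g, a g = 0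
  span : ∀ x : L, ‖x‖ ≤ ‖ϖ‖ → ∃ a : G → L, (∀ g h : G, h • a g = a g) ∧ (∀ g, ‖a g‖ ≤ 1) ∧
    x = ∑ g : G, a g * g • θ

namespace VData

variable {G L : Type} [Group G] [Fintype G] [NormedField L] [MulSemiringAction G L]
  [IsUltrametricDist L] (D : VData G L)

theorem ϖ_pos : 0 < ‖D.ϖ‖ := norm_pos_iff.2 D.ϖ_ne

theorem ϖ_pow_le {i k : ℕ} (h : i ≤ k) : ‖D.ϖ‖ ^ k ≤ ‖D.ϖ‖ ^ i :=
  pow_le_pow_of_le_one D.ϖ_pos.le D.ϖ_lt.le h

theorem ϖ_pow_fix (i : ℕ) (g : G) : g • D.ϖ ^ i = D.ϖ ^ i := by rw [smul_pow', D.ϖ_fix]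

/-- the lattice `M = ⊕ O_E g•θ` -/
def M : AddSubgroup L where
  carrier := {m | ∃ a : G → L, (∀ g h : G, h • a g = a g) ∧ (∀ g, ‖a g‖ ≤ 1) ∧
    m = ∑ g, a g * g • D.θ}
  zero_mem' := ⟨0, by simp, by simp, by simp⟩
  add_mem' := by
    rintro x y ⟨a, ha1, ha2, rfl⟩ ⟨b, hb1, hb2, rfl⟩
    refine ⟨a + b, fun g h => ?_, fun g => vgroup_norm_add_le (ha2 g) (hb2 g), ?_⟩
    · simp [smul_add, ha1, hb1]
    · simp [add_mul, Finset.sum_add_distrib]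
  neg_mem' := by
    rintro x ⟨a, ha1, ha2, rfl⟩
    refine ⟨-a, fun g h => ?_, fun g => by simpa using ha2 g, ?_⟩
    · simp [smul_neg, ha1]
    · simp

theorem mem_M {m : L} : m ∈ D.M ↔ ∃ a : G → L, (∀ g h : G, h • a g = a g) ∧ (∀ g, ‖a g‖ ≤ 1) ∧
    m = ∑ g, a g * g • D.θ := Iff.rfl

theorem M_norm_le {m : L} (h : m ∈ D.M) : ‖m‖ ≤ 1 := by
  obtain ⟨a, -, ha2, rfl⟩ := h
  refine norm_sum_le_of_forall_le_of_nonneg zero_le_one fun g _ => ?_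
  rw [norm_mul, D.isom]
  exact mul_le_one₀ (ha2 g) (norm_nonneg _) D.θ_le

theorem M_of_norm_le {x : L} (h : ‖x‖ ≤ ‖D.ϖ‖) : x ∈ D.M := D.span x h

theorem smul_sum_eq (a : G → L) (ha : ∀ g h : G, h • a g = a g) (h : G) :
    h • ∑ g, a g * g • D.θ = ∑ g, a (h⁻¹ * g) * g • D.θ := by
  rw [Finset.smul_sum, ← Equiv.sum_comp (Equiv.mulLeft h) (fun g => a (h⁻¹ * g) * g • D.θ)]
  refine Finset.sum_congr rfl fun g _ => ?_
  simp [smul_mul', ha, mul_smul]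

theorem M_smul {m : L} (h : m ∈ D.M) (g : G) : g • m ∈ D.M := by
  obtain ⟨a, ha1, ha2, rfl⟩ := h
  exact ⟨fun k => a (g⁻¹ * k), fun k h => ha1 _ h, fun k => ha2 _, D.smul_sum_eq a ha1 g⟩

theorem M_mul_fix {b m : L} (hb : ∀ h : G, h • b = b) (hb1 : ‖b‖ ≤ 1) (h : m ∈ D.M) :
    b * m ∈ D.M := by
  obtain ⟨a, ha1, ha2, rfl⟩ := h
  refine ⟨fun g => b * a g, fun g h => by rw [smul_mul', hb, ha1], fun g => ?_, ?_⟩
  · rw [norm_mul]
    exact mul_le_one₀ hb1 (norm_nonneg _) (ha2 g)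
  · rw [Finset.mul_sum]
    exact Finset.sum_congr rfl fun g _ => by ring

theorem θ_mem : D.θ ∈ D.M := by
  classical
  refine ⟨fun g => if g = 1 then 1 else 0, fun g h => ?_, fun g => ?_, ?_⟩
  · dsimp only
    split_ifs <;> simp
  · dsimp only
    split_ifs <;> simp
  · simp

/-- `A i = ϖ ^ i M` -/
def A (i : ℕ) : AddSubgroup L := D.M.map (AddMonoidHom.mulLeft (D.ϖ ^ i))

theorem mem_A {i : ℕ} {x : L} : x ∈ D.A i ↔ ∃ m ∈ D.M, D.ϖ ^ i * m = x := by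
  simp [A, AddSubgroup.mem_map]

theorem A_norm_le {i : ℕ} {x : L} (h : x ∈ D.A i) : ‖x‖ ≤ ‖D.ϖ‖ ^ i := by
  obtain ⟨m, hm, rfl⟩ := D.mem_A.1 h
  rw [norm_mul, norm_pow]
  exact mul_le_of_le_one_right (pow_nonneg D.ϖ_pos.le _) (D.M_norm_le hm)

theorem A_of_norm_le {i : ℕ} {x : L} (h : ‖x‖ ≤ ‖D.ϖ‖ ^ (i + 1)) : x ∈ D.A i := by
  have h0 : D.ϖ ^ i ≠ 0 := pow_ne_zero _ D.ϖ_ne
  refine D.mem_A.2 ⟨x / D.ϖ ^ i, D.M_of_norm_le ?_, by field_simp⟩
  rw [norm_div, norm_pow, div_le_iff₀ (pow_pos D.ϖ_pos _), mul_comm, ← pow_succ]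
  exact h

theorem A_of_norm_le' {i k : ℕ} {x : L} (h : ‖x‖ ≤ ‖D.ϖ‖ ^ k) (hk : i + 1 ≤ k) : x ∈ D.A i :=
  D.A_of_norm_le (h.trans (D.ϖ_pow_le hk))

theorem A_succ_le (i : ℕ) : D.A (i + 1) ≤ D.A i := fun _ hx => D.A_of_norm_le (D.A_norm_le hx)

theorem A_smul {i : ℕ} {x : L} (h : x ∈ D.A i) (g : G) : g • x ∈ D.A i := by
  obtain ⟨m, hm, rfl⟩ := D.mem_A.1 h
  exact D.mem_A.2 ⟨g • m, D.M_smul hm g, by rw [smul_mul', D.ϖ_pow_fix]⟩

theorem mul_mem_A_iff {i k : ℕ} {x : L} : D.ϖ ^ i * x ∈ D.A (i + k) ↔ x ∈ D.A k := by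
  have h0 : D.ϖ ^ i ≠ 0 := pow_ne_zero _ D.ϖ_ne
  constructor
  · intro h
    obtain ⟨m, hm, he⟩ := D.mem_A.1 h
    refine D.mem_A.2 ⟨m, hm, ?_⟩
    rw [pow_add, mul_assoc] at he
    exact mul_left_cancel₀ h0 he
  · intro h
    obtain ⟨m, hm, rfl⟩ := D.mem_A.1 h
    exact D.mem_A.2 ⟨m, hm, by rw [pow_add, mul_assoc]⟩

/-! ### graded exactness -/

/-- `ϖ O_E` -/
def O1 : AddSubgroup L where
  carrier := {x | ∃ d : L, (∀ h : G, h • d = d) ∧ ‖d‖ ≤ 1 ∧ x = D.ϖ * d}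
  zero_mem' := ⟨0, by simp, by simp, by simp⟩
  add_mem' := by
    rintro x y ⟨d, hd1, hd2, rfl⟩ ⟨e, he1, he2, rfl⟩
    exact ⟨d + e, fun h => by rw [smul_add, hd1, he1], vgroup_norm_add_le hd2 he2, by ring⟩
  neg_mem' := by
    rintro x ⟨d, hd1, hd2, rfl⟩
    exact ⟨-d, fun h => by rw [smul_neg, hd1], by rwa [norm_neg], by ring⟩

theorem coord_mem_O1 (a : G → L) (ha : ∀ g h : G, h • a g = a g)
    (h : ∑ g, a g * g • D.θ ∈ D.A 1) (g : G) : a g ∈ D.O1 := by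
  obtain ⟨m, ⟨a', ha'1, ha'2, rfl⟩, he⟩ := D.mem_A.1 h
  have h0 := D.indep (fun g => a g - D.ϖ * a' g)
    (fun g h => by rw [smul_sub, smul_mul', ha, ha'1, D.ϖ_fix]) (by
      simp only [sub_mul, Finset.sum_sub_distrib]
      rw [← he, pow_one, Finset.mul_sum, sub_eq_zero]
      exact Finset.sum_congr rfl fun g _ => by ring) g
  exact ⟨a' g, ha'1 g, ha'2 g, sub_eq_zero.1 h0⟩

theorem sum_mem_A1 (a : G → L) (ha : ∀ g, a g ∈ D.O1) : ∑ g, a g * g • D.θ ∈ D.A 1 := by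
  choose d hd1 hd2 hd3 using ha
  refine D.mem_A.2 ⟨∑ g, d g * g • D.θ, ⟨d, fun g h => hd1 g h, hd2, rfl⟩, ?_⟩
  rw [pow_one, Finset.mul_sum]
  exact Finset.sum_congr rfl fun g _ => by rw [hd3 g]; ring

theorem exact1 (σ : G) (hσ : ∀ g : G, g ∈ Subgroup.zpowers σ) {m : L} (hm : m ∈ D.M)
    (h : σ • m - m ∈ D.A 1) : ∃ m₀ ∈ D.M, m - ∑ g : G, g • m₀ ∈ D.A 1 := by
  obtain ⟨a, ha1, ha2, rfl⟩ := hm
  rw [D.smul_sum_eq a ha1 σ, ← Finset.sum_sub_distrib] at h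
  have h' : ∑ g, (a (σ⁻¹ * g) - a g) * g • D.θ ∈ D.A 1 := by simpa only [sub_mul] using h
  have hc := D.coord_mem_O1 (fun g => a (σ⁻¹ * g) - a g)
    (fun g h => by rw [smul_sub, ha1, ha1]) h'
  have hk : ∀ k : ℤ, a (σ ^ k) - a 1 ∈ D.O1 := by
    intro k
    induction k using Int.induction_on with
    | zero => simp
    | succ i ih =>
      have h1 := hc (σ ^ ((i : ℤ) + 1))
      have e : σ⁻¹ * σ ^ ((i : ℤ) + 1) = σ ^ (i : ℤ) := by
        rw [← zpow_neg_one, ← zpow_add]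
        congr 1
        ring
      simp only [e] at h1
      have e2 : a (σ ^ ((i : ℤ) + 1)) - a 1 =
          -(a (σ ^ (i : ℤ)) - a (σ ^ ((i : ℤ) + 1))) + (a (σ ^ (i : ℤ)) - a 1) := by ring
      rw [e2]
      exact D.O1.add_mem (D.O1.neg_mem h1) ih
    | pred i ih =>
      have h1 := hc (σ ^ (-(i : ℤ)))
      have e : σ⁻¹ * σ ^ (-(i : ℤ)) = σ ^ (-(i : ℤ) - 1) := by
        rw [← zpow_neg_one, ← zpow_add]
        congr 1
        ring
      simp only [e] at h1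
      have e2 : a (σ ^ (-(i : ℤ) - 1)) - a 1 =
          (a (σ ^ (-(i : ℤ) - 1)) - a (σ ^ (-(i : ℤ)))) + (a (σ ^ (-(i : ℤ))) - a 1) := by ring
      rw [e2]
      exact D.O1.add_mem h1 ih
  refine ⟨a 1 * D.θ, D.M_mul_fix (ha1 1) (ha2 1) D.θ_mem, ?_⟩
  have e : ∑ g, a g * g • D.θ - ∑ g : G, g • (a 1 * D.θ) = ∑ g, (a g - a 1) * g • D.θ := by
    rw [← Finset.sum_sub_distrib]
    exact Finset.sum_congr rfl fun g _ => by rw [smul_mul', ha1, sub_mul]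
  rw [e]
  refine D.sum_mem_A1 _ fun g => ?_
  obtain ⟨k, rfl⟩ := Subgroup.mem_zpowers_iff.1 (hσ g)
  exact hk k

/-- the additive map `m ↦ σ • m - m` -/
def δ (σ : G) : L →+ L := DistribSMul.toAddMonoidHom L σ - AddMonoidHom.id L

omit [Fintype G] [IsUltrametricDist L] in
theorem δ_apply (σ : G) (x : L) : δ σ x = σ • x - x := rfl

theorem exact2 (σ : G) (hσ : ∀ g : G, g ∈ Subgroup.zpowers σ) {m : L} (hm : m ∈ D.M)
    (h : ∑ g : G, g • m ∈ D.A 1) : ∃ m' ∈ D.M, m - (σ • m' - m') ∈ D.A 1 := by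
  obtain ⟨a, ha1, ha2, rfl⟩ := hm
  set s : L := ∑ g, a g with hs
  have hsfix : ∀ h : G, h • s = s := fun h => by
    rw [hs, Finset.smul_sum]
    exact Finset.sum_congr rfl fun g _ => ha1 g h
  have e1 : ∑ h : G, h • ∑ g : G, a g * g • D.θ = ∑ g : G, s * g • D.θ := by
    simp only [D.smul_sum_eq a ha1]
    rw [Finset.sum_comm]
    refine Finset.sum_congr rfl fun g _ => ?_
    rw [← Finset.sum_mul]
    congr 1
    exact Equiv.sum_comp ((Equiv.inv G).trans (Equiv.mulRight g)) a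
  rw [e1] at h
  obtain ⟨d, hd1, hd2, hd3⟩ := D.coord_mem_O1 (fun _ => s) (fun _ h => hsfix h) h 1
  -- the coboundary argument
  have hI : ∀ c : L, (∀ h : G, h • c = c) → ‖c‖ ≤ 1 → ∀ k : ℤ,
      c * σ ^ k • D.θ - c * D.θ ∈ D.M.map (δ σ) := by
    intro c hc1 hc2 k
    have hmem : ∀ k : ℤ, c * σ ^ k • D.θ ∈ D.M := fun k =>
      D.M_mul_fix hc1 hc2 (D.M_smul D.θ_mem _)
    have hstep : ∀ k : ℤ, c * σ ^ (k + 1) • D.θ - c * σ ^ k • D.θ ∈ D.M.map (δ σ) := by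
      intro k
      refine AddSubgroup.mem_map.2 ⟨_, hmem k, ?_⟩
      rw [δ_apply, smul_mul', hc1, smul_smul, add_comm k 1, zpow_add, zpow_one]
    induction k using Int.induction_on with
    | zero => simp
    | succ i ih =>
      have e : c * σ ^ ((i : ℤ) + 1) • D.θ - c * D.θ =
          (c * σ ^ ((i : ℤ) + 1) • D.θ - c * σ ^ (i : ℤ) • D.θ) +
            (c * σ ^ (i : ℤ) • D.θ - c * D.θ) := by ring
      rw [e]
      exact AddSubgroup.add_mem _ (hstep i) ih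
    | pred i ih =>
      have h1 := hstep (-(i : ℤ) - 1)
      rw [sub_add_cancel] at h1
      have e : c * σ ^ (-(i : ℤ) - 1) • D.θ - c * D.θ =
          -(c * σ ^ (-(i : ℤ)) • D.θ - c * σ ^ (-(i : ℤ) - 1) • D.θ) +
            (c * σ ^ (-(i : ℤ)) • D.θ - c * D.θ) := by ring
      rw [e]
      exact AddSubgroup.add_mem _ (AddSubgroup.neg_mem _ h1) ih
  have hsum : ∑ g, a g * g • D.θ - s * D.θ ∈ D.M.map (δ σ) := by
    rw [hs, Finset.sum_mul, ← Finset.sum_sub_distrib]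
    refine AddSubgroup.sum_mem _ fun g _ => ?_
    obtain ⟨k, hk⟩ := Subgroup.mem_zpowers_iff.1 (hσ g)
    rw [← hk]
    exact hI _ (ha1 _) (ha2 _) k
  obtain ⟨m', hm', he⟩ := AddSubgroup.mem_map.1 hsum
  refine ⟨m', hm', ?_⟩
  rw [← δ_apply, he]
  refine D.mem_A.2 ⟨d * D.θ, D.M_mul_fix hd1 hd2 D.θ_mem, ?_⟩
  rw [hd3]
  ring

/-! ### the filtration of the unit group -/

theorem norm_lt_one_of_mem_A {j : ℕ} {u : L} (h : u ∈ D.A (j + 2)) : ‖u‖ < 1 :=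
  (D.A_norm_le h).trans_lt (pow_lt_one₀ D.ϖ_pos.le D.ϖ_lt (by omega))

theorem mul_mem_A {j : ℕ} {u v : L} (hu : ‖u‖ ≤ ‖D.ϖ‖ ^ (j + 2)) (hv : ‖v‖ ≤ ‖D.ϖ‖ ^ (j + 2)) :
    u * v ∈ D.A (j + 3) := by
  refine D.A_of_norm_le' (k := (j + 2) + (j + 2)) ?_ (by omega)
  rw [norm_mul, pow_add]
  exact mul_le_mul hu hv (norm_nonneg _) (pow_nonneg D.ϖ_pos.le _)

/-- the filtration `F j = 1 + ϖ ^ (j + 2) M` -/
def F (j : ℕ) : Subgroup Lˣ where
  carrier := {x | (x : L) - 1 ∈ D.A (j + 2)}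
  one_mem' := by simp
  mul_mem' := by
    intro x y hx hy
    have e : ((x * y : Lˣ) : L) - 1 =
        ((x : L) - 1) + ((y : L) - 1) + ((x : L) - 1) * ((y : L) - 1) := by
      push_cast
      ring
    change ((x * y : Lˣ) : L) - 1 ∈ D.A (j + 2)
    rw [e]
    exact add_mem (add_mem hx hy)
      (D.A_succ_le _ (D.mul_mem_A (D.A_norm_le hx) (D.A_norm_le hy)))
  inv_mem' := by
    intro x hx
    have hx1 : ‖(x : L)‖ = 1 := vgroup_norm_eq_one (D.norm_lt_one_of_mem_A hx)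
    have hx0 : (x : L) ≠ 0 := x.ne_zero
    have e : ((x⁻¹ : Lˣ) : L) - 1 =
        -((x : L) - 1) + ((x : L) - 1) * (((x : L) - 1) * (x : L)⁻¹) := by
      push_cast
      field_simp
      ring
    change ((x⁻¹ : Lˣ) : L) - 1 ∈ D.A (j + 2)
    rw [e]
    refine add_mem (neg_mem hx) (D.A_succ_le _ (D.mul_mem_A (D.A_norm_le hx) ?_))
    rw [norm_mul, norm_inv, hx1, inv_one, mul_one]
    exact D.A_norm_le hx

theorem mem_F {j : ℕ} {x : Lˣ} : x ∈ D.F j ↔ (x : L) - 1 ∈ D.A (j + 2) := Iff.rfl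

theorem F_norm {j : ℕ} {x : Lˣ} (h : x ∈ D.F j) : ‖(x : L)‖ = 1 :=
  vgroup_norm_eq_one (D.norm_lt_one_of_mem_A h)

theorem F_norm_sub {j : ℕ} {x : Lˣ} (h : x ∈ D.F j) : ‖(x : L) - 1‖ ≤ ‖D.ϖ‖ ^ (j + 2) :=
  D.A_norm_le h

theorem F_succ_le (j : ℕ) : D.F (j + 1) ≤ D.F j := fun _ hx => D.A_succ_le _ hx

theorem F_smul {j : ℕ} {x : Lˣ} (h : x ∈ D.F j) (g : G) : g • x ∈ D.F j := by
  have := D.A_smul h g
  rw [smul_sub, smul_one] at this
  exact this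

theorem F_div_mem {j : ℕ} {x y : Lˣ} (hy : y ∈ D.F j) (h : (x : L) - y ∈ D.A (j + 3)) :
    x / y ∈ D.F (j + 1) := by
  have hy' := D.F_norm_sub ((D.F j).inv_mem hy)
  have e : ((x / y : Lˣ) : L) - 1 =
      ((x : L) - y) + ((x : L) - y) * (((y⁻¹ : Lˣ) : L) - 1) := by
    have hy0 : (y : L) ≠ 0 := y.ne_zero
    push_cast
    field_simp
    ring
  rw [mem_F, e]
  exact add_mem h (D.mul_mem_A ((D.A_norm_le h).trans (D.ϖ_pow_le (by omega))) hy')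

/-- the unit `1 + u` -/
def mkU {j : ℕ} (u : L) (hu : u ∈ D.A (j + 2)) : Lˣ :=
  Units.mk0 (1 + u) (by
    intro h0
    have h1 : u = -1 := by linear_combination h0
    have := D.norm_lt_one_of_mem_A hu
    rw [h1, norm_neg, norm_one] at this
    exact lt_irrefl _ this)

theorem mkU_val {j : ℕ} (u : L) (hu : u ∈ D.A (j + 2)) : ((D.mkU u hu : Lˣ) : L) = 1 + u := rfl

theorem mkU_mem {j : ℕ} (u : L) (hu : u ∈ D.A (j + 2)) : D.mkU u hu ∈ D.F j := by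
  rw [mem_F, mkU_val, add_sub_cancel_left]
  exact hu

end VData

/-- the homomorphism `x ↦ σ x / x` -/
def vgroupD {G L : Type} [Group G] [Field L] [MulSemiringAction G L] (σ : G) : Lˣ →* Lˣ where
  toFun x := σ • x / x
  map_one' := by simp
  map_mul' x y := by rw [smul_mul', mul_div_mul_comm]

namespace VData

variable {G L : Type} [Group G] [Fintype G] [NormedField L] [MulSemiringAction G L]
  [IsUltrametricDist L] (D : VData G L)

theorem normHom_val (x : Lˣ) : ((normHom G L x : Lˣ) : L) = ∏ g : G, g • (x : L) := by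
  change ((∏ᶠ g : G, g • x : Lˣ) : L) = _
  rw [finprod_eq_prod_of_fintype, Units.coe_prod]
  rfl

theorem normHom_eq (x : Lˣ) : normHom G L x = ∏ g : G, g • x := by
  change (∏ᶠ g : G, g • x : Lˣ) = _
  rw [finprod_eq_prod_of_fintype]

theorem D_expand (σ : G) {j : ℕ} {x : Lˣ} (hx : x ∈ D.F j) :
    ((vgroupD σ x : Lˣ) : L) - 1 - (σ • ((x : L) - 1) - ((x : L) - 1)) ∈ D.A (j + 3) := by
  have hx' := D.F_norm_sub ((D.F j).inv_mem hx)
  have e : ((vgroupD σ x : Lˣ) : L) - 1 - (σ • ((x : L) - 1) - ((x : L) - 1)) =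
      (σ • ((x : L) - 1) - ((x : L) - 1)) * (((x⁻¹ : Lˣ) : L) - 1) := by
    have hx0 : (x : L) ≠ 0 := x.ne_zero
    change ((σ • x / x : Lˣ) : L) - 1 - _ = _
    rw [smul_sub, smul_one]
    push_cast
    field_simp
    ring
  rw [e]
  refine D.mul_mem_A (vgroup_norm_sub_le ?_ (D.F_norm_sub hx)) hx'
  rw [D.isom]
  exact D.F_norm_sub hx

theorem N_expand {j : ℕ} {x : Lˣ} (hx : x ∈ D.F j) :
    ((normHom G L x : Lˣ) : L) - 1 - ∑ g : G, g • ((x : L) - 1) ∈ D.A (j + 3) := by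
  have h1 := (vgroup_prod_one_add Finset.univ (fun g : G => g • ((x : L) - 1))
    (pow_nonneg D.ϖ_pos.le (j + 2)) (pow_le_one₀ D.ϖ_pos.le D.ϖ_lt.le)
    (fun g _ => by rw [D.isom]; exact D.F_norm_sub hx)).1
  have e : ∀ g : G, 1 + g • ((x : L) - 1) = g • (x : L) := fun g => by
    rw [smul_sub, smul_one]; ring
  simp only [e] at h1
  rw [normHom_val]
  rw [← pow_mul] at h1
  exact D.A_of_norm_le' h1 (by omega)

theorem N_mem {j : ℕ} {x : Lˣ} (hx : x ∈ D.F j) : normHom G L x ∈ D.F j := by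
  rw [normHom_eq]
  exact Subgroup.prod_mem _ fun g _ => D.F_smul hx g

theorem D_mem (σ : G) {j : ℕ} {x : Lˣ} (hx : x ∈ D.F j) : vgroupD σ x ∈ D.F j :=
  (D.F j).div_mem (D.F_smul hx σ) hx

theorem D_N (σ : G) (x : Lˣ) : vgroupD σ (normHom G L x) = 1 := by
  change σ • normHom G L x / normHom G L x = 1
  rw [div_eq_one, normHom_eq, Finset.smul_prod']
  simp only [smul_smul]
  exact Equiv.prod_comp (Equiv.mulLeft σ) (fun g => g • x)

theorem N_D (σ : G) (x : Lˣ) : normHom G L (vgroupD σ x) = 1 := by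
  change normHom G L (σ • x / x) = 1
  rw [map_div, div_eq_one, normHom_eq, normHom_eq]
  simp only [smul_smul]
  exact Equiv.prod_comp (Equiv.mulRight σ) (fun g => g • x)

theorem graded1 (σ : G) (hσ : ∀ g : G, g ∈ Subgroup.zpowers σ) {j : ℕ} {x : Lˣ}
    (hx : x ∈ D.F j) (h : vgroupD σ x ∈ D.F (j + 1)) :
    ∃ y ∈ D.F j, x / normHom G L y ∈ D.F (j + 1) := by
  obtain ⟨m, hm, hu⟩ := D.mem_A.1 hx
  have h1 : σ • ((x : L) - 1) - ((x : L) - 1) ∈ D.A (j + 2 + 1) := by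
    have := sub_mem (D.mem_F.1 h) (D.D_expand σ hx)
    rwa [sub_sub_cancel] at this
  rw [← hu, smul_mul', D.ϖ_pow_fix, ← mul_sub] at h1
  obtain ⟨m₀, hm₀, h3⟩ := D.exact1 σ hσ hm (D.mul_mem_A_iff.1 h1)
  have hu₀ : D.ϖ ^ (j + 2) * m₀ ∈ D.A (j + 2) := D.mem_A.2 ⟨m₀, hm₀, rfl⟩
  refine ⟨D.mkU _ hu₀, D.mkU_mem _ hu₀, D.F_div_mem (D.N_mem (D.mkU_mem _ hu₀)) ?_⟩
  have h4 := D.N_expand (D.mkU_mem _ hu₀)
  rw [mkU_val, add_sub_cancel_left] at h4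
  have h5 : D.ϖ ^ (j + 2) * (m - ∑ g : G, g • m₀) ∈ D.A (j + 2 + 1) := D.mul_mem_A_iff.2 h3
  have e : (x : L) - (normHom G L (D.mkU _ hu₀) : Lˣ) =
      D.ϖ ^ (j + 2) * (m - ∑ g : G, g • m₀) -
        (((normHom G L (D.mkU _ hu₀) : Lˣ) : L) - 1 - ∑ g : G, g • (D.ϖ ^ (j + 2) * m₀)) := by
    have e1 : ∑ g : G, g • (D.ϖ ^ (j + 2) * m₀) = D.ϖ ^ (j + 2) * ∑ g : G, g • m₀ := by
      rw [Finset.mul_sum]
      exact Finset.sum_congr rfl fun g _ => by rw [smul_mul', D.ϖ_pow_fix]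
    rw [e1, mul_sub, hu]
    ring
  rw [e]
  exact sub_mem h5 h4

theorem graded2 (σ : G) (hσ : ∀ g : G, g ∈ Subgroup.zpowers σ) {j : ℕ} {x : Lˣ}
    (hx : x ∈ D.F j) (h : normHom G L x ∈ D.F (j + 1)) :
    ∃ y ∈ D.F j, x / vgroupD σ y ∈ D.F (j + 1) := by
  obtain ⟨m, hm, hu⟩ := D.mem_A.1 hx
  have h1 : ∑ g : G, g • ((x : L) - 1) ∈ D.A (j + 2 + 1) := by
    have := sub_mem (D.mem_F.1 h) (D.N_expand hx)
    rwa [sub_sub_cancel] at this
  have e1 : ∑ g : G, g • ((x : L) - 1) = D.ϖ ^ (j + 2) * ∑ g : G, g • m := by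
    rw [Finset.mul_sum, ← hu]
    exact Finset.sum_congr rfl fun g _ => by rw [smul_mul', D.ϖ_pow_fix]
  rw [e1] at h1
  obtain ⟨m', hm', h3⟩ := D.exact2 σ hσ hm (D.mul_mem_A_iff.1 h1)
  have hu' : D.ϖ ^ (j + 2) * m' ∈ D.A (j + 2) := D.mem_A.2 ⟨m', hm', rfl⟩
  refine ⟨D.mkU _ hu', D.mkU_mem _ hu', D.F_div_mem (D.D_mem σ (D.mkU_mem _ hu')) ?_⟩
  have h4 := D.D_expand σ (D.mkU_mem _ hu')
  rw [mkU_val, add_sub_cancel_left] at h4
  have h5 : D.ϖ ^ (j + 2) * (m - (σ • m' - m')) ∈ D.A (j + 2 + 1) := D.mul_mem_A_iff.2 h3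
  have e : (x : L) - (vgroupD σ (D.mkU _ hu') : Lˣ) =
      D.ϖ ^ (j + 2) * (m - (σ • m' - m')) -
        (((vgroupD σ (D.mkU _ hu') : Lˣ) : L) - 1 -
          (σ • (D.ϖ ^ (j + 2) * m') - D.ϖ ^ (j + 2) * m')) := by
    rw [smul_mul', D.ϖ_pow_fix, mul_sub, hu]
    ring
  rw [e]
  exact sub_mem h5 h4

theorem F_antitone : Antitone D.F := antitone_nat_of_succ_le D.F_succ_le

theorem separated {x : Lˣ} (h : ∀ j, x ∈ D.F j) : x = 1 := by
  by_contra hne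
  have hpos : 0 < ‖(x : L) - 1‖ := by
    rw [norm_pos_iff, sub_ne_zero]
    exact fun h1 => hne (Units.ext h1)
  obtain ⟨n, hn⟩ := exists_pow_lt_of_lt_one hpos D.ϖ_lt
  have := (D.F_norm_sub (h n)).trans (D.ϖ_pow_le (show n ≤ n + 2 by omega))
  linarith

theorem complete [CompleteSpace L] (w : ℕ → Lˣ) (hw : ∀ j, w j ∈ D.F j) :
    ∃ W ∈ D.F 0, ∀ k, W / ∏ j ∈ Finset.range k, w j ∈ D.F k := by
  set P : ℕ → Lˣ := fun k => ∏ j ∈ Finset.range k, w j with hP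
  have hP0 : ∀ k, P k ∈ D.F 0 := fun k =>
    Subgroup.prod_mem _ fun j _ => D.F_antitone (Nat.zero_le j) (hw j)
  have hPdiv : ∀ k l, k ≤ l → P l / P k ∈ D.F k := by
    intro k l hkl
    have e : P l / P k = ∏ j ∈ Finset.Ico k l, w j := by
      rw [div_eq_iff_eq_mul, mul_comm]
      exact (Finset.prod_range_mul_prod_Ico w hkl).symm
    rw [e]
    exact Subgroup.prod_mem _ fun j hj => D.F_antitone (Finset.mem_Ico.1 hj).1 (hw j)
  have hcauchy : CauchySeq (fun k => ((P k : Lˣ) : L)) := by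
    refine cauchySeq_of_le_geometric ‖D.ϖ‖ 1 D.ϖ_lt fun n => ?_
    have e : ((P n : Lˣ) : L) - ((P (n + 1) : Lˣ) : L) = -(((P n : Lˣ) : L) * ((w n : L) - 1)) := by
      simp only [hP, Finset.prod_range_succ]
      push_cast
      ring
    rw [dist_eq_norm, e, norm_neg, norm_mul, D.F_norm (hP0 n), one_mul, one_mul]
    exact (D.F_norm_sub (hw n)).trans (D.ϖ_pow_le (by omega))
  obtain ⟨W, hW⟩ := cauchySeq_tendsto_of_complete hcauchy
  have happ : ∀ k : ℕ, ∃ l, k ≤ l ∧ ‖W - ((P l : Lˣ) : L)‖ ≤ ‖D.ϖ‖ ^ (k + 3) := by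
    intro k
    obtain ⟨N, hN⟩ := Metric.tendsto_atTop.1 hW (‖D.ϖ‖ ^ (k + 3)) (pow_pos D.ϖ_pos _)
    refine ⟨max k N, le_max_left _ _, ?_⟩
    have := hN (max k N) (le_max_right _ _)
    rw [dist_eq_norm, norm_sub_rev] at this
    exact this.le
  have hW0 : W ≠ 0 := by
    rintro rfl
    obtain ⟨l, -, hl⟩ := happ 0
    rw [zero_sub, norm_neg, D.F_norm (hP0 l)] at hl
    have : ‖D.ϖ‖ ^ (0 + 3) < 1 := pow_lt_one₀ D.ϖ_pos.le D.ϖ_lt (by omega)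
    linarith
  have key : ∀ k, Units.mk0 W hW0 / P k ∈ D.F k := by
    intro k
    obtain ⟨l, hkl, hl⟩ := happ k
    have e : ((Units.mk0 W hW0 / P k : Lˣ) : L) - 1 =
        (W - ((P l : Lˣ) : L)) * (((P k : Lˣ) : L))⁻¹ + (((P l / P k : Lˣ) : L) - 1) := by
      push_cast
      rw [Units.val_mk0]
      ring
    rw [mem_F, e]
    refine add_mem (D.A_of_norm_le ?_) (hPdiv k l hkl)
    rw [norm_mul, norm_inv, D.F_norm (hP0 k), inv_one, mul_one]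
    exact hl
  refine ⟨Units.mk0 W hW0, ?_, key⟩
  have := key 0
  simpa [hP] using this

end VData

/-- the main theorem, without `Stmt_fixedLoc` -/
theorem vgroup' (h1 : Stmt_lattice) (h2 : Stmt_approx) : Stmt_vgroup := by
  intro G L _ _ _ _ hact σ hσ
  classical
  let _ : Fintype G := Fintype.ofFinite G
  have hultra := hact.loc.ultra
  have hcomp := hact.loc.complete
  obtain ⟨θ, c, hc, hθ, hindep, hspan⟩ := h1 G L hact
  obtain ⟨ϖL, hϖL0, hϖL1, -⟩ := hact.loc.unif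
  -- a fixed element of small norm
  set π : L := ∏ g : G, g • ϖL with hπ
  have hπfix : ∀ g : G, g • π = π := by
    intro g
    rw [hπ, Finset.smul_prod']
    simp only [smul_smul]
    exact Equiv.prod_comp (Equiv.mulLeft g) (fun g => g • ϖL)
  have hπnorm : ‖π‖ = ‖ϖL‖ ^ Fintype.card G := by
    rw [hπ, norm_prod]
    simp [hact.isom]
  have hπ0 : π ≠ 0 := by
    rw [← norm_pos_iff, hπnorm]
    exact pow_pos (norm_pos_iff.2 hϖL0) _
  have hπ1 : ‖π‖ < 1 := by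
    rw [hπnorm]
    exact pow_lt_one₀ (norm_nonneg _) hϖL1 Fintype.card_ne_zero
  obtain ⟨k, hk⟩ := exists_pow_lt_of_lt_one hc hπ1
  have hϖc : ‖π ^ (k + 1)‖ ≤ c := by
    rw [norm_pow]
    exact (pow_le_pow_of_le_one (norm_nonneg _) hπ1.le (Nat.le_succ k)).trans hk.le
  let D : VData G L :=
    { θ := θ
      ϖ := π ^ (k + 1)
      isom := hact.isom
      θ_le := hθ
      ϖ_ne := pow_ne_zero _ hπ0
      ϖ_lt := by
        rw [norm_pow]
        exact pow_lt_one₀ (norm_nonneg _) hπ1 (Nat.succ_ne_zero k)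
      ϖ_fix := fun g => by rw [smul_pow', hπfix]
      indep := fun a ha h0 => hindep a ha (by rw [finsum_eq_sum_of_fintype]; exact h0)
      span := fun x hx => by
        obtain ⟨a, ha1, ha2, ha3⟩ := hspan x
        refine ⟨a, ha1, fun g => ?_, by rw [← finsum_eq_sum_of_fintype]; exact ha3⟩
        have := (ha2 g).trans (hx.trans hϖc)
        exact le_of_mul_le_mul_left (by simpa using this) hc }
  have hA := h2 Lˣ D.F (vgroupD σ) (normHom G L) D.F_succ_le (fun x hx => D.separated hx)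
    D.complete (fun j x hx => D.N_mem hx) (VData.D_N σ) (fun j x hx h => D.graded1 σ hσ hx h)
  have hB := h2 Lˣ D.F (normHom G L) (vgroupD σ) D.F_succ_le (fun x hx => D.separated hx)
    D.complete (fun j x hx => D.D_mem σ hx) (VData.N_D σ) (fun j x hx h => D.graded2 σ hσ hx h)
  refine ⟨D.F 0, fun v hv => D.F_norm hv, ⟨‖D.ϖ‖ ^ 3, pow_pos D.ϖ_pos _, fun x hx => ?_⟩,
    fun g v hv => D.F_smul hv g, fun v hv hfix => ?_, fun v hv hN => ?_⟩
  · exact D.A_of_norm_le hx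
  · exact hA v hv (by
      change σ • v / v = 1
      rw [hfix σ, div_self'])
  · exact hB v hv hN

theorem vgroup (h1 : Stmt_lattice) (h2 : Stmt_approx) (_h3 : Stmt_fixedLoc) : Stmt_vgroup :=
  vgroup' h1 h2

end Fermat.Agent.CFT.Local

end
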