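import Fermat.Agent.CFT.P0.All
import Fermat.Agent.CFT.Local.Approx
import Fermat.Agent.CFT.Local.Card
import Fermat.Agent.CFT.Local.ClassModule
import Fermat.Agent.CFT.Local.CycH2card
import Fermat.Agent.CFT.Local.CycloExt
import Fermat.Agent.CFT.Local.ExtLoc
import Fermat.Agent.CFT.Local.FixedLoc
import Fermat.Agent.CFT.Local.FrobPow
import Fermat.Agent.CFT.Local.Fund
import Fermat.Agent.CFT.Local.H90
import Fermat.Agent.CFT.Local.InfCyc
import Fermat.Agent.CFT.Local.InfResGen
import Fermat.Agent.CFT.Local.Lattice
import Fermat.Agent.CFT.Local.LayerAct
import Fermat.Agent.CFT.Local.LayerIso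
import Fermat.Agent.CFT.Local.NormIndex
import Fermat.Agent.CFT.Local.PadicLoc
import Fermat.Agent.CFT.Local.PowIndex
import Fermat.Agent.CFT.Local.PrimeLayers
import Fermat.Agent.CFT.Local.Proper
import Fermat.Agent.CFT.Local.Reps
import Fermat.Agent.CFT.Local.ResInfCyc
import Fermat.Agent.CFT.Local.Unram
import Fermat.Agent.CFT.Local.UnramNorm
import Fermat.Agent.CFT.Local.VGroup

/-!
# P1 : local class field theory at finite level, unconditional form

Every `Stmt_*` of `Local/Interface.lean` is proved here without hypotheses.
Already unconditional in their own files: `proper`, `reps`, `fixedLoc`, `layerIso`, `h90`,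
`approx`, `resInfCyc`, `padicLoc`.
-/

namespace Fermat.Agent.CFT.Local

theorem all_layerAct : Stmt_layerAct := layerAct fixedLoc

theorem all_extLoc : Stmt_extLoc := extLoc proper

theorem all_infResGen : Stmt_infResGen := infResGen P0.all_infRes

theorem all_infCycCocycle : Stmt_infCycCocycle := infCycCocycle P0.cycH2

theorem all_infCyc : Stmt_infCyc := stmt_infCyc P0.cycH2 P0.all_infRes h90

theorem all_lattice : Stmt_lattice := lattice fixedLoc

theorem all_card : Stmt_card := card all_lattice reps fixedLoc

theorem all_vgroup : Stmt_vgroup := vgroup all_lattice approx fixedLoc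

theorem all_normIndex : Stmt_normIndex :=
  normIndex all_vgroup h90 proper P0.herbrandMul P0.herbrandFinite

theorem all_normOpen : Stmt_normOpen := normOpen all_vgroup

theorem all_cycH2card : Stmt_cycH2card := cycH2card all_normIndex P0.herbrandBridge

theorem all_primeLayers : Stmt_primeLayers := primeLayers all_cycH2card h90 all_layerAct layerIso

theorem all_upper : Stmt_upper := upper all_primeLayers P0.all_ugly

theorem all_unramNorm : Stmt_unramNorm := unramNorm all_normIndex

theorem all_unramUnits : Stmt_unramUnits := unramUnits all_unramNorm h90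

theorem all_frobPow : Stmt_frobPow := frobPow reps fixedLoc

theorem all_unram : Stmt_unram := unram all_frobPow all_card all_layerAct reps fixedLoc

theorem all_cycloExt : Stmt_cycloExt := cycloExt all_extLoc fixedLoc

theorem all_fund : Stmt_fund :=
  fund all_cycloExt all_unram all_card all_unramNorm reps fixedLoc h90 all_infResGen
    all_infCycCocycle all_infCyc resInfCyc P0.cycH2

theorem all_classModule : Stmt_classModule := classModule h90 all_upper all_fund

theorem all_H3 : Stmt_H3 := H3 all_classModule P0.all_tate

theorem all_powIndex : Stmt_powIndex := powIndex proper reps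

end Fermat.Agent.CFT.Local
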