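/-
TEAM CFT, sub-project P1, package H5: cohomology of the layers of a tower of local fields.
-/
import Fermat.Agent.CFT.Local.Tower
import Fermat.Agent.CFT.P0.Tate

set_option autoImplicit false

noncomputable section

namespace Fermat.Agent.CFT.Local

open CategoryTheory CategoryTheory.Limits groupCohomology Fermat.Agent.CFT.Top

attribute [local instance] Units.mulDistribMulActionRight
attribute [local instance] quotAct

/-- transport of "cyclic" along an isomorphism of `ℤ`-modules -/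
theorem TowerLayer_transport {X Y : ModuleCat.{0} ℤ} (e : X ≅ Y)
    (h : ∃ γ : Y, ∀ x : Y, ∃ m : ℤ, x = m • γ) : ∃ γ : X, ∀ x : X, ∃ m : ℤ, x = m • γ := by
  obtain ⟨γ, hγ⟩ := h
  refine ⟨e.toLinearEquiv.symm γ, fun x => ?_⟩
  obtain ⟨m, hm⟩ := hγ (e.toLinearEquiv x)
  refine ⟨m, ?_⟩
  rw [← map_zsmul, ← hm, LinearEquiv.symm_apply_apply]

/-- P1-H5 -/
theorem towerLayer (h1 : Stmt_layerIso) (h2 : Stmt_classModule) (h3 : Stmt_H3) :
    Stmt_towerLayer := by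
  intro 𝒢 Ω _ _ _ 𝒰 hT U _ hU
  have : U.FiniteIndex := 𝒰.fin U hU
  have hfin : Finite (𝒢 ⧸ U) := inferInstance
  have hact : LocAct (𝒢 ⧸ U) (FixedPoints.subfield U Ω) := hT.layer U hU
  obtain ⟨e, -⟩ := h1 𝒢 Ω U
  have E : ∀ n : ℕ, groupCohomology ((unitsRep 𝒢 Ω).quotientToInvariants U) n ≅
      groupCohomology (unitsRep (𝒢 ⧸ U) (FixedPoints.subfield U Ω)) n :=
    fun n => (groupCohomology.functor ℤ (𝒢 ⧸ U) n).mapIso e
  obtain ⟨hz1, hcard, hcyc⟩ := h2 (𝒢 ⧸ U) (FixedPoints.subfield U Ω) hact ⊤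
  have hz3 := h3 (𝒢 ⧸ U) (FixedPoints.subfield U Ω) hact
  have T := fun n : ℕ => P0.topIso (unitsRep (𝒢 ⧸ U) (FixedPoints.subfield U Ω)) n
  refine ⟨IsZero.of_iso hz1 ((E 1).trans (T 1)), ?_,
    TowerLayer_transport ((E 2).trans (T 2)) hcyc, IsZero.of_iso hz3 (E 3)⟩
  rw [Nat.card_congr ((E 2).trans (T 2)).toLinearEquiv.toEquiv, hcard, Subgroup.card_top]
  rfl

end Fermat.Agent.CFT.Local

end
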