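/-
TEAM CFT, sub-project P1 (LOCAL), block [LOC-LI]: the bridge from the local norm index theorem
(`Stmt_normIndex`, `Stmt_normOpen`, normed presentation) to the only local input `HNT.Stmt_LI` of the
Hasse norm theorem (abstract number fields, `HeightOneSpectrum`).

Definitions and statements-as-Props only.
-/
import Fermat.Agent.CFT.Local.Interface
import Fermat.Agent.CFT.HNT.Interface

set_option autoImplicit false

noncomputable section

namespace Fermat.Agent.CFT.Local

open NumberField IsDedekindDomain Fermat.Agent.CFT.HNT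

/-- like `IsLoc`, without completeness (e.g. a number field with a `P`-adic absolute value). -/
structure IsPreLoc (M : Type) [NormedField M] : Prop where
  ultra : IsUltrametricDist M
  unif : ∃ ϖ : M, IsUnif ϖ
  resFinite : ∃ R : Finset M, ∀ x : M, ‖x‖ ≤ 1 → ∃ r ∈ R, ‖x - r‖ < 1

/-- LI-1 : completion of a pre-local field with an isometric faithful action of a finite group. -/
def Stmt_completion : Prop :=
  ∀ (G M : Type) [Group G] [Finite G] [NormedField M] [MulSemiringAction G M], IsPreLoc M →
    FaithfulSMul G M → (∀ (g : G) (x : M), ‖g • x‖ = ‖x‖) →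
    ∃ (L : Type) (_ : NormedField L) (_ : MulSemiringAction G L) (j : M →+* L),
      LocAct G L ∧ (∀ x, ‖j x‖ = ‖x‖) ∧ (∀ (g : G) (x : M), j (g • x) = g • j x) ∧ DenseRange j

/-- LI-2 : in a dense equivariant subfield `M` of a cyclic extension of local fields there is an
invariant element which is bounded away from the norms of `M`. -/
def Stmt_denseLI : Prop :=
  ∀ (G M L : Type) [Group G] [Finite G] [NormedField M] [MulSemiringAction G M] [NormedField L]
    [MulSemiringAction G L] (j : M →+* L), LocAct G L → IsCyclic G → 1 < Nat.card G →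
    ((Nat.card G : ℕ) : M) ≠ 0 →
    (∀ x, ‖j x‖ = ‖x‖) → (∀ (g : G) (x : M), j (g • x) = g • j x) → DenseRange j →
    ∃ b : M, b ≠ 0 ∧ (∀ g : G, g • b = b) ∧
      ∃ ε : ℝ, 0 < ε ∧ ∀ β : M, β ≠ 0 → ε ≤ ‖b / (∏ᶠ g : G, g • β) - 1‖

/-- the `P`-adic normed field structure on a number field (NOT an instance). -/
@[reducible] def nfNormed (M : Type) [Field M] [NumberField M] (P : Pl M) : NormedField M :=
  (HeightOneSpectrum.adicAbv M P).toNormedField

/-- LI-3 : a number field with a `P`-adic absolute value is pre-local. -/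
def Stmt_nfPreLoc : Prop :=
  ∀ (M : Type) [Field M] [NumberField M] (P : Pl M), @IsPreLoc M (nfNormed M P)

/-- LI-4 : if `P` is the only prime above `v` then the Galois group preserves the `P`-adic absolute
value. -/
def Stmt_nfIsom : Prop :=
  ∀ (K M : Type) [Field K] [NumberField K] [Field M] [NumberField M] [Algebra K M]
    (v : Pl K) (P : Pl M), P.asIdeal.LiesOver v.asIdeal → NonSplit M v →
    ∀ (σ : M ≃ₐ[K] M) (x : M),
      HeightOneSpectrum.adicAbv M P (σ x) = HeightOneSpectrum.adicAbv M P x

/-- LI-5 : `v`-adically close to `1` in `K` implies `P`-adically close to `1` in `M`; and there is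
a prime above `v`. -/
def Stmt_nfNear : Prop :=
  ∀ (K M : Type) [Field K] [NumberField K] [Field M] [NumberField M] [Algebra K M] (v : Pl K),
    (∃ P : Pl M, P.asIdeal.LiesOver v.asIdeal) ∧
    ∀ P : Pl M, P.asIdeal.LiesOver v.asIdeal → ∀ (n : ℕ) (y : K), Near v n y →
      HeightOneSpectrum.adicAbv M P (algebraMap K M y - 1) ≤ (1 / 2 : ℝ) ^ n

/-- LI-6 : **the local input of the Hasse norm theorem.** -/
def Stmt_LIall : Prop :=
  ∀ (K M : Type) [Field K] [NumberField K] [Field M] [NumberField M] [Algebra K M] [IsGalois K M],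
    IsCyclic (M ≃ₐ[K] M) → 1 < Module.finrank K M → Stmt_LI K M

end Fermat.Agent.CFT.Local

end
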