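/-
TEAM CFT, block [LOC-LI], LI-6 (helper65): assembly of the local input of the Hasse norm theorem.
-/
import Fermat.Agent.CFT.Local.LIInterface

set_option autoImplicit false

noncomputable section

namespace Fermat.Agent.CFT.Local

open NumberField IsDedekindDomain Fermat.Agent.CFT.HNT

theorem LIall (h1 : Stmt_completion) (h2 : Stmt_denseLI) (h3 : Stmt_nfPreLoc) (h4 : Stmt_nfIsom)
    (h5 : Stmt_nfNear) : Stmt_LIall := by
  intro K M _ _ _ _ _ _ hcyc hdeg v hv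
  obtain ⟨⟨P, hP⟩, hnear⟩ := h5 K M v
  have hcard : Nat.card (M ≃ₐ[K] M) = Module.finrank K M := IsGalois.card_aut_eq_finrank K M
  let _ : NormedField M := nfNormed M P
  have hnorm : ∀ x : M, ‖x‖ = HeightOneSpectrum.adicAbv M P x := fun _ => rfl
  obtain ⟨L, _, _, j, hloc, hj1, hj2, hj3⟩ := h1 (M ≃ₐ[K] M) M (h3 M P)
    (AlgEquiv.apply_faithfulSMul) (fun g x => h4 K M v P hP hv g x)
  obtain ⟨b, hb0, hbinv, ε, hε, hb⟩ := h2 (M ≃ₐ[K] M) M L j hloc hcyc (by rw [hcard]; exact hdeg)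
    (by
      rw [hcard]
      exact Nat.cast_ne_zero.mpr (by omega)) hj1 hj2 hj3
  obtain ⟨b0, rfl⟩ := (IsGalois.mem_range_algebraMap_iff_fixed (F := K) (E := M) b).mpr hbinv
  have hb00 : b0 ≠ 0 := by
    rintro rfl
    exact hb0 (map_zero _)
  refine ⟨Units.mk0 b0 hb00, fun hmem => ?_⟩
  obtain ⟨n, hn⟩ := exists_pow_lt_of_lt_one hε (by norm_num : (1 / 2 : ℝ) < 1)
  obtain ⟨β, hβ, hβn⟩ := hmem n
  have e1 := hnear P hP n _ hβn
  have e2 := hb β hβ
  have e3 : (∏ᶠ g : M ≃ₐ[K] M, g • β) = algebraMap K M (Algebra.norm K β) := by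
    rw [Algebra.norm_eq_prod_automorphisms, finprod_eq_prod_of_fintype]
    rfl
  rw [e3, hnorm, ← map_div₀] at e2
  have e4 : ((Units.mk0 b0 hb00 : Kˣ) : K) = b0 := rfl
  rw [e4] at e1
  linarith

theorem LI_prime (h1 : Stmt_completion) (h2 : Stmt_denseLI) (h3 : Stmt_nfPreLoc)
    (h4 : Stmt_nfIsom) (h5 : Stmt_nfNear) (K M : Type) [Field K] [NumberField K] [Field M]
    [NumberField M] [Algebra K M] [IsGalois K M] (p : ℕ) (hp : p.Prime)
    (h : Module.finrank K M = p) : Stmt_LI K M := by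
  have : Fact p.Prime := ⟨hp⟩
  refine LIall h1 h2 h3 h4 h5 K M
    (isCyclic_of_prime_card (p := p) (by rw [IsGalois.card_aut_eq_finrank, h])) ?_
  rw [h]
  exact hp.one_lt

end Fermat.Agent.CFT.Local

end
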