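/-
TEAM CFT, sub-project P1, block [LOC-LI], package LI-1: completion of a pre-local field with an
isometric faithful action of a finite group.
-/
import Fermat.Agent.CFT.Local.LIInterface

set_option autoImplicit false

noncomputable section

namespace Fermat.Agent.CFT.Local

open UniformSpace

section Act

variable {G M : Type} [Group G] [NormedField M] [MulSemiringAction G M]

theorem LICompletion_cont (hiso : ∀ (g : G) (x : M), ‖g • x‖ = ‖x‖) (g : G) :
    Continuous (MulSemiringAction.toRingHom G M g) :=
  (AddMonoidHomClass.isometry_of_norm (MulSemiringAction.toRingHom G M g) (hiso g)).continuous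

/-- the extension of the automorphism `g` to the completion -/
def LICompletion_hom (hiso : ∀ (g : G) (x : M), ‖g • x‖ = ‖x‖) (g : G) :
    Completion M →+* Completion M :=
  Completion.mapRingHom (MulSemiringAction.toRingHom G M g) (LICompletion_cont hiso g)

theorem LICompletion_hom_coe (hiso : ∀ (g : G) (x : M), ‖g • x‖ = ‖x‖) (g : G) (x : M) :
    LICompletion_hom hiso g (x : Completion M) = ((g • x : M) : Completion M) :=
  Completion.mapRingHom_coe (LICompletion_cont hiso g) x

theorem LICompletion_hom_continuous (hiso : ∀ (g : G) (x : M), ‖g • x‖ = ‖x‖) (g : G) :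
    Continuous (LICompletion_hom hiso g) :=
  Completion.continuous_map

/-- the action of `G` on the completion -/
@[reducible] def LICompletion_act (hiso : ∀ (g : G) (x : M), ‖g • x‖ = ‖x‖) :
    MulSemiringAction G (Completion M) where
  smul g y := LICompletion_hom hiso g y
  one_smul y := by
    change LICompletion_hom hiso 1 y = y
    induction y using Completion.induction_on with
    | hp => exact isClosed_eq (LICompletion_hom_continuous hiso 1) continuous_id
    | ih x => rw [LICompletion_hom_coe, one_smul]
  mul_smul g h y := by
    change LICompletion_hom hiso (g * h) y = LICompletion_hom hiso g (LICompletion_hom hiso h y)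
    induction y using Completion.induction_on with
    | hp =>
      exact isClosed_eq (LICompletion_hom_continuous hiso _)
        ((LICompletion_hom_continuous hiso g).comp (LICompletion_hom_continuous hiso h))
    | ih x => rw [LICompletion_hom_coe, LICompletion_hom_coe, LICompletion_hom_coe, mul_smul]
  smul_zero g := map_zero (LICompletion_hom hiso g)
  smul_add g := map_add (LICompletion_hom hiso g)
  smul_one g := map_one (LICompletion_hom hiso g)
  smul_mul g := map_mul (LICompletion_hom hiso g)

end Act

section Loc

variable {M : Type} [NormedField M]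

theorem LICompletion_ultra [IsUltrametricDist M] : IsUltrametricDist (Completion M) := by
  apply IsUltrametricDist.isUltrametricDist_of_forall_norm_add_le_max_norm
  intro x y
  induction x, y using Completion.induction_on₂ with
  | hp => exact isClosed_le (by fun_prop) (by fun_prop)
  | ih x y =>
    rw [← Completion.coe_add, Completion.norm_coe, Completion.norm_coe, Completion.norm_coe]
    exact IsUltrametricDist.norm_add_le_max x y

theorem LICompletion_norm_sub_le {S : Type} [SeminormedAddCommGroup S] [IsUltrametricDist S]
    (a b : S) : ‖a - b‖ ≤ max ‖a‖ ‖b‖ := by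
  have := IsUltrametricDist.norm_add_le_max a (-b)
  rwa [norm_neg, ← sub_eq_add_neg] at this

theorem LICompletion_approx (y : Completion M) {ε : ℝ} (hε : 0 < ε) :
    ∃ x : M, ‖y - (x : Completion M)‖ < ε := by
  obtain ⟨x, hx⟩ := Completion.denseRange_coe.exists_dist_lt y hε
  exact ⟨x, by rwa [← dist_eq_norm]⟩

theorem LICompletion_norm_eq [IsUltrametricDist M] {y : Completion M} {x : M}
    (h : ‖y - (x : Completion M)‖ < ‖y‖) : ‖y‖ = ‖x‖ := by
  have := LICompletion_ultra (M := M)
  rw [← Completion.norm_coe x]
  apply le_antisymm
  · have h1 : ‖y‖ ≤ max ‖(x : Completion M)‖ ‖y - (x : Completion M)‖ := by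
      have := IsUltrametricDist.norm_add_le_max (x : Completion M) (y - (x : Completion M))
      rwa [add_sub_cancel] at this
    rcases le_max_iff.1 h1 with h2 | h2
    · exact h2
    · exact absurd h2 (not_le.2 h)
  · have h1 : ‖(x : Completion M)‖ ≤ max ‖y‖ ‖y - (x : Completion M)‖ := by
      have := LICompletion_norm_sub_le y (y - (x : Completion M))
      rwa [sub_sub_cancel] at this
    exact h1.trans (max_le le_rfl h.le)

theorem LICompletion_isLoc (hM : IsPreLoc M) : IsLoc (Completion M) := by
  have := hM.ultra
  have hu := LICompletion_ultra (M := M)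
  refine ⟨hu, inferInstance, ?_, ?_⟩
  · obtain ⟨ϖ, h0, h1, h2⟩ := hM.unif
    refine ⟨(ϖ : Completion M), ?_, ?_, ?_⟩
    · rw [← norm_ne_zero_iff, Completion.norm_coe]
      exact norm_ne_zero_iff.2 h0
    · rwa [Completion.norm_coe]
    · intro y hy
      obtain ⟨x, hx⟩ := LICompletion_approx y (norm_pos_iff.2 hy)
      have hxy := LICompletion_norm_eq hx
      have hx0 : x ≠ 0 := by
        rw [← norm_ne_zero_iff, ← hxy]
        exact norm_ne_zero_iff.2 hy
      obtain ⟨k, hk⟩ := h2 x hx0
      exact ⟨k, by rw [hxy, hk, Completion.norm_coe]⟩
  · classical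
    obtain ⟨R, hR⟩ := hM.resFinite
    refine ⟨R.image (fun r : M => (r : Completion M)), fun y hy => ?_⟩
    obtain ⟨x, hx⟩ := LICompletion_approx y one_pos
    have hx1 : ‖x‖ ≤ 1 := by
      rw [← Completion.norm_coe x]
      have := LICompletion_norm_sub_le y (y - (x : Completion M))
      rw [sub_sub_cancel] at this
      exact this.trans (max_le hy hx.le)
    obtain ⟨r, hr, hxr⟩ := hR x hx1
    refine ⟨(r : Completion M), Finset.mem_image_of_mem _ hr, ?_⟩
    have h3 : y - (r : Completion M) = (y - (x : Completion M)) + ((x - r : M) : Completion M) := by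
      rw [Completion.coe_sub]; ring
    rw [h3]
    refine (IsUltrametricDist.norm_add_le_max _ _).trans_lt (max_lt hx ?_)
    rwa [Completion.norm_coe]

end Loc

/-- LI-1 -/
theorem completion : Stmt_completion := by
  intro G M _ _ _ _ hM hfaith hiso
  let iact := LICompletion_act hiso
  refine ⟨Completion M, inferInstance, iact, Completion.coeRingHom, ?_, ?_, ?_, ?_⟩
  · refine ⟨LICompletion_isLoc hM, ⟨?_⟩, ?_⟩
    · intro g h hgh
      apply hfaith.eq_of_smul_eq_smul
      intro x
      have := hgh (x : Completion M)
      change LICompletion_hom hiso g x = LICompletion_hom hiso h x at this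
      rw [LICompletion_hom_coe, LICompletion_hom_coe] at this
      exact Completion.coe_injective M this
    · intro g y
      change ‖LICompletion_hom hiso g y‖ = ‖y‖
      induction y using Completion.induction_on with
      | hp =>
        exact isClosed_eq (continuous_norm.comp (LICompletion_hom_continuous hiso g))
          continuous_norm
      | ih x => rw [LICompletion_hom_coe, Completion.norm_coe, Completion.norm_coe, hiso]
  · intro x
    exact Completion.norm_coe x
  · intro g x
    exact (LICompletion_hom_coe hiso g x).symm
  · exact Completion.denseRange_coe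

end Fermat.Agent.CFT.Local

end
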