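/-
TEAM CFT, sub-project P1 (LOCAL), block [LOC-LI], package LI-2: an invariant element of a dense
equivariant subfield which is bounded away from the norms.
-/
import Fermat.Agent.CFT.Local.LIInterface

set_option autoImplicit false
set_option linter.unusedSectionVars false

noncomputable section

namespace Fermat.Agent.CFT.Local

open NumberField IsDedekindDomain Fermat.Agent.CFT.HNT

attribute [local instance] Units.mulDistribMulActionRight

section Alg

variable {G L : Type} [Group G] [Fintype G] [Field L] [MulSemiringAction G L]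

theorem LIDense_normHom_val (x : Lˣ) : ((normHom G L x : Lˣ) : L) = ∏ g : G, g • (x : L) := by
  change ((∏ᶠ g : G, g • x : Lˣ) : L) = _
  rw [finprod_eq_prod_of_fintype, Units.coe_prod]
  rfl

theorem LIDense_normHom_mem_fixedU (x : Lˣ) : normHom G L x ∈ fixedU G L := by
  intro g
  ext
  change g • ((normHom G L x : Lˣ) : L) = _
  rw [LIDense_normHom_val, Finset.smul_prod']
  simp only [smul_smul]
  exact Equiv.prod_comp (Equiv.mulLeft g) (fun h => h • (x : L))

theorem LIDense_mem_fixedU_iff (x : Lˣ) : x ∈ fixedU G L ↔ ∀ g : G, g • (x : L) = x := by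
  constructor
  · intro h g
    exact congrArg Units.val (h g)
  · intro h g
    ext
    exact h g

theorem LIDense_smul_avg (m : L) (h : G) :
    h • ((Fintype.card G : L)⁻¹ * ∑ g : G, g • m) = (Fintype.card G : L)⁻¹ * ∑ g : G, g • m := by
  have e1 : h • (Fintype.card G : L)⁻¹ = (Fintype.card G : L)⁻¹ := by
    change MulSemiringAction.toRingHom G L h (Fintype.card G : L)⁻¹ = _
    rw [map_inv₀, map_natCast]
  rw [smul_mul', e1, Finset.smul_sum]
  congr 1
  simp only [smul_smul]
  exact Equiv.sum_comp (Equiv.mulLeft h) (fun g => g • m)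

end Alg

/-- LI-2. -/
theorem denseLI (h1 : Stmt_normIndex) (h2 : Stmt_normOpen) : Stmt_denseLI := by
  intro G M L _ _ _ _ _ _ j hLA hcyc hn hnM hjnorm hjeq hjd
  have := Fintype.ofFinite G
  have hult : IsUltrametricDist L := hLA.loc.ultra
  have hcard : Nat.card G = Fintype.card G := Nat.card_eq_fintype_card
  rw [hcard] at hnM
  -- an invariant element which is not a norm
  obtain ⟨y, hyfix, hynot⟩ : ∃ y ∈ fixedU G L, y ∉ (normHom G L).range := by
    by_contra hcon
    push Not at hcon
    have hle : fixedU G L ≤ (normHom G L).range := hcon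
    have := h1 G L hLA hcyc
    rw [Subgroup.relIndex_eq_one.mpr hle] at this
    omega
  obtain ⟨c₀, hc₀, hopen₀⟩ := h2 G L hLA hcyc
  obtain ⟨c, hc, hc1, hopen⟩ : ∃ c : ℝ, 0 < c ∧ c < 1 ∧
      ∀ x ∈ fixedU G L, ‖(x : L) - 1‖ ≤ c → x ∈ (normHom G L).range :=
    ⟨min c₀ (1 / 2), lt_min hc₀ (by norm_num), (min_le_right _ _).trans_lt (by norm_num),
      fun x hx h => hopen₀ x hx (h.trans (min_le_left _ _))⟩
  have hy0 : (y : L) ≠ 0 := y.ne_zero
  have hynorm : 0 < ‖(y : L)‖ := norm_pos_iff.mpr hy0
  have hnL : (Fintype.card G : L) ≠ 0 := by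
    have : j (Fintype.card G : M) = (Fintype.card G : L) := map_natCast j _
    rw [← this]
    exact (map_ne_zero j).mpr hnM
  have hν : 0 < ‖(Fintype.card G : L)‖ := norm_pos_iff.mpr hnL
  -- approximation
  obtain ⟨m, hm⟩ := hjd.exists_dist_lt (y : L) (ε := c * ‖(y : L)‖ * ‖(Fintype.card G : L)‖)
    (by positivity)
  rw [dist_eq_norm, norm_sub_rev] at hm
  set b : M := (Fintype.card G : M)⁻¹ * ∑ g : G, g • m with hb
  have hbfix : ∀ g : G, g • b = b := fun g => LIDense_smul_avg m g
  have hyfix' : ∀ g : G, g • (y : L) = y := (LIDense_mem_fixedU_iff y).mp hyfix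
  have hjb : j b - y = (Fintype.card G : L)⁻¹ * ∑ g : G, g • (j m - y) := by
    rw [hb, map_mul, map_inv₀, map_natCast, map_sum]
    simp only [hjeq, smul_sub, hyfix', Finset.sum_sub_distrib, Finset.sum_const, Finset.card_univ,
      nsmul_eq_mul]
    field_simp
  have hjbnorm : ‖j b - y‖ ≤ c * ‖(y : L)‖ := by
    rw [hjb, norm_mul, norm_inv]
    have hs : ‖∑ g : G, g • (j m - y)‖ ≤ c * ‖(y : L)‖ * ‖(Fintype.card G : L)‖ := by
      apply IsUltrametricDist.norm_sum_le_of_forall_le_of_nonneg (by positivity)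
      intro g _
      rw [hLA.isom]
      exact hm.le
    calc ‖(Fintype.card G : L)‖⁻¹ * ‖∑ g : G, g • (j m - y)‖
        ≤ ‖(Fintype.card G : L)‖⁻¹ * (c * ‖(y : L)‖ * ‖(Fintype.card G : L)‖) := by gcongr
      _ = c * ‖(y : L)‖ := by field_simp
  have hjb0 : j b ≠ 0 := by
    intro h0
    rw [h0, zero_sub, norm_neg] at hjbnorm
    nlinarith
  have hb0 : b ≠ 0 := fun h0 => hjb0 (by rw [h0, map_zero])
  set ub : Lˣ := Units.mk0 (j b) hjb0 with hub
  have hubfix : ub ∈ fixedU G L := by
    rw [LIDense_mem_fixedU_iff]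
    intro g
    change g • j b = j b
    rw [← hjeq, hbfix]
  have hubnot : ub ∉ (normHom G L).range := by
    intro hmem
    have hu : ub / y ∈ (normHom G L).range := by
      apply hopen _ ((fixedU G L).div_mem hubfix hyfix)
      rw [Units.val_div_eq_div_val]
      change ‖j b / (y : L) - 1‖ ≤ c
      have : j b / (y : L) - 1 = (j b - y) / y := by field_simp
      rw [this, norm_div, div_le_iff₀ hynorm]
      exact hjbnorm
    apply hynot
    have := (normHom G L).range.div_mem hmem hu
    rwa [div_div_cancel] at this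
  refine ⟨b, hb0, hbfix, c, hc, fun β hβ => ?_⟩
  by_contra hlt
  push Not at hlt
  have hjβ : j β ≠ 0 := (map_ne_zero j).mpr hβ
  set uβ : Lˣ := Units.mk0 (j β) hjβ with huβ
  apply hubnot
  have hw : ub / normHom G L uβ ∈ (normHom G L).range := by
    apply hopen _ ((fixedU G L).div_mem hubfix (LIDense_normHom_mem_fixedU uβ))
    rw [Units.val_div_eq_div_val, LIDense_normHom_val]
    change ‖j b / (∏ g : G, g • j β) - 1‖ ≤ c
    have e : j b / (∏ g : G, g • j β) - 1 = j (b / (∏ᶠ g : G, g • β) - 1) := by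
      rw [finprod_eq_prod_of_fintype, map_sub, map_div₀, map_prod, map_one]
      simp only [hjeq]
    rw [e, hjnorm]
    exact hlt.le
  have := (normHom G L).range.mul_mem hw ⟨uβ, rfl⟩
  rwa [div_mul_cancel] at this

end Fermat.Agent.CFT.Local

end
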