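/-
TEAM CFT, block [LOC-LI], task LI-4 (helper35): if `P` is the only prime above `v` then the Galois
group preserves the `P`-adic absolute value.  `nfIsom : Stmt_nfIsom`.
-/
import Fermat.Agent.CFT.Local.LIInterface

set_option autoImplicit false

noncomputable section

namespace Fermat.Agent.CFT.Local

open NumberField IsDedekindDomain Fermat.Agent.CFT.HNT

/-- a ring automorphism of a Dedekind domain which stabilises the prime `P` preserves the
`P`-adic valuation (integral version, one inequality). -/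
lemma LIIsom_intVal_le {R : Type} [CommRing R] [IsDedekindDomain R] (P : HeightOneSpectrum R)
    (τ : R ≃+* R) (hτ : ∀ x, x ∈ P.asIdeal → τ x ∈ P.asIdeal) (r : R) :
    P.intValuation (τ r) ≤ P.intValuation r := by
  by_cases hr : r = 0
  · simp [hr]
  · rw [P.intValuation_if_neg hr, P.intValuation_le_pow_iff_mem]
    have h1 : r ∈ P.asIdeal ^ ((Associates.mk P.asIdeal).count
        (Associates.mk (Ideal.span {r} : Ideal R)).factors) := by
      rw [← P.intValuation_le_pow_iff_mem, P.intValuation_if_neg hr]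
    have h2 : ∀ n : ℕ, ∀ x, x ∈ P.asIdeal ^ n → τ x ∈ P.asIdeal ^ n := by
      intro n x hx
      have h3 : (P.asIdeal ^ n).map (τ : R →+* R) ≤ P.asIdeal ^ n := by
        rw [Ideal.map_pow]
        apply Ideal.pow_right_mono
        rw [Ideal.map_le_iff_le_comap]
        intro y hy
        exact hτ y hy
      exact h3 (Ideal.mem_map_of_mem (τ : R →+* R) hx)
    exact h2 _ _ h1

lemma LIIsom_intVal_eq {R : Type} [CommRing R] [IsDedekindDomain R] (P : HeightOneSpectrum R)
    (τ : R ≃+* R) (hτ : ∀ x, x ∈ P.asIdeal ↔ τ x ∈ P.asIdeal) (r : R) :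
    P.intValuation (τ r) = P.intValuation r := by
  apply le_antisymm (LIIsom_intVal_le P τ (fun x hx => (hτ x).mp hx) r)
  have := LIIsom_intVal_le P τ.symm (fun x hx => (hτ _).mpr (by simpa using hx)) (τ r)
  simpa using this

theorem nfIsom : Stmt_nfIsom := by
  intro K M _ _ _ _ _ v P hP hns σ x
  set τ : 𝓞 M ≃+* 𝓞 M := RingOfIntegers.mapRingEquiv (σ : M ≃+* M) with hτ
  have hτa : ∀ y : 𝓞 M, ((τ y : 𝓞 M) : M) = σ (y : M) := fun y => rfl
  -- the conjugate prime
  let Q : Pl M :=
    { asIdeal := P.asIdeal.comap (τ : 𝓞 M →+* 𝓞 M)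
      isPrime := Ideal.comap_isPrime _ _
      ne_bot := by
        intro h
        apply P.ne_bot
        rw [eq_bot_iff]
        intro y hy
        have h1 : τ.symm y ∈ P.asIdeal.comap (τ : 𝓞 M →+* 𝓞 M) := by
          rw [Ideal.mem_comap]
          simpa using hy
        rw [h] at h1
        have h2 : τ.symm y = 0 := h1
        have h3 : y = 0 := by
          have := congrArg τ h2
          simpa using this
        rw [h3]
        exact Submodule.zero_mem _ }
  have hQ : Q.asIdeal.LiesOver v.asIdeal := by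
    constructor
    have h1 := hP.over
    rw [h1]
    ext y
    simp only [Ideal.under, Ideal.mem_comap]
    have h2 : (τ : 𝓞 M →+* 𝓞 M) (algebraMap (𝓞 K) (𝓞 M) y) = algebraMap (𝓞 K) (𝓞 M) y := by
      apply RingOfIntegers.ext
      show σ (algebraMap K M (y : K)) = algebraMap K M (y : K)
      exact σ.commutes _
    show _ ↔ (τ : 𝓞 M →+* 𝓞 M) (algebraMap (𝓞 K) (𝓞 M) y) ∈ P.asIdeal
    rw [h2]
  have hQP : Q = P := hns Q P hQ hP
  have hmem : ∀ y, y ∈ P.asIdeal ↔ τ y ∈ P.asIdeal := by
    intro y
    have : y ∈ Q.asIdeal ↔ τ y ∈ P.asIdeal := Iff.rfl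
    rw [← this, hQP]
  have hval : P.valuation M (σ x) = P.valuation M x := by
    obtain ⟨a, b, hb, rfl⟩ := IsFractionRing.div_surjective (A := 𝓞 M) x
    rw [map_div₀, map_div₀, map_div₀]
    have e1 : ∀ c : 𝓞 M, σ (algebraMap (𝓞 M) M c) = algebraMap (𝓞 M) M (τ c) := fun c => rfl
    rw [e1, e1, HeightOneSpectrum.valuation_of_algebraMap, HeightOneSpectrum.valuation_of_algebraMap,
      HeightOneSpectrum.valuation_of_algebraMap, HeightOneSpectrum.valuation_of_algebraMap,
      LIIsom_intVal_eq P τ hmem, LIIsom_intVal_eq P τ hmem]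
  rw [HeightOneSpectrum.adicAbv_def, HeightOneSpectrum.adicAbv_def, hval]

end Fermat.Agent.CFT.Local

end
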