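/-
TEAM CFT, block [LOC-LI], LI-5: `v`-adically close to `1` in `K` implies `P`-adically close to `1`
in `M`; primes above `v` exist.
-/
import Fermat.Agent.CFT.Local.LIInterface

set_option autoImplicit false

noncomputable section

namespace Fermat.Agent.CFT.Local

open NumberField IsDedekindDomain Fermat.Agent.CFT.HNT

/-- the `P`-adic absolute value of an element of valuation `≤ exp (-n)` is `≤ 2 ^ (-n)`. -/
theorem LINear_adicAbv_le (M : Type) [Field M] [NumberField M] (P : Pl M) (n : ℕ) (w : M)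
    (hw : P.valuation M w ≤ WithZero.exp (-(n : ℤ))) :
    HeightOneSpectrum.adicAbv M P w ≤ (1 / 2 : ℝ) ^ n := by
  rw [HeightOneSpectrum.adicAbv_def]
  have h1 := (WithZeroMulInt.toNNReal_strictMono
    (HeightOneSpectrum.one_lt_absNorm_nnreal P)).monotone hw
  have h2 : WithZeroMulInt.toNNReal (HeightOneSpectrum.absNorm_ne_zero P)
      (WithZero.exp (-(n : ℤ))) = ((Ideal.absNorm P.asIdeal : NNReal)) ^ (-(n : ℤ)) := by
    rw [WithZeroMulInt.toNNReal_neg_apply _ WithZero.exp_ne_zero]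
    rfl
  have h3 : ((WithZeroMulInt.toNNReal (HeightOneSpectrum.absNorm_ne_zero P)
      (P.valuation M w) : NNReal) : ℝ) ≤ (((Ideal.absNorm P.asIdeal : NNReal)) ^ (-(n : ℤ)) : NNReal) := by
    rw [← h2]
    exact_mod_cast h1
  refine h3.trans ?_
  have h4 : (2 : ℝ) ≤ (Ideal.absNorm P.asIdeal : ℝ) := by
    exact_mod_cast HeightOneSpectrum.one_lt_absNorm P
  push_cast
  rw [zpow_neg, zpow_natCast, one_div, inv_pow]
  exact inv_anti₀ (by positivity) (pow_le_pow_left₀ (by norm_num) h4 n)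

theorem nfNear : Stmt_nfNear := by
  intro K M _ _ _ _ _ v
  refine ⟨?_, ?_⟩
  · have : v.asIdeal.IsMaximal := v.isMaximal
    obtain ⟨Q, hQ, hQv⟩ := Ideal.exists_maximal_ideal_liesOver_of_isIntegral (S := 𝓞 M) v.asIdeal
    exact ⟨⟨Q, hQ.isPrime, Ideal.ne_bot_of_liesOver_of_ne_bot v.ne_bot Q⟩, hQv⟩
  · intro P hP n y hy
    have h1 := HeightOneSpectrum.valuation_liesOver M v P (y - 1)
    have he : v.asIdeal.ramificationIdx' P.asIdeal ≠ 0 :=
      Ideal.IsDedekindDomain.ramificationIdx'_ne_zero_of_liesOver P.asIdeal v.ne_bot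
    have h2 : algebraMap K M y - 1 = algebraMap K M (y - 1) := by rw [map_sub, map_one]
    rw [h2]
    apply LINear_adicAbv_le
    rw [← h1]
    have hy' : v.valuation K (y - 1) ≤ WithZero.exp (-(n : ℤ)) := hy
    exact (pow_le_of_le_one zero_le (hy'.trans (exp_neg_le_one n)) he).trans hy'

end Fermat.Agent.CFT.Local

end
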