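/-
TEAM CFT, block [LOC-LI], LI-3: a number field with a `P`-adic absolute value is pre-local.
-/
import Fermat.Agent.CFT.Local.LIInterface

set_option autoImplicit false

noncomputable section

namespace Fermat.Agent.CFT.Local

open NumberField IsDedekindDomain Fermat.Agent.CFT.HNT

namespace LIPreLoc

variable (M : Type) [Field M] [NumberField M] (P : Pl M)

lemma abv_lt_one_iff (x : M) :
    HeightOneSpectrum.adicAbv M P x < 1 ↔ P.valuation M x < 1 := by
  rw [HeightOneSpectrum.adicAbv_def, ← NNReal.coe_one, NNReal.coe_lt_coe]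
  exact WithZeroMulInt.toNNReal_lt_one_iff (HeightOneSpectrum.one_lt_absNorm_nnreal P)

lemma abv_le_one_iff (x : M) :
    HeightOneSpectrum.adicAbv M P x ≤ 1 ↔ P.valuation M x ≤ 1 := by
  rw [HeightOneSpectrum.adicAbv_def, ← NNReal.coe_one, NNReal.coe_le_coe]
  exact WithZeroMulInt.toNNReal_le_one_iff (HeightOneSpectrum.one_lt_absNorm_nnreal P)

lemma abv_congr {x y : M} (h : P.valuation M x = P.valuation M y) :
    HeightOneSpectrum.adicAbv M P x = HeightOneSpectrum.adicAbv M P y := by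
  rw [HeightOneSpectrum.adicAbv_def, HeightOneSpectrum.adicAbv_def, h]

end LIPreLoc

open LIPreLoc in
/-- LI-3 -/
theorem nfPreLoc : Stmt_nfPreLoc := by
  intro M _ _ P
  let _ := nfNormed M P
  have hnorm : ∀ x : M, ‖x‖ = HeightOneSpectrum.adicAbv M P x := fun x => rfl
  refine ⟨?_, ?_, ?_⟩
  · apply IsUltrametricDist.isUltrametricDist_of_isNonarchimedean_norm
    exact HeightOneSpectrum.isNonarchimedean_adicAbv M P
  · obtain ⟨ϖ, hϖ⟩ := P.valuation_exists_uniformizer M
    have hϖ0 : ϖ ≠ 0 := by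
      rw [← (P.valuation M).ne_zero_iff, hϖ]
      exact WithZero.exp_ne_zero
    refine ⟨ϖ, hϖ0, ?_, fun x hx => ?_⟩
    · rw [hnorm, abv_lt_one_iff, hϖ, ← WithZero.exp_zero, WithZero.exp_lt_exp]
      norm_num
    · have hvx : P.valuation M x ≠ 0 := (P.valuation M).ne_zero_iff.mpr hx
      refine ⟨- WithZero.log (P.valuation M x), ?_⟩
      rw [← norm_zpow, hnorm, hnorm]
      apply abv_congr
      simp [hϖ, WithZero.exp_log hvx]
  · classical
    have hfin : Finite (𝓞 M ⧸ P.asIdeal) := P.asIdeal.finiteQuotientOfFreeOfNeBot P.ne_bot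
    cases nonempty_fintype (𝓞 M ⧸ P.asIdeal)
    refine ⟨Finset.univ.image fun q : 𝓞 M ⧸ P.asIdeal => algebraMap (𝓞 M) M q.out, fun x hx => ?_⟩
    rw [hnorm, abv_le_one_iff] at hx
    obtain ⟨a, ha⟩ := P.exists_valuation_sub_lt_of_integer hx 1
    refine ⟨algebraMap (𝓞 M) M (Ideal.Quotient.mk P.asIdeal a).out,
      Finset.mem_image.mpr ⟨_, Finset.mem_univ _, rfl⟩, ?_⟩
    rw [hnorm, abv_lt_one_iff]
    have h1 : a - (Ideal.Quotient.mk P.asIdeal a).out ∈ P.asIdeal := by
      rw [← Ideal.Quotient.eq]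
      exact (Quotient.out_eq' _).symm
    have h2 : P.valuation M (algebraMap (𝓞 M) M (a - (Ideal.Quotient.mk P.asIdeal a).out)) < 1 :=
      (P.valuation_lt_one_iff_mem _).mpr h1
    have h3 : x - algebraMap (𝓞 M) M (Ideal.Quotient.mk P.asIdeal a).out =
        algebraMap (𝓞 M) M (a - (Ideal.Quotient.mk P.asIdeal a).out) - (algebraMap (𝓞 M) M a - x) := by
      rw [map_sub]; ring
    rw [h3]
    exact lt_of_le_of_lt ((P.valuation M).map_sub _ _) (max_lt h2 (by simpa using ha))

end Fermat.Agent.CFT.Local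

end
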