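/-
TEAM CFT, block [LOC-LI] (helper61): unconditional local input of the Hasse norm theorem.
-/
import Fermat.Agent.CFT.Local.All
import Fermat.Agent.CFT.Local.LIAll
import Fermat.Agent.CFT.Local.LICompletion
import Fermat.Agent.CFT.Local.LIDense
import Fermat.Agent.CFT.Local.LIIsom
import Fermat.Agent.CFT.Local.LINear
import Fermat.Agent.CFT.Local.LIPreLoc

set_option autoImplicit false

noncomputable section

namespace Fermat.Agent.CFT.Local

open NumberField IsDedekindDomain Fermat.Agent.CFT.HNT

/-- the local input of the Hasse norm theorem, for all cyclic extensions of number fields. -/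
theorem all_LIall : Stmt_LIall :=
  LIall completion (denseLI all_normIndex all_normOpen) nfPreLoc nfIsom nfNear

/-- the local input of the Hasse norm theorem in prime degree. -/
theorem all_LI_prime (K M : Type) [Field K] [NumberField K] [Field M]
    [NumberField M] [Algebra K M] [IsGalois K M] (p : ℕ) (hp : p.Prime)
    (h : Module.finrank K M = p) : Stmt_LI K M :=
  LI_prime completion (denseLI all_normIndex all_normOpen) nfPreLoc nfIsom nfNear K M p hp h

end Fermat.Agent.CFT.Local

end
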