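/-
TEAM CFT, P1-K2 (helper57): (LN1), (LN2), H^3 = 0 for open subgroups of Gal(PadicAlgCl q / Q_q) fixing mu_p.
-/
import Fermat.Agent.CFT.Local.Tower
import Fermat.Agent.CFT.Local.FixedLoc

set_option autoImplicit false

noncomputable section

namespace Fermat.Agent.CFT.Local

open CategoryTheory CategoryTheory.Limits groupCohomology Fermat.Agent.CFT.Top Module ExtCitation

attribute [local instance] Units.mulDistribMulActionRight
attribute [local instance] quotAct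

theorem LN_finrank_of_card (p : ℕ) [Fact p.Prime] (V : Type) [AddCommGroup V] [Module (ZMod p) V]
    (d : ℕ) (h : Nat.card V = p ^ d) : Module.Finite (ZMod p) V ∧ finrank (ZMod p) V = d := by
  have hp := (Fact.out : p.Prime)
  have : Finite V := Nat.finite_of_card_ne_zero (by rw [h]; exact pow_ne_zero _ hp.ne_zero)
  have hf : Module.Finite (ZMod p) V := Module.Finite.of_finite
  refine ⟨hf, ?_⟩
  have h2 := Module.natCard_eq_pow_finrank (K := ZMod p) (V := V)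
  rw [Nat.card_zmod, h] at h2
  exact (Nat.pow_right_injective hp.two_le h2).symm

section Padic

variable (q : ℕ) [Fact q.Prime]

theorem LN_fixed_mem (x : PadicAlgCl q) (h : ∀ σ : Gq q, σ • x = x) :
    ∃ y : ℚ_[q], algebraMap ℚ_[q] (PadicAlgCl q) y = x := by
  have := (InfiniteGalois.mem_bot_iff_fixed (k := ℚ_[q]) (K := PadicAlgCl q) x).2 h
  exact IntermediateField.mem_bot.1 this

theorem LN_norm_natCast (n : ℕ) : ‖(n : PadicAlgCl q)‖ = ‖(n : ℚ_[q])‖ := by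
  have := PadicAlgCl.norm_extends q (n : ℚ_[q])
  rwa [map_natCast] at this

theorem LN_norm_q : ‖(q : PadicAlgCl q)‖ = (q : ℝ)⁻¹ := by
  rw [LN_norm_natCast, Padic.norm_p]

theorem LN_isUnifFix_q : IsUnifFix (⊤ : Subgroup (Gq q)) (q : PadicAlgCl q) := by
  have hq := (Fact.out : q.Prime)
  refine ⟨by exact_mod_cast hq.ne_zero, ?_, fun h _ => by simp, ?_⟩
  · rw [LN_norm_q]
    exact inv_lt_one_of_one_lt₀ (by exact_mod_cast hq.one_lt)
  · intro x hx hfix
    obtain ⟨y, rfl⟩ := LN_fixed_mem q x fun σ => hfix σ (Subgroup.mem_top σ)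
    have hy : y ≠ 0 := by
      rintro rfl
      exact hx (map_zero _)
    refine ⟨y.valuation, ?_⟩
    have := PadicAlgCl.norm_extends q y
    rw [this, LN_norm_q, Padic.norm_eq_zpow_neg_valuation hy, inv_zpow, zpow_neg]

theorem LN_norm_algebraMap (y : ℚ_[q]) : ‖algebraMap ℚ_[q] (PadicAlgCl q) y‖ = ‖y‖ :=
  PadicAlgCl.norm_extends q y

theorem LN_exists_range (y : ℚ_[q]) (hy : ‖y‖ ≤ 1) : ∃ n : ℕ, n < q ∧ ‖y - (n : ℚ_[q])‖ < 1 := by
  obtain ⟨z, hz⟩ : ∃ z : ℤ_[q], (z : ℚ_[q]) = y := ⟨⟨y, hy⟩, rfl⟩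
  obtain ⟨n, hn, h⟩ := PadicInt.exists_mem_range z
  refine ⟨n, hn, ?_⟩
  rw [IsLocalRing.mem_maximalIdeal, PadicInt.mem_nonunits, PadicInt.norm_def,
    PadicInt.coe_sub, PadicInt.coe_natCast, hz] at h
  exact h

theorem LN_resCard (h6 : Stmt_reps) (hL : IsLoc (FixedPoints.subfield (Gq q) (PadicAlgCl q))) :
    resCard (FixedPoints.subfield (Gq q) (PadicAlgCl q)) = q := by
  classical
  have hq := (Fact.out : q.Prime)
  obtain ⟨⟨R, hRc, -, hR1, hRsep, -⟩, hT, -⟩ := h6 _ hL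
  apply le_antisymm
  · rw [← hRc]
    have key : ∀ r : FixedPoints.subfield (Gq q) (PadicAlgCl q), ‖r‖ ≤ 1 →
        ∃ n : ℕ, n < q ∧ ‖(r : PadicAlgCl q) - (n : PadicAlgCl q)‖ < 1 := by
      intro r hr
      obtain ⟨y, hy⟩ := LN_fixed_mem q (r : PadicAlgCl q) r.2
      have hy1 : ‖y‖ ≤ 1 := by
        rw [← LN_norm_algebraMap, hy]; exact hr
      obtain ⟨n, hn, h⟩ := LN_exists_range q y hy1
      refine ⟨n, hn, ?_⟩
      rw [← hy, ← map_natCast (algebraMap ℚ_[q] (PadicAlgCl q)), ← map_sub, LN_norm_algebraMap]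
      exact h
    choose! f hf using key
    have : R.card ≤ (Finset.range q).card :=
      Finset.card_le_card_of_injOn f (fun r hr => Finset.mem_coe.2
        (Finset.mem_range.2 (hf r (hR1 r hr)).1)) (by
        intro r hr s hs hrs
        apply hRsep r hr s hs
        have h1 := (hf r (hR1 r hr)).2
        have h2 := (hf s (hR1 s hs)).2
        rw [← hrs] at h2
        have e : ((r - s : FixedPoints.subfield (Gq q) (PadicAlgCl q)) : PadicAlgCl q)
            = ((r : PadicAlgCl q) - (f r : PadicAlgCl q)) - ((s : PadicAlgCl q) - (f r : PadicAlgCl q)) := by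
          push_cast; ring
        show ‖((r - s : FixedPoints.subfield (Gq q) (PadicAlgCl q)) : PadicAlgCl q)‖ < 1
        rw [e, sub_eq_add_neg]
        refine lt_of_le_of_lt (IsUltrametricDist.norm_add_le_max _ _) (max_lt h1 ?_)
        rw [norm_neg]
        exact h2)
    simpa using this
  · have hinj : Set.InjOn (fun a : ℕ => (a : FixedPoints.subfield (Gq q) (PadicAlgCl q)))
        (Finset.range q : Set ℕ) := fun a _ b _ hab => by
      have hab' : (a : FixedPoints.subfield (Gq q) (PadicAlgCl q)) = b := hab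
      exact_mod_cast hab'
    have := hT ((Finset.range q).image
      (fun a : ℕ => (a : FixedPoints.subfield (Gq q) (PadicAlgCl q)))) ?_ ?_
    · rwa [Finset.card_image_of_injOn hinj, Finset.card_range] at this
    · intro r hr
      obtain ⟨a, -, rfl⟩ := Finset.mem_image.1 hr
      show ‖(((a : ℕ) : FixedPoints.subfield (Gq q) (PadicAlgCl q)) : PadicAlgCl q)‖ ≤ 1
      push_cast
      rw [LN_norm_natCast]
      exact_mod_cast Padic.norm_int_le_one (p := q) (a : ℤ)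
    · intro r hr s hs hrs
      obtain ⟨a, ha, rfl⟩ := Finset.mem_image.1 hr
      obtain ⟨b, hb, rfl⟩ := Finset.mem_image.1 hs
      have h1 : ‖(((a : ℤ) - (b : ℤ) : ℤ) : ℚ_[q])‖ < 1 := by
        rw [← LN_norm_algebraMap]
        have e : algebraMap ℚ_[q] (PadicAlgCl q) (((a : ℤ) - (b : ℤ) : ℤ) : ℚ_[q])
            = (((a : FixedPoints.subfield (Gq q) (PadicAlgCl q)) - b :
              FixedPoints.subfield (Gq q) (PadicAlgCl q)) : PadicAlgCl q) := by
          push_cast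
          simp
        rw [e]
        exact hrs
      rw [Padic.norm_intCast_lt_one_iff] at h1
      have ha' := Finset.mem_range.1 ha
      have hb' := Finset.mem_range.1 hb
      have : (a : ℤ) - b = 0 := by
        apply Int.eq_zero_of_abs_lt_dvd h1
        rw [abs_lt]
        constructor <;> omega
      have hab : a = b := by omega
      rw [hab]

end Padic

section Roots

variable (q p : ℕ) [Fact q.Prime] [Fact p.Prime]

theorem LN_p_ne_zero : (p : PadicAlgCl q) ≠ 0 := by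
  exact_mod_cast (Fact.out : p.Prime).ne_zero

theorem LN_exists_zeta : ∃ ζ : (PadicAlgCl q)ˣ, IsPrimitiveRoot ζ p := by
  have : NeZero (p : PadicAlgCl q) := ⟨LN_p_ne_zero q p⟩
  obtain ⟨ζ, hζ⟩ := HasEnoughRootsOfUnity.exists_primitiveRoot (PadicAlgCl q) p
  exact ⟨(hζ.isUnit (Fact.out : p.Prime).ne_zero).unit,
    IsPrimitiveRoot.coe_units_iff.1 (by simpa using hζ)⟩

variable {q p}

/-- `a ↦ ζ ^ a`. -/
def LN_e (ζ : (PadicAlgCl q)ˣ) (hζ : ζ ^ p = 1) : ZMod p →+ Additive (PadicAlgCl q)ˣ :=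
  ZMod.lift p ⟨zmultiplesHom (Additive (PadicAlgCl q)ˣ) (Additive.ofMul ζ), by
    rw [zmultiplesHom_apply, natCast_zsmul, ← ofMul_pow, hζ, ofMul_one]⟩

theorem LN_e_intCast (ζ : (PadicAlgCl q)ˣ) (hζ : ζ ^ p = 1) (k : ℤ) :
    LN_e ζ hζ (k : ZMod p) = Additive.ofMul (ζ ^ k) := by
  unfold LN_e
  rw [ZMod.lift_coe]
  simp [zmultiplesHom_apply, ofMul_zpow]

theorem LN_e_injective (ζ : (PadicAlgCl q)ˣ) (hζ : IsPrimitiveRoot ζ p) :
    Function.Injective (LN_e ζ hζ.pow_eq_one) := by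
  rw [injective_iff_map_eq_zero]
  intro a ha
  obtain ⟨k, rfl⟩ := ZMod.intCast_surjective a
  rw [LN_e_intCast] at ha
  have h1 : ζ ^ k = 1 := ha
  rw [hζ.zpow_eq_one_iff_dvd] at h1
  exact (ZMod.intCast_zmod_eq_zero_iff_dvd k p).2 h1

theorem LN_e_pow (ζ : (PadicAlgCl q)ˣ) (hζ : ζ ^ p = 1) (a : ZMod p) :
    (LN_e ζ hζ a).toMul ^ p = 1 := by
  obtain ⟨k, rfl⟩ := ZMod.intCast_surjective a
  rw [LN_e_intCast, toMul_ofMul, ← zpow_natCast, ← zpow_mul, mul_comm, zpow_mul, zpow_natCast, hζ,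
    one_zpow]

theorem LN_e_onto (ζ : (PadicAlgCl q)ˣ) (hζ : IsPrimitiveRoot ζ p) (z : (PadicAlgCl q)ˣ)
    (hz : z ^ p = 1) : ∃ a : ZMod p, LN_e ζ hζ.pow_eq_one a = Additive.ofMul z := by
  have : NeZero p := ⟨(Fact.out : p.Prime).ne_zero⟩
  have hz' : (z : PadicAlgCl q) ^ p = 1 := by
    rw [← Units.val_pow_eq_pow_val, hz, Units.val_one]
  obtain ⟨i, -, hi⟩ := (IsPrimitiveRoot.coe_units_iff.2 hζ).eq_pow_of_pow_eq_one hz'
  refine ⟨((i : ℤ) : ZMod p), ?_⟩
  rw [LN_e_intCast, zpow_natCast]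
  congr 1
  apply Units.ext
  rw [Units.val_pow_eq_pow_val, hi]

theorem LN_card_roots (H : Subgroup (Gq q))
    (hH : ∀ h ∈ H, ∀ z : PadicAlgCl q, z ^ p = 1 → h z = z) :
    Nat.card {z : (PadicAlgCl q)ˣ // z ^ p = 1 ∧ z ∈ fixedU H (PadicAlgCl q)} = p := by
  have : NeZero p := ⟨(Fact.out : p.Prime).ne_zero⟩
  obtain ⟨ζ, hζ⟩ := LN_exists_zeta q p
  have h1 : Nat.card (rootsOfUnity p (PadicAlgCl q)) = p :=
    (IsPrimitiveRoot.coe_units_iff.2 hζ).card_rootsOfUnity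
  refine Eq.trans ?_ h1
  refine Nat.card_congr (Equiv.subtypeEquivRight fun z => ?_)
  rw [mem_rootsOfUnity]
  refine ⟨fun h => h.1, fun h => ⟨h, fun g => ?_⟩⟩
  apply Units.ext
  exact hH g.1 g.2 (z : PadicAlgCl q) (by rw [← Units.val_pow_eq_pow_val, h, Units.val_one])

end Roots

/-- P1-K2 -/
theorem LN (h1 : Stmt_padicTower) (h2 : Stmt_towerSub) (h3 : Stmt_towerKummer)
    (h4 : Stmt_towerH1card) (h5 : Stmt_towerCard) (h6 : Stmt_reps) (h7 : Stmt_towerBase) :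
    Stmt_LN := by
  intro q p _ _ H hHo hHμ
  have hp := (Fact.out : p.Prime)
  have hq := (Fact.out : q.Prime)
  have hT := h1 q
  have hTH := h2 _ _ _ hT H hHo
  obtain ⟨ζ, hζ⟩ := LN_exists_zeta q p
  have hfix : ∀ (g : H) (w : (PadicAlgCl q)ˣ), w ^ p = 1 → g • w = w := by
    intro g w hw
    apply Units.ext
    exact hHμ g.1 g.2 (w : PadicAlgCl q) (by rw [← Units.val_pow_eq_pow_val, hw, Units.val_one])
  obtain ⟨c1, c2, c3⟩ := h3 H (PadicAlgCl q) _ hTH p (LN_p_ne_zero q p)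
    (Rep.trivial (ZMod p) H (ZMod p)) (LN_e ζ hζ.pow_eq_one) (LN_e_injective ζ hζ)
    (fun g n => by
      have := hfix g _ (LN_e_pow ζ hζ.pow_eq_one n)
      exact (congrArg Additive.ofMul this).symm) (fun z hz => LN_e_onto ζ hζ z hz)
  -- the uniformizer of `Ω^H`
  obtain ⟨ϖ', hϖ'⟩ := (h7 H (PadicAlgCl q) _ hTH).1.unif
  obtain ⟨ϖ, hϖ⟩ : ∃ ϖ : PadicAlgCl q, ϖ = (ϖ' : PadicAlgCl q) := ⟨_, rfl⟩
  have hU1 : IsUnifFix (⊤ : Subgroup H) ϖ := by
    rw [hϖ]; exact isUnifFix_top_iff_isUnif.2 ⟨ϖ'.2, hϖ'⟩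
  have hU2 : IsUnifFix H ϖ := by
    rw [hϖ]; exact isUnifFix_iff_isUnif.2 ⟨ϖ'.2, hϖ'⟩
  have hϖ0 : 0 < ‖ϖ‖ := norm_pos_iff.2 hU1.1
  have hϖ1 : ‖ϖ‖ < 1 := hU1.2.1
  have hp1 : ‖(p : PadicAlgCl q)‖ ≤ 1 := by
    rw [LN_norm_natCast]
    exact_mod_cast Padic.norm_int_le_one (p := q) (p : ℤ)
  obtain ⟨j, hj⟩ : ∃ j : ℕ, ‖(p : PadicAlgCl q)‖ = ‖ϖ‖ ^ j := by
    obtain ⟨k, hk⟩ := hU1.2.2.2 (p : PadicAlgCl q) (LN_p_ne_zero q p) (fun h _ => by
      show (h : Gq q) (p : PadicAlgCl q) = p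
      simp)
    have hk0 : 0 ≤ k := by
      by_contra hneg
      have := one_lt_zpow_of_neg₀ hϖ0 hϖ1 (not_le.1 hneg)
      rw [← hk] at this
      exact absurd hp1 (not_le.2 this)
    refine ⟨k.toNat, ?_⟩
    rw [hk, ← zpow_natCast, Int.toNat_of_nonneg hk0]
  have c4 := h4 H (PadicAlgCl q) _ hTH p hp ϖ j hU1 hj
  rw [LN_card_roots H hHμ] at c4
  have hcard : Nat.card (Hlc ((levq q).comap H.subtype) (Rep.trivial (ZMod p) H (ZMod p)) 1)
      = p ^ (2 + (if q = p then H.index else 0)) := by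
    rw [c1, c4]
    split_ifs with hqp
    · subst hqp
      have c5 := h5 (Gq q) (PadicAlgCl q) (levq q) hT H hHo (q : PadicAlgCl q) ϖ j
        (LN_isUnifFix_q q) hU2 hj
      rw [LN_resCard q h6 (h7 (Gq q) (PadicAlgCl q) _ hT).1] at c5
      rw [c5]
      ring
    · have hn1 : ‖(p : PadicAlgCl q)‖ = 1 := by
        rw [LN_norm_natCast, Padic.norm_natCast_eq_one_iff]
        exact (Nat.coprime_primes hq hp).2 hqp
      have hj0 : j = 0 := by
        by_contra hj0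
        rw [hn1] at hj
        have := (pow_eq_one_iff_of_nonneg hϖ0.le hj0).1 hj.symm
        exact absurd this hϖ1.ne
      rw [hj0]
      ring
  obtain ⟨f1, r1⟩ := LN_finrank_of_card p _ _ hcard
  obtain ⟨f2, r2⟩ := LN_finrank_of_card p _ 1 (by rw [c2, pow_one])
  exact ⟨f1, r1, f2, r2, c3⟩

end Fermat.Agent.CFT.Local
end
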