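/-
TEAM CFT, sub-project P1 (LOCAL), task P1-K3 (helper53): (LN3) `H²(G_E, μ_p)` is one dimensional,
`μ_p` = restriction of the global module attached to the cyclotomic character.
-/
import Fermat.Agent.CFT.Local.Tower
import Fermat.Agent.CFT.CycloBridge

set_option autoImplicit false

noncomputable section

namespace Fermat.Agent.CFT.Local

open CategoryTheory CategoryTheory.Limits groupCohomology Fermat.Agent.CFT.Top Module ExtCitation

attribute [local instance] Units.mulDistribMulActionRight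
attribute [local instance] quotAct

/-- `a ↦ ζ ^ a` as an additive map `ZMod p → Additive Ωˣ`. -/
def LN3_e {Ω : Type} [Field Ω] (p : ℕ) [NeZero p] (ζ : Ωˣ) (hζ : ζ ^ p = 1) :
    ZMod p →+ Additive Ωˣ :=
  AddMonoidHom.mk' (fun a => Additive.ofMul (ζ ^ a.val)) (fun a b => by
    rw [← ofMul_mul, ← pow_add, ZMod.val_add, ← pow_eq_pow_mod _ hζ])

theorem LN3_e_apply {Ω : Type} [Field Ω] (p : ℕ) [NeZero p] (ζ : Ωˣ) (hζ : ζ ^ p = 1)
    (a : ZMod p) :
    LN3_e p ζ hζ a = Additive.ofMul (ζ ^ a.val) := rfl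

theorem LN3_e_injective {Ω : Type} [Field Ω] (p : ℕ) [NeZero p] (ζ : Ωˣ)
    (hζ : IsPrimitiveRoot ζ p) : Function.Injective (LN3_e p ζ hζ.pow_eq_one) := by
  intro a b hab
  have h1 : ζ ^ a.val = ζ ^ b.val := hab
  exact ZMod.val_injective p (hζ.pow_inj (ZMod.val_lt a) (ZMod.val_lt b) h1)

theorem LN3_e_surjective {Ω : Type} [Field Ω] (p : ℕ) [NeZero p] (ζ : Ωˣ)
    (hζ : IsPrimitiveRoot ζ p) (z : Ωˣ) (hz : z ^ p = 1) :
    ∃ n : ZMod p, LN3_e p ζ hζ.pow_eq_one n = Additive.ofMul z := by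
  have hζ' : IsPrimitiveRoot (ζ : Ω) p := IsPrimitiveRoot.coe_units_iff.mpr hζ
  have hz' : (z : Ω) ^ p = 1 := by rw [← Units.val_pow_eq_pow_val, hz, Units.val_one]
  obtain ⟨i, hi, hiz⟩ := hζ'.eq_pow_of_pow_eq_one hz'
  have hiz' : ζ ^ i = z := Units.ext (by rw [Units.val_pow_eq_pow_val, hiz])
  exact ⟨(i : ZMod p), by rw [LN3_e_apply, ZMod.val_natCast_of_lt hi, hiz']⟩

/-- finite-dimensionality and dimension from the cardinality. -/
theorem LN3_finrank_of_card {p : ℕ} [Fact p.Prime] {V : Type} [AddCommGroup V] [Module (ZMod p) V]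
    {d : ℕ} (h : Nat.card V = p ^ d) : Module.Finite (ZMod p) V ∧ finrank (ZMod p) V = d := by
  have hp : p.Prime := Fact.out
  have hfin : Finite V := Nat.finite_of_card_ne_zero (by rw [h]; exact pow_ne_zero _ hp.ne_zero)
  have hmf : Module.Finite (ZMod p) V := Module.Finite.of_finite
  refine ⟨hmf, ?_⟩
  have h2 := Module.natCard_eq_pow_finrank (K := ZMod p) (V := V)
  rw [h, Nat.card_zmod] at h2
  exact (Nat.pow_right_injective hp.two_le h2).symm

theorem LN3 (h1 : Stmt_padicTower) (h2 : Stmt_towerSub) (h3 : Stmt_towerKummer) : Stmt_LN3 := by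
  intro q p _ _ H hH
  have hp : p.Prime := Fact.out
  have : NeZero p := ⟨hp.ne_zero⟩
  have hT : LocTower H (PadicAlgCl q) ((levq q).comap H.subtype) := h2 _ _ _ (h1 q) H hH
  have : NeZero ((p : ℕ) : AlgebraicClosure ℚ) := ⟨Nat.cast_ne_zero.mpr hp.ne_zero⟩
  obtain ⟨ζ0, hζ0⟩ := HasEnoughRootsOfUnity.exists_primitiveRoot (AlgebraicClosure ℚ) p
  have hζ1 : IsPrimitiveRoot (padicEmbedding q ζ0) p :=
    hζ0.map_of_injective (padicEmbedding q).toRingHom.injective
  let ζ : (PadicAlgCl q)ˣ := Units.mk0 (padicEmbedding q ζ0) (hζ1.ne_zero hp.ne_zero)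
  have hζ : IsPrimitiveRoot ζ p := IsPrimitiveRoot.coe_units_iff.mp hζ1
  have hp0 : ((p : ℕ) : PadicAlgCl q) ≠ 0 := Nat.cast_ne_zero.mpr hp.ne_zero
  have key := h3 H (PadicAlgCl q) ((levq q).comap H.subtype) hT p hp0
    (Rep.res ((localGaloisToGlobal q).comp H.subtype) (muRep (ZMod p) (cycloChar p)))
    (LN3_e p ζ hζ.pow_eq_one) (LN3_e_injective p ζ hζ) ?_ (LN3_e_surjective p ζ hζ)
  · exact LN3_finrank_of_card (d := 1) (by rw [pow_one]; exact key.2.1)
  · intro g n
    set c : (ZMod p)ˣ := cycloChar p (localGaloisToGlobal q (g : Gq q)) with hc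
    have hρ : (Rep.res ((localGaloisToGlobal q).comp H.subtype)
        (muRep (ZMod p) (cycloChar p))).ρ g n = (c : ZMod p) * (n : ZMod p) := rfl
    have hgζ : g • ζ = ζ ^ (c : ZMod p).val := by
      apply Units.ext
      change (g : Gq q) (padicEmbedding q ζ0) = _
      rw [← padicEmbedding_localGaloisToGlobal, apply_eq_pow_cycloChar p _ hζ0.pow_eq_one,
        map_pow, Units.val_pow_eq_pow_val]
      rfl
    rw [hρ]
    change Additive.ofMul (ζ ^ ((c : ZMod p) * (n : ZMod p)).val)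
      = Additive.ofMul (g • (ζ ^ (n : ZMod p).val))
    rw [smul_pow', hgζ, ← pow_mul, ZMod.val_mul, ← pow_eq_pow_mod _ hζ.pow_eq_one]

end Fermat.Agent.CFT.Local

end
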