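/-
TEAM CFT, sub-project P1 (LOCAL), third interface file (after ruling 3 of the CFT lead):
no `H³`; the generic passage finite level -> `Hlc` is taken from the LC-toolkit `Top/Tool.lean`;
final deliverables = the local inputs `InLN`, `InLN3` of `Top/Inputs2.lean` for `qDatum`.
-/
import Fermat.Agent.CFT.Local.Tower
import Fermat.Agent.CFT.Top.Tool
import Fermat.Agent.CFT.Top.Inputs2

set_option autoImplicit false

noncomputable section

namespace Fermat.Agent.CFT.Local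

open CategoryTheory CategoryTheory.Limits groupCohomology Fermat.Agent.CFT.Top Module ExtCitation

attribute [local instance] Units.mulDistribMulActionRight
attribute [local instance] quotAct

/-- P1-H9' : Kummer theory in a tower: `H¹`, `H²` of `N ≅ μ_p(Ω)`. -/
def Stmt_towerKummer2 : Prop :=
  ∀ (𝒢 Ω : Type) [Group 𝒢] [NormedField Ω] [MulSemiringAction 𝒢 Ω] (𝒰 : LevelSys 𝒢),
    LocTower 𝒢 Ω 𝒰 → ∀ (p : ℕ) [Fact p.Prime], (p : Ω) ≠ 0 →
    ∀ (N : Rep.{0} (ZMod p) 𝒢) (e : N →+ Additive Ωˣ), Function.Injective e →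
      (∀ (g : 𝒢) (n : N), e (N.ρ g n) = Additive.ofMul (g • (e n).toMul)) →
      (∀ z : Ωˣ, z ^ p = 1 → ∃ n : N, e n = Additive.ofMul z) →
      Nat.card (Hlc 𝒰 N 1) = ((fixedU 𝒢 Ω).map (powMonoidHom p)).relIndex (fixedU 𝒢 Ω) ∧
      Nat.card (Hlc 𝒰 N 2) = p

/-- P1-K2' : (LN1), (LN2): open subgroups `H` fixing `μ_p`, trivial coefficients. -/
def Stmt_LN12 : Prop :=
  ∀ (q p : ℕ) [Fact q.Prime] [Fact p.Prime] (H : Subgroup (Gq q)), (levq q).IsOpen H →
    (∀ h ∈ H, ∀ z : PadicAlgCl q, z ^ p = 1 → h z = z) →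
    Module.Finite (ZMod p) (Hlc ((levq q).comap H.subtype) (Rep.trivial (ZMod p) H (ZMod p)) 1) ∧
    finrank (ZMod p) (Hlc ((levq q).comap H.subtype) (Rep.trivial (ZMod p) H (ZMod p)) 1) =
      2 + (if q = p then H.index else 0) ∧
    Module.Finite (ZMod p) (Hlc ((levq q).comap H.subtype) (Rep.trivial (ZMod p) H (ZMod p)) 2) ∧
    finrank (ZMod p) (Hlc ((levq q).comap H.subtype) (Rep.trivial (ZMod p) H (ZMod p)) 2) = 1

/-- P1-K3' : (LN3) for the full local Galois group. -/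
def Stmt_LN3full : Prop :=
  ∀ (q p : ℕ) [Fact q.Prime] [Fact p.Prime],
    Nat.card (Hlc (levq q) (Rep.res (localGaloisToGlobal q) (muRep (ZMod p) (cycloChar p))) 2) = p

/-- Shapiro for `Hlc` (owner: [NUM]); only the existence of an isomorphism is used here. -/
def Stmt_shapiroLc : Prop :=
  ∀ (p : ℕ) [Fact p.Prime] (G : Type) [Group G] (𝒰 : LevelSys G) (H : Subgroup G), 𝒰.IsOpen H →
    ∀ i : ℕ, Nonempty (Hlc 𝒰 (permRep (ZMod p) H) i ≃ₗ[ZMod p]
      Hlc (𝒰.comap H.subtype) (Rep.trivial (ZMod p) H (ZMod p)) i)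

/-- P1-K4 : **the local inputs of the positivity route.** -/
def Stmt_qLN : Prop :=
  ∀ (p : ℕ) [Fact p.Prime] (S : Finset Nat.Primes) (h : CycloTriv p S) (v : (qDatum p S h).ι),
    (∃ ε, (qDatum p S h).InLN v ε) ∧ (qDatum p S h).InLN3 v

end Fermat.Agent.CFT.Local

end
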