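/-
TEAM CFT, sub-project P1 (LOCAL): (LN3) for the full local Galois group, and (LN1),(LN2) without `H³`.
-/
import Fermat.Agent.CFT.Local.Tower2
import Fermat.Agent.CFT.Local.LN3
import Fermat.Agent.CFT.Local.LN

set_option autoImplicit false

noncomputable section

namespace Fermat.Agent.CFT.Local

open CategoryTheory CategoryTheory.Limits groupCohomology Fermat.Agent.CFT.Top Module ExtCitation

attribute [local instance] Units.mulDistribMulActionRight
attribute [local instance] quotAct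

theorem LN3full (h1 : Stmt_padicTower) (h3 : Stmt_towerKummer2) : Stmt_LN3full := by
  intro q p _ _
  have hp : p.Prime := Fact.out
  have : NeZero p := ⟨hp.ne_zero⟩
  have hT : LocTower (Gq q) (PadicAlgCl q) (levq q) := h1 q
  have : NeZero ((p : ℕ) : AlgebraicClosure ℚ) := ⟨Nat.cast_ne_zero.mpr hp.ne_zero⟩
  obtain ⟨ζ0, hζ0⟩ := HasEnoughRootsOfUnity.exists_primitiveRoot (AlgebraicClosure ℚ) p
  have hζ1 : IsPrimitiveRoot (padicEmbedding q ζ0) p :=
    hζ0.map_of_injective (padicEmbedding q).toRingHom.injective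
  let ζ : (PadicAlgCl q)ˣ := Units.mk0 (padicEmbedding q ζ0) (hζ1.ne_zero hp.ne_zero)
  have hζ : IsPrimitiveRoot ζ p := IsPrimitiveRoot.coe_units_iff.mp hζ1
  have hp0 : ((p : ℕ) : PadicAlgCl q) ≠ 0 := Nat.cast_ne_zero.mpr hp.ne_zero
  have key := h3 (Gq q) (PadicAlgCl q) (levq q) hT p hp0
    (Rep.res (localGaloisToGlobal q) (muRep (ZMod p) (cycloChar p)))
    (LN3_e p ζ hζ.pow_eq_one) (LN3_e_injective p ζ hζ) ?_ (LN3_e_surjective p ζ hζ)
  · exact key.2
  · intro g n
    set c : (ZMod p)ˣ := cycloChar p (localGaloisToGlobal q (g : Gq q)) with hc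
    have hρ : (Rep.res (localGaloisToGlobal q)
        (muRep (ZMod p) (cycloChar p))).ρ g n = (c : ZMod p) * (n : ZMod p) := rfl
    have hgζ : g • ζ = ζ ^ (c : ZMod p).val := by
      apply Units.ext
      change (g : Gq q) (padicEmbedding q ζ0) = _
      rw [← padicEmbedding_localGaloisToGlobal, apply_eq_pow_cycloChar p _ hζ0.pow_eq_one,
        map_pow, Units.val_pow_eq_pow_val]
      rfl
    rw [hρ]
    change Additive.ofMul (ζ ^ ((c : ZMod p) * (n : ZMod p)).val)
      = Additive.ofMul (g • (ζ ^ (n : ZMod p).val))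
    rw [smul_pow', hgζ, ← pow_mul, ZMod.val_mul, ← pow_eq_pow_mod _ hζ.pow_eq_one]

theorem LN12_of_LN (h : Stmt_LN) : Stmt_LN12 := by
  intro q p _ _ H hH hfix
  obtain ⟨a, b, c, d, -⟩ := h q p H hH hfix
  exact ⟨a, b, c, d⟩

end Fermat.Agent.CFT.Local

end
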