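/-
TEAM CFT, sub-project P1 (local CFT), package P1-A5: `(Lˣ)^N = (L^N)ˣ` as `G ⧸ N`-modules.
-/
import Fermat.Agent.CFT.Local.Interface

set_option autoImplicit false

noncomputable section

namespace Fermat.Agent.CFT.Local

open CategoryTheory CategoryTheory.Limits groupCohomology

attribute [local instance] Units.mulDistribMulActionRight
attribute [local instance] quotAct

section

variable (G L : Type) [Group G] [Field L] [MulSemiringAction G L] (N : Subgroup G) [N.Normal]

/-- the `N`-invariants of `Additive Lˣ` -/
abbrev layerIsoInv : Submodule ℤ (Additive Lˣ) :=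
  Representation.invariants ((Representation.ofMulDistribMulAction G Lˣ).comp N.subtype)

variable {G L N}

omit [N.Normal] in
theorem layerIso_mem (a : layerIsoInv G L N) :
    ((Additive.toMul (a : Additive Lˣ) : Lˣ) : L) ∈ FixedPoints.subfield N L := by
  intro n
  have h := a.2 n
  have h' : (n : G) • (Additive.toMul (a : Additive Lˣ) : Lˣ) = Additive.toMul (a : Additive Lˣ) :=
    congrArg Additive.toMul h
  exact congrArg Units.val h'

variable (G L N)

/-- the underlying additive equivalence -/
def layerIsoAddEquiv : layerIsoInv G L N ≃+ Additive (FixedPoints.subfield N L)ˣ where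
  toFun a := Additive.ofMul (Units.mk0
    (⟨((Additive.toMul (a : Additive Lˣ) : Lˣ) : L), layerIso_mem a⟩ : FixedPoints.subfield N L)
    (fun h => (Additive.toMul (a : Additive Lˣ) : Lˣ).ne_zero (congrArg Subtype.val h)))
  invFun b := ⟨Additive.ofMul (Units.map (FixedPoints.subfield N L).subtype.toMonoidHom
      (Additive.toMul b)), fun n => by
    apply congrArg Additive.ofMul
    apply Units.ext
    exact (Additive.toMul b : (FixedPoints.subfield N L)ˣ).val.2 n⟩
  left_inv a := by
    apply Subtype.ext
    apply congrArg Additive.ofMul
    apply Units.ext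
    rfl
  right_inv b := by
    apply congrArg Additive.ofMul
    apply Units.ext
    rfl
  map_add' a b := by
    apply congrArg Additive.ofMul
    apply Units.ext
    rfl

omit [N.Normal] in
theorem layerIsoAddEquiv_val (a : layerIsoInv G L N) :
    (((Additive.toMul (layerIsoAddEquiv G L N a) : (FixedPoints.subfield N L)ˣ) :
      FixedPoints.subfield N L) : L) = ((Additive.toMul (a : Additive Lˣ) : Lˣ) : L) := rfl

/-- the equivalence of representations -/
def layerIsoEquiv :
    ((Representation.ofMulDistribMulAction G Lˣ).quotientToInvariants N).Equiv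
      (Representation.ofMulDistribMulAction (G ⧸ N) (FixedPoints.subfield N L)ˣ) :=
  Representation.Equiv.mk (layerIsoAddEquiv G L N).toIntLinearEquiv (by
    intro q
    induction q using QuotientGroup.induction_on with
    | H g =>
      refine LinearMap.ext fun a => ?_
      refine Additive.toMul.injective (Units.ext (Subtype.ext ?_))
      rfl)

end

theorem layerIso : Stmt_layerIso := by
  intro G L _ _ _ N _
  exact ⟨Rep.mkIso (layerIsoEquiv G L N), fun a => rfl⟩

/-- consequence: the cohomology groups agree. -/
theorem layerIso_cohomology (G L : Type) [Group G] [Field L] [MulSemiringAction G L]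
    (N : Subgroup G) [N.Normal] (n : ℕ) :
    Nonempty (groupCohomology ((unitsRep G L).quotientToInvariants N) n ≅
      groupCohomology (unitsRep (G ⧸ N) (FixedPoints.subfield N L)) n) :=
  ⟨(groupCohomology.functor ℤ (G ⧸ N) n).mapIso (Rep.mkIso (layerIsoEquiv G L N))⟩

end Fermat.Agent.CFT.Local

end
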