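/-
P1-H2, P1-H3 : thin wrappers around the LC toolkit (`Top/ToolChangeRing.lean`, `Top/SCb.lean`).
-/
import Fermat.Agent.CFT.Local.Tower
import Fermat.Agent.CFT.Top.ToolChangeRing
import Fermat.Agent.CFT.Top.SCb

set_option autoImplicit false

noncomputable section

namespace Fermat.Agent.CFT.Local

open Fermat.Agent.CFT.Top

/-- P1-H2. -/
theorem lcAddEquiv : Stmt_lcAddEquiv := by
  intro k k' G _ _ _ 𝒰 M M' e he n
  exact tool_changeRing k k' G 𝒰 M M' e he n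

/-- P1-H3. -/
theorem lcH0 : Stmt_lcH0 := by
  intro k G _ _ 𝒰
  refine ⟨fun M => M.ρ.invariants.subtype ∘ₗ (H0Equiv 𝒰 M).symm.toLinearMap, fun M => ?_,
    fun M m => ?_, fun M N ψ x => ?_⟩
  · exact (Subtype.val_injective).comp (H0Equiv 𝒰 M).symm.injective
  · constructor
    · rintro ⟨x, rfl⟩ g
      exact ((H0Equiv 𝒰 M).symm x).2 g
    · intro h
      refine ⟨H0Equiv 𝒰 M ⟨m, h⟩, ?_⟩
      show (((H0Equiv 𝒰 M).symm (H0Equiv 𝒰 M ⟨m, h⟩) : M.ρ.invariants) : M) = m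
      rw [LinearEquiv.symm_apply_apply]
  · obtain ⟨m, rfl⟩ := (H0Equiv 𝒰 M).surjective x
    show (((H0Equiv 𝒰 N).symm ((lcCoeff 𝒰 ψ).mapH 0 (H0Equiv 𝒰 M m)) : N.ρ.invariants) : N)
      = ψ.hom (((H0Equiv 𝒰 M).symm (H0Equiv 𝒰 M m) : M.ρ.invariants) : M)
    rw [LinearEquiv.symm_apply_apply]
    have h1 : (lcCoeff 𝒰 ψ).mapH 0 (H0Equiv 𝒰 M m)
        = H0Equiv 𝒰 N ⟨ψ.hom m.1, map_mem_invariants (MonoidHom.id G) ψ.hom.toLinearMap
            (fun g m => Rep.hom_comm_apply ψ g m) m.2⟩ := rfl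
    rw [h1, LinearEquiv.symm_apply_apply]

end Fermat.Agent.CFT.Local

end
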