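/-
TEAM CFT, P1-H1 : `Hlc 𝒰 M n = colim_U Hⁿ(G/U, M^U)` (Mathlib's `groupCohomology` at finite level).
-/
import Fermat.Agent.CFT.Local.Tower

set_option autoImplicit false

noncomputable section

namespace Fermat.Agent.CFT.Local

open CategoryTheory CategoryTheory.Limits groupCohomology Fermat.Agent.CFT.Top

namespace LcLevel

/-! ### elementwise API for Mathlib's `groupCohomology` -/

section API

variable {k Q : Type} [CommRing k] [Group Q] (A : Rep.{0} k Q)

/-- the cochain underlying a cocycle -/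
def ic (n : ℕ) : cocycles A n →ₗ[k] ((Fin n → Q) → A) := (iCocycles A n).hom

theorem ic_injective (n : ℕ) : Function.Injective (ic A n) :=
  (ModuleCat.mono_iff_injective (iCocycles A n)).1 inferInstance

theorem π_surjective (n : ℕ) : Function.Surjective (π A n).hom := by
  intro x
  induction x using groupCohomology_induction_on with
  | h z => exact ⟨z, rfl⟩

theorem dd_ic (n : ℕ) (z : cocycles A n) : dd A n (ic A n z) = 0 := by
  have h := (inhomogeneousCochains A).iCycles_d n (n + 1)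
  rw [inhomogeneousCochains.d_def] at h
  exact congrArg (fun f => f.hom z) h

theorem exists_ic_eq (n : ℕ) (f : (Fin n → Q) → A) (hf : dd A n f = 0) :
    ∃ z : cocycles A n, ic A n z = f :=
  ⟨cocyclesMk f hf, iCocycles_mk f hf⟩

theorem π_eq_zero_succ_iff (m : ℕ) (z : cocycles A (m + 1)) :
    (π A (m + 1)).hom z = 0 ↔ ∃ w : (Fin m → Q) → A, dd A m w = ic A (m + 1) z := by
  have hex : (ShortComplex.mk ((inhomogeneousCochains A).toCycles m (m + 1))
      ((inhomogeneousCochains A).homologyπ (m + 1))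
      ((inhomogeneousCochains A).toCycles_comp_homologyπ _ _)).Exact :=
    ShortComplex.exact_of_g_is_cokernel _
      ((inhomogeneousCochains A).homologyIsCokernel m (m + 1) (by simp))
  rw [ShortComplex.moduleCat_exact_iff] at hex
  have hti : ∀ w : (Fin m → Q) → A,
      ic A (m + 1) (((inhomogeneousCochains A).toCycles m (m + 1)).hom w) = dd A m w := by
    intro w
    have h := (inhomogeneousCochains A).toCycles_i m (m + 1)
    rw [inhomogeneousCochains.d_def] at h
    exact congrArg (fun f => f.hom w) h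
  constructor
  · intro h
    obtain ⟨w, hw⟩ := hex z h
    refine ⟨w, ?_⟩
    rw [← hti]
    exact congrArg (ic A (m + 1)) hw
  · rintro ⟨w, hw⟩
    have hz : ((inhomogeneousCochains A).toCycles m (m + 1)).hom w = z := by
      apply ic_injective
      rw [hti, hw]
    rw [← hz]
    have h := (inhomogeneousCochains A).toCycles_comp_homologyπ m (m + 1)
    exact congrArg (fun f => f.hom w) h

theorem π_eq_zero_zero_iff (z : cocycles A 0) : (π A 0).hom z = 0 ↔ z = 0 := by
  have hex : (ShortComplex.mk ((inhomogeneousCochains A).toCycles 0 0)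
      ((inhomogeneousCochains A).homologyπ 0)
      ((inhomogeneousCochains A).toCycles_comp_homologyπ _ _)).Exact :=
    ShortComplex.exact_of_g_is_cokernel _
      ((inhomogeneousCochains A).homologyIsCokernel 0 0 (by simp))
  rw [ShortComplex.moduleCat_exact_iff] at hex
  constructor
  · intro h
    obtain ⟨w, hw⟩ := hex z h
    apply ic_injective
    rw [map_zero]
    have h1 := (inhomogeneousCochains A).toCycles_i 0 0
    rw [(inhomogeneousCochains A).shape 0 0 (by simp)] at h1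
    have h2 := congrArg (fun f => f.hom w) h1
    rw [← hw]
    exact h2
  · rintro rfl
    exact map_zero _

end API

/-! ### the cochain maps `c_U` -/

section Level

variable {k G : Type} [CommRing k] [Group G] (M : Rep.{0} k G)

/-- the inclusion `M^U → M` -/
def incl (U : Subgroup G) [U.Normal] : (M.quotientToInvariants U) →ₗ[k] M :=
  Submodule.subtype _

theorem incl_injective (U : Subgroup G) [U.Normal] : Function.Injective (incl M U) :=
  Subtype.val_injective

theorem incl_ρ (U : Subgroup G) [U.Normal] (g : G) (m : M.quotientToInvariants U) :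
    incl M U ((M.quotientToInvariants U).ρ (QuotientGroup.mk' U g) m) = M.ρ g (incl M U m) := rfl

theorem ρ_incl (U : Subgroup G) [U.Normal] (u : G) (hu : u ∈ U) (m : M.quotientToInvariants U) :
    M.ρ u (incl M U m) = incl M U m := m.2 ⟨u, hu⟩

/-- `c_U : Cⁿ(G/U, M^U) → Cⁿ(G, M)` -/
def cU (U : Subgroup G) [U.Normal] (n : ℕ) :
    ((Fin n → G ⧸ U) → M.quotientToInvariants U) →ₗ[k] ((Fin n → G) → M) :=
  pullPush (QuotientGroup.mk' U) (incl M U) n

theorem cU_apply (U : Subgroup G) [U.Normal] (n : ℕ)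
    (f : (Fin n → G ⧸ U) → M.quotientToInvariants U) (g : Fin n → G) :
    cU M U n f g = incl M U (f fun i => (g i : G ⧸ U)) := rfl

theorem cU_dd (U : Subgroup G) [U.Normal] (n : ℕ)
    (f : (Fin n → G ⧸ U) → M.quotientToInvariants U) :
    cU M U (n + 1) (dd (M.quotientToInvariants U) n f) = dd M n (cU M U n f) :=
  pullPush_dd (QuotientGroup.mk' U) (incl M U) (incl_ρ M U) n f

theorem cU_injective (U : Subgroup G) [U.Normal] (n : ℕ) : Function.Injective (cU M U n) := by
  intro f f' h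
  funext q
  apply incl_injective M U
  have h1 := congrFun h (fun i => (q i).out)
  rw [cU_apply, cU_apply] at h1
  have h2 : (fun i => (((q i).out : G) : G ⧸ U)) = q := funext fun i => QuotientGroup.out_eq' _
  rwa [h2] at h1

theorem cU_isLevel (U : Subgroup G) [U.Normal] (n : ℕ)
    (f : (Fin n → G ⧸ U) → M.quotientToInvariants U) : IsLevel M U n (cU M U n f) := by
  refine ⟨fun g g' hg => ?_, fun g u hu => ?_⟩
  · rw [cU_apply, cU_apply]
    congr 2
    funext i
    exact QuotientGroup.eq.2 (hg i)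
  · rw [cU_apply]
    exact ρ_incl M U u hu _

theorem exists_cU_eq (U : Subgroup G) [U.Normal] (n : ℕ) (f : (Fin n → G) → M)
    (hf : IsLevel M U n f) : ∃ f', cU M U n f' = f := by
  refine ⟨fun q => ⟨f fun i => (q i).out, fun u => hf.2 _ u.1 u.2⟩, ?_⟩
  funext g
  rw [cU_apply]
  show f (fun i => ((g i : G ⧸ U)).out) = f g
  refine hf.1 _ _ fun i => ?_
  have h1 : (((g i : G ⧸ U).out : G) : G ⧸ U) = (g i : G ⧸ U) := QuotientGroup.out_eq' _
  exact QuotientGroup.eq.1 h1

/-- compatibility with inflation -/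
theorem cU_inf (U V : Subgroup G) [U.Normal] [V.Normal] (h : V ≤ U) (n : ℕ)
    (f : (Fin n → G ⧸ U) → M.quotientToInvariants U) :
    cU M V n (((cochainsMap (levProj U V h) (levIncl M U V h)).f n).hom f) = cU M U n f := rfl

end Level

/-! ### the maps `lam` -/

section Lam

variable {k G : Type} [CommRing k] [Group G] (𝒰 : LevelSys G) (M : Rep.{0} k G)

/-- `c_U` with values in the level constant cochains -/
def lamX (U : Subgroup G) [U.Normal] (hU : U ∈ 𝒰.S) (n : ℕ) :
    ((Fin n → G ⧸ U) → M.quotientToInvariants U) →ₗ[k] (lcCpx 𝒰 M).X n where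
  toFun f := (⟨cU M U n f, ⟨U, hU, cU_isLevel M U n f⟩⟩ : lcCochains 𝒰 M n)
  map_add' _ _ := rfl
  map_smul' _ _ := rfl

theorem lamX_coe (U : Subgroup G) [U.Normal] (hU : U ∈ 𝒰.S) (n : ℕ)
    (f : (Fin n → G ⧸ U) → M.quotientToInvariants U) :
    (show ↥(lcCochains 𝒰 M n) from lamX 𝒰 M U hU n f).1 = cU M U n f := rfl

theorem lamX_injective (U : Subgroup G) [U.Normal] (hU : U ∈ 𝒰.S) (n : ℕ) :
    Function.Injective (lamX 𝒰 M U hU n) := by
  intro f f' h
  apply cU_injective M U n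
  exact congrArg (fun x : lcCochains 𝒰 M n => x.1) h

theorem d_lamX (U : Subgroup G) [U.Normal] (hU : U ∈ 𝒰.S) (n : ℕ)
    (f : (Fin n → G ⧸ U) → M.quotientToInvariants U) :
    (lcCpx 𝒰 M).d n (lamX 𝒰 M U hU n f) =
      lamX 𝒰 M U hU (n + 1) (dd (M.quotientToInvariants U) n f) :=
  Subtype.ext (cU_dd M U n f).symm

/-- on cocycles -/
def lamZ (U : Subgroup G) [U.Normal] (hU : U ∈ 𝒰.S) (n : ℕ) :
    cocycles (M.quotientToInvariants U) n →ₗ[k] (lcCpx 𝒰 M).Z n :=
  LinearMap.codRestrict _ (lamX 𝒰 M U hU n ∘ₗ ic _ n) fun z => by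
    rw [Cpx.mem_Z, LinearMap.comp_apply, d_lamX, dd_ic, map_zero]

theorem lamZ_coe (U : Subgroup G) [U.Normal] (hU : U ∈ 𝒰.S) (n : ℕ)
    (z : cocycles (M.quotientToInvariants U) n) :
    (lamZ 𝒰 M U hU n z : (lcCpx 𝒰 M).X n) = lamX 𝒰 M U hU n (ic _ n z) := rfl

/-- classes of cocycles -/
def lamC (U : Subgroup G) [U.Normal] (hU : U ∈ 𝒰.S) (n : ℕ) :
    cocycles (M.quotientToInvariants U) n →ₗ[k] Hlc 𝒰 M n :=
  (lcCpx 𝒰 M).cls n ∘ₗ lamZ 𝒰 M U hU n

theorem lamC_eq_zero (U : Subgroup G) [U.Normal] (hU : U ∈ 𝒰.S) (n : ℕ)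
    (z : cocycles (M.quotientToInvariants U) n)
    (hz : (π (M.quotientToInvariants U) n).hom z = 0) : lamC 𝒰 M U hU n z = 0 := by
  cases n with
  | zero =>
    rw [(π_eq_zero_zero_iff _ z).1 hz, map_zero]
  | succ m =>
    obtain ⟨w, hw⟩ := (π_eq_zero_succ_iff _ m z).1 hz
    rw [lamC, LinearMap.comp_apply, Cpx.cls_eq_zero_iff, Cpx.mem_B_succ]
    exact ⟨lamX 𝒰 M U hU m w, by rw [d_lamX, hw, lamZ_coe]⟩

/-- the map `Hⁿ(G/U, M^U) → Hlc` -/
def lamU (U : Subgroup G) [U.Normal] (hU : U ∈ 𝒰.S) (n : ℕ) :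
    groupCohomology (M.quotientToInvariants U) n →ₗ[k] Hlc 𝒰 M n :=
  (Submodule.liftQ (LinearMap.ker (π (M.quotientToInvariants U) n).hom) (lamC 𝒰 M U hU n)
      fun z hz => lamC_eq_zero 𝒰 M U hU n z hz) ∘ₗ
    ((π (M.quotientToInvariants U) n).hom.quotKerEquivOfSurjective
      (π_surjective _ n)).symm.toLinearMap

theorem lamU_π (U : Subgroup G) [U.Normal] (hU : U ∈ 𝒰.S) (n : ℕ)
    (z : cocycles (M.quotientToInvariants U) n) :
    lamU 𝒰 M U hU n ((π (M.quotientToInvariants U) n).hom z) = lamC 𝒰 M U hU n z := by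
  have h1 : ((π (M.quotientToInvariants U) n).hom.quotKerEquivOfSurjective
      (π_surjective _ n)).symm ((π (M.quotientToInvariants U) n).hom z) =
      Submodule.Quotient.mk z := by
    rw [LinearEquiv.symm_apply_eq]
    rfl
  rw [lamU, LinearMap.comp_apply, LinearEquiv.coe_coe, h1]
  rfl

theorem levInf_π (U V : Subgroup G) [U.Normal] [V.Normal] (h : V ≤ U) (n : ℕ)
    (z : cocycles (M.quotientToInvariants U) n) :
    (levInf M U V h n).hom ((π _ n).hom z) =
      (π _ n).hom ((cocyclesMap (levProj U V h) (levIncl M U V h) n).hom z) := by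
  have := groupCohomology.π_map (levProj U V h) (levIncl M U V h) n
  exact congrArg (fun f => f.hom z) this

theorem ic_cocyclesMap (U V : Subgroup G) [U.Normal] [V.Normal] (h : V ≤ U) (n : ℕ)
    (z : cocycles (M.quotientToInvariants U) n) :
    ic _ n ((cocyclesMap (levProj U V h) (levIncl M U V h) n).hom z) =
      ((cochainsMap (levProj U V h) (levIncl M U V h)).f n).hom (ic _ n z) := by
  have := HomologicalComplex.cyclesMap_i (cochainsMap (levProj U V h) (levIncl M U V h)) n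
  exact congrArg (fun f => f.hom z) this

theorem cU_ic_cocyclesMap (U V : Subgroup G) [U.Normal] [V.Normal] (h : V ≤ U) (n : ℕ)
    (z : cocycles (M.quotientToInvariants U) n) :
    cU M V n (ic _ n ((cocyclesMap (levProj U V h) (levIncl M U V h) n).hom z)) =
      cU M U n (ic _ n z) := by
  rw [ic_cocyclesMap, cU_inf]

theorem surj (n : ℕ) (x : Hlc 𝒰 M n) :
    ∃ (U : Subgroup G) (_ : U.Normal) (hU : U ∈ 𝒰.S)
      (y : groupCohomology (M.quotientToInvariants U) n), lamU 𝒰 M U hU n y = x := by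
  obtain ⟨⟨⟨f, U, hU, hf⟩, hz⟩, rfl⟩ := (lcCpx 𝒰 M).cls_surjective n x
  have hN := 𝒰.normal U hU
  obtain ⟨f', rfl⟩ := exists_cU_eq M U n f hf
  have hf' : dd _ n f' = 0 := by
    apply cU_injective M U (n + 1)
    rw [cU_dd, map_zero]
    exact congrArg (fun x : lcCochains 𝒰 M (n + 1) => x.1) (Cpx.mem_Z.1 hz)
  obtain ⟨z, rfl⟩ := exists_ic_eq _ n f' hf'
  exact ⟨U, hN, hU, (π _ n).hom z, by rw [lamU_π]; rfl⟩

theorem compat (U V : Subgroup G) [U.Normal] [V.Normal] (h : V ≤ U) (hU : U ∈ 𝒰.S)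
    (hV : V ∈ 𝒰.S) (n : ℕ) (y : groupCohomology (M.quotientToInvariants U) n) :
    lamU 𝒰 M V hV n ((levInf M U V h n).hom y) = lamU 𝒰 M U hU n y := by
  obtain ⟨z, rfl⟩ := π_surjective _ n y
  rw [levInf_π, lamU_π, lamU_π, lamC, lamC, LinearMap.comp_apply, LinearMap.comp_apply]
  congr 1
  apply Subtype.ext
  rw [lamZ_coe, lamZ_coe]
  exact Subtype.ext (cU_ic_cocyclesMap M U V h n z)

theorem inj (U : Subgroup G) [U.Normal] (hU : U ∈ 𝒰.S) (n : ℕ)
    (y : groupCohomology (M.quotientToInvariants U) n) (hy : lamU 𝒰 M U hU n y = 0) :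
    ∃ (V : Subgroup G) (_ : V.Normal) (h : V ≤ U), V ∈ 𝒰.S ∧ (levInf M U V h n).hom y = 0 := by
  obtain ⟨z, rfl⟩ := π_surjective _ n y
  rw [lamU_π, lamC, LinearMap.comp_apply, Cpx.cls_eq_zero_iff, lamZ_coe] at hy
  cases n with
  | zero =>
    rw [Cpx.mem_B_zero] at hy
    have h1 : ic _ 0 z = 0 := lamX_injective 𝒰 M U hU 0 (hy.trans (map_zero _).symm)
    have h2 : z = 0 := ic_injective _ 0 (h1.trans (map_zero _).symm)
    exact ⟨U, inferInstance, le_rfl, hU, by rw [h2, map_zero, map_zero]⟩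
  | succ m =>
    obtain ⟨⟨b, W, hW, hb⟩, hd⟩ := Cpx.mem_B_succ.1 hy
    obtain ⟨V, hV, hVU, hVW⟩ := 𝒰.dir U hU W hW
    have hN := 𝒰.normal V hV
    obtain ⟨b', rfl⟩ := exists_cU_eq M V m b (hb.mono hVW)
    refine ⟨V, hN, hVU, hV, ?_⟩
    rw [levInf_π, π_eq_zero_succ_iff]
    refine ⟨b', ?_⟩
    apply cU_injective M V (m + 1)
    rw [cU_dd, cU_ic_cocyclesMap]
    exact congrArg (fun x : lcCochains 𝒰 M (m + 1) => x.1) hd

open Classical in
/-- the family `lam` (junk value `0` outside `𝒰`) -/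
def lam (U : Subgroup G) [U.Normal] (n : ℕ) :
    groupCohomology (M.quotientToInvariants U) n →ₗ[k] Hlc 𝒰 M n :=
  if hU : U ∈ 𝒰.S then lamU 𝒰 M U hU n else 0

theorem lam_eq (U : Subgroup G) [U.Normal] (hU : U ∈ 𝒰.S) (n : ℕ) :
    lam 𝒰 M U n = lamU 𝒰 M U hU n := dif_pos hU

end Lam

end LcLevel

/-- P1-H1 : `Hlc 𝒰 M n = colim_U Hⁿ(G/U, M^U)`. -/
theorem lcLevel : Stmt_lcLevel := by
  intro k G _ _ 𝒰 M n
  refine ⟨fun U _ => LcLevel.lam 𝒰 M U n, ?_, ?_, ?_⟩
  · intro x
    obtain ⟨U, hN, hU, y, hy⟩ := LcLevel.surj 𝒰 M n x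
    refine ⟨U, hN, hU, y, ?_⟩
    show LcLevel.lam 𝒰 M U n y = x
    rw [LcLevel.lam_eq 𝒰 M U hU]
    exact hy
  · intro U V _ _ h hU hV y
    show LcLevel.lam 𝒰 M V n _ = LcLevel.lam 𝒰 M U n y
    rw [LcLevel.lam_eq 𝒰 M U hU, LcLevel.lam_eq 𝒰 M V hV]
    exact LcLevel.compat 𝒰 M U V h hU hV n y
  · intro U _ hU y hy
    have hy' : LcLevel.lam 𝒰 M U n y = 0 := hy
    rw [LcLevel.lam_eq 𝒰 M U hU] at hy'
    exact LcLevel.inj 𝒰 M U hU n y hy'

end Fermat.Agent.CFT.Local

end
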