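/-
TEAM CFT, P1-K4: the local inputs `InLN`, `InLN3` of the positivity route for `qDatum`.
-/
import Fermat.Agent.CFT.Local.Tower2
import Fermat.Agent.CFT.Krasner
import Fermat.Agent.CFT.CycloBridge

set_option autoImplicit false

noncomputable section

namespace Fermat.Agent.CFT.Local

open CategoryTheory CategoryTheory.Limits groupCohomology Fermat.Agent.CFT.Top Module ExtCitation

/-- an element of the local Galois group on which the global cyclotomic character is trivial fixes
the `p`-th roots of unity. -/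
theorem QLN_fix (q p : ℕ) [Fact q.Prime] [Fact p.Prime] (h : Gq q)
    (hχ : cycloChar p (localGaloisToGlobal q h) = 1) (z : PadicAlgCl q) (hz : z ^ p = 1) :
    h z = z := by
  have hp : p ≠ 0 := (Fact.out : p.Prime).ne_zero
  have hg : (Polynomial.X ^ p - 1 : Polynomial ℚ) ≠ 0 :=
    Polynomial.X_pow_sub_C_ne_zero (Nat.pos_of_ne_zero hp) (1 : ℚ)
  obtain ⟨t, rfl⟩ := lk_mem_range_of_aeval_eq_zero q hg (b := z) (by simp [hz])
  have ht : t ^ p = 1 := by
    apply (padicEmbedding q).injective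
    show padicEmbedding q (t ^ p) = padicEmbedding q 1
    rw [map_pow, hz, map_one]
  rw [← padicEmbedding_localGaloisToGlobal, apply_eq_pow_cycloChar p _ ht, hχ]
  have : Fact (1 < p) := ⟨(Fact.out : p.Prime).one_lt⟩
  simp [ZMod.val_one]

theorem qLN (h1 : Stmt_LN12) (h2 : Stmt_LN3full) (h3 : Stmt_shapiroLc) : Stmt_qLN := by
  intro p _ S h v
  have : Fact ((v.1 : Nat.Primes) : ℕ).Prime := ⟨v.1.2⟩
  constructor
  · refine ⟨if ((v.1 : Nat.Primes) : ℕ) = p then 1 else 0, ?_⟩
    intro H hH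
    obtain ⟨hopen, hχ⟩ := hH
    have key := h1 ((v.1 : Nat.Primes) : ℕ) p H hopen
      (fun g hg z hz => QLN_fix _ p g (hχ g hg) z hz)
    obtain ⟨f1, r1, f2, r2⟩ := key
    obtain ⟨e1⟩ := h3 p (Gq ((v.1 : Nat.Primes) : ℕ)) (levq _) H hopen 1
    obtain ⟨e2⟩ := h3 p (Gq ((v.1 : Nat.Primes) : ℕ)) (levq _) H hopen 2
    refine ⟨Module.Finite.equiv e1.symm, ?_, Module.Finite.equiv e2.symm, ?_⟩
    · refine (LinearEquiv.finrank_eq e1).trans (r1.trans ?_)
      split_ifs
      · rw [one_mul]; rfl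
      · rw [zero_mul]
    · exact (LinearEquiv.finrank_eq e2).trans r2
  · have hc := h2 ((v.1 : Nat.Primes) : ℕ) p
    have hfin : Finite (Hlc (levq ((v.1 : Nat.Primes) : ℕ))
        (Rep.res (localGaloisToGlobal ((v.1 : Nat.Primes) : ℕ)) (muRep (ZMod p) (cycloChar p))) 2) :=
      Nat.finite_of_card_ne_zero (by rw [hc]; exact (Fact.out : p.Prime).ne_zero)
    have : 1 < Nat.card (Hlc (levq ((v.1 : Nat.Primes) : ℕ))
        (Rep.res (localGaloisToGlobal ((v.1 : Nat.Primes) : ℕ)) (muRep (ZMod p) (cycloChar p))) 2) := by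
      rw [hc]; exact (Fact.out : p.Prime).one_lt
    exact (@Finite.one_lt_card_iff_nontrivial _ hfin).1 this

end Fermat.Agent.CFT.Local

end
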