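/-
TEAM CFT, sub-project P1, package P1-H4: the base field of a tower of local fields.
-/
import Fermat.Agent.CFT.Local.Tower
import Fermat.Agent.CFT.Local.LayerAct

set_option autoImplicit false

noncomputable section

namespace Fermat.Agent.CFT.Local

open Fermat.Agent.CFT.Top

attribute [local instance] Units.mulDistribMulActionRight
attribute [local instance] quotAct

/-- `IsLoc` is invariant under norm preserving additive bijections. -/
theorem towerBase_isLoc_congr {E F : Type} [NormedField E] [NormedField F] (e : E ≃+ F)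
    (he : ∀ x, ‖e x‖ = ‖x‖) (hE : IsLoc E) : IsLoc F := by
  have he' : ∀ y, ‖e.symm y‖ = ‖y‖ := fun y => by rw [← he, AddEquiv.apply_symm_apply]
  have hiso : Isometry e := AddMonoidHomClass.isometry_of_norm e he
  refine ⟨⟨?_⟩, ?_, ?_, ?_⟩
  · intro x y z
    have := hE.ultra.dist_triangle_max (e.symm x) (e.symm y) (e.symm z)
    simp only [dist_eq_norm, ← map_sub, he'] at this
    simpa only [dist_eq_norm] using this
  · have := hE.complete
    exact (IsometryEquiv.completeSpace_iff (IsometryEquiv.mk e.toEquiv hiso)).1 this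
  · obtain ⟨ϖ, h0, h1, h2⟩ := hE.unif
    refine ⟨e ϖ, ?_, by rwa [he], ?_⟩
    · intro h
      apply h0
      rw [← norm_eq_zero, ← he, h, norm_zero]
    · intro x hx
      have hx' : e.symm x ≠ 0 := by
        intro h
        apply hx
        rw [← norm_eq_zero, ← he', h, norm_zero]
      obtain ⟨k, hk⟩ := h2 _ hx'
      exact ⟨k, by rw [he, ← hk, he']⟩
  · classical
    obtain ⟨R, hR⟩ := hE.resFinite
    refine ⟨R.image e, ?_⟩
    intro x hx
    obtain ⟨r, hr, hxr⟩ := hR (e.symm x) (by rwa [he'])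
    refine ⟨e r, Finset.mem_image_of_mem _ hr, ?_⟩
    have : x - e r = e (e.symm x - r) := by rw [map_sub, AddEquiv.apply_symm_apply]
    rw [this, he]
    exact hxr

/-- P1-H4. -/
theorem towerBase (h : Stmt_fixedLoc) : Stmt_towerBase := by
  intro 𝒢 Ω _ _ _ 𝒰 hT
  refine ⟨?_, ?_, ?_⟩
  · obtain ⟨U, hU⟩ := 𝒰.ne
    have := 𝒰.normal U hU
    have := 𝒰.fin U hU
    have : Finite (𝒢 ⧸ U) := Subgroup.finite_quotient_of_finiteIndex
    have h1 := h (𝒢 ⧸ U) (FixedPoints.subfield U Ω) (hT.layer U hU)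
    exact towerBase_isLoc_congr (layerActEquiv 𝒢 Ω U) (fun _ => rfl) h1
  · intro g x
    obtain ⟨U, hU, hx⟩ := hT.disc x
    have := 𝒰.normal U hU
    have := 𝒰.fin U hU
    have : Finite (𝒢 ⧸ U) := Subgroup.finite_quotient_of_finiteIndex
    exact (hT.layer U hU).isom (g : 𝒢 ⧸ U) ⟨x, fun u => hx u.1 u.2⟩
  · intro U _ _
    exact layerAct_resCard 𝒢 Ω U

end Fermat.Agent.CFT.Local

end
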