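/-
TEAM CFT, sub-project P1 (LOCAL), package P1-H8 : `H¹`, `Br[p]`, divisibility, `H³` for the units
of a tower (`Stmt_towerBr`).
-/
import Fermat.Agent.CFT.Local.Tower

set_option autoImplicit false

noncomputable section

namespace Fermat.Agent.CFT.Local

open CategoryTheory CategoryTheory.Limits groupCohomology Fermat.Agent.CFT.Top Module ExtCitation

attribute [local instance] Units.mulDistribMulActionRight
attribute [local instance] quotAct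

/-! ### directed unions of finite cyclic groups -/

section Abstract

variable {X : Type*} [AddCommGroup X]

/-- a directed family of finite cyclic subgroups covering `X`, with orders cofinal for
divisibility. -/
structure TowerBrCyc (𝒮 : Set (AddSubgroup X)) : Prop where
  cover : ∀ x : X, ∃ S ∈ 𝒮, x ∈ S
  dir : ∀ S ∈ 𝒮, ∀ T ∈ 𝒮, ∃ W ∈ 𝒮, S ≤ W ∧ T ≤ W
  cyc : ∀ S ∈ 𝒮, ∃ γ : X, 0 < addOrderOf γ ∧ S = AddSubgroup.zmultiples γ
  cofinal : ∀ m : ℕ, 0 < m → ∀ S ∈ 𝒮, ∃ T ∈ 𝒮, S ≤ T ∧ m ∣ Nat.card T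

theorem towerBr_divisible {𝒮 : Set (AddSubgroup X)} (h : TowerBrCyc 𝒮) (p : ℕ) (hp : 0 < p)
    (x : X) : ∃ y, p • y = x := by
  obtain ⟨S, hS, hxS⟩ := h.cover x
  obtain ⟨γ₀, hγ₀, rfl⟩ := h.cyc S hS
  obtain ⟨T, hT, hST, hdvd⟩ := h.cofinal (p * addOrderOf γ₀) (Nat.mul_pos hp hγ₀) _ hS
  obtain ⟨γ, hγ, rfl⟩ := h.cyc T hT
  rw [Nat.card_zmultiples] at hdvd
  obtain ⟨a, rfl⟩ := AddSubgroup.mem_zmultiples_iff.1 (hST hxS)
  have h0 : addOrderOf γ₀ • (a • γ) = 0 := by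
    obtain ⟨c, hc⟩ := AddSubgroup.mem_zmultiples_iff.1 hxS
    rw [← hc, smul_comm, addOrderOf_nsmul_eq_zero, smul_zero]
  rw [← natCast_zsmul, smul_smul, ← addOrderOf_dvd_iff_zsmul_eq_zero] at h0
  have h1 : ((p * addOrderOf γ₀ : ℕ) : ℤ) ∣ (addOrderOf γ₀ : ℤ) * a :=
    (Int.natCast_dvd_natCast.2 hdvd).trans h0
  have h2 : (p : ℤ) ∣ a := by
    rw [Nat.cast_mul, mul_comm] at h1
    exact Int.dvd_of_mul_dvd_mul_left (by exact_mod_cast hγ₀.ne') h1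
  obtain ⟨a', rfl⟩ := h2
  exact ⟨a' • γ, by rw [← natCast_zsmul, smul_smul]⟩

theorem towerBr_order (γ : X) (p n' : ℕ) (hn' : 0 < n')
    (hγ : addOrderOf γ = p * n') : addOrderOf (n' • γ) = p := by
  rw [addOrderOf_nsmul_of_dvd hn'.ne' (hγ ▸ Dvd.intro_left p rfl), hγ,
    Nat.mul_div_cancel _ hn']

theorem towerBr_mem (γ : X) (p n' : ℕ) (hp : 0 < p) (hγ : addOrderOf γ = p * n')
    (x : X) (hx : x ∈ AddSubgroup.zmultiples γ) (hpx : p • x = 0) :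
    x ∈ AddSubgroup.zmultiples (n' • γ) := by
  obtain ⟨a, rfl⟩ := AddSubgroup.mem_zmultiples_iff.1 hx
  rw [← natCast_zsmul, smul_smul, ← addOrderOf_dvd_iff_zsmul_eq_zero, hγ, Nat.cast_mul] at hpx
  obtain ⟨a', rfl⟩ := Int.dvd_of_mul_dvd_mul_left (by exact_mod_cast hp.ne') hpx
  refine AddSubgroup.mem_zmultiples_iff.2 ⟨a', ?_⟩
  rw [← natCast_zsmul, smul_smul, mul_comm]

theorem towerBr_torsion {𝒮 : Set (AddSubgroup X)} (h : TowerBrCyc 𝒮) (p : ℕ) (hp : p.Prime) :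
    Nat.card {x : X // p • x = 0} = p := by
  obtain ⟨S₀, hS₀, -⟩ := h.cover 0
  obtain ⟨T₀, hT₀, -, hdvd₀⟩ := h.cofinal p hp.pos S₀ hS₀
  obtain ⟨γ₀, hγ₀, rfl⟩ := h.cyc T₀ hT₀
  have hdvd₀' := hdvd₀
  rw [Nat.card_zmultiples] at hdvd₀'
  obtain ⟨n₀, hn₀⟩ := hdvd₀'
  have hn₀pos : 0 < n₀ := Nat.pos_of_ne_zero (by rintro rfl; omega)
  set ξ := n₀ • γ₀ with hξ
  have hξord : addOrderOf ξ = p := towerBr_order γ₀ p n₀ hn₀pos hn₀
  have hpξ : p • ξ = 0 := hξord ▸ addOrderOf_nsmul_eq_zero ξ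
  have key : ∀ x : X, p • x = 0 ↔ x ∈ AddSubgroup.zmultiples ξ := by
    intro x
    constructor
    · intro hx
      obtain ⟨S, hS, hxS⟩ := h.cover x
      obtain ⟨W, hW, hSW, hTW⟩ := h.dir S hS _ hT₀
      obtain ⟨γ, hγ, rfl⟩ := h.cyc W hW
      have hfin : Finite (AddSubgroup.zmultiples γ) :=
        Nat.finite_of_card_ne_zero (by rw [Nat.card_zmultiples]; exact hγ.ne')
      have hdvd : p ∣ addOrderOf γ := by
        have := AddSubgroup.card_dvd_of_le hTW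
        rw [Nat.card_zmultiples γ] at this
        exact hdvd₀.trans this
      obtain ⟨n', hn'⟩ := hdvd
      have hn'pos : 0 < n' := Nat.pos_of_ne_zero (by rintro rfl; omega)
      have hηord := towerBr_order γ p n' hn'pos hn'
      have h1 := towerBr_mem γ p n' hp.pos hn' x (hSW hxS) hx
      have hξW : ξ ∈ AddSubgroup.zmultiples γ :=
        hTW (AddSubgroup.nsmul_mem _ (AddSubgroup.mem_zmultiples γ₀) n₀)
      have h2 := towerBr_mem γ p n' hp.pos hn' ξ hξW hpξ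
      have hle : AddSubgroup.zmultiples ξ ≤ AddSubgroup.zmultiples (n' • γ) :=
        AddSubgroup.zmultiples_le_of_mem h2
      have hfin' : Finite (AddSubgroup.zmultiples (n' • γ)) :=
        Nat.finite_of_card_ne_zero (by rw [Nat.card_zmultiples, hηord]; exact hp.pos.ne')
      have heq := AddSubgroup.eq_of_le_of_card_ge hle
        (by rw [Nat.card_zmultiples, Nat.card_zmultiples, hηord, hξord])
      rw [heq]; exact h1
    · intro hx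
      obtain ⟨c, rfl⟩ := AddSubgroup.mem_zmultiples_iff.1 hx
      rw [smul_comm, hpξ, smul_zero]
  rw [Nat.card_congr (Equiv.subtypeEquivRight key)]
  exact (Nat.card_zmultiples ξ).trans hξord

end Abstract

/-- **P1-H8** -/
theorem towerBr (h1 : Stmt_lcLevel) (h2 : Stmt_towerLayer) (h3 : Stmt_towerInfInj)
    (h4 : Stmt_towerIndex) : Stmt_towerBr := by
  intro 𝒢 Ω _ _ _ 𝒰 hT
  have hsub : ∀ n : ℕ, (∀ (U : Subgroup 𝒢) [U.Normal], U ∈ 𝒰.S →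
      IsZero (groupCohomology ((unitsRep 𝒢 Ω).quotientToInvariants U) n)) →
      Subsingleton (Hlc 𝒰 (unitsRep 𝒢 Ω) n) := by
    intro n hz
    obtain ⟨lam, ha, -, -⟩ := h1 ℤ 𝒢 𝒰 (unitsRep 𝒢 Ω) n
    have h0 : ∀ x : Hlc 𝒰 (unitsRep 𝒢 Ω) n, x = 0 := by
      intro x
      obtain ⟨U, hUn, hU, y, rfl⟩ := ha x
      have : Subsingleton (groupCohomology ((unitsRep 𝒢 Ω).quotientToInvariants U) n) :=
        ModuleCat.subsingleton_of_isZero (hz U hU)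
      rw [Subsingleton.elim y 0, map_zero]
    exact ⟨fun x y => (h0 x).trans (h0 y).symm⟩
  refine ⟨hsub 1 fun U _ hU => (h2 𝒢 Ω 𝒰 hT U hU).1, hsub 3 fun U _ hU => (h2 𝒢 Ω 𝒰 hT U hU).2.2.2,
    ?_⟩
  obtain ⟨lam, ha, hb, hc⟩ := h1 ℤ 𝒢 𝒰 (unitsRep 𝒢 Ω) 2
  have hinj : ∀ (U : Subgroup 𝒢) [U.Normal], U ∈ 𝒰.S → Function.Injective (lam U) := by
    intro U _ hU
    rw [injective_iff_map_eq_zero]
    intro y hy
    obtain ⟨V, hVn, hVU, hV, hy'⟩ := hc U hU y hy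
    exact (injective_iff_map_eq_zero _).1 (h3 𝒢 Ω 𝒰 hT U V hVU hU hV) y hy'
  let 𝒮 : Set (AddSubgroup (Hlc 𝒰 (unitsRep 𝒢 Ω) 2)) :=
    {S | ∃ (U : Subgroup 𝒢) (_ : U.Normal) (_ : U ∈ 𝒰.S), S = (lam U).toAddMonoidHom.range}
  have hcard : ∀ (U : Subgroup 𝒢) [U.Normal], U ∈ 𝒰.S →
      Nat.card (lam U).toAddMonoidHom.range = U.index := by
    intro U _ hU
    rw [← (h2 𝒢 Ω 𝒰 hT U hU).2.1]
    exact (Nat.card_congr (AddMonoidHom.ofInjective (f := (lam U).toAddMonoidHom)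
      (hinj U hU)).toEquiv).symm
  have hmono : ∀ (U V : Subgroup 𝒢) [U.Normal] [V.Normal], V ≤ U → U ∈ 𝒰.S → V ∈ 𝒰.S →
      (lam U).toAddMonoidHom.range ≤ (lam V).toAddMonoidHom.range := by
    rintro U V _ _ hVU hU hV _ ⟨y, rfl⟩
    exact ⟨_, hb U V hVU hU hV y⟩
  have hcyc : TowerBrCyc 𝒮 := by
    refine ⟨?_, ?_, ?_, ?_⟩
    · intro x
      obtain ⟨U, hUn, hU, y, rfl⟩ := ha x
      exact ⟨_, ⟨U, hUn, hU, rfl⟩, ⟨y, rfl⟩⟩
    · rintro _ ⟨U, hUn, hU, rfl⟩ _ ⟨V, hVn, hV, rfl⟩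
      obtain ⟨W, hW, hWU, hWV⟩ := 𝒰.dir U hU V hV
      have hWn := 𝒰.normal W hW
      exact ⟨_, ⟨W, hWn, hW, rfl⟩, hmono U W hWU hU hW, hmono V W hWV hV hW⟩
    · rintro _ ⟨U, hUn, hU, rfl⟩
      obtain ⟨γ, hγ⟩ := (h2 𝒢 Ω 𝒰 hT U hU).2.2.1
      have heq : (lam U).toAddMonoidHom.range = AddSubgroup.zmultiples (lam U γ) := by
        apply le_antisymm
        · rintro _ ⟨y, rfl⟩
          obtain ⟨m, rfl⟩ := hγ y
          exact AddSubgroup.mem_zmultiples_iff.2 ⟨m, (map_zsmul (lam U).toAddMonoidHom m γ).symm⟩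
        · exact AddSubgroup.zmultiples_le_of_mem ⟨γ, rfl⟩
      refine ⟨lam U γ, ?_, heq⟩
      have := hcard U hU
      rw [heq, Nat.card_zmultiples] at this
      rw [this]
      have := 𝒰.fin U hU
      exact Nat.pos_of_ne_zero U.index_ne_zero_of_finite
    · rintro m hm _ ⟨U, hUn, hU, rfl⟩
      obtain ⟨V, hV, hVU, hdvd⟩ := h4 𝒢 Ω 𝒰 hT m hm U hU
      have hVn := 𝒰.normal V hV
      exact ⟨_, ⟨V, hVn, hV, rfl⟩, hmono U V hVU hU hV, by rw [hcard V hV]; exact hdvd⟩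
  intro p hp
  exact ⟨towerBr_torsion hcyc p hp, towerBr_divisible hcyc p hp.pos⟩

end Fermat.Agent.CFT.Local

end
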