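/-
TEAM CFT, sub-project P1 (LOCAL), P1-H11 : `|k_E| ^ v_E(ϖ₀) = |k_{E₀}| ^ [E : E₀]` in a tower.
-/
import Fermat.Agent.CFT.Local.Tower
import Fermat.Agent.CFT.Local.LayerAct

set_option autoImplicit false

noncomputable section

namespace Fermat.Agent.CFT.Local

open CategoryTheory CategoryTheory.Limits groupCohomology Fermat.Agent.CFT.Top Module ExtCitation

attribute [local instance] Units.mulDistribMulActionRight
attribute [local instance] quotAct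

lemma towerCard_exists_nat {r s : ℝ} (hr0 : 0 < r) (hr1 : r < 1) (hs : s < 1) {k : ℤ}
    (h : s = r ^ k) : ∃ e : ℕ, s = r ^ e := by
  rw [h, zpow_lt_one_iff_right_of_lt_one₀ hr0 hr1] at hs
  lift k to ℕ using hs.le
  exact ⟨k, by rw [h, zpow_natCast]⟩

section

variable {𝒢 Ω : Type} [Group 𝒢] [NormedField Ω] [MulSemiringAction 𝒢 Ω]
  (U : Subgroup 𝒢) [U.Normal] (H : Subgroup 𝒢)

/-- the additive, norm preserving identification `(Ω^U)^(H/U) = Ω^H`. -/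
def towerCardEquiv (hUH : U ≤ H) :
    FixedPoints.subfield (H.map (QuotientGroup.mk' U)) (FixedPoints.subfield U Ω) ≃+
      FixedPoints.subfield H Ω where
  toFun x := ⟨((x : FixedPoints.subfield U Ω) : Ω), fun h =>
    congrArg (fun y : FixedPoints.subfield U Ω => (y : Ω))
      (x.2 ⟨QuotientGroup.mk' U h.1, Subgroup.mem_map_of_mem _ h.2⟩)⟩
  invFun x := ⟨⟨(x : Ω), fun u => x.2 ⟨u.1, hUH u.2⟩⟩, by
    rintro ⟨_, h, hh, rfl⟩
    exact Subtype.ext (x.2 ⟨h, hh⟩)⟩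
  left_inv _ := rfl
  right_inv _ := rfl
  map_add' _ _ := rfl

lemma towerCard_resCard (hUH : U ≤ H) :
    resCard (FixedPoints.subfield (H.map (QuotientGroup.mk' U)) (FixedPoints.subfield U Ω)) =
      resCard (FixedPoints.subfield H Ω) :=
  layerAct_resCard_congr (towerCardEquiv U H hUH) (fun _ => rfl)

end

/-- P1-H11 -/
theorem towerCard (h1 : Stmt_card) (_h2 : Stmt_fixedLoc) : Stmt_towerCard := by
  intro 𝒢 Ω _ _ _ 𝒰 T H hH ϖ₀ ϖ j hϖ₀ hϖ hj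
  obtain ⟨U, hU, hUH⟩ := hH
  have := 𝒰.normal U hU
  have := 𝒰.fin U hU
  have : Finite (𝒢 ⧸ U) := Subgroup.finite_quotient_of_finiteIndex
  have hA : LocAct (𝒢 ⧸ U) (FixedPoints.subfield U Ω) := T.layer U hU
  obtain ⟨ϖL, hϖL⟩ := hA.loc.unif
  set Hb : Subgroup (𝒢 ⧸ U) := H.map (QuotientGroup.mk' U) with hHb
  have hr0 : 0 < ‖ϖL‖ := norm_pos_iff.2 hϖL.1
  have hr1 : ‖ϖL‖ < 1 := hϖL.2.1
  -- the two uniformizers as elements of `L`
  let a₀ : FixedPoints.subfield U Ω := ⟨ϖ₀, fun u => hϖ₀.2.2.1 u.1 trivial⟩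
  let a : FixedPoints.subfield U Ω := ⟨ϖ, fun u => hϖ.2.2.1 u.1 (hUH u.2)⟩
  have ha₀0 : a₀ ≠ 0 := fun h => hϖ₀.1 (congrArg Subtype.val h)
  have ha0 : a ≠ 0 := fun h => hϖ.1 (congrArg Subtype.val h)
  obtain ⟨k₀, hk₀⟩ := hϖL.2.2 a₀ ha₀0
  obtain ⟨k, hk⟩ := hϖL.2.2 a ha0
  obtain ⟨e₀, he₀⟩ := towerCard_exists_nat hr0 hr1 (show ‖a₀‖ < 1 from hϖ₀.2.1) hk₀
  obtain ⟨e₁, he₁⟩ := towerCard_exists_nat hr0 hr1 (show ‖a‖ < 1 from hϖ.2.1) hk
  have hee : e₀ = e₁ * j := by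
    apply pow_right_injective₀ hr0 hr1.ne
    show ‖ϖL‖ ^ e₀ = ‖ϖL‖ ^ (e₁ * j)
    rw [pow_mul, ← he₀, ← he₁]
    exact hj
  -- the two instances of the cardinality formula
  have hu₀ : IsUnifFix (⊤ : Subgroup (𝒢 ⧸ U)) a₀ := by
    refine ⟨ha₀0, hϖ₀.2.1, fun q _ => ?_, fun x hx hfix => ?_⟩
    · induction q using QuotientGroup.induction_on with
      | H g => exact Subtype.ext (hϖ₀.2.2.1 g trivial)
    · refine hϖ₀.2.2.2 (x : Ω) (fun h => hx (Subtype.ext h)) fun g _ => ?_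
      exact congrArg (fun y : FixedPoints.subfield U Ω => (y : Ω)) (hfix (g : 𝒢 ⧸ U) trivial)
  have hu₁ : IsUnifFix (⊤ : Subgroup Hb) a := by
    refine ⟨ha0, hϖ.2.1, fun q _ => ?_, fun x hx hfix => ?_⟩
    · obtain ⟨_, h, hh, rfl⟩ := q
      exact Subtype.ext (hϖ.2.2.1 h hh)
    · refine hϖ.2.2.2 (x : Ω) (fun h => hx (Subtype.ext h)) fun g hg => ?_
      exact congrArg (fun y : FixedPoints.subfield U Ω => (y : Ω))
        (hfix ⟨QuotientGroup.mk' U g, Subgroup.mem_map_of_mem _ hg⟩ trivial)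
  have hc₀ := h1 (𝒢 ⧸ U) (FixedPoints.subfield U Ω) hA a₀ ϖL e₀ hu₀ hϖL he₀
  have hc₁ := h1 Hb (FixedPoints.subfield U Ω) (hA.subgroup Hb) a ϖL e₁ hu₁ hϖL he₁
  rw [layerAct_resCard] at hc₀
  rw [towerCard_resCard U H hUH] at hc₁
  -- group theory
  have hidx : Hb.index = H.index :=
    Subgroup.index_map_eq H (QuotientGroup.mk'_surjective U)
      (by rw [QuotientGroup.ker_mk']; exact hUH)
  have hcard : Nat.card Hb * H.index = Nat.card (𝒢 ⧸ U) := by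
    rw [← hidx]; exact Hb.card_mul_index
  have hne : Nat.card Hb ≠ 0 := Nat.card_pos.ne'
  have key : (resCard (FixedPoints.subfield H Ω) ^ j) ^ Nat.card Hb =
      (resCard (FixedPoints.subfield 𝒢 Ω) ^ H.index) ^ Nat.card Hb := by
    rw [← pow_mul, ← pow_mul, mul_comm j, pow_mul, ← hc₁, ← pow_mul, ← hee, hc₀, ← hcard,
      mul_comm H.index]
  exact Nat.pow_left_injective hne key

end Fermat.Agent.CFT.Local

end
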