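import Fermat.Agent.CFT.Local.Tower

/-!
# P1-H10 : the number of elements of `E^× / p` for the base field of a tower
-/

namespace Fermat.Agent.CFT.Local

open Fermat.Agent.CFT.Top

attribute [local instance] Units.mulDistribMulActionRight
attribute [local instance] quotAct

noncomputable section

section

variable (G L : Type) [Group G] [Field L] [MulSemiringAction G L]

/-- the inclusion of the units of the fixed field -/
def towerH1card_ι : (FixedPoints.subfield G L)ˣ →* Lˣ :=
  Units.map ((FixedPoints.subfield G L).subtype : FixedPoints.subfield G L →* L)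

theorem towerH1card_ι_inj : Function.Injective (towerH1card_ι G L) := by
  intro x y h
  apply Units.ext
  apply Subtype.ext
  exact congrArg Units.val h

theorem towerH1card_mem_fixedU {z : Lˣ} : z ∈ fixedU G L ↔ ∀ g : G, g • (z : L) = z := by
  constructor
  · intro h g
    have := congrArg Units.val (h g)
    simpa using this
  · intro h g
    apply Units.ext
    simpa using h g

theorem towerH1card_range : (towerH1card_ι G L).range = fixedU G L := by
  ext z
  constructor
  · rintro ⟨x, rfl⟩
    rw [towerH1card_mem_fixedU]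
    intro g
    exact (x : FixedPoints.subfield G L).2 g
  · intro hz
    have h1 := (towerH1card_mem_fixedU G L).1 hz
    have h2 := (towerH1card_mem_fixedU G L).1 ((fixedU G L).inv_mem hz)
    refine ⟨⟨⟨z, h1⟩, ⟨(z⁻¹ : Lˣ), h2⟩, ?_, ?_⟩, ?_⟩
    · apply Subtype.ext
      simp
    · apply Subtype.ext
      simp
    · apply Units.ext
      rfl

theorem towerH1card_relIndex (p : ℕ) :
    ((fixedU G L).map (powMonoidHom p)).relIndex (fixedU G L) =
      (powMonoidHom p : (FixedPoints.subfield G L)ˣ →* (FixedPoints.subfield G L)ˣ).range.index := by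
  have h1 : fixedU G L = (⊤ : Subgroup (FixedPoints.subfield G L)ˣ).map (towerH1card_ι G L) := by
    rw [← MonoidHom.range_eq_map, towerH1card_range]
  have h2 : (fixedU G L).map (powMonoidHom p) =
      ((powMonoidHom p : (FixedPoints.subfield G L)ˣ →* (FixedPoints.subfield G L)ˣ).range).map
        (towerH1card_ι G L) := by
    rw [h1, MonoidHom.range_eq_map, Subgroup.map_map, Subgroup.map_map]
    congr 1
  rw [h2]
  conv_lhs => rw [h1]
  rw [Subgroup.relIndex_map_map_of_injective _ _ (towerH1card_ι_inj G L),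
    Subgroup.relIndex_top_right]

/-- the `p`-torsion -/
def towerH1card_kerEquiv (p : ℕ) :
    (powMonoidHom p : (FixedPoints.subfield G L)ˣ →* (FixedPoints.subfield G L)ˣ).ker ≃
      {z : Lˣ // z ^ p = 1 ∧ z ∈ fixedU G L} :=
  Equiv.ofBijective
    (fun x => ⟨towerH1card_ι G L x.1, by
      have hx : (x.1 : (FixedPoints.subfield G L)ˣ) ^ p = 1 := x.2
      rw [← map_pow, hx, map_one], by
      rw [← towerH1card_range]; exact ⟨_, rfl⟩⟩)
    (by
      constructor
      · intro x y h
        apply Subtype.ext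
        apply towerH1card_ι_inj G L
        exact congrArg Subtype.val h
      · rintro ⟨z, hz1, hz2⟩
        rw [← towerH1card_range] at hz2
        obtain ⟨x, rfl⟩ := hz2
        refine ⟨⟨x, ?_⟩, rfl⟩
        apply towerH1card_ι_inj G L
        change towerH1card_ι G L (x ^ p) = towerH1card_ι G L 1
        rw [map_pow, hz1, map_one])

end

theorem towerH1card (h1 : Stmt_powIndex) (h2 : Stmt_towerBase) : Stmt_towerH1card := by
  intro 𝒢 Ω _ _ _ 𝒰 hT p hp ϖ j hϖ hnorm
  have hloc : IsLoc (FixedPoints.subfield 𝒢 Ω) := (h2 𝒢 Ω 𝒰 hT).1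
  obtain ⟨h0, hlt, hfix, hval⟩ := hϖ
  have hmem : ϖ ∈ FixedPoints.subfield 𝒢 Ω := fun g => hfix g (Subgroup.mem_top g)
  have hunif : IsUnif (⟨ϖ, hmem⟩ : FixedPoints.subfield 𝒢 Ω) := by
    refine ⟨fun h => h0 (congrArg Subtype.val h), hlt, ?_⟩
    intro x hx
    exact hval x (fun h => hx (Subtype.ext h)) (fun g _ => x.2 g)
  have hn : ‖((p : ℕ) : FixedPoints.subfield 𝒢 Ω)‖ =
      ‖(⟨ϖ, hmem⟩ : FixedPoints.subfield 𝒢 Ω)‖ ^ j := by
    change ‖(((p : ℕ) : FixedPoints.subfield 𝒢 Ω) : Ω)‖ = ‖ϖ‖ ^ j
    rw [← hnorm]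
    congr 1
  have key := (h1 (FixedPoints.subfield 𝒢 Ω) hloc p hp ⟨ϖ, hmem⟩ j hunif hn).1
  rw [towerH1card_relIndex, key, Nat.card_congr (towerH1card_kerEquiv 𝒢 Ω p)]

end

end Fermat.Agent.CFT.Local
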