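/-
TEAM CFT, sub-project P1 (local CFT, profinite level).  Package P1-H7 : levels of index divisible
by a given integer.
-/
import Fermat.Agent.CFT.Local.Tower

set_option autoImplicit false

noncomputable section

namespace Fermat.Agent.CFT.Local

open Fermat.Agent.CFT.Top

attribute [local instance] Units.mulDistribMulActionRight
attribute [local instance] quotAct

/-- the stabiliser of a primitive root of unity is a normal subgroup. -/
lemma towerIndex_normal {G L : Type} [Group G] [Field L] [MulSemiringAction G L] {ζ : L} {t : ℕ}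
    (ht : t ≠ 0) (hζ : IsPrimitiveRoot ζ t) : (MulAction.stabilizer G ζ).Normal := by
  have : NeZero t := ⟨ht⟩
  refine ⟨fun n hn g => ?_⟩
  rw [MulAction.mem_stabilizer_iff] at hn ⊢
  have h1 : (g⁻¹ • ζ) ^ t = 1 := by rw [← smul_pow', hζ.pow_eq_one, smul_one]
  obtain ⟨a, -, ha⟩ := hζ.eq_pow_of_pow_eq_one h1
  rw [mul_smul, mul_smul, ← ha, smul_pow', hn, ha, smul_inv_smul]

theorem towerIndex (h1 : Stmt_unram) (h2 : Stmt_towerBase) (h3 : Stmt_reps) : Stmt_towerIndex := by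
  intro 𝒢 Ω _ _ _ 𝒰 hT m hm U hU
  obtain ⟨hloc, -, hres⟩ := h2 𝒢 Ω 𝒰 hT
  obtain ⟨-, -, -, hq1, hq2⟩ := h3 _ hloc
  set q : ℕ := resCard (FixedPoints.subfield 𝒢 Ω) with hq
  have hqΩ : ‖(q : Ω)‖ < 1 := by
    have : ((q : FixedPoints.subfield 𝒢 Ω) : Ω) = (q : Ω) := by simp
    rw [← this]
    exact hq1
  have hqm : 2 ≤ q ^ m := by
    calc 2 ≤ q := hq2
      _ = q ^ 1 := (pow_one q).symm
      _ ≤ q ^ m := Nat.pow_le_pow_right (by omega) hm
  have ht0 : q ^ m - 1 ≠ 0 := by omega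
  have htΩ : ((q ^ m - 1 : ℕ) : Ω) ≠ 0 := by
    rw [Nat.cast_sub (by omega), Nat.cast_pow, Nat.cast_one]
    intro h
    have h5 : (q : Ω) ^ m = 1 := sub_eq_zero.1 h
    have h6 : ‖(q : Ω)‖ ^ m = 1 := by rw [← norm_pow, h5, norm_one]
    have h7 : ‖(q : Ω)‖ ^ m < 1 := pow_lt_one₀ (norm_nonneg _) hqΩ hm.ne'
    linarith
  have := hT.closed
  have : NeZero ((q ^ m - 1 : ℕ) : Ω) := ⟨htΩ⟩
  obtain ⟨ζ, hζ⟩ := HasEnoughRootsOfUnity.exists_primitiveRoot Ω (q ^ m - 1)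
  obtain ⟨V0, hV0, hfix⟩ := hT.disc ζ
  obtain ⟨V, hV, hVV0, hVU⟩ := 𝒰.dir V0 hV0 U hU
  refine ⟨V, hV, hVU, ?_⟩
  have := 𝒰.normal V hV
  have := 𝒰.fin V hV
  have : Finite (𝒢 ⧸ V) := Subgroup.finite_quotient_of_finiteIndex
  have hact := hT.layer V hV
  let ζ' : FixedPoints.subfield V Ω := ⟨ζ, fun v => hfix v (hVV0 v.2)⟩
  have hζ' : IsPrimitiveRoot ζ' (q ^ m - 1) :=
    IsPrimitiveRoot.of_map_of_injective (f := (FixedPoints.subfield V Ω).subtype) hζ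
      Subtype.val_injective
  have := towerIndex_normal (G := 𝒢 ⧸ V) ht0 hζ'
  have hζ'' : IsPrimitiveRoot ζ'
      (resCard (FixedPoints.subfield (𝒢 ⧸ V) (FixedPoints.subfield V Ω)) ^ m - 1) := by
    rw [hres V hV]
    exact hζ'
  obtain ⟨hcard, -⟩ := h1 (𝒢 ⧸ V) (FixedPoints.subfield V Ω) hact m ζ' hm hζ''
    (MulAction.stabilizer (𝒢 ⧸ V) ζ') (fun g => MulAction.mem_stabilizer_iff)
  rw [Subgroup.index_eq_card V, ← hcard, ← Subgroup.index_eq_card]
  exact Subgroup.index_dvd_card _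

end Fermat.Agent.CFT.Local

end

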