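/-
TEAM CFT, sub-project P1 (LOCAL), package P1-H6: inflation between the layers of a tower of local
fields is injective on `H²`.
-/
import Fermat.Agent.CFT.Local.Tower

set_option autoImplicit false

noncomputable section

namespace Fermat.Agent.CFT.Local

open CategoryTheory CategoryTheory.Limits groupCohomology Fermat.Agent.CFT.Top

attribute [local instance] Units.mulDistribMulActionRight
attribute [local instance] quotAct

theorem towerInfInj (h1 : Stmt_infResGen) (h2 : Stmt_h90) (h3 : Stmt_layerIso) :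
    Stmt_towerInfInj := by
  intro 𝒢 Ω _ _ _ 𝒰 hT U V _ _ h hU hV
  have hfi : V.FiniteIndex := 𝒰.fin V hV
  have hfinV : Finite (𝒢 ⧸ V) := inferInstance
  refine (h1 (𝒢 ⧸ U) (𝒢 ⧸ V) (levProj U V h) ((unitsRep 𝒢 Ω).quotientToInvariants U)
    ((unitsRep 𝒢 Ω).quotientToInvariants V) (levIncl (unitsRep 𝒢 Ω) U V h) ?_ ?_ ?_ 1 ?_).1
  · intro x
    induction x using QuotientGroup.induction_on with
    | H g => exact ⟨(g : 𝒢 ⧸ V), rfl⟩
  · intro x y hxy
    exact Subtype.ext (congrArg (fun z => z.1) hxy)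
  · intro a' ha'
    refine ⟨⟨a'.1, fun u => ?_⟩, Subtype.ext rfl⟩
    have hu : ((u : 𝒢) : 𝒢 ⧸ V) ∈ (levProj U V h).ker := by
      rw [MonoidHom.mem_ker]
      exact (QuotientGroup.eq_one_iff _).2 u.2
    exact congrArg (fun z => z.1) (ha' _ hu)
  · intro i hi0 hi2
    obtain rfl : i = 1 := by omega
    obtain ⟨e, -⟩ := h3 𝒢 Ω V
    have hla : LocAct (levProj U V h).ker (FixedPoints.subfield V Ω) :=
      (hT.layer V hV).subgroup _
    have hfa : FaithfulSMul (levProj U V h).ker (FixedPoints.subfield V Ω) := hla.faithful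
    have hz := (h2 (levProj U V h).ker (FixedPoints.subfield V Ω)).1
    exact hz.of_iso ((functor ℤ _ 1).mapIso
      ((Rep.resFunctor (levProj U V h).ker.subtype).mapIso e))

end Fermat.Agent.CFT.Local
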