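/-
TEAM CFT, sub-project P1 (LOCAL, profinite level), package P1-H9: the Kummer sequence
`0 → μ_p → Ωˣ → Ωˣ → 0` and the cohomology of `μ_p` in a tower of local fields.
-/
import Fermat.Agent.CFT.Local.Tower

set_option autoImplicit false

noncomputable section

namespace Fermat.Agent.CFT.Local

open CategoryTheory CategoryTheory.Limits groupCohomology Fermat.Agent.CFT.Top Module

attribute [local instance] Units.mulDistribMulActionRight
attribute [local instance] quotAct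

section Generic

variable {k G : Type} [CommRing k] [Group G]

/-- multiplication by `p` on a module. -/
def towerKummerMul (M : Rep.{0} k G) (p : ℕ) : M →ₗ[k] M := (p : k) • LinearMap.id

lemma towerKummerMul_apply (M : Rep.{0} k G) (p : ℕ) (m : M) : towerKummerMul M p m = p • m := by
  simp [towerKummerMul, Nat.cast_smul_eq_nsmul]

lemma towerKummerMul_comm (M : Rep.{0} k G) (p : ℕ) (g : G) (m : M) :
    towerKummerMul M p (M.ρ g m) = M.ρ g (towerKummerMul M p m) := by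
  rw [towerKummerMul_apply, towerKummerMul_apply, map_nsmul]

/-- multiplication by `p` on the level constant complex. -/
def towerKummerQ (𝒰 : LevelSys G) (M : Rep.{0} k G) (p : ℕ) : Cpx.Hom (lcCpx 𝒰 M) (lcCpx 𝒰 M) :=
  lcLin 𝒰 (towerKummerMul M p) (towerKummerMul_comm M p)

/-- multiplication by `p` on the coefficients induces multiplication by `p` on cohomology. -/
lemma towerKummer_mapH (𝒰 : LevelSys G) (M : Rep.{0} k G) (p : ℕ) (n : ℕ) (x : Hlc 𝒰 M n) :
    (towerKummerQ 𝒰 M p).mapH n x = p • x := by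
  obtain ⟨z, rfl⟩ := (lcCpx 𝒰 M).cls_surjective n x
  rw [Cpx.Hom.mapH_cls, ← map_nsmul]
  congr 1
  apply Subtype.ext
  apply Subtype.ext
  funext g
  exact towerKummerMul_apply M p _

/-- the underlying `ℤ`-representation of a representation. -/
def towerKummerInt (N : Rep.{0} k G) : Rep.{0} ℤ G :=
  Rep.of (X := N)
    { toFun := fun g => (N.ρ g).toAddMonoidHom.toIntLinearMap
      map_one' := by ext; simp
      map_mul' := fun g h => by ext; simp }

end Generic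

/-- abstract consequence of the long exact sequence of `0 → A → B → B → 0` (multiplication by
`p`). -/
lemma towerKummer_abstract {A B : Cpx ℤ} (i : Cpx.Hom A B) (q : Cpx.Hom B B) (p : ℕ)
    (hq : ∀ n x, q.mapH n x = p • x)
    (hB : ∀ (n : ℕ) (x : B.H n), q.mapH n x = 0 ↔ ∃ y, i.mapH n y = x)
    (hC : ∀ (n : ℕ) (x : B.H n), Cpx.delta i q n x = 0 ↔ ∃ y, q.mapH n y = x)
    (hA : ∀ (n : ℕ) (x : A.H (n + 1)), i.mapH (n + 1) x = 0 ↔ ∃ y, Cpx.delta i q n y = x)
    (h1 : Subsingleton (B.H 1)) (h3 : Subsingleton (B.H 3))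
    (hdiv : ∀ x : B.H 2, ∃ y, p • y = x) :
    Function.Surjective (Cpx.delta i q 0) ∧
    (∀ x : B.H 0, Cpx.delta i q 0 x = 0 ↔ ∃ y, p • y = x) ∧
    Nat.card (A.H 2) = Nat.card {x : B.H 2 // p • x = 0} ∧ Subsingleton (A.H 3) := by
  refine ⟨fun x => (hA 0 x).1 (Subsingleton.elim _ _), fun x => ?_, ?_, ⟨fun x y => ?_⟩⟩
  · rw [hC]
    simp only [hq]
  · have hinj : Function.Injective (i.mapH 2) := by
      rw [injective_iff_map_eq_zero]
      intro x hx
      obtain ⟨y, rfl⟩ := (hA 1 x).1 hx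
      rw [Subsingleton.elim y 0, map_zero]
    refine Nat.card_congr (Equiv.ofBijective
      (fun x => (⟨i.mapH 2 x, by rw [← hq]; exact (hB 2 _).2 ⟨x, rfl⟩⟩ :
        {x : B.H 2 // p • x = 0})) ⟨fun x y hxy => hinj (congrArg Subtype.val hxy), ?_⟩)
    rintro ⟨x, hx⟩
    rw [← hq] at hx
    obtain ⟨y, rfl⟩ := (hB 2 x).1 hx
    exact ⟨y, rfl⟩
  · have key : ∀ x : A.H 3, x = 0 := by
      intro x
      obtain ⟨y, rfl⟩ := (hA 2 x).1 (Subsingleton.elim _ _)
      obtain ⟨y', rfl⟩ := hdiv y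
      exact (hC 2 _).2 ⟨y', hq 2 y'⟩
    rw [key x, key y]

/-- counting the cokernel of multiplication by `p` on `H⁰`. -/
lemma towerKummer_card_H1 {𝒢 Ω X H : Type} [Group 𝒢] [Field Ω] [MulSemiringAction 𝒢 Ω]
    [AddCommGroup X] [AddCommGroup H] (p : ℕ) (ev : H →+ Additive Ωˣ) (δ : H →+ X)
    (ev_inj : Function.Injective ev)
    (ev_range : ∀ m : Additive Ωˣ, (∃ x, ev x = m) ↔ ∀ g : 𝒢, Additive.ofMul (g • m.toMul) = m)
    (hδs : Function.Surjective δ) (hδk : ∀ x : H, δ x = 0 ↔ ∃ y, p • y = x) :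
    Nat.card X = ((fixedU 𝒢 Ω).map (powMonoidHom p)).relIndex (fixedU 𝒢 Ω) := by
  have hmem : ∀ x : H, (ev x).toMul ∈ fixedU 𝒢 Ω := fun x g =>
    Additive.ofMul.injective ((ev_range (ev x)).1 ⟨x, rfl⟩ g)
  have hsurj : ∀ z : fixedU 𝒢 Ω, ∃ x : H, ev x = Additive.ofMul (z : Ωˣ) := fun z =>
    (ev_range _).2 fun g => congrArg Additive.ofMul (z.2 g)
  choose s hs using hsurj
  let φ : fixedU 𝒢 Ω →* Multiplicative X :=
    { toFun := fun z => Multiplicative.ofAdd (δ (s z))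
      map_one' := by
        have : s 1 = 0 := ev_inj (by rw [hs, map_zero]; rfl)
        rw [this, map_zero]; rfl
      map_mul' := fun a b => by
        have : s (a * b) = s a + s b := ev_inj (by rw [hs, map_add, hs, hs]; rfl)
        rw [this, map_add]; rfl }
  have hφs : Function.Surjective φ := by
    intro x
    obtain ⟨y, hy⟩ := hδs x.toAdd
    refine ⟨⟨(ev y).toMul, hmem y⟩, ?_⟩
    have : s ⟨(ev y).toMul, hmem y⟩ = y := ev_inj (by rw [hs]; rfl)
    show Multiplicative.ofAdd (δ (s ⟨(ev y).toMul, hmem y⟩)) = x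
    rw [this, hy]; rfl
  have hker : ((fixedU 𝒢 Ω).map (powMonoidHom p)).subgroupOf (fixedU 𝒢 Ω) = φ.ker := by
    ext z
    rw [Subgroup.mem_subgroupOf, MonoidHom.mem_ker, Subgroup.mem_map]
    have h0 : φ z = 1 ↔ δ (s z) = 0 := Iff.rfl
    rw [h0, hδk]
    constructor
    · rintro ⟨w, hw, hwz⟩
      refine ⟨s ⟨w, hw⟩, ev_inj ?_⟩
      rw [map_nsmul, hs, hs, ← hwz]
      rfl
    · rintro ⟨y, hy⟩
      refine ⟨(ev y).toMul, hmem y, ?_⟩
      have := congrArg ev hy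
      rw [map_nsmul, hs] at this
      exact Additive.ofMul.injective this
  rw [Subgroup.relIndex, hker, Subgroup.index_ker, MonoidHom.range_eq_top.2 hφs, Subgroup.card_top]
  rfl

/-- **P1-H9**: Kummer theory in a tower of local fields. -/
theorem towerKummer (h1 : Stmt_towerBr) (h2 : Stmt_lcAddEquiv) (h3 : Stmt_lcH0)
    (h4 : Top.Stmt_les) : Stmt_towerKummer := by
  intro 𝒢 Ω _ _ _ 𝒰 hT p _ hp N e he_inj he_eq he_surj
  have hpp : p.Prime := Fact.out
  obtain ⟨hB1, hB3, hBr⟩ := h1 𝒢 Ω 𝒰 hT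
  obtain ⟨hcard, hdiv⟩ := hBr p hpp
  let i : towerKummerInt N →ₗ[ℤ] unitsRep 𝒢 Ω := e.toIntLinearMap
  have hi : ∀ (g : 𝒢) (m : towerKummerInt N),
      i ((towerKummerInt N).ρ g m) = (unitsRep 𝒢 Ω).ρ g (i m) := fun g m => he_eq g m
  have hsurj : Function.Surjective (towerKummerMul (unitsRep 𝒢 Ω) p) := by
    intro x
    have := hT.closed
    obtain ⟨z, hz⟩ := IsAlgClosed.exists_pow_nat_eq ((Additive.toMul x : Ωˣ) : Ω) hpp.pos
    have hz0 : z ≠ 0 := by
      rintro rfl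
      rw [zero_pow hpp.ne_zero] at hz
      exact (Additive.toMul x : Ωˣ).ne_zero hz.symm
    refine ⟨Additive.ofMul (Units.mk0 z hz0), (towerKummerMul_apply _ p _).trans ?_⟩
    apply Additive.toMul.injective
    apply Units.ext
    exact hz
  have hN0 : ∀ y : N, p • y = 0 := fun y => by
    rw [← Nat.cast_smul_eq_nsmul (ZMod p), ZMod.natCast_self, zero_smul]
  have heN0 : ∀ y : N, p • e y = 0 := fun y => by
    rw [← map_nsmul, hN0 y, map_zero]
  have hexact : ∀ x, towerKummerMul (unitsRep 𝒢 Ω) p x = 0 ↔ ∃ y, i y = x := by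
    intro x
    rw [towerKummerMul_apply]
    constructor
    · intro hx
      exact he_surj (Additive.toMul x) (congrArg Additive.toMul hx)
    · rintro ⟨y, rfl⟩
      exact heN0 y
  have hdisc : IsDisc 𝒰 (unitsRep 𝒢 Ω) := by
    intro m
    obtain ⟨U, hU, h⟩ := hT.disc ((Additive.toMul m : Ωˣ) : Ω)
    refine ⟨U, hU, fun u hu => ?_⟩
    apply Additive.toMul.injective
    apply Units.ext
    exact h u hu
  have hses : Cpx.IsSES (lcLin 𝒰 i hi) (towerKummerQ 𝒰 (unitsRep 𝒢 Ω) p) :=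
    lcLin_isSES 𝒰 i _ hi _ he_inj hsurj hexact hdisc
  obtain ⟨-, hLB, hLC, hLA⟩ := h4 ℤ _ _ _ _ _ hses
  obtain ⟨hδs, hδk, hc2, hs3⟩ := towerKummer_abstract _ _ p
    (towerKummer_mapH 𝒰 (unitsRep 𝒢 Ω) p) hLB hLC hLA hB1 hB3 hdiv
  have tr : ∀ n, Nonempty (Hlc 𝒰 N n ≃+ Hlc 𝒰 (towerKummerInt N) n) :=
    h2 _ _ _ 𝒰 N (towerKummerInt N) (AddEquiv.refl _) (fun _ _ => rfl)
  obtain ⟨ev, ev_inj, ev_range, -⟩ := h3 ℤ 𝒢 𝒰
  refine ⟨?_, ?_, ?_⟩
  · obtain ⟨E⟩ := tr 1
    rw [Nat.card_congr E.toEquiv]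
    exact towerKummer_card_H1 p (ev (unitsRep 𝒢 Ω)).toAddMonoidHom
      (Cpx.delta (lcLin 𝒰 i hi) (towerKummerQ 𝒰 (unitsRep 𝒢 Ω) p) 0).toAddMonoidHom
      (ev_inj _) (ev_range (unitsRep 𝒢 Ω)) hδs hδk
  · obtain ⟨E⟩ := tr 2
    rw [Nat.card_congr E.toEquiv, hc2, hcard]
  · obtain ⟨E⟩ := tr 3
    exact E.toEquiv.subsingleton

end Fermat.Agent.CFT.Local

end
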