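/-
TEAM CFT, sub-project P1 (LOCAL): P1-H9' Kummer theory in a tower, from the LC-toolkit.
-/
import Fermat.Agent.CFT.Local.Tower2

set_option autoImplicit false

noncomputable section

namespace Fermat.Agent.CFT.Local

open CategoryTheory CategoryTheory.Limits groupCohomology Fermat.Agent.CFT.Top Module ExtCitation

attribute [local instance] Units.mulDistribMulActionRight
attribute [local instance] quotAct

theorem towerKummer2_of_towerKummer (h : Stmt_towerKummer) : Stmt_towerKummer2 := by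
  intro 𝒢 Ω _ _ _ 𝒰 hT p _ hp N e he1 he2 he3
  obtain ⟨h1, h2, -⟩ := h 𝒢 Ω 𝒰 hT p hp N e he1 he2 he3
  exact ⟨h1, h2⟩

namespace TK2

/-- comparison of an additive and a multiplicative quotient -/
theorem card_quot_eq {X Y : Type} [AddGroup X] [Group Y] (φ : X ≃ Y)
    (hφ : ∀ a b, φ (a + b) = φ a * φ b) (H : AddSubgroup X) (K : Subgroup Y)
    (hHK : ∀ x, x ∈ H ↔ φ x ∈ K) : Nat.card (X ⧸ H) = Nat.card (Y ⧸ K) := by
  have h0 : φ 0 = 1 := by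
    have := hφ 0 0
    rw [add_zero] at this
    exact (mul_eq_left.1 this.symm)
  have hneg : ∀ a, φ (-a) = (φ a)⁻¹ := by
    intro a
    have := hφ (-a) a
    rw [neg_add_cancel, h0] at this
    exact eq_inv_of_mul_eq_one_left this.symm
  refine Nat.card_congr (Quotient.congr φ fun a b => ?_)
  rw [QuotientAddGroup.leftRel_apply, QuotientGroup.leftRel_apply, hHK, hφ, hneg]

variable (𝒢 Ω : Type) [Group 𝒢] [Field Ω] [MulSemiringAction 𝒢 Ω]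

/-- `invAdd (unitsRep 𝒢 Ω)` is the additive version of `fixedU 𝒢 Ω` -/
def invEquiv : ↥(invAdd (unitsRep 𝒢 Ω)) ≃ ↥(fixedU 𝒢 Ω) where
  toFun x := ⟨Additive.toMul (x.1 : Additive Ωˣ), fun g => congrArg Additive.toMul (x.2 g)⟩
  invFun y := ⟨Additive.ofMul y.1, fun g => congrArg Additive.ofMul (y.2 g)⟩
  left_inv _ := rfl
  right_inv _ := rfl

theorem card_H1 (p : ℕ) :
    Nat.card (↥(invAdd (unitsRep 𝒢 Ω)) ⧸
      (AddMonoidHom.range (nsmulAddMonoidHom (α := ↥(invAdd (unitsRep 𝒢 Ω))) p)))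
      = ((fixedU 𝒢 Ω).map (powMonoidHom p)).relIndex (fixedU 𝒢 Ω) := by
  rw [Subgroup.relIndex, Subgroup.index]
  refine card_quot_eq (invEquiv 𝒢 Ω) (fun _ _ => rfl) _ _ fun x => ?_
  rw [AddMonoidHom.mem_range, Subgroup.mem_subgroupOf, Subgroup.mem_map]
  constructor
  · rintro ⟨y, rfl⟩
    exact ⟨(invEquiv 𝒢 Ω y).1, (invEquiv 𝒢 Ω y).2, rfl⟩
  · rintro ⟨y, hy, hyx⟩
    refine ⟨(invEquiv 𝒢 Ω).symm ⟨y, hy⟩, ?_⟩
    apply (invEquiv 𝒢 Ω).injective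
    apply Subtype.ext
    exact hyx

end TK2

theorem towerKummer2 (T6 : Top.Stmt_lcVanish) (T9 : Top.Stmt_kummer) (T10 : Top.Stmt_H2tors)
    (h1 : Stmt_towerLayer) (h2 : Stmt_towerSub) (h3 : Stmt_towerIndex) : Stmt_towerKummer2 := by
  intro 𝒢 Ω _ _ _ 𝒰 hT p _ hp N e he1 he2 he3
  have hpp : p.Prime := Fact.out
  -- `H¹` vanishes for every tower
  have hH1 : ∀ (𝒢' : Type) [Group 𝒢'] [MulSemiringAction 𝒢' Ω] (𝒰' : LevelSys 𝒢'),
      LocTower 𝒢' Ω 𝒰' → Subsingleton (Hlc 𝒰' (unitsRep 𝒢' Ω) 1) := by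
    intro 𝒢' _ _ 𝒰' hT'
    apply T6
    intro U₀ hU₀
    refine ⟨U₀, hU₀, le_rfl, ?_⟩
    have := 𝒰'.normal U₀ hU₀
    exact (h1 𝒢' Ω 𝒰' hT' U₀ hU₀).1
  have hdisc : IsDisc 𝒰 (unitsRep 𝒢 Ω) := by
    intro m
    obtain ⟨U, hU, hfix⟩ := hT.disc ((Additive.toMul (m : Additive Ωˣ) : Ωˣ) : Ω)
    refine ⟨U, hU, fun u hu => ?_⟩
    have : u • (Additive.toMul (m : Additive Ωˣ) : Ωˣ) = Additive.toMul (m : Additive Ωˣ) :=
      Units.ext (hfix u hu)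
    exact congrArg Additive.ofMul this
  have hsurj : ∀ m : unitsRep 𝒢 Ω, ∃ m' : unitsRep 𝒢 Ω, p • m' = m := by
    intro m
    have := hT.closed
    obtain ⟨w, hw⟩ := IsAlgClosed.exists_pow_nat_eq
      ((Additive.toMul (m : Additive Ωˣ) : Ωˣ) : Ω) hpp.pos
    have hw0 : w ≠ 0 := by
      rintro rfl
      rw [zero_pow hpp.ne_zero] at hw
      exact (Additive.toMul (m : Additive Ωˣ) : Ωˣ).ne_zero hw.symm
    refine ⟨Additive.ofMul (Units.mk0 w hw0), ?_⟩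
    have : (Units.mk0 w hw0) ^ p = Additive.toMul (m : Additive Ωˣ) := Units.ext hw
    exact congrArg Additive.ofMul this
  have htors : ∀ m : unitsRep 𝒢 Ω, p • m = 0 ↔ ∃ t, e t = m := by
    intro m
    constructor
    · intro hm
      exact he3 (Additive.toMul (m : Additive Ωˣ)) (congrArg Additive.toMul hm)
    · rintro ⟨t, rfl⟩
      have h0 : p • t = 0 := by
        rw [← Nat.cast_smul_eq_nsmul (ZMod p), ZMod.natCast_self, zero_smul]
      have := congrArg e h0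
      rw [map_nsmul, map_zero] at this
      exact this
  obtain ⟨⟨E1⟩, ⟨E2⟩⟩ := T9 p 𝒢 𝒰 (unitsRep 𝒢 Ω) N e hdisc hsurj he1 he2 htors
    (hH1 𝒢 𝒰 hT)
  refine ⟨?_, ?_⟩
  · rw [Nat.card_congr E1.toEquiv]
    exact TK2.card_H1 𝒢 Ω p
  · rw [Nat.card_congr E2.toEquiv]
    apply T10 p 𝒢 𝒰 (unitsRep 𝒢 Ω)
    · intro U hU
      exact hH1 U (𝒰.comap U.subtype) (h2 𝒢 Ω 𝒰 hT U ⟨U, hU, le_rfl⟩)
    · intro U hU
      have := 𝒰.normal U hU
      obtain ⟨-, c2, c3, -⟩ := h1 𝒢 Ω 𝒰 hT U hU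
      exact ⟨c2, c3⟩
    · obtain ⟨U, hU⟩ := 𝒰.ne
      obtain ⟨V, hV, -, hdvd⟩ := h3 𝒢 Ω 𝒰 hT p hpp.pos U hU
      exact ⟨V, hV, hdvd⟩

end Fermat.Agent.CFT.Local

end
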