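/-
TEAM CFT, P1-H12 : open subgroups of a tower of local fields are towers.
-/
import Fermat.Agent.CFT.Local.Tower

set_option autoImplicit false

noncomputable section

namespace Fermat.Agent.CFT.Local

open CategoryTheory CategoryTheory.Limits groupCohomology Fermat.Agent.CFT.Top

attribute [local instance] Units.mulDistribMulActionRight
attribute [local instance] quotAct

/-- Artin: an element fixing the fixed field of a subgroup `N` lies in `N`. -/
theorem TowerSub_mem_of_fixes (G L : Type) [Group G] [Finite G] [Field L] [MulSemiringAction G L]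
    [FaithfulSMul G L] (N : Subgroup G) (γ : G)
    (h : ∀ x : L, (∀ n ∈ N, n • x = x) → γ • x = x) : γ ∈ N := by
  have hf : FaithfulSMul N L := ⟨fun hab => Subtype.ext (eq_of_smul_eq_smul (α := L) hab)⟩
  let f : L →ₐ[FixedPoints.subfield N L] L :=
    { MulSemiringAction.toRingHom G L γ with
      commutes' := fun c => h (c : L) (fun n hn => c.2 ⟨n, hn⟩) }
  obtain ⟨n, hn⟩ := (FixedPoints.toAlgHom_bijective N L).2 f
  have h2 : (n : G) = γ := by
    apply eq_of_smul_eq_smul (α := L)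
    intro x
    exact DFunLike.congr_fun hn x
  rw [← h2]
  exact n.2

/-- transport of `IsLoc` along a norm preserving surjective ring homomorphism. -/
theorem TowerSub_isLoc_of_surjective {L' L : Type} [NormedField L'] [NormedField L] (j : L' →+* L)
    (hn : ∀ x, ‖j x‖ = ‖x‖) (hs : Function.Surjective j) (hL : IsLoc L) : IsLoc L' := by
  have hiso : Isometry j := by
    apply Isometry.of_dist_eq
    intro x y
    rw [dist_eq_norm, dist_eq_norm, ← map_sub, hn]
  refine ⟨?_, ?_, ?_, ?_⟩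
  · have := hL.ultra
    refine ⟨fun x y z => ?_⟩
    rw [← hiso.dist_eq x z, ← hiso.dist_eq x y, ← hiso.dist_eq y z]
    exact dist_triangle_max _ _ _
  · have := hL.complete
    exact (hiso.isUniformInducing.completeSpace_congr hs).mpr inferInstance
  · obtain ⟨ϖ, h0, h1, h2⟩ := hL.unif
    obtain ⟨ϖ', rfl⟩ := hs ϖ
    refine ⟨ϖ', ?_, ?_, ?_⟩
    · rintro rfl
      exact h0 (map_zero j)
    · rw [← hn]; exact h1
    · intro x hx
      obtain ⟨k, hk⟩ := h2 (j x) (by
        intro h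
        apply hx
        have : ‖x‖ = 0 := by rw [← hn, h, norm_zero]
        exact norm_eq_zero.mp this)
      exact ⟨k, by rw [← hn x, ← hn ϖ', hk]⟩
  · classical
    obtain ⟨R, hR⟩ := hL.resFinite
    refine ⟨R.image (Function.surjInv hs), fun x hx => ?_⟩
    obtain ⟨r, hr, hxr⟩ := hR (j x) (by rw [hn]; exact hx)
    refine ⟨Function.surjInv hs r, Finset.mem_image_of_mem _ hr, ?_⟩
    rw [← hn, map_sub, Function.surjInv_eq hs]
    exact hxr

/-- the group of a tower acts by isometries. -/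
theorem TowerSub_isom {𝒢 Ω : Type} [Group 𝒢] [NormedField Ω] [MulSemiringAction 𝒢 Ω]
    {𝒰 : LevelSys 𝒢} (T : LocTower 𝒢 Ω 𝒰) (g : 𝒢) (x : Ω) : ‖g • x‖ = ‖x‖ := by
  obtain ⟨V, hV, hx⟩ := T.disc x
  have := 𝒰.normal V hV
  have := 𝒰.fin V hV
  have h := (T.layer V hV).isom (g : 𝒢 ⧸ V) ⟨x, fun v => hx v.1 v.2⟩
  exact h

theorem towerSub (_h1 : Stmt_layerAct) (h2 : Stmt_fixedLoc) : Stmt_towerSub := by
  intro 𝒢 Ω _ _ _ 𝒰 T H hH
  refine ⟨?_, ?_, T.closed⟩
  · intro x
    obtain ⟨U, hU, hx⟩ := T.disc x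
    exact ⟨U.comap H.subtype, ⟨U, hU, rfl⟩, fun u hu => hx u.1 hu⟩
  · intro U' _ _ hU'
    obtain ⟨U, hU, rfl⟩ := hU'
    obtain ⟨W₀, hW₀, hW₀H⟩ := hH
    obtain ⟨W, hW, hWU, hWW₀⟩ := 𝒰.dir U hU W₀ hW₀
    have hWH : W ≤ H := hWW₀.trans hW₀H
    have := 𝒰.normal W hW
    have := 𝒰.fin W hW
    have hΓ : LocAct (𝒢 ⧸ W) (FixedPoints.subfield W Ω) := T.layer W hW
    have hΓf : FaithfulSMul (𝒢 ⧸ W) (FixedPoints.subfield W Ω) := hΓ.faithful
    set N : Subgroup (𝒢 ⧸ W) := (U ⊓ H).map (QuotientGroup.mk' W) with hNdef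
    have hN : LocAct N (FixedPoints.subfield W Ω) := hΓ.subgroup N
    have hloc : IsLoc (FixedPoints.subfield N (FixedPoints.subfield W Ω)) := h2 _ _ hN
    -- elements fixed by `U' = U ⊓ H`
    have hfix1 : ∀ x : FixedPoints.subfield (U.comap H.subtype) Ω, ∀ g ∈ U ⊓ H, g • (x : Ω) = x :=
      fun x g hg => x.2 ⟨⟨g, hg.2⟩, hg.1⟩
    have hfixW : ∀ x : FixedPoints.subfield (U.comap H.subtype) Ω,
        (x : Ω) ∈ FixedPoints.subfield W Ω :=
      fun x w => hfix1 x w.1 ⟨hWU w.2, hWH w.2⟩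
    have hfixN : ∀ x : FixedPoints.subfield (U.comap H.subtype) Ω,
        (⟨(x : Ω), hfixW x⟩ : FixedPoints.subfield W Ω) ∈
          FixedPoints.subfield N (FixedPoints.subfield W Ω) := by
      rintro x ⟨n, g, hg, rfl⟩
      exact Subtype.ext (hfix1 x g hg)
    have hback : ∀ y : FixedPoints.subfield W Ω, (∀ n ∈ N, n • y = y) →
        (y : Ω) ∈ FixedPoints.subfield (U.comap H.subtype) Ω := by
      intro y hy u
      have := hy (QuotientGroup.mk' W (u : 𝒢)) ⟨(u : 𝒢), ⟨u.2, u.1.2⟩, rfl⟩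
      exact congrArg Subtype.val this
    refine ⟨?_, ?_, ?_⟩
    · let j₁ : FixedPoints.subfield (U.comap H.subtype) Ω →+* FixedPoints.subfield W Ω :=
        (FixedPoints.subfield (U.comap H.subtype) Ω).subtype.codRestrict _ hfixW
      let j : FixedPoints.subfield (U.comap H.subtype) Ω →+*
          FixedPoints.subfield N (FixedPoints.subfield W Ω) := j₁.codRestrict _ hfixN
      refine TowerSub_isLoc_of_surjective j (fun _ => rfl) ?_ hloc
      intro y
      exact ⟨⟨y.1.1, hback y.1 (fun n hn => y.2 ⟨n, hn⟩)⟩, rfl⟩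
    · refine ⟨?_⟩
      intro a b hab
      induction a using QuotientGroup.induction_on with
      | H a =>
      induction b using QuotientGroup.induction_on with
      | H b =>
      rw [QuotientGroup.eq]
      have hab' : ∀ x : FixedPoints.subfield (U.comap H.subtype) Ω,
          (a : 𝒢) • (x : Ω) = (b : 𝒢) • (x : Ω) := fun x => congrArg Subtype.val (hab x)
      have hmem : QuotientGroup.mk' W ((a⁻¹ * b : H) : 𝒢) ∈ N := by
        apply TowerSub_mem_of_fixes (𝒢 ⧸ W) (FixedPoints.subfield W Ω) N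
        intro y hy
        apply Subtype.ext
        show ((a⁻¹ * b : H) : 𝒢) • (y : Ω) = y
        have := hab' ⟨(y : Ω), hback y hy⟩
        simp only [Subgroup.coe_mul, Subgroup.coe_inv, mul_smul]
        rw [← this, inv_smul_smul]
      obtain ⟨g, hg, hgeq⟩ := hmem
      have h3 : g⁻¹ * ((a⁻¹ * b : H) : 𝒢) ∈ W := QuotientGroup.eq.mp hgeq
      have h4 : ((a⁻¹ * b : H) : 𝒢) ∈ U := by
        have := U.mul_mem hg.1 (hWU h3)
        rwa [mul_inv_cancel_left] at this
      exact h4
    · intro g x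
      induction g using QuotientGroup.induction_on with
      | H g => exact TowerSub_isom T (g : 𝒢) (x : Ω)

end Fermat.Agent.CFT.Local

end

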