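import Fermat.Agent.CFT.Local.All
import Fermat.Agent.CFT.Local.LcLevel
import Fermat.Agent.CFT.Local.LcAddEquiv
import Fermat.Agent.CFT.Local.TowerBase
import Fermat.Agent.CFT.Local.TowerLayer
import Fermat.Agent.CFT.Local.TowerInfInj
import Fermat.Agent.CFT.Local.TowerIndex
import Fermat.Agent.CFT.Local.TowerBr
import Fermat.Agent.CFT.Local.TowerKummer
import Fermat.Agent.CFT.Local.TowerKummer2
import Fermat.Agent.CFT.Local.TowerH1card
import Fermat.Agent.CFT.Local.TowerCard
import Fermat.Agent.CFT.Local.TowerSub
import Fermat.Agent.CFT.Local.LN
import Fermat.Agent.CFT.Local.LN3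
import Fermat.Agent.CFT.Local.LN3full
import Fermat.Agent.CFT.Local.QLN
import Fermat.Agent.CFT.Top.LES

/-!
# P1 : local class field theory at the profinite level, unconditional form

Every `Stmt_tower*` of `Local/Tower.lean`, `Local/Tower2.lean` is proved here without hypotheses.
The concrete statements depend only on `Stmt_padicTower` (and Shapiro for `Stmt_qLN`).
-/

namespace Fermat.Agent.CFT.Local

theorem all_towerBase : Stmt_towerBase := towerBase fixedLoc

theorem all_towerLayer : Stmt_towerLayer := towerLayer layerIso all_classModule all_H3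

theorem all_towerInfInj : Stmt_towerInfInj := towerInfInj all_infResGen h90 layerIso

theorem all_towerIndex : Stmt_towerIndex := towerIndex all_unram all_towerBase reps

theorem all_towerBr : Stmt_towerBr := towerBr lcLevel all_towerLayer all_towerInfInj all_towerIndex

theorem all_towerKummer : Stmt_towerKummer := towerKummer all_towerBr lcAddEquiv lcH0 Top.stmt_les

theorem all_towerKummer2 : Stmt_towerKummer2 := towerKummer2_of_towerKummer all_towerKummer

theorem all_towerH1card : Stmt_towerH1card := towerH1card all_powIndex all_towerBase

theorem all_towerCard : Stmt_towerCard := towerCard all_card fixedLoc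

theorem all_towerSub : Stmt_towerSub := towerSub all_layerAct fixedLoc

theorem all_LN (h : Stmt_padicTower) : Stmt_LN :=
  LN h all_towerSub all_towerKummer all_towerH1card all_towerCard reps all_towerBase

theorem all_LN12 (h : Stmt_padicTower) : Stmt_LN12 := LN12_of_LN (all_LN h)

theorem all_LN3 (h : Stmt_padicTower) : Stmt_LN3 := LN3 h all_towerSub all_towerKummer

theorem all_LN3full (h : Stmt_padicTower) : Stmt_LN3full := LN3full h all_towerKummer2

theorem all_qLN (h : Stmt_padicTower) (hs : Stmt_shapiroLc) : Stmt_qLN :=
  qLN (all_LN12 h) (all_LN3full h) hs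

end Fermat.Agent.CFT.Local
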